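/-
PROGRAM DS (S48), part G1, AREA K (helper187): the `q`-expansion side of the upper layer of the
tower `E(j) ⊆ K₁ = F₀(M)E ⊆ L = F₁(M)E` — level-free, no modular objects.

Setting: `O` a discrete valuation ring with fraction field `E`, `L` a field over `E` with an
`E`-embedding `emb : L → E((q))` whose image lies in the fraction field of `O((q))`, `u ∈ L` with
`emb u` an integral series.

* `emb_mem_V_of_isIntegral` : elements integral over `O[u]` have Gauss-integral `q`-expansions.
* `ne_unif_mul_of_rho_ne_zero`, `prod_ne_unif_mul` (GI-c) : an element whose `q`-expansion is an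
  integral series with nonzero reduction is not `π ·` (an element integral over `O[u]`); in
  particular the product of the differences of conjugates with pairwise distinct reductions.
* `exists_mul_isIntegral` : integral over `E[u]` ⇒ a nonzero multiple from `O` is integral over
  `O[u]`.
* `isIntegral_of_mem_V` (GI-b, `q`-expansion principle) : if `π` is prime in the integral closure
  of `O[u]` (Model theorem (a)), an element integral over `E[u]` with Gauss-integral
  `q`-expansion is integral over `O[u]`.
* `isIntegral_adjoin_down`, `isIntegral_of_monic_coeff` : plumbing along `K₁ ⊆ L`.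
* `map_minpoly_eq_prod` : `finrank K₁ L` automorphisms with pairwise distinct values on `θ` ⇒
  the minimal polynomial of `θ` over `K₁` is `∏ (Y - σ_i θ)`.
* `isIntegral_of_conj` (GI-b for conjugates), `integral_and_disc_of_conj` : the two hypotheses
  `hθ`, `hdisc` of the Gauss tower lemma for `L / K₁` from `q`-expansions of the conjugates.
-/
import Mathlib
import Fermat.Prelude.Def_ModularCurve_LaurentCoeff
import Fermat.Agent.S30.GaussDVR
import Fermat.Agent.S30.GaussBridge
import Fermat.Agent.S30.GaussOne

set_option autoImplicit false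
set_option linter.unusedSectionVars false

open ModularCurve Polynomial

noncomputable section

namespace Fermat.Agent.S48.G1.K1.GaussInt

open Fermat.Agent.S30

/-! ### Plumbing along a field extension -/

section Gen

variable {R K L : Type*} [CommRing R] [Field K] [Field L] [Algebra R K] [Algebra R L]
  [Algebra K L] [IsScalarTower R K L]

/-- Integrality over `R[u]` descends along a field extension `K ⊆ L`. -/
theorem isIntegral_adjoin_down (u a : K)
    (h : IsIntegral (Algebra.adjoin R {algebraMap K L u}) (algebraMap K L a)) :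
    IsIntegral (Algebra.adjoin R {u}) a := by
  set f : K →ₐ[R] L := IsScalarTower.toAlgHom R K L with hf
  have hmap : Algebra.adjoin R {algebraMap K L u} = (Algebra.adjoin R {u}).map f := by
    rw [AlgHom.map_adjoin_singleton]
    rfl
  have hmem : ∀ b : Algebra.adjoin R {u}, f (b : K) ∈ Algebra.adjoin R {algebraMap K L u} := by
    intro b
    rw [hmap]
    exact ⟨b, b.2, rfl⟩
  let g : Algebra.adjoin R {u} →+* Algebra.adjoin R {algebraMap K L u} :=
    { toFun := fun b => ⟨f (b : K), hmem b⟩
      map_one' := Subtype.ext (map_one f)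
      map_mul' := fun x y => Subtype.ext (map_mul f _ _)
      map_zero' := Subtype.ext (map_zero f)
      map_add' := fun x y => Subtype.ext (map_add f _ _) }
  have hg : Function.Surjective g := by
    rintro ⟨y, hy⟩
    have hy' := hy
    rw [hmap] at hy'
    obtain ⟨b, hb, hbe⟩ := hy'
    exact ⟨⟨b, hb⟩, Subtype.ext hbe⟩
  obtain ⟨p, hp, hroot⟩ := h
  obtain ⟨q, hq, -, hqm⟩ := Polynomial.lifts_and_degree_eq_and_monic
    ((Polynomial.mem_lifts p).mpr (Polynomial.map_surjective g hg p)) hp
  refine ⟨q, hqm, ?_⟩
  have hinj : Function.Injective f := (algebraMap K L).injective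
  apply hinj
  rw [map_zero, ← hroot, ← hq, Polynomial.eval₂_map, ← AlgHom.coe_toRingHom, Polynomial.hom_eval₂]
  rfl

/-- A root of a monic polynomial over `K` whose coefficients are integral over `R[u]` is
integral over `R[u]` (in `L`). -/
theorem isIntegral_of_monic_coeff (u : K) (θ : L) (P : K[X]) (hP : P.Monic)
    (hroot : aeval θ P = 0) (hcoef : ∀ n, IsIntegral (Algebra.adjoin R {u}) (P.coeff n)) :
    IsIntegral (Algebra.adjoin R {algebraMap K L u}) θ := by
  set B : Subalgebra R K := Algebra.adjoin R {u} with hB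
  set C : Subalgebra B K := integralClosure B K with hC
  -- `θ` is integral over `C`
  have hlift : P ∈ Polynomial.lifts (algebraMap C K) :=
    (Polynomial.lifts_iff_coeff_lifts P).mpr fun n => ⟨⟨P.coeff n, hcoef n⟩, rfl⟩
  obtain ⟨q, hq, -, hqm⟩ := Polynomial.lifts_and_degree_eq_and_monic hlift hP
  have hθC : IsIntegral C θ := by
    refine ⟨q, hqm, ?_⟩
    have h1 : algebraMap C L = (algebraMap K L).comp (algebraMap C K) := rfl
    rw [h1, ← Polynomial.eval₂_map, hq]
    exact hroot
  have hθB : IsIntegral B θ := by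
    haveI : IsScalarTower B C L := IsScalarTower.of_algebraMap_eq (fun _ => rfl)
    exact isIntegral_trans (R := B) (A := C) θ hθC
  -- transfer to `R[algebraMap u] ⊆ L`
  set f : K →ₐ[R] L := IsScalarTower.toAlgHom R K L with hf
  have hmap : Algebra.adjoin R {algebraMap K L u} = (Algebra.adjoin R {u}).map f := by
    rw [AlgHom.map_adjoin_singleton]
    rfl
  have hmem : ∀ b : B, f (b : K) ∈ Algebra.adjoin R {algebraMap K L u} := by
    intro b
    rw [hmap]
    exact ⟨b, b.2, rfl⟩
  let g : B →+* Algebra.adjoin R {algebraMap K L u} :=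
    { toFun := fun b => ⟨f (b : K), hmem b⟩
      map_one' := Subtype.ext (map_one f)
      map_mul' := fun x y => Subtype.ext (map_mul f _ _)
      map_zero' := Subtype.ext (map_zero f)
      map_add' := fun x y => Subtype.ext (map_add f _ _) }
  letI : Algebra B (Algebra.adjoin R {algebraMap K L u}) := g.toAlgebra
  haveI : IsScalarTower B (Algebra.adjoin R {algebraMap K L u}) L :=
    IsScalarTower.of_algebraMap_eq (fun _ => rfl)
  exact IsIntegral.tower_top (A := Algebra.adjoin R {algebraMap K L u}) hθB

/-- `finrank K L` automorphisms with pairwise distinct values on `θ`: the minimal polynomial of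
`θ` over `K` is `∏ (Y - σ_i θ)`. -/
theorem map_minpoly_eq_prod [FiniteDimensional K L] {ι : Type*} [Fintype ι]
    (σ : ι → L →ₐ[K] L) (hcard : Fintype.card ι = Module.finrank K L) (θ : L)
    (hinj : Function.Injective fun i => σ i θ) :
    (minpoly K θ).map (algebraMap K L) = ∏ i, (X - C (σ i θ)) := by
  have hint : IsIntegral K θ := IsIntegral.of_finite K θ
  have hmon : ((minpoly K θ).map (algebraMap K L)).Monic := (minpoly.monic hint).map _
  have hprodmon : (∏ i, (X - C (σ i θ)) : L[X]).Monic :=
    monic_prod_of_monic _ _ fun i _ => monic_X_sub_C (σ i θ)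
  have hdvd : (∏ i, (X - C (σ i θ)) : L[X]) ∣ (minpoly K θ).map (algebraMap K L) := by
    refine Finset.prod_dvd_of_coprime ?_ ?_
    · intro i _ j _ hij
      exact Polynomial.pairwise_coprime_X_sub_C hinj hij
    · intro i _
      rw [Polynomial.dvd_iff_isRoot, IsRoot.def, eval_map, ← aeval_def,
        aeval_algHom_apply, minpoly.aeval, map_zero]
  have hdeg : ((minpoly K θ).map (algebraMap K L)).natDegree ≤
      (∏ i, (X - C (σ i θ)) : L[X]).natDegree := by
    rw [natDegree_map, natDegree_prod_of_monic _ _ fun i _ => monic_X_sub_C (σ i θ)]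
    simp only [natDegree_X_sub_C, Finset.sum_const, Finset.card_univ, smul_eq_mul, mul_one]
    rw [hcard]
    exact minpoly.natDegree_le θ
  exact Polynomial.eq_of_monic_of_dvd_of_natDegree_le hprodmon hmon hdvd hdeg

end Gen

/-! ### Denominators -/

section Denominators

variable {O E K : Type*} [CommRing O] [IsDomain O] [IsDiscreteValuationRing O] [Field E]
  [Algebra O E] [IsFractionRing O E] [Field K] [Algebra E K] [Algebra O K] [IsScalarTower O E K]

/-- An element integral over `E[u]` has a nonzero multiple from `O` integral over `O[u]`. -/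
theorem exists_mul_isIntegral (u x : K) (hx : IsIntegral (Algebra.adjoin E {u}) x) :
    ∃ d : O, d ≠ 0 ∧ IsIntegral (Algebra.adjoin O {u}) (algebraMap O K d * x) := by
  have hle : ∀ b : Algebra.adjoin O {u}, (b : K) ∈ Algebra.adjoin E {u} := by
    intro b
    have h1 : Algebra.adjoin O {u} ≤ (Algebra.adjoin E {u}).restrictScalars O :=
      Algebra.adjoin_le (by
        rw [Set.singleton_subset_iff]
        exact Algebra.self_mem_adjoin_singleton E u)
    exact h1 b.2
  let incl : Algebra.adjoin O {u} →+* Algebra.adjoin E {u} :=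
    { toFun := fun b => ⟨(b : K), hle b⟩
      map_one' := rfl
      map_mul' := fun _ _ => rfl
      map_zero' := rfl
      map_add' := fun _ _ => rfl }
  letI : Algebra (Algebra.adjoin O {u}) (Algebra.adjoin E {u}) := incl.toAlgebra
  have : IsScalarTower (Algebra.adjoin O {u}) (Algebra.adjoin E {u}) K :=
    IsScalarTower.of_algebraMap_eq (fun _ => rfl)
  let M : Submonoid (Algebra.adjoin O {u}) :=
    (nonZeroDivisors O).map (algebraMap O (Algebra.adjoin O {u}))
  haveI : IsLocalization M (Algebra.adjoin E {u}) := by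
    rw [isLocalization_iff]
    refine ⟨?_, ?_, ?_⟩
    · rintro ⟨_, d, hd, rfl⟩
      have h1 : algebraMap (Algebra.adjoin O {u}) (Algebra.adjoin E {u})
          (algebraMap O (Algebra.adjoin O {u}) d) =
          algebraMap E (Algebra.adjoin E {u}) (algebraMap O E d) := by
        apply Subtype.ext
        show algebraMap O K d = algebraMap E K (algebraMap O E d)
        rw [← IsScalarTower.algebraMap_apply]
      show IsUnit (algebraMap (Algebra.adjoin O {u}) (Algebra.adjoin E {u})
          (algebraMap O (Algebra.adjoin O {u}) d))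
      rw [h1]
      refine (IsUnit.mk0 _ ?_).map _
      intro h0
      exact nonZeroDivisors.ne_zero hd (IsFractionRing.injective O E (by rw [h0, map_zero]))
    · intro z
      have hz : (z : K) ∈ (Polynomial.aeval u : E[X] →ₐ[E] K).range := by
        rw [← Algebra.adjoin_singleton_eq_range_aeval]
        exact z.2
      obtain ⟨r, hr⟩ := hz
      obtain ⟨d, hd, hmem⟩ := GaussOne.exists_mul_aeval_mem (O := O) u r
      refine ⟨(⟨_, hmem⟩, ⟨algebraMap O _ d, d, mem_nonZeroDivisors_of_ne_zero hd, rfl⟩), ?_⟩
      apply Subtype.ext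
      show (z : K) * algebraMap O K d = algebraMap O K d * aeval u r
      rw [← hr, mul_comm]
      rfl
    · intro x y hxy
      refine ⟨1, ?_⟩
      have h1 : (x : K) = (y : K) := congrArg (fun w : Algebra.adjoin E {u} => (w : K)) hxy
      rw [Subtype.ext h1]
  obtain ⟨⟨m, hm⟩, hmx⟩ := IsIntegral.exists_multiple_integral_of_isLocalization M x hx
  obtain ⟨d, hd, rfl⟩ := hm
  exact ⟨d, nonZeroDivisors.ne_zero hd, hmx⟩

end Denominators

/-! ### The Gauss ring -/

section Gauss

variable {O E : Type*} [CommRing O] [IsDomain O] [IsDiscreteValuationRing O] [Field E]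
  [Algebra O E] [IsFractionRing O E]
variable {L : Type*} [Field L] [Algebra E L] [Algebra O L] [IsScalarTower O E L]

/-- Elements of `O[u]` have integral `q`-expansions. -/
theorem emb_mem_V_of_mem_adjoin (emb : L →ₐ[E] LaurentSeries E) (u : L) (uO : LaurentSeries O)
    (hu : emb u = GaussDVR.iota O E uO) (b : L) (hb : b ∈ Algebra.adjoin O {u}) :
    emb b ∈ GaussDVR.V O E := by
  rw [Algebra.adjoin_singleton_eq_range_aeval] at hb
  obtain ⟨P, hP⟩ := hb
  have hP' : b = aeval u P := hP.symm
  rw [hP', GaussOne.emb_aeval emb u uO hu]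
  exact GaussDVR.mem_of_int O E _

/-- Elements integral over `O[u]` have Gauss-integral `q`-expansions. -/
theorem emb_mem_V_of_isIntegral (emb : L →ₐ[E] LaurentSeries E)
    (hfrac : ∀ x : L, emb x ∈ GaussDVR.fracField O E)
    (π : O) (hπ : Irreducible π) (u : L) (uO : LaurentSeries O)
    (hu : emb u = GaussDVR.iota O E uO) (c : L) (hc : IsIntegral (Algebra.adjoin O {u}) c) :
    emb c ∈ GaussDVR.V O E := by
  set B : Subalgebra O L := Algebra.adjoin O {u} with hB
  set φ : B →+* LaurentSeries E := emb.toRingHom.comp (algebraMap B L) with hφ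
  have hφV : ∀ b : B, φ b ∈ GaussDVR.V O E := fun b =>
    emb_mem_V_of_mem_adjoin emb u uO hu b b.2
  refine GaussDVR.mem_of_isIntegralElem E π hπ φ hφV (emb c) (hfrac _) ?_
  obtain ⟨p, hp, hroot⟩ := hc
  refine ⟨p, hp, ?_⟩
  have := congrArg emb hroot
  rw [map_zero, ← AlgHom.coe_toRingHom, hom_eval₂] at this
  exact this

/-- **(GI-c), general form.**  An element whose `q`-expansion is an integral series with nonzero
reduction is not `π` times an element integral over `O[u]`. -/
theorem ne_unif_mul_of_rho_ne_zero (emb : L →ₐ[E] LaurentSeries E)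
    (hfrac : ∀ x : L, emb x ∈ GaussDVR.fracField O E)
    (π : O) (hπ : Irreducible π) (u : L) (uO : LaurentSeries O)
    (hu : emb u = GaussDVR.iota O E uO)
    (Δ : L) (d : LaurentSeries O) (hΔ : emb Δ = GaussDVR.iota O E d)
    (hd : GaussDVR.rho O d ≠ 0) (c : L) (hc : IsIntegral (Algebra.adjoin O {u}) c) :
    Δ ≠ algebraMap O L π * c := by
  intro h
  have hcV := emb_mem_V_of_isIntegral emb hfrac π hπ u uO hu c hc
  have h1 : (GaussDVR.ofInt O E d : GaussDVR.V O E) = GaussDVR.unif E π * ⟨emb c, hcV⟩ := by
    apply Subtype.ext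
    rw [GaussDVR.coe_ofInt, ← hΔ, h, map_mul, GaussOne.emb_algebraMap, Subring.coe_mul,
      GaussDVR.coe_unif]
  have h2 := congrArg (GaussDVR.red O E) h1
  rw [GaussDVR.red_ofInt, map_mul, GaussDVR.red_unif E π hπ, zero_mul] at h2
  exact hd h2

/-- **(GI-c), product form** (the hypothesis `hdisc` of the Gauss tower lemma): conjugates whose
`q`-expansions are integral series with pairwise distinct reductions. -/
theorem prod_ne_unif_mul (emb : L →ₐ[E] LaurentSeries E)
    (hfrac : ∀ x : L, emb x ∈ GaussDVR.fracField O E)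
    (π : O) (hπ : Irreducible π) (u : L) (uO : LaurentSeries O)
    (hu : emb u = GaussDVR.iota O E uO)
    {ι : Type*} [Fintype ι] [DecidableEq ι] (x : ι → L) (t : ι → LaurentSeries O)
    (hx : ∀ i, emb (x i) = GaussDVR.iota O E (t i))
    (hdist : ∀ i j, i ≠ j → GaussDVR.rho O (t i) ≠ GaussDVR.rho O (t j))
    (c : L) (hc : IsIntegral (Algebra.adjoin O {u}) c) :
    (∏ i, ∏ j ∈ Finset.univ.erase i, (x i - x j)) ≠ algebraMap O L π * c := by
  refine ne_unif_mul_of_rho_ne_zero emb hfrac π hπ u uO hu _
    (∏ i, ∏ j ∈ Finset.univ.erase i, (t i - t j)) ?_ ?_ c hc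
  · simp only [map_prod, map_sub, hx]
  · rw [map_prod]
    refine Finset.prod_ne_zero_iff.mpr fun i _ => ?_
    rw [map_prod]
    refine Finset.prod_ne_zero_iff.mpr fun j hj => ?_
    rw [map_sub]
    exact sub_ne_zero.mpr (hdist i j (Finset.ne_of_mem_erase hj).symm)

/-- **(GI-b), multiple form.**  If `π` is prime in the integral closure of `O[u]` in `L`, an
element with Gauss-integral `q`-expansion, a nonzero `O`-multiple of which is integral over
`O[u]`, is integral over `O[u]`. -/
theorem isIntegral_of_mul_of_mem_V (emb : L →ₐ[E] LaurentSeries E)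
    (hfrac : ∀ x : L, emb x ∈ GaussDVR.fracField O E)
    (π : O) (hπ : Irreducible π) (u : L) (uO : LaurentSeries O)
    (hu : emb u = GaussDVR.iota O E uO) (hpole : (GaussDVR.rho O uO).order < 0)
    (hprime : Prime (algebraMap (Algebra.adjoin O {u}) (integralClosure (Algebra.adjoin O {u}) L)
      (algebraMap O (Algebra.adjoin O {u}) π)))
    (x : L) (hxV : emb x ∈ GaussDVR.V O E) (d : O) (hd : d ≠ 0)
    (hdx : IsIntegral (Algebra.adjoin O {u}) (algebraMap O L d * x)) :
    IsIntegral (Algebra.adjoin O {u}) x := by
  set B : Subalgebra O L := Algebra.adjoin O {u} with hB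
  set C : Subalgebra B L := integralClosure B L with hC
  set j : C →+* LaurentSeries E := emb.toRingHom.comp (algebraMap C L) with hj
  have hBrange : ∀ b : B, ∃ P : O[X], (b : L) = aeval u P := by
    intro b
    have hb : (b : L) ∈ Algebra.adjoin O {u} := b.2
    rw [Algebra.adjoin_singleton_eq_range_aeval] at hb
    obtain ⟨P, hP⟩ := hb
    exact ⟨P, hP.symm⟩
  have hV : ∀ c : C, j c ∈ GaussDVR.V O E := fun c =>
    emb_mem_V_of_isIntegral emb hfrac π hπ u uO hu c c.2
  have hjϖ : j (algebraMap B C (algebraMap O B π)) = HahnSeries.C (algebraMap O E π) := by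
    show emb (algebraMap O L π) = _
    exact GaussOne.emb_algebraMap emb π
  have hGauss : ∀ b : B, GaussDVR.red O E ⟨j (algebraMap B C b), hV _⟩ = 0 →
      algebraMap O B π ∣ b := by
    intro b hb
    obtain ⟨P, hP⟩ := hBrange b
    have h1 : (⟨j (algebraMap B C b), hV _⟩ : GaussDVR.V O E) =
        GaussDVR.ofInt O E (P.eval₂ (HahnSeries.C : O →+* LaurentSeries O) uO) := by
      apply Subtype.ext
      show emb (b : L) = _
      rw [hP, GaussOne.emb_aeval emb u uO hu]
      rfl
    rw [h1, GaussDVR.red_ofInt] at hb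
    obtain ⟨P', rfl⟩ := GaussBridge.C_dvd_of_rho_eval₂_eq_zero π hπ uO hpole P hb
    refine ⟨⟨aeval u P', ?_⟩, ?_⟩
    · rw [hB, Algebra.adjoin_singleton_eq_range_aeval]
      exact ⟨P', rfl⟩
    · apply Subtype.ext
      rw [hP, map_mul, aeval_C]
      rfl
  have hinjOL : Function.Injective (algebraMap O L) := by
    rw [IsScalarTower.algebraMap_eq O E L]
    exact (algebraMap E L).injective.comp (IsFractionRing.injective O E)
  have hπL : algebraMap O L π ≠ 0 := fun h => hπ.ne_zero (hinjOL (by rw [h, map_zero]))
  have hconst : ∀ r : O, IsIntegral B (algebraMap O L r) := fun r =>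
    isIntegral_algebraMap (R := B) (A := L) (x := algebraMap O B r)
  -- descending induction on the power of `π`
  have key : ∀ n : ℕ, IsIntegral B (algebraMap O L (π ^ n) * x) → IsIntegral B x := by
    intro n
    induction n with
    | zero =>
      intro h
      rwa [pow_zero, map_one, one_mul] at h
    | succ n ih =>
      intro h
      apply ih
      set y : L := algebraMap O L (π ^ n) * x with hy
      have h' : IsIntegral B (algebraMap O L π * y) := by
        have : algebraMap O L π * y = algebraMap O L (π ^ (n + 1)) * x := by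
          rw [hy, pow_succ, map_mul]
          ring
        rw [this]
        exact h
      have hyV : emb y ∈ GaussDVR.V O E := by
        rw [hy, map_mul, GaussOne.emb_algebraMap, ← GaussDVR.iota_C]
        exact Subring.mul_mem _ (GaussDVR.mem_of_int O E _) hxV
      set cC : C := ⟨algebraMap O L π * y, h'⟩ with hcC
      have hred : GaussDVR.red O E ⟨j cC, hV cC⟩ = 0 := by
        have h1 : (⟨j cC, hV cC⟩ : GaussDVR.V O E) = GaussDVR.unif E π * ⟨emb y, hyV⟩ := by
          apply Subtype.ext
          show emb (algebraMap O L π * y) = _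
          rw [map_mul, GaussOne.emb_algebraMap, Subring.coe_mul, GaussDVR.coe_unif]
        rw [h1, map_mul, GaussDVR.red_unif E π hπ, zero_mul]
      obtain ⟨c', hc'⟩ := GaussBridge.qExpansion_principle π hπ j hV (algebraMap O B π) hprime
        hjϖ hGauss cC hred
      have h2 : algebraMap O L π * y = algebraMap O L π * (c' : L) :=
        congrArg (fun z : C => (z : L)) hc'
      have h3 : y = (c' : L) := mul_left_cancel₀ hπL h2
      rw [h3]
      exact c'.2
  obtain ⟨n, w, hw⟩ := IsDiscreteValuationRing.eq_unit_mul_pow_irreducible hd hπ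
  apply key n
  have h4 : algebraMap O L (π ^ n) * x =
      algebraMap O L ((w⁻¹ : Oˣ) : O) * (algebraMap O L d * x) := by
    rw [hw, ← mul_assoc, ← map_mul, ← mul_assoc, Units.inv_mul, one_mul]
  rw [h4]
  exact (hconst _).mul hdx

/-- **(GI-b), the `q`-expansion principle.**  If `π` is prime in the integral closure of `O[u]`
in `L` (Model theorem (a) for `L`), an element integral over `E[u]` with Gauss-integral
`q`-expansion is integral over `O[u]`. -/
theorem isIntegral_of_mem_V (emb : L →ₐ[E] LaurentSeries E)
    (hfrac : ∀ x : L, emb x ∈ GaussDVR.fracField O E)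
    (π : O) (hπ : Irreducible π) (u : L) (uO : LaurentSeries O)
    (hu : emb u = GaussDVR.iota O E uO) (hpole : (GaussDVR.rho O uO).order < 0)
    (hprime : Prime (algebraMap (Algebra.adjoin O {u}) (integralClosure (Algebra.adjoin O {u}) L)
      (algebraMap O (Algebra.adjoin O {u}) π)))
    (x : L) (hxE : IsIntegral (Algebra.adjoin E {u}) x) (hxV : emb x ∈ GaussDVR.V O E) :
    IsIntegral (Algebra.adjoin O {u}) x := by
  obtain ⟨d, hd, hdx⟩ := exists_mul_isIntegral (O := O) u x hxE
  exact isIntegral_of_mul_of_mem_V emb hfrac π hπ u uO hu hpole hprime x hxV d hd hdx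

end Gauss

/-! ### The upper layer of a tower -/

section Tower

variable {O E : Type*} [CommRing O] [IsDomain O] [IsDiscreteValuationRing O] [Field E]
  [Algebra O E] [IsFractionRing O E]
variable {K₁ L : Type*} [Field K₁] [Algebra E K₁] [Algebra O K₁] [IsScalarTower O E K₁]
  [Field L] [Algebra E L] [Algebra O L] [IsScalarTower O E L] [Algebra K₁ L]
  [IsScalarTower E K₁ L] [IsScalarTower O K₁ L]

/-- **(GI-b) for conjugates.**  `x i` a family of elements of `L`, integral over `E[u]`, with
integral `q`-expansions, such that `∏ (Y - x i)` has coefficients in `K₁`; `π` prime in the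
integral closure of `O[u₁]` in `K₁`.  Then every `x i` is integral over `O[u]`. -/
theorem isIntegral_of_conj (emb : L →ₐ[E] LaurentSeries E)
    (hfrac : ∀ x : L, emb x ∈ GaussDVR.fracField O E)
    (π : O) (hπ : Irreducible π) (u₁ : K₁) (uO : LaurentSeries O)
    (hu : emb (algebraMap K₁ L u₁) = GaussDVR.iota O E uO)
    (hpole : (GaussDVR.rho O uO).order < 0)
    (hprime : Prime (algebraMap (Algebra.adjoin O {u₁})
      (integralClosure (Algebra.adjoin O {u₁}) K₁) (algebraMap O (Algebra.adjoin O {u₁}) π)))
    {ι : Type*} [Fintype ι] (x : ι → L) (t : ι → LaurentSeries O)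
    (hx : ∀ i, emb (x i) = GaussDVR.iota O E (t i))
    (hxE : ∀ i, IsIntegral (Algebra.adjoin E {algebraMap K₁ L u₁}) (x i))
    (P : K₁[X]) (hP : P.map (algebraMap K₁ L) = ∏ i, (X - C (x i))) (i₀ : ι) :
    IsIntegral (Algebra.adjoin O {algebraMap K₁ L u₁}) (x i₀) := by
  set embK : K₁ →ₐ[E] LaurentSeries E := emb.comp (IsScalarTower.toAlgHom E K₁ L) with hembK
  have hPm : P.Monic := Polynomial.monic_of_injective (algebraMap K₁ L).injective (by
    rw [hP]
    exact monic_prod_of_monic _ _ fun i _ => monic_X_sub_C (x i))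
  have hroot : aeval (x i₀) P = 0 := by
    rw [aeval_def, ← eval_map, hP, eval_prod]
    exact Finset.prod_eq_zero (Finset.mem_univ i₀) (by simp)
  have hcoef : ∀ n, IsIntegral (Algebra.adjoin O {u₁}) (P.coeff n) := by
    intro n
    refine isIntegral_of_mem_V embK (fun y => hfrac _) π hπ u₁ uO hu hpole hprime (P.coeff n)
      ?_ ?_
    · apply isIntegral_adjoin_down (R := E) (L := L) u₁ (P.coeff n)
      rw [← Polynomial.coeff_map, hP]
      set S : Subalgebra (Algebra.adjoin E {algebraMap K₁ L u₁}) L :=
        integralClosure (Algebra.adjoin E {algebraMap K₁ L u₁}) L with hS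
      have h2 : (∏ i, (X - C (x i)) : L[X]) =
          (∏ i, (X - C (⟨x i, hxE i⟩ : S))).map (algebraMap S L) := by
        rw [Polynomial.map_prod]
        refine Finset.prod_congr rfl fun i _ => ?_
        rw [Polynomial.map_sub, Polynomial.map_X, Polynomial.map_C]
        rfl
      rw [h2, Polynomial.coeff_map]
      exact Subtype.property _
    · have h1 : embK (P.coeff n) = GaussDVR.iota O E ((∏ i, (X - C (t i))).coeff n) := by
        show emb (algebraMap K₁ L (P.coeff n)) = _
        rw [← Polynomial.coeff_map, hP, ← AlgHom.coe_toRingHom, ← Polynomial.coeff_map,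
          ← Polynomial.coeff_map]
        congr 1
        rw [Polynomial.map_prod, Polynomial.map_prod]
        refine Finset.prod_congr rfl fun i _ => ?_
        rw [Polynomial.map_sub, Polynomial.map_X, Polynomial.map_C, Polynomial.map_sub,
          Polynomial.map_X, Polynomial.map_C, AlgHom.coe_toRingHom, hx]
      rw [h1]
      exact GaussDVR.mem_of_int O E _
  exact isIntegral_of_monic_coeff (R := O) u₁ (x i₀) P hPm hroot hcoef

/-- **The two `q`-expansion hypotheses of the Gauss tower lemma for `L / K₁`.**
`σ i`, `i : ι`, are `finrank K₁ L` automorphisms of `L` over `K₁` (the diamond operators), `θ ∈ L`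
is fixed by `σ i₀`, the conjugates `σ i θ` are integral over `E[u]` and have integral
`q`-expansions `t i` with pairwise distinct reductions; `π` is prime in the integral closure of
`O[u₁]` in `K₁` (Model theorem (a) for the lower layer).  Then `θ` is integral over `O[u]` and the
product of the differences of its conjugates is not divisible by `π` in the integral closure of
`O[u]` in `L`. -/
theorem integral_and_disc_of_conj [FiniteDimensional K₁ L] (emb : L →ₐ[E] LaurentSeries E)
    (hfrac : ∀ x : L, emb x ∈ GaussDVR.fracField O E)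
    (π : O) (hπ : Irreducible π) (u₁ : K₁) (uO : LaurentSeries O)
    (hu : emb (algebraMap K₁ L u₁) = GaussDVR.iota O E uO)
    (hpole : (GaussDVR.rho O uO).order < 0)
    (hprime : Prime (algebraMap (Algebra.adjoin O {u₁})
      (integralClosure (Algebra.adjoin O {u₁}) K₁) (algebraMap O (Algebra.adjoin O {u₁}) π)))
    {ι : Type*} [Fintype ι] [DecidableEq ι] (σ : ι → L →ₐ[K₁] L)
    (hcard : Fintype.card ι = Module.finrank K₁ L) (θ : L) (i₀ : ι) (hi₀ : σ i₀ θ = θ)
    (t : ι → LaurentSeries O) (hx : ∀ i, emb (σ i θ) = GaussDVR.iota O E (t i))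
    (hdist : ∀ i j, i ≠ j → GaussDVR.rho O (t i) ≠ GaussDVR.rho O (t j))
    (hxE : ∀ i, IsIntegral (Algebra.adjoin E {algebraMap K₁ L u₁}) (σ i θ)) :
    IsIntegral (Algebra.adjoin O {algebraMap K₁ L u₁}) θ ∧
      ∀ c : L, IsIntegral (Algebra.adjoin O {algebraMap K₁ L u₁}) c →
        (∏ i, ∏ j ∈ Finset.univ.erase i, (σ i θ - σ j θ)) ≠ algebraMap O L π * c := by
  have hinj : Function.Injective fun i => σ i θ := by
    intro i j hij
    by_contra hne
    apply hdist i j hne
    have h1 : GaussDVR.iota O E (t i) = GaussDVR.iota O E (t j) := by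
      rw [← hx i, ← hx j]
      exact congrArg emb hij
    rw [GaussDVR.iota_injective O E h1]
  refine ⟨?_, fun c hc => prod_ne_unif_mul emb hfrac π hπ (algebraMap K₁ L u₁) uO hu
    (fun i => σ i θ) t hx hdist c hc⟩
  have h := isIntegral_of_conj emb hfrac π hπ u₁ uO hu hpole hprime (fun i => σ i θ) t hx hxE
    (minpoly K₁ θ) (map_minpoly_eq_prod σ hcard θ hinj) i₀
  rwa [hi₀] at h

end Tower

end Fermat.Agent.S48.G1.K1.GaussInt
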