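/-
PROGRAM DS (S48), part G1, AREA K (helper216): DESCENT OF AN AUTOMORPHISM ALONG BASE CHANGE OF
CONSTANTS — the level-free half of the `E`-level diamond automorphisms (`K1/DiaE.lean`).

`F₀ ⊆ ℚ((q))` any subfield, `E ⊆ Ω` fields of constants, `L_E := laurentBaseChange E F₀`,
`L_Ω := laurentBaseChange Ω F₀`, `ρ := Abs.rhoBC F₀ E Ω : L_E →+* L_Ω` (coefficientwise).

A ring endomorphism `D` of `L_Ω` which fixes the constants coming from `E` and maps the image of
`F₀` into itself maps the image `ρ(L_E)` into itself, hence descends to `L_E`: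

* `bc_induction` : the induction principle of `L_E` (constants, `F₀`, field operations);
* `embFHom` : `Abs.embF` as a ring homomorphism `F₀ →+* L_E`;
* `exists_rhoBC_eq` : `D (ρ z) ∈ ρ(L_E)`;
* `descHom`, `rhoBC_descHom` : the descended endomorphism, `ρ (descHom z) = D (ρ z)`;
* `descEquiv`, `rhoBC_descEquiv` : the descended `E`-algebra automorphism of an `Ω`-algebra
  automorphism `D` of `L_Ω` such that `D` and `D.symm` preserve the image of `F₀`;
* `preserves_embF_of_gens` : for `F₀ = ℚ(S)` it suffices that `D` maps the generators into the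
  image of `F₀`;
* `ringHom_ext_bc`, `ringHom_ext_adjoin_rat` : extensionality for ring homomorphisms out of the
  `E`-form, resp. out of `ℚ(S)`.
-/
import Mathlib
import Fermat.Agent.S30.E2.Degree

set_option autoImplicit false

noncomputable section

namespace Fermat.Agent.S48.G1.K1.DiaEGen

open ModularCurve IntermediateField
open Fermat.Agent.S30.E2.Degree Fermat.Agent.S30.E2.Degree.Abs

section Induction

variable (F₀ : IntermediateField ℚ (LaurentSeries ℚ))
variable (E : Type*) [Field E] [Algebra ℚ E]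

/-- `Abs.embF` as a ring homomorphism. -/
def embFHom : F₀ →+* laurentBaseChange E F₀ :=
  ((coeffEmb E).comp (algebraMap F₀ (LaurentSeries ℚ))).codRestrict (laurentBaseChange E F₀)
    fun x => coeffEmb_mem_laurentBaseChange E x.2

theorem embFHom_apply (x : F₀) : embFHom F₀ E x = embF F₀ E x := rfl

variable {F₀ E} in
/-- **Induction principle for the `E`-form** of a function field: it is generated, as a field,
by the constants and the image of `F₀`. -/
theorem bc_induction {P : laurentBaseChange E F₀ → Prop}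
    (hconst : ∀ e : E, P (algebraMap E (laurentBaseChange E F₀) e))
    (hemb : ∀ x : F₀, P (embF F₀ E x))
    (hadd : ∀ a b, P a → P b → P (a + b))
    (hneg : ∀ a, P a → P (-a))
    (hinv : ∀ a, P a → P a⁻¹)
    (hmul : ∀ a b, P a → P b → P (a * b)) (z : laurentBaseChange E F₀) : P z := by
  obtain ⟨z, hz⟩ := z
  have hz' := hz
  rw [mem_laurentBaseChange_iff] at hz'
  have key : ∀ (y : LaurentSeries E)
      (_ : y ∈ Subfield.closure (Set.range (algebraMap E (LaurentSeries E)) ∪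
          (⇑(coeffEmb E) '' (F₀ : Set (LaurentSeries ℚ))))),
      ∃ hy : y ∈ laurentBaseChange E F₀, P ⟨y, hy⟩ := by
    intro y hy
    induction hy using Subfield.closure_induction with
    | mem y hy =>
      rcases hy with ⟨a, rfl⟩ | ⟨x, hx, rfl⟩
      · exact ⟨(laurentBaseChange E F₀).algebraMap_mem a, hconst a⟩
      · exact ⟨coeffEmb_mem_laurentBaseChange E hx, hemb ⟨x, hx⟩⟩
    | one =>
      have e : algebraMap E (laurentBaseChange E F₀) 1
          = ⟨1, one_mem (laurentBaseChange E F₀)⟩ :=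
        Subtype.ext (map_one (algebraMap E (LaurentSeries E)))
      exact ⟨one_mem _, e ▸ hconst 1⟩
    | add a b _ _ iha ihb =>
      obtain ⟨ha, hPa⟩ := iha
      obtain ⟨hb, hPb⟩ := ihb
      exact ⟨add_mem ha hb, hadd ⟨a, ha⟩ ⟨b, hb⟩ hPa hPb⟩
    | neg a _ iha =>
      obtain ⟨ha, hPa⟩ := iha
      exact ⟨neg_mem ha, hneg ⟨a, ha⟩ hPa⟩
    | inv a _ iha =>
      obtain ⟨ha, hPa⟩ := iha
      exact ⟨inv_mem ha, hinv ⟨a, ha⟩ hPa⟩
    | mul a b _ _ iha ihb =>
      obtain ⟨ha, hPa⟩ := iha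
      obtain ⟨hb, hPb⟩ := ihb
      exact ⟨mul_mem ha hb, hmul ⟨a, ha⟩ ⟨b, hb⟩ hPa hPb⟩
  obtain ⟨_, h⟩ := key z hz'
  exact h

variable {F₀ E} in
/-- Two ring homomorphisms out of the `E`-form which agree on the constants and on the image of
`F₀` are equal. -/
theorem ringHom_ext_bc {R : Type*} [DivisionRing R] (φ ψ : laurentBaseChange E F₀ →+* R)
    (hc : ∀ e : E, φ (algebraMap E (laurentBaseChange E F₀) e)
      = ψ (algebraMap E (laurentBaseChange E F₀) e))
    (hx : ∀ x : F₀, φ (embF F₀ E x) = ψ (embF F₀ E x)) : φ = ψ := by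
  refine RingHom.ext fun z => ?_
  induction z using bc_induction with
  | hconst e => exact hc e
  | hemb x => exact hx x
  | hadd a b iha ihb => rw [map_add, map_add, iha, ihb]
  | hneg a iha => rw [map_neg, map_neg, iha]
  | hinv a iha => rw [map_inv₀, map_inv₀, iha]
  | hmul a b iha ihb => rw [map_mul, map_mul, iha, ihb]

end Induction

section Descent

variable (F₀ : IntermediateField ℚ (LaurentSeries ℚ))
variable (E Ω : Type*) [Field E] [Field Ω] [Algebra ℚ E] [Algebra ℚ Ω] [Algebra E Ω]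

/-- `ρ` on the constants, in the `rhoBC` vocabulary. -/
theorem rhoBC_algebraMap (e : E) :
    rhoBC F₀ E Ω (algebraMap E (laurentBaseChange E F₀) e)
      = algebraMap Ω (laurentBaseChange Ω F₀) (algebraMap E Ω e) :=
  rho_algebraMap (laurentBaseChange E F₀) (laurentBaseChange Ω F₀)
    (fun _ hx => iota_mem_laurentBaseChange F₀ Ω hx) e

theorem rhoBC_injective : Function.Injective (rhoBC F₀ E Ω) :=
  (rhoBC F₀ E Ω).injective

variable {F₀ E Ω}

/-- **The image of the `E`-form is stable** under a ring endomorphism of the `Ω`-form which fixes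
the constants coming from `E` and maps the image of `F₀` into itself. -/
theorem exists_rhoBC_eq (D : laurentBaseChange Ω F₀ →+* laurentBaseChange Ω F₀)
    (hc : ∀ e : E, D (algebraMap Ω (laurentBaseChange Ω F₀) (algebraMap E Ω e))
      = algebraMap Ω (laurentBaseChange Ω F₀) (algebraMap E Ω e))
    (hD : ∀ x : F₀, ∃ y : F₀, D (embF F₀ Ω x) = embF F₀ Ω y)
    (z : laurentBaseChange E F₀) :
    ∃ w : laurentBaseChange E F₀, rhoBC F₀ E Ω w = D (rhoBC F₀ E Ω z) := by
  induction z using bc_induction with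
  | hconst e => exact ⟨algebraMap E _ e, by rw [rhoBC_algebraMap, hc]⟩
  | hemb x =>
    obtain ⟨y, hy⟩ := hD x
    exact ⟨embF F₀ E y, by rw [rhoBC_embF, rhoBC_embF, hy]⟩
  | hadd a b iha ihb =>
    obtain ⟨wa, ha⟩ := iha
    obtain ⟨wb, hb⟩ := ihb
    exact ⟨wa + wb, by rw [map_add, map_add, map_add, ha, hb]⟩
  | hneg a iha =>
    obtain ⟨wa, ha⟩ := iha
    exact ⟨-wa, by rw [map_neg, map_neg, map_neg, ha]⟩
  | hinv a iha =>
    obtain ⟨wa, ha⟩ := iha
    exact ⟨wa⁻¹, by rw [map_inv₀, map_inv₀, map_inv₀, ha]⟩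
  | hmul a b iha ihb =>
    obtain ⟨wa, ha⟩ := iha
    obtain ⟨wb, hb⟩ := ihb
    exact ⟨wa * wb, by rw [map_mul, map_mul, map_mul, ha, hb]⟩

/-- Underlying function of `descHom`. -/
def descFun (D : laurentBaseChange Ω F₀ →+* laurentBaseChange Ω F₀)
    (hc : ∀ e : E, D (algebraMap Ω (laurentBaseChange Ω F₀) (algebraMap E Ω e))
      = algebraMap Ω (laurentBaseChange Ω F₀) (algebraMap E Ω e))
    (hD : ∀ x : F₀, ∃ y : F₀, D (embF F₀ Ω x) = embF F₀ Ω y)
    (z : laurentBaseChange E F₀) : laurentBaseChange E F₀ :=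
  (exists_rhoBC_eq D hc hD z).choose

theorem rhoBC_descFun (D : laurentBaseChange Ω F₀ →+* laurentBaseChange Ω F₀)
    (hc : ∀ e : E, D (algebraMap Ω (laurentBaseChange Ω F₀) (algebraMap E Ω e))
      = algebraMap Ω (laurentBaseChange Ω F₀) (algebraMap E Ω e))
    (hD : ∀ x : F₀, ∃ y : F₀, D (embF F₀ Ω x) = embF F₀ Ω y)
    (z : laurentBaseChange E F₀) :
    rhoBC F₀ E Ω (descFun D hc hD z) = D (rhoBC F₀ E Ω z) :=
  (exists_rhoBC_eq D hc hD z).choose_spec

/-- **The descended endomorphism** of the `E`-form: `ρ (descHom z) = D (ρ z)`. -/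
def descHom (D : laurentBaseChange Ω F₀ →+* laurentBaseChange Ω F₀)
    (hc : ∀ e : E, D (algebraMap Ω (laurentBaseChange Ω F₀) (algebraMap E Ω e))
      = algebraMap Ω (laurentBaseChange Ω F₀) (algebraMap E Ω e))
    (hD : ∀ x : F₀, ∃ y : F₀, D (embF F₀ Ω x) = embF F₀ Ω y) :
    laurentBaseChange E F₀ →+* laurentBaseChange E F₀ where
  toFun := descFun D hc hD
  map_one' := rhoBC_injective F₀ E Ω (by rw [rhoBC_descFun, map_one, map_one])
  map_mul' x y := rhoBC_injective F₀ E Ω (by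
    rw [rhoBC_descFun, map_mul, map_mul, map_mul, rhoBC_descFun, rhoBC_descFun])
  map_zero' := rhoBC_injective F₀ E Ω (by rw [rhoBC_descFun, map_zero, map_zero])
  map_add' x y := rhoBC_injective F₀ E Ω (by
    rw [rhoBC_descFun, map_add, map_add, map_add, rhoBC_descFun, rhoBC_descFun])

theorem rhoBC_descHom (D : laurentBaseChange Ω F₀ →+* laurentBaseChange Ω F₀)
    (hc : ∀ e : E, D (algebraMap Ω (laurentBaseChange Ω F₀) (algebraMap E Ω e))
      = algebraMap Ω (laurentBaseChange Ω F₀) (algebraMap E Ω e))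
    (hD : ∀ x : F₀, ∃ y : F₀, D (embF F₀ Ω x) = embF F₀ Ω y)
    (z : laurentBaseChange E F₀) :
    rhoBC F₀ E Ω (descHom D hc hD z) = D (rhoBC F₀ E Ω z) :=
  rhoBC_descFun D hc hD z

/-- `descHom` is characterised by `ρ (descHom z) = D (ρ z)`. -/
theorem descHom_eq (D : laurentBaseChange Ω F₀ →+* laurentBaseChange Ω F₀)
    (hc : ∀ e : E, D (algebraMap Ω (laurentBaseChange Ω F₀) (algebraMap E Ω e))
      = algebraMap Ω (laurentBaseChange Ω F₀) (algebraMap E Ω e))
    (hD : ∀ x : F₀, ∃ y : F₀, D (embF F₀ Ω x) = embF F₀ Ω y)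
    {z w : laurentBaseChange E F₀} (h : rhoBC F₀ E Ω w = D (rhoBC F₀ E Ω z)) :
    descHom D hc hD z = w :=
  rhoBC_injective F₀ E Ω (by rw [rhoBC_descHom, h])

theorem descHom_algebraMap (D : laurentBaseChange Ω F₀ →+* laurentBaseChange Ω F₀)
    (hc : ∀ e : E, D (algebraMap Ω (laurentBaseChange Ω F₀) (algebraMap E Ω e))
      = algebraMap Ω (laurentBaseChange Ω F₀) (algebraMap E Ω e))
    (hD : ∀ x : F₀, ∃ y : F₀, D (embF F₀ Ω x) = embF F₀ Ω y) (e : E) :
    descHom D hc hD (algebraMap E (laurentBaseChange E F₀) e)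
      = algebraMap E (laurentBaseChange E F₀) e :=
  descHom_eq D hc hD (by rw [rhoBC_algebraMap, hc])

theorem descHom_embF (D : laurentBaseChange Ω F₀ →+* laurentBaseChange Ω F₀)
    (hc : ∀ e : E, D (algebraMap Ω (laurentBaseChange Ω F₀) (algebraMap E Ω e))
      = algebraMap Ω (laurentBaseChange Ω F₀) (algebraMap E Ω e))
    (hD : ∀ x : F₀, ∃ y : F₀, D (embF F₀ Ω x) = embF F₀ Ω y) {x y : F₀}
    (h : D (embF F₀ Ω x) = embF F₀ Ω y) :
    descHom D hc hD (embF F₀ E x) = embF F₀ E y :=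
  descHom_eq D hc hD (by rw [rhoBC_embF, rhoBC_embF, h])

omit [Algebra ℚ E] in
theorem algEquiv_coe_commutes (D : laurentBaseChange Ω F₀ ≃ₐ[Ω] laurentBaseChange Ω F₀) (e : E) :
    (D : laurentBaseChange Ω F₀ →+* laurentBaseChange Ω F₀)
        (algebraMap Ω (laurentBaseChange Ω F₀) (algebraMap E Ω e))
      = algebraMap Ω (laurentBaseChange Ω F₀) (algebraMap E Ω e) :=
  D.commutes _

theorem algEquiv_coe_preserves (D : laurentBaseChange Ω F₀ ≃ₐ[Ω] laurentBaseChange Ω F₀)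
    (hD : ∀ x : F₀, ∃ y : F₀, D (embF F₀ Ω x) = embF F₀ Ω y) :
    ∀ x : F₀, ∃ y : F₀,
      (D : laurentBaseChange Ω F₀ →+* laurentBaseChange Ω F₀) (embF F₀ Ω x) = embF F₀ Ω y :=
  hD

/-- The ring endomorphism of the `E`-form descended from an `Ω`-algebra automorphism. -/
def descAlgHom (D : laurentBaseChange Ω F₀ ≃ₐ[Ω] laurentBaseChange Ω F₀)
    (hD : ∀ x : F₀, ∃ y : F₀, D (embF F₀ Ω x) = embF F₀ Ω y) :
    laurentBaseChange E F₀ →+* laurentBaseChange E F₀ :=
  descHom (E := E) (D : laurentBaseChange Ω F₀ →+* laurentBaseChange Ω F₀)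
    (algEquiv_coe_commutes D) (algEquiv_coe_preserves D hD)

theorem rhoBC_descAlgHom (D : laurentBaseChange Ω F₀ ≃ₐ[Ω] laurentBaseChange Ω F₀)
    (hD : ∀ x : F₀, ∃ y : F₀, D (embF F₀ Ω x) = embF F₀ Ω y) (z : laurentBaseChange E F₀) :
    rhoBC F₀ E Ω (descAlgHom (E := E) D hD z) = D (rhoBC F₀ E Ω z) :=
  rhoBC_descHom _ _ _ z

theorem descAlgHom_algebraMap (D : laurentBaseChange Ω F₀ ≃ₐ[Ω] laurentBaseChange Ω F₀)
    (hD : ∀ x : F₀, ∃ y : F₀, D (embF F₀ Ω x) = embF F₀ Ω y) (e : E) :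
    descAlgHom (E := E) D hD (algebraMap E (laurentBaseChange E F₀) e)
      = algebraMap E (laurentBaseChange E F₀) e :=
  descHom_algebraMap _ _ _ e

/-- **The descended automorphism**: an `Ω`-algebra automorphism `D` of the `Ω`-form such that
`D` and `D.symm` map the image of `F₀` into itself induces an `E`-algebra automorphism of the
`E`-form. -/
def descEquiv (D : laurentBaseChange Ω F₀ ≃ₐ[Ω] laurentBaseChange Ω F₀)
    (hD : ∀ x : F₀, ∃ y : F₀, D (embF F₀ Ω x) = embF F₀ Ω y)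
    (hD' : ∀ x : F₀, ∃ y : F₀, D.symm (embF F₀ Ω x) = embF F₀ Ω y) :
    laurentBaseChange E F₀ ≃ₐ[E] laurentBaseChange E F₀ where
  toFun := descAlgHom (E := E) D hD
  invFun := descAlgHom (E := E) D.symm hD'
  left_inv z := rhoBC_injective F₀ E Ω (by
    rw [rhoBC_descAlgHom, rhoBC_descAlgHom, AlgEquiv.symm_apply_apply])
  right_inv z := rhoBC_injective F₀ E Ω (by
    rw [rhoBC_descAlgHom, rhoBC_descAlgHom, AlgEquiv.apply_symm_apply])
  map_mul' x y := map_mul _ x y
  map_add' x y := map_add _ x y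
  commutes' e := descAlgHom_algebraMap D hD e

theorem rhoBC_descEquiv (D : laurentBaseChange Ω F₀ ≃ₐ[Ω] laurentBaseChange Ω F₀)
    (hD : ∀ x : F₀, ∃ y : F₀, D (embF F₀ Ω x) = embF F₀ Ω y)
    (hD' : ∀ x : F₀, ∃ y : F₀, D.symm (embF F₀ Ω x) = embF F₀ Ω y)
    (z : laurentBaseChange E F₀) :
    rhoBC F₀ E Ω (descEquiv (E := E) D hD hD' z) = D (rhoBC F₀ E Ω z) :=
  rhoBC_descAlgHom D hD z

theorem rhoBC_descEquiv_symm (D : laurentBaseChange Ω F₀ ≃ₐ[Ω] laurentBaseChange Ω F₀)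
    (hD : ∀ x : F₀, ∃ y : F₀, D (embF F₀ Ω x) = embF F₀ Ω y)
    (hD' : ∀ x : F₀, ∃ y : F₀, D.symm (embF F₀ Ω x) = embF F₀ Ω y)
    (z : laurentBaseChange E F₀) :
    rhoBC F₀ E Ω ((descEquiv (E := E) D hD hD').symm z) = D.symm (rhoBC F₀ E Ω z) :=
  rhoBC_descAlgHom D.symm hD' z

/-- The descended automorphism is characterised by `ρ (descEquiv z) = D (ρ z)`. -/
theorem descEquiv_eq (D : laurentBaseChange Ω F₀ ≃ₐ[Ω] laurentBaseChange Ω F₀)
    (hD : ∀ x : F₀, ∃ y : F₀, D (embF F₀ Ω x) = embF F₀ Ω y)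
    (hD' : ∀ x : F₀, ∃ y : F₀, D.symm (embF F₀ Ω x) = embF F₀ Ω y)
    {z w : laurentBaseChange E F₀} (h : rhoBC F₀ E Ω w = D (rhoBC F₀ E Ω z)) :
    descEquiv (E := E) D hD hD' z = w :=
  rhoBC_injective F₀ E Ω (by rw [rhoBC_descEquiv, h])

theorem descEquiv_embF (D : laurentBaseChange Ω F₀ ≃ₐ[Ω] laurentBaseChange Ω F₀)
    (hD : ∀ x : F₀, ∃ y : F₀, D (embF F₀ Ω x) = embF F₀ Ω y)
    (hD' : ∀ x : F₀, ∃ y : F₀, D.symm (embF F₀ Ω x) = embF F₀ Ω y) {x y : F₀}
    (h : D (embF F₀ Ω x) = embF F₀ Ω y) :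
    descEquiv (E := E) D hD hD' (embF F₀ E x) = embF F₀ E y :=
  descEquiv_eq D hD hD' (by rw [rhoBC_embF, rhoBC_embF, h])

end Descent

section Gens

variable (E : Type*) [Field E] [Algebra ℚ E]

/-- Two ring homomorphisms out of `ℚ(S)` into a division ring which agree on `S` are equal. -/
theorem ringHom_ext_adjoin_rat {R : Type*} [DivisionRing R] (S : Set (LaurentSeries ℚ))
    (φ ψ : ↥(IntermediateField.adjoin ℚ S) →+* R)
    (hS : ∀ (s : LaurentSeries ℚ) (hs : s ∈ S),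
      φ ⟨s, IntermediateField.subset_adjoin ℚ S hs⟩
        = ψ ⟨s, IntermediateField.subset_adjoin ℚ S hs⟩) : φ = ψ := by
  refine RingHom.ext fun x => ?_
  obtain ⟨x, hx⟩ := x
  induction hx using IntermediateField.adjoin_induction with
  | mem x hx => exact hS x hx
  | algebraMap c =>
    have e : (⟨algebraMap ℚ (LaurentSeries ℚ) c, IntermediateField.algebraMap_mem _ c⟩ :
        ↥(IntermediateField.adjoin ℚ S)) = ((c : ℚ) : ↥(IntermediateField.adjoin ℚ S)) :=
      Subtype.ext ((eq_ratCast (algebraMap ℚ (LaurentSeries ℚ)) c).trans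
        (SubfieldClass.coe_ratCast (IntermediateField.adjoin ℚ S) c).symm)
    rw [e, map_ratCast, map_ratCast]
  | add x y hx hy ihx ihy =>
    have e : (⟨x + y, add_mem hx hy⟩ : ↥(IntermediateField.adjoin ℚ S)) = ⟨x, hx⟩ + ⟨y, hy⟩ := rfl
    rw [e, map_add, map_add, ihx, ihy]
  | inv x hx ihx =>
    have e : (⟨x⁻¹, inv_mem hx⟩ : ↥(IntermediateField.adjoin ℚ S)) = (⟨x, hx⟩)⁻¹ := rfl
    rw [e, map_inv₀, map_inv₀, ihx]
  | mul x y hx hy ihx ihy =>
    have e : (⟨x * y, mul_mem hx hy⟩ : ↥(IntermediateField.adjoin ℚ S)) = ⟨x, hx⟩ * ⟨y, hy⟩ := rfl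
    rw [e, map_mul, map_mul, ihx, ihy]

variable {E} in
/-- **Generators suffice.**  For `F₀ = ℚ(S)`: a ring endomorphism of the `E`-form mapping each
generator into the image of `F₀` maps the image of `F₀` into itself. -/
theorem preserves_embF_of_gens (S : Set (LaurentSeries ℚ))
    (D : laurentBaseChange E (IntermediateField.adjoin ℚ S)
      →+* laurentBaseChange E (IntermediateField.adjoin ℚ S))
    (hS : ∀ (s : LaurentSeries ℚ) (hs : s ∈ S), ∃ y : ↥(IntermediateField.adjoin ℚ S),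
      D (embF (IntermediateField.adjoin ℚ S) E ⟨s, IntermediateField.subset_adjoin ℚ S hs⟩)
        = embF (IntermediateField.adjoin ℚ S) E y)
    (x : ↥(IntermediateField.adjoin ℚ S)) : ∃ y : ↥(IntermediateField.adjoin ℚ S),
      D (embF (IntermediateField.adjoin ℚ S) E x) = embF (IntermediateField.adjoin ℚ S) E y := by
  obtain ⟨x, hx⟩ := x
  induction hx using IntermediateField.adjoin_induction with
  | mem x hx => exact hS x hx
  | algebraMap c =>
    refine ⟨((c : ℚ) : ↥(IntermediateField.adjoin ℚ S)), ?_⟩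
    have e : (⟨algebraMap ℚ (LaurentSeries ℚ) c, IntermediateField.algebraMap_mem _ c⟩ :
        ↥(IntermediateField.adjoin ℚ S)) = ((c : ℚ) : ↥(IntermediateField.adjoin ℚ S)) :=
      Subtype.ext ((eq_ratCast (algebraMap ℚ (LaurentSeries ℚ)) c).trans
        (SubfieldClass.coe_ratCast (IntermediateField.adjoin ℚ S) c).symm)
    rw [e, ← embFHom_apply, map_ratCast, map_ratCast]
  | add x y hx hy ihx ihy =>
    obtain ⟨a, ha⟩ := ihx
    obtain ⟨b, hb⟩ := ihy
    refine ⟨a + b, ?_⟩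
    have e : (⟨x + y, add_mem hx hy⟩ : ↥(IntermediateField.adjoin ℚ S)) = ⟨x, hx⟩ + ⟨y, hy⟩ := rfl
    rw [e, ← embFHom_apply, ← embFHom_apply, map_add, map_add, map_add, embFHom_apply,
      embFHom_apply, embFHom_apply, embFHom_apply, ha, hb]
  | inv x hx ihx =>
    obtain ⟨a, ha⟩ := ihx
    refine ⟨a⁻¹, ?_⟩
    have e : (⟨x⁻¹, inv_mem hx⟩ : ↥(IntermediateField.adjoin ℚ S)) = (⟨x, hx⟩)⁻¹ := rfl
    rw [e, ← embFHom_apply, ← embFHom_apply, map_inv₀, map_inv₀, map_inv₀, embFHom_apply,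
      embFHom_apply, ha]
  | mul x y hx hy ihx ihy =>
    obtain ⟨a, ha⟩ := ihx
    obtain ⟨b, hb⟩ := ihy
    refine ⟨a * b, ?_⟩
    have e : (⟨x * y, mul_mem hx hy⟩ : ↥(IntermediateField.adjoin ℚ S)) = ⟨x, hx⟩ * ⟨y, hy⟩ := rfl
    rw [e, ← embFHom_apply, ← embFHom_apply, map_mul, map_mul, map_mul, embFHom_apply,
      embFHom_apply, embFHom_apply, embFHom_apply, ha, hb]

end Gens

end Fermat.Agent.S48.G1.K1.DiaEGen
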