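/-
PROGRAM DS (S48), part G1, AREA K, row K.2.inst (a) (helper216): THE `E`-LEVEL DIAMOND
AUTOMORPHISMS, by descent of helper71's `ℚ̄`-level `diaF1 M u` along base change of constants.

`E` any field with `Algebra ℚ E` and `Algebra E ℚ̄` (a number field inside `ℚ̄`),
`LE1 M E := laurentBaseChange E (F1Q M)` the `E`-form of the function field of `Γ₁(M)`,
`LE0 M E := laurentBaseChange E (modularFunctionFieldFull M)` that of `Γ₀(M)` (`= S18.K1Defs.LE`).

* `diaE M E u : LE1 M E ≃ₐ[E] LE1 M E`, `rhoBC_diaE` (UNCONDITIONAL, like `diaF1_gens`);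
* `diaE_one`, `diaE_neg_one`, `diaE_neg`, `diaE_jdE1`, `diaE_incl` (UNCONDITIONAL): the diamonds
  fix the `Γ₀(M)`-field pointwise, so they are `LE0 M E`-algebra automorphisms `diaEK M E u`
  (algebra structure `algebraLE M E` = the inclusion);
* `diaE_mul_apply`, `diaE_inv_apply`, `diaE_gE1` (given existence of the `ℚ̄`-level diamonds,
  `F1/Dia.lean`): `⟨u⟩ g_b = g_{b u⁻¹}`;
* `Idx M := (ℤ/M)ˣ ⧸ ±1`, `rep`, `rep_ne`, `sigma M E i := diaEK M E (rep i)⁻¹`,
  `coe_sigma_gE1 : σ_i g_1 = g_{rep i}`, `sigma_injective` : the family consumed by the tower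
  lemma `GaussTower.gaussTSD_of_tower'` (`σ`, `θ := gE1 M E 1`) and by `GqDisc.hdisc_gq_units`;
* `card_idx_le_finrank`, `finrank_eq_card_idx`, `fintype_card_idx_eq_finrank` (`hcard`),
  `isGalois_LE1`, `sigma_surjective`, `exists_incl_eq_of_fixed`,
  `coeff_prod_sigma` : `[LE1 : LE0] ≥ |Idx M|`, and if equality holds (row K.1) the extension is
  Galois with group the diamonds, the fixed field of the diamonds is `LE0 M E`, and the
  coefficients of `∏ i, (X - σ_i θ)` lie in `LE0 M E`.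
-/
import Mathlib
import Fermat.Agent.S48.G1.F1.DiaDefs
import Fermat.Agent.S48.G1.F1.GqLeadR
import Fermat.Agent.S48.G1.K1.DiaEGen

set_option autoImplicit false

noncomputable section

namespace Fermat.Agent.S48.G1.K1.DiaE

open ModularCurve IntermediateField Polynomial
open Fermat.Agent.S30.E2.Degree Fermat.Agent.S30.E2.Degree.Abs
open Fermat.Agent.S48.G1.F1 Fermat.Agent.S48.G1.F1.Dia
open Fermat.Agent.S48.G1.K1.DiaEGen

/-! ### Generic Galois theory: an injective family of automorphisms of full cardinality -/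

section Galois

variable {K L : Type*} [Field K] [Field L] [Algebra K L] [FiniteDimensional K L]
variable {ι : Type*} [Finite ι]

omit [Finite ι] in
/-- An injective family of `K`-automorphisms of `L` has at most `[L : K]` members. -/
theorem card_le_finrank_of_injective (σ : ι → L ≃ₐ[K] L) (hσ : Function.Injective σ) :
    Nat.card ι ≤ Module.finrank K L := by
  have h1 : Nat.card ι ≤ Nat.card (L ≃ₐ[K] L) := Nat.card_le_card_of_injective σ hσ
  have h2 : Nat.card (L ≃ₐ[K] L) ≤ Module.finrank K L := by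
    rw [Nat.card_eq_fintype_card]
    exact AlgEquiv.card_le
  exact h1.trans h2

omit [Finite ι] in
theorem card_eq_finrank_of_injective (σ : ι → L ≃ₐ[K] L) (hσ : Function.Injective σ)
    (hcard : Module.finrank K L ≤ Nat.card ι) : Nat.card ι = Module.finrank K L :=
  le_antisymm (card_le_finrank_of_injective σ hσ) hcard

omit [Finite ι] in
/-- An injective family of `[L : K]` automorphisms is the whole automorphism group. -/
theorem surjective_of_injective_of_card (σ : ι → L ≃ₐ[K] L) (hσ : Function.Injective σ)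
    (hcard : Module.finrank K L ≤ Nat.card ι) : Function.Surjective σ := by
  have h2 : Nat.card (L ≃ₐ[K] L) ≤ Module.finrank K L := by
    rw [Nat.card_eq_fintype_card]
    exact AlgEquiv.card_le
  exact (hσ.bijective_of_nat_card_le (h2.trans hcard)).2

omit [Finite ι] in
/-- ... and then `L / K` is Galois. -/
theorem isGalois_of_injective_of_card (σ : ι → L ≃ₐ[K] L) (hσ : Function.Injective σ)
    (hcard : Module.finrank K L ≤ Nat.card ι) : IsGalois K L := by
  apply IsGalois.of_card_aut_eq_finrank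
  have h1 : Nat.card ι ≤ Nat.card (L ≃ₐ[K] L) := Nat.card_le_card_of_injective σ hσ
  have h2 : Nat.card (L ≃ₐ[K] L) ≤ Module.finrank K L := by
    rw [Nat.card_eq_fintype_card]
    exact AlgEquiv.card_le
  exact le_antisymm h2 (hcard.trans h1)

omit [Finite ι] in
/-- The fixed field of an injective family of `[L : K]` automorphisms is `K`. -/
theorem exists_algebraMap_eq_of_fixed (σ : ι → L ≃ₐ[K] L) (hσ : Function.Injective σ)
    (hcard : Module.finrank K L ≤ Nat.card ι) (x : L) (hx : ∀ i, σ i x = x) :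
    ∃ y : K, algebraMap K L y = x := by
  have := isGalois_of_injective_of_card σ hσ hcard
  refine (IsGalois.mem_range_algebraMap_iff_fixed (F := K) (E := L) x).mpr fun f => ?_
  obtain ⟨i, rfl⟩ := surjective_of_injective_of_card σ hσ hcard f
  exact hx i

omit [Finite ι] in
/-- The coefficients of `∏ i, (X - σ_i θ)` lie in `K`. -/
theorem exists_algebraMap_eq_coeff_prod [Fintype ι] (σ : ι → L ≃ₐ[K] L)
    (hσ : Function.Injective σ) (hcard : Module.finrank K L ≤ Nat.card ι) (θ : L) (k : ℕ) :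
    ∃ y : K, algebraMap K L y = (∏ i, (X - C (σ i θ))).coeff k := by
  classical
  have hbij : Function.Bijective σ := ⟨hσ, surjective_of_injective_of_card σ hσ hcard⟩
  refine exists_algebraMap_eq_of_fixed σ hσ hcard _ fun j => ?_
  have h1 : σ j ((∏ i, (X - C (σ i θ))).coeff k)
      = ((∏ i, (X - C (σ i θ))).map ((σ j : L ≃+* L) : L →+* L)).coeff k := by
    rw [Polynomial.coeff_map]
    rfl
  rw [h1]
  congr 1
  rw [Polynomial.map_prod]
  have h2 : ∀ i, (X - C (σ i θ)).map ((σ j : L ≃+* L) : L →+* L) = X - C ((σ j * σ i) θ) := by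
    intro i
    rw [Polynomial.map_sub, Polynomial.map_X, Polynomial.map_C]
    rfl
  simp only [h2]
  let e : ι ≃ (L ≃ₐ[K] L) := Equiv.ofBijective σ hbij
  have h3 : ∀ g : ι → L[X], ∏ i, g i = ∏ f : L ≃ₐ[K] L, g (e.symm f) := fun g =>
    (Fintype.prod_equiv e.symm _ _ fun _ => rfl).symm
  have he : ∀ f : L ≃ₐ[K] L, σ (e.symm f) = f := fun f => e.apply_symm_apply f
  rw [h3 fun i => X - C ((σ j * σ i) θ), h3 fun i => X - C (σ i θ)]
  simp only [he]
  exact Fintype.prod_equiv (Equiv.mulLeft (σ j)) _ _ fun _ => rfl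

end Galois

/-! ### The fields and their generators -/

/-- The `E`-form of the function field of `Γ₁(M)`. -/
abbrev LE1 (M : ℕ) (E : Type*) [Field E] [Algebra ℚ E] : IntermediateField E (LaurentSeries E) :=
  laurentBaseChange E (F1Q M)

/-- The `E`-form of the function field of `Γ₀(M)` (`= S18.K1Defs.LE M E`, reducibly). -/
abbrev LE0 (M : ℕ) (E : Type*) [Field E] [Algebra ℚ E] : IntermediateField E (LaurentSeries E) :=
  laurentBaseChange E (modularFunctionFieldFull M)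

theorem LE0_le_LE1 (M : ℕ) (E : Type*) [Field E] [Algebra ℚ E] : LE0 M E ≤ LE1 M E := by
  refine IntermediateField.adjoin.mono E _ _ ?_
  rintro _ ⟨x, hx, rfl⟩
  exact ⟨x, full_le_F1Q M hx, rfl⟩

/-- The algebra structure of `LE1 M E` over `LE0 M E`: the inclusion.  (Reducible, not a global
instance: install it with `letI := algebraLE M E`, or literally as
`(IntermediateField.inclusion hle).toRingHom.toAlgebra`.) -/
@[reducible] def algebraLE (M : ℕ) (E : Type*) [Field E] [Algebra ℚ E] :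
    Algebra (LE0 M E) (LE1 M E) :=
  (IntermediateField.inclusion (LE0_le_LE1 M E)).toRingHom.toAlgebra

theorem jqd_mem_aux (M : ℕ) {s : LaurentSeries ℚ} (hs : s ∈ divisorExpansions M) : s ∈ F1Q M :=
  IntermediateField.subset_adjoin ℚ _ (Or.inl hs)

/-- `g_b` as an element of `F1Q M`. -/
def gQ1 (M : ℕ) (b : (ZMod M)ˣ) : F1Q M := ⟨gq M (b : ZMod M), gq_mem_F1Q M b⟩

/-- `j(q^d)` as an element of `F1Q M`. -/
def jQ1 (M d : ℕ) [NeZero d] (hd : d ∣ M) : F1Q M := ⟨qExpand ℚ d jq, jqd_mem_F1Q M hd⟩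

/-- `g_b` as an element of the `E`-form. -/
def gE1 (M : ℕ) (E : Type*) [Field E] [Algebra ℚ E] (b : (ZMod M)ˣ) : LE1 M E :=
  embF (F1Q M) E (gQ1 M b)

/-- `j(q^d)` as an element of the `E`-form. -/
def jdE1 (M : ℕ) (E : Type*) [Field E] [Algebra ℚ E] (d : ℕ) [NeZero d] (hd : d ∣ M) :
    LE1 M E :=
  embF (F1Q M) E (jQ1 M d hd)

section Coe

variable (M : ℕ) (E : Type*) [Field E] [Algebra ℚ E]

@[simp] theorem coe_gE1 (b : (ZMod M)ˣ) :
    ((gE1 M E b : LE1 M E) : LaurentSeries E) = coeffEmb E (gq M (b : ZMod M)) := rfl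

@[simp] theorem coe_jdE1 (d : ℕ) [NeZero d] (hd : d ∣ M) :
    ((jdE1 M E d hd : LE1 M E) : LaurentSeries E) = coeffEmb E (qExpand ℚ d jq) := rfl

theorem gE1_neg (b : (ZMod M)ˣ) : gE1 M E (-b) = gE1 M E b := by
  apply Subtype.ext
  rw [coe_gE1, coe_gE1, Units.val_neg, gq_neg]

/-- `g_b = g_{b'}` iff `b' = ± b`. -/
theorem gE1_eq_iff (b b' : (ZMod M)ˣ) : gE1 M E b = gE1 M E b' ↔ b' = b ∨ b' = -b := by
  rw [← GqLead.coeffEmb_gq_unit_eq_iff E M b b', ← coe_gE1, ← coe_gE1]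
  exact Subtype.ext_iff

variable [Algebra E Qb]

theorem rhoBC_gE1 (b : (ZMod M)ˣ) : rhoBC (F1Q M) E Qb (gE1 M E b) = gElt M b :=
  rhoBC_embF (F1Q M) E Qb (gQ1 M b)

theorem rhoBC_jdE1 (d : ℕ) [NeZero d] (hd : d ∣ M) :
    rhoBC (F1Q M) E Qb (jdE1 M E d hd) = jElt M d hd :=
  rhoBC_embF (F1Q M) E Qb (jQ1 M d hd)

end Coe

/-! ### `ℚ̄`-level complements to `F1/DiaDefs.lean` (all unconditional) -/

section QbLevel

variable (M : ℕ) (u : (ZMod M)ˣ)

theorem isDia_neg {M : ℕ} {u : (ZMod M)ˣ} {D : F1 M ≃ₐ[Qb] F1 M} (h : IsDia M u D) :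
    IsDia M (-u) D := by
  refine ⟨h.1, fun b x hx => ?_⟩
  have e : (b * (-u)⁻¹ : (ZMod M)ˣ) = -(b * u⁻¹) := by rw [inv_neg, mul_neg]
  rw [h.2 b x hx, e, Units.val_neg, gq_neg]

/-- `⟨-u⟩ = ⟨u⟩` (unconditional). -/
theorem diaF1_neg : diaF1 M (-u) = diaF1 M u := by
  rcases Classical.em (∃ D : F1 M ≃ₐ[Qb] F1 M, IsDia M u D) with hu | hu
  · exact diaF1_eq (isDia_neg (isDia_diaF1 hu))
  · have hu' : ¬ ∃ D : F1 M ≃ₐ[Qb] F1 M, IsDia M (-u) D := by
      rintro ⟨D, hD⟩
      exact hu ⟨D, by simpa using isDia_neg hD⟩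
    rw [diaF1_eq_refl_of_not hu, diaF1_eq_refl_of_not hu']

/-- `⟨u⟩` fixes the `j(q^d)` (unconditional). -/
theorem diaF1_fix_div (x : F1 M)
    (hx : (x : LaurentSeries Qb) ∈ ⇑(coeffEmb Qb) '' divisorExpansions M) : diaF1 M u x = x := by
  rcases Classical.em (∃ D : F1 M ≃ₐ[Qb] F1 M, IsDia M u D) with hu | hu
  · exact (isDia_diaF1 hu).1 x hx
  · rw [diaF1_eq_refl_of_not hu]
    rfl

/-- `⟨u⟩⁻¹` maps generators to generators (unconditional). -/
theorem diaF1_symm_gens (s : LaurentSeries Qb) (hs : s ∈ gens1 M) :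
    ∃ (s' : LaurentSeries Qb) (hs' : s' ∈ gens1 M),
      (diaF1 M u).symm ⟨s, gens1_subset M hs⟩ = ⟨s', gens1_subset M hs'⟩ := by
  rcases Classical.em (∃ D : F1 M ≃ₐ[Qb] F1 M, IsDia M u D) with hu | hu
  · have hD := (isDia_diaF1 hu).symm
    rcases mem_gens1_cases hs with h1 | ⟨b, rfl⟩
    · exact ⟨s, hs, hD.1 _ h1⟩
    · exact ⟨_, gSeries_mem_gens1 M (b * u⁻¹⁻¹), Subtype.ext (hD.2 b _ rfl)⟩
  · refine ⟨s, hs, ?_⟩
    rw [diaF1_eq_refl_of_not hu]
    rfl

/-- `⟨u⟩` maps the image of `F1Q M` into itself (unconditional). -/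
theorem diaF1_embF (x : F1Q M) :
    ∃ y : F1Q M, diaF1 M u (embF (F1Q M) Qb x) = embF (F1Q M) Qb y := by
  refine preserves_embF_of_gens (E := Qb) (gens1Q M)
    ((diaF1 M u : F1 M ≃+* F1 M) : F1 M →+* F1 M) ?_ x
  intro s hs
  obtain ⟨_, ⟨t, ht, rfl⟩, h⟩ := diaF1_gens M u (coeffEmb Qb s) ⟨s, hs, rfl⟩
  exact ⟨⟨t, IntermediateField.subset_adjoin ℚ _ ht⟩, h⟩

theorem diaF1_symm_embF (x : F1Q M) :
    ∃ y : F1Q M, (diaF1 M u).symm (embF (F1Q M) Qb x) = embF (F1Q M) Qb y := by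
  refine preserves_embF_of_gens (E := Qb) (gens1Q M)
    (((diaF1 M u).symm : F1 M ≃+* F1 M) : F1 M →+* F1 M) ?_ x
  intro s hs
  obtain ⟨_, ⟨t, ht, rfl⟩, h⟩ := diaF1_symm_gens M u (coeffEmb Qb s) ⟨s, hs, rfl⟩
  exact ⟨⟨t, IntermediateField.subset_adjoin ℚ _ ht⟩, h⟩

end QbLevel

/-! ### The `E`-level diamond automorphisms -/

section Dia

variable (M : ℕ) (E : Type*) [Field E] [Algebra ℚ E] [Algebra E Qb]

/-- **The diamond automorphism `⟨u⟩` of the `E`-form** of the function field of `Γ₁(M)`: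
the descent of `diaF1 M u` along base change of constants. -/
def diaE (u : (ZMod M)ˣ) : LE1 M E ≃ₐ[E] LE1 M E :=
  descEquiv (F₀ := F1Q M) (E := E) (Ω := Qb) (diaF1 M u) (diaF1_embF M u) (diaF1_symm_embF M u)

variable {M E}

/-- **The defining property** (unconditional): `ρ (⟨u⟩_E z) = ⟨u⟩ (ρ z)`. -/
theorem rhoBC_diaE (u : (ZMod M)ˣ) (z : LE1 M E) :
    rhoBC (F1Q M) E Qb (diaE M E u z) = diaF1 M u (rhoBC (F1Q M) E Qb z) :=
  rhoBC_descEquiv _ _ _ z

theorem rhoBC_diaE_symm (u : (ZMod M)ˣ) (z : LE1 M E) :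
    rhoBC (F1Q M) E Qb ((diaE M E u).symm z) = (diaF1 M u).symm (rhoBC (F1Q M) E Qb z) :=
  rhoBC_descEquiv_symm _ _ _ z

theorem diaE_apply_eq (u : (ZMod M)ˣ) {z w : LE1 M E}
    (h : rhoBC (F1Q M) E Qb w = diaF1 M u (rhoBC (F1Q M) E Qb z)) : diaE M E u z = w :=
  rhoBC_injective (F1Q M) E Qb (by rw [rhoBC_diaE, h])

theorem diaE_one_apply (z : LE1 M E) : diaE M E 1 z = z :=
  diaE_apply_eq 1 (by rw [diaF1_one_apply])

theorem diaE_neg_one_apply (z : LE1 M E) : diaE M E (-1) z = z :=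
  diaE_apply_eq (-1) (by rw [diaF1_neg_one_apply])

/-- `⟨1⟩ = id` (unconditional). -/
theorem diaE_one : diaE M E 1 = AlgEquiv.refl := AlgEquiv.ext diaE_one_apply

/-- `⟨-1⟩ = id` (unconditional). -/
theorem diaE_neg_one : diaE M E (-1) = AlgEquiv.refl := AlgEquiv.ext diaE_neg_one_apply

/-- `⟨-u⟩ = ⟨u⟩` (unconditional). -/
theorem diaE_neg (u : (ZMod M)ˣ) : diaE M E (-u) = diaE M E u :=
  AlgEquiv.ext fun z => diaE_apply_eq (-u) (by rw [rhoBC_diaE, diaF1_neg])

/-- `⟨u⟩` fixes the `j(q^d)`, `d ∣ M` (unconditional). -/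
theorem diaE_jdE1 (u : (ZMod M)ˣ) (d : ℕ) [NeZero d] (hd : d ∣ M) :
    diaE M E u (jdE1 M E d hd) = jdE1 M E d hd :=
  diaE_apply_eq u (by rw [rhoBC_jdE1, diaF1_fix_div M u _ (coe_jElt_mem M d hd)])

theorem diaE_mul_apply {u v : (ZMod M)ˣ} (hu : ∃ D : F1 M ≃ₐ[Qb] F1 M, IsDia M u D)
    (hv : ∃ D : F1 M ≃ₐ[Qb] F1 M, IsDia M v D) (z : LE1 M E) :
    diaE M E (u * v) z = diaE M E u (diaE M E v z) :=
  diaE_apply_eq (u * v) (by rw [rhoBC_diaE, rhoBC_diaE, diaF1_mul_apply hu hv])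

theorem diaE_inv_apply {u : (ZMod M)ˣ} (hu : ∃ D : F1 M ≃ₐ[Qb] F1 M, IsDia M u D)
    (z : LE1 M E) : diaE M E u⁻¹ z = (diaE M E u).symm z :=
  diaE_apply_eq u⁻¹ (by rw [rhoBC_diaE_symm, diaF1_inv hu])

/-- **The diamonds on the generators**: `⟨u⟩ g_b = g_{b u⁻¹}`. -/
theorem diaE_gE1 {u : (ZMod M)ˣ} (hu : ∃ D : F1 M ≃ₐ[Qb] F1 M, IsDia M u D) (b : (ZMod M)ˣ) :
    diaE M E u (gE1 M E b) = gE1 M E (b * u⁻¹) :=
  diaE_apply_eq u (by rw [rhoBC_gE1, rhoBC_gE1, diaF1_gElt hu])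

/-- `⟨u⟩ g_1 = ⟨v⟩ g_1` iff `u = ± v`. -/
theorem diaE_gE1_eq_iff {u v : (ZMod M)ˣ} (hu : ∃ D : F1 M ≃ₐ[Qb] F1 M, IsDia M u D)
    (hv : ∃ D : F1 M ≃ₐ[Qb] F1 M, IsDia M v D) :
    diaE M E u (gE1 M E 1) = diaE M E v (gE1 M E 1) ↔ u = v ∨ u = -v := by
  rw [diaE_gE1 hu, diaE_gE1 hv, gE1_eq_iff, one_mul, one_mul]
  constructor
  · rintro (h | h)
    · exact Or.inl (inv_injective h.symm)
    · refine Or.inr (inv_injective ?_)
      rw [inv_neg, h, neg_neg]
  · rintro (h | h)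
    · exact Or.inl (by rw [h])
    · exact Or.inr (by rw [h, inv_neg, neg_neg])

/-! ### The diamonds fix the `Γ₀(M)`-field -/

variable (M E) in
/-- `diaE M E u` as a ring homomorphism. -/
def diaEHom (u : (ZMod M)ˣ) : LE1 M E →+* LE1 M E :=
  descAlgHom (F₀ := F1Q M) (E := E) (Ω := Qb) (diaF1 M u) (diaF1_embF M u)

theorem diaE_eq_hom (u : (ZMod M)ˣ) (z : LE1 M E) : diaE M E u z = diaEHom M E u z := rfl

theorem diaE_add (u : (ZMod M)ˣ) (a b : LE1 M E) :
    diaE M E u (a + b) = diaE M E u a + diaE M E u b := by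
  rw [diaE_eq_hom, diaE_eq_hom, diaE_eq_hom, map_add]

theorem diaE_mul' (u : (ZMod M)ˣ) (a b : LE1 M E) :
    diaE M E u (a * b) = diaE M E u a * diaE M E u b := by
  rw [diaE_eq_hom, diaE_eq_hom, diaE_eq_hom, map_mul]

theorem diaE_neg' (u : (ZMod M)ˣ) (a : LE1 M E) : diaE M E u (-a) = -diaE M E u a := by
  rw [diaE_eq_hom, diaE_eq_hom, map_neg]

theorem diaE_inv' (u : (ZMod M)ˣ) (a : LE1 M E) : diaE M E u a⁻¹ = (diaE M E u a)⁻¹ := by
  rw [diaE_eq_hom, diaE_eq_hom, map_inv₀]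

theorem diaE_ratCast (u : (ZMod M)ˣ) (c : ℚ) : diaE M E u (c : LE1 M E) = (c : LE1 M E) := by
  rw [diaE_eq_hom, map_ratCast]

/-- `⟨u⟩` fixes the image of `ℚ(j(q^d) : d ∣ M)` (unconditional). -/
theorem diaE_embF_of_mem_full (u : (ZMod M)ˣ) (x : LaurentSeries ℚ)
    (hx : x ∈ modularFunctionFieldFull M) :
    diaE M E u (embF (F1Q M) E ⟨x, full_le_F1Q M hx⟩)
      = embF (F1Q M) E ⟨x, full_le_F1Q M hx⟩ := by
  have key : ∀ (y : LaurentSeries ℚ)
      (_ : y ∈ IntermediateField.adjoin ℚ (divisorExpansions M)),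
      ∃ hy' : y ∈ F1Q M,
        diaE M E u (embF (F1Q M) E ⟨y, hy'⟩) = embF (F1Q M) E ⟨y, hy'⟩ := by
    intro y hy
    induction hy using IntermediateField.adjoin_induction with
    | mem s hs =>
      refine ⟨jqd_mem_aux M hs, diaE_apply_eq u ?_⟩
      rw [rhoBC_embF]
      exact (diaF1_fix_div M u _ ⟨s, hs, rfl⟩).symm
    | algebraMap c =>
      refine ⟨(F1Q M).algebraMap_mem c, ?_⟩
      have e : (⟨algebraMap ℚ (LaurentSeries ℚ) c, (F1Q M).algebraMap_mem c⟩ : F1Q M)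
          = ((c : ℚ) : F1Q M) :=
        Subtype.ext ((eq_ratCast (algebraMap ℚ (LaurentSeries ℚ)) c).trans
          (SubfieldClass.coe_ratCast (F1Q M) c).symm)
      rw [e, ← embFHom_apply, map_ratCast, diaE_ratCast]
    | add a b _ _ iha ihb =>
      obtain ⟨ha, iha⟩ := iha
      obtain ⟨hb, ihb⟩ := ihb
      refine ⟨add_mem ha hb, ?_⟩
      have e : (⟨a + b, add_mem ha hb⟩ : F1Q M) = ⟨a, ha⟩ + ⟨b, hb⟩ := rfl
      rw [e, ← embFHom_apply, map_add, embFHom_apply, embFHom_apply, diaE_add, iha, ihb]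
    | inv a _ iha =>
      obtain ⟨ha, iha⟩ := iha
      refine ⟨inv_mem ha, ?_⟩
      have e : (⟨a⁻¹, inv_mem ha⟩ : F1Q M) = (⟨a, ha⟩ : F1Q M)⁻¹ := rfl
      rw [e, ← embFHom_apply, map_inv₀, embFHom_apply, diaE_inv', iha]
    | mul a b _ _ iha ihb =>
      obtain ⟨ha, iha⟩ := iha
      obtain ⟨hb, ihb⟩ := ihb
      refine ⟨mul_mem ha hb, ?_⟩
      have e : (⟨a * b, mul_mem ha hb⟩ : F1Q M) = ⟨a, ha⟩ * ⟨b, hb⟩ := rfl
      rw [e, ← embFHom_apply, map_mul, embFHom_apply, embFHom_apply, diaE_mul', iha, ihb]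
  obtain ⟨_, h⟩ := key x hx
  exact h

/-- `⟨u⟩` fixes every element of the `E`-form whose expansion comes from
`ℚ(j(q^d) : d ∣ M)`. -/
theorem diaE_of_coe_mem_full (u : (ZMod M)ˣ) (z : LE1 M E) (x : LaurentSeries ℚ)
    (hx : x ∈ modularFunctionFieldFull M) (hz : (z : LaurentSeries E) = coeffEmb E x) :
    diaE M E u z = z := by
  have e : z = embF (F1Q M) E ⟨x, full_le_F1Q M hx⟩ := Subtype.ext hz
  rw [e]
  exact diaE_embF_of_mem_full u x hx

omit [Algebra ℚ E] [Algebra E Qb] in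
theorem coe_algebraMap_bc (S : IntermediateField E (LaurentSeries E)) (e : E) :
    ((algebraMap E S e : S) : LaurentSeries E) = algebraMap E (LaurentSeries E) e := rfl

/-- `⟨u⟩` fixes every element of `LE1 M E` whose expansion lies in `LE0 M E` (unconditional). -/
theorem diaE_of_coe_eq (u : (ZMod M)ˣ) (x : LE0 M E) :
    ∀ z : LE1 M E, (z : LaurentSeries E) = (x : LaurentSeries E) → diaE M E u z = z := by
  induction x using bc_induction with
  | hconst e =>
    intro z hz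
    have e1 : z = algebraMap E (LE1 M E) e :=
      Subtype.ext (hz.trans ((coe_algebraMap_bc (LE0 M E) e).trans
        (coe_algebraMap_bc (LE1 M E) e).symm))
    rw [e1]
    exact (diaE M E u).commutes e
  | hemb x =>
    intro z hz
    exact diaE_of_coe_mem_full u z (x : LaurentSeries ℚ) x.2
      (hz.trans (coe_embF (modularFunctionFieldFull M) E x))
  | hadd a b iha ihb =>
    intro z hz
    have e2 : ((IntermediateField.inclusion (LE0_le_LE1 M E) a
        + IntermediateField.inclusion (LE0_le_LE1 M E) b : LE1 M E) : LaurentSeries E)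
        = ((a + b : LE0 M E) : LaurentSeries E) := by
      rw [IntermediateField.coe_add, IntermediateField.coe_add, IntermediateField.coe_inclusion,
        IntermediateField.coe_inclusion]
    have e1 : z = IntermediateField.inclusion (LE0_le_LE1 M E) a
        + IntermediateField.inclusion (LE0_le_LE1 M E) b := Subtype.ext (hz.trans e2.symm)
    rw [e1, diaE_add, iha _ (IntermediateField.coe_inclusion _ a),
      ihb _ (IntermediateField.coe_inclusion _ b)]
  | hneg a iha =>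
    intro z hz
    have e2 : ((-IntermediateField.inclusion (LE0_le_LE1 M E) a : LE1 M E) : LaurentSeries E)
        = ((-a : LE0 M E) : LaurentSeries E) := by
      rw [IntermediateField.coe_neg, IntermediateField.coe_neg, IntermediateField.coe_inclusion]
    have e1 : z = -IntermediateField.inclusion (LE0_le_LE1 M E) a :=
      Subtype.ext (hz.trans e2.symm)
    rw [e1, diaE_neg', iha _ (IntermediateField.coe_inclusion _ a)]
  | hinv a iha =>
    intro z hz
    have e2 : (((IntermediateField.inclusion (LE0_le_LE1 M E) a)⁻¹ : LE1 M E) : LaurentSeries E)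
        = ((a⁻¹ : LE0 M E) : LaurentSeries E) := by
      rw [IntermediateField.coe_inv, IntermediateField.coe_inv, IntermediateField.coe_inclusion]
    have e1 : z = (IntermediateField.inclusion (LE0_le_LE1 M E) a)⁻¹ :=
      Subtype.ext (hz.trans e2.symm)
    rw [e1, diaE_inv', iha _ (IntermediateField.coe_inclusion _ a)]
  | hmul a b iha ihb =>
    intro z hz
    have e2 : ((IntermediateField.inclusion (LE0_le_LE1 M E) a
        * IntermediateField.inclusion (LE0_le_LE1 M E) b : LE1 M E) : LaurentSeries E)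
        = ((a * b : LE0 M E) : LaurentSeries E) := by
      rw [IntermediateField.coe_mul, IntermediateField.coe_mul, IntermediateField.coe_inclusion,
        IntermediateField.coe_inclusion]
    have e1 : z = IntermediateField.inclusion (LE0_le_LE1 M E) a
        * IntermediateField.inclusion (LE0_le_LE1 M E) b := Subtype.ext (hz.trans e2.symm)
    rw [e1, diaE_mul', iha _ (IntermediateField.coe_inclusion _ a),
      ihb _ (IntermediateField.coe_inclusion _ b)]

/-- **The diamonds fix the `Γ₀(M)`-field pointwise** (unconditional). -/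
theorem diaE_incl (u : (ZMod M)ˣ) (x : LE0 M E) :
    diaE M E u (IntermediateField.inclusion (LE0_le_LE1 M E) x)
      = IntermediateField.inclusion (LE0_le_LE1 M E) x :=
  diaE_of_coe_eq u x _ (IntermediateField.coe_inclusion _ x)

end Dia

/-! ### The diamonds as automorphisms over the `Γ₀(M)`-field; the family `σ` -/

section Family

variable (M : ℕ) (E : Type*) [Field E] [Algebra ℚ E] [Algebra E Qb]

attribute [local instance] algebraLE

/-- **The diamond `⟨u⟩` as an automorphism of `LE1 M E` over `LE0 M E`.** -/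
def diaEK (u : (ZMod M)ˣ) : LE1 M E ≃ₐ[LE0 M E] LE1 M E :=
  { (diaE M E u : LE1 M E ≃+* LE1 M E) with
    commutes' := fun x => diaE_incl u x }

variable {M E}

@[simp] theorem diaEK_apply (u : (ZMod M)ˣ) (z : LE1 M E) : diaEK M E u z = diaE M E u z := rfl

variable (M) in
/-- The index set of the diamond orbit: `(ℤ/M)ˣ / ±1`. -/
abbrev Idx : Type := (ZMod M)ˣ ⧸ Subgroup.zpowers (-1 : (ZMod M)ˣ)

variable (M) in
/-- A representative of a class of `(ℤ/M)ˣ / ±1`. -/
def rep (i : Idx M) : (ZMod M)ˣ := Quotient.out i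

theorem mk_rep (i : Idx M) : (QuotientGroup.mk (rep M i) : Idx M) = i :=
  QuotientGroup.out_eq' i

/-- The representatives are pairwise distinct modulo `±1` (the `hne` of `GqDisc.hdisc_gq_units`). -/
theorem rep_ne (i j : Idx M) (hij : i ≠ j) : rep M j ≠ rep M i ∧ rep M j ≠ -rep M i := by
  refine ⟨fun h => hij ?_, fun h => hij ?_⟩
  · rw [← mk_rep i, ← mk_rep j, h]
  · rw [← mk_rep i, ← mk_rep j, h]
    refine QuotientGroup.eq.mpr ?_
    have e : (rep M i)⁻¹ * -rep M i = -1 := by rw [mul_neg, inv_mul_cancel]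
    rw [e]
    exact Subgroup.mem_zpowers _

variable (M E) in
/-- **The family `σ`** of the tower lemma: `σ_i := ⟨(rep i)⁻¹⟩`, so that `σ_i g_1 = g_{rep i}`. -/
def sigma (i : Idx M) : LE1 M E ≃ₐ[LE0 M E] LE1 M E := diaEK M E (rep M i)⁻¹

theorem sigma_apply (i : Idx M) (z : LE1 M E) : sigma M E i z = diaE M E (rep M i)⁻¹ z := rfl

theorem sigma_gE1 (hex : ∀ u : (ZMod M)ˣ, ∃ D : F1 M ≃ₐ[Qb] F1 M, IsDia M u D) (i : Idx M) :
    sigma M E i (gE1 M E 1) = gE1 M E (rep M i) := by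
  rw [sigma_apply, diaE_gE1 (hex _), inv_inv, one_mul]

/-- The expansion of `σ_i g_1` is `gq M (rep i)` (the `hθ` of `GqDisc.hdisc_gq_units`). -/
theorem coe_sigma_gE1 (hex : ∀ u : (ZMod M)ˣ, ∃ D : F1 M ≃ₐ[Qb] F1 M, IsDia M u D) (i : Idx M) :
    ((sigma M E i (gE1 M E 1) : LE1 M E) : LaurentSeries E)
      = coeffEmb E (gq M ((rep M i : (ZMod M)ˣ) : ZMod M)) := by
  rw [sigma_gE1 hex, coe_gE1]

theorem sigma_injective (hex : ∀ u : (ZMod M)ˣ, ∃ D : F1 M ≃ₐ[Qb] F1 M, IsDia M u D) :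
    Function.Injective (sigma M E) := by
  intro i j h
  by_contra hij
  have h1 : sigma M E i (gE1 M E 1) = sigma M E j (gE1 M E 1) := by rw [h]
  rw [sigma_gE1 hex, sigma_gE1 hex, gE1_eq_iff] at h1
  obtain ⟨h2, h3⟩ := rep_ne i j hij
  rcases h1 with h1 | h1
  · exact h2 h1
  · exact h3 h1

/-- **`|(ℤ/M)ˣ/±1| ≤ [LE1 : LE0]`**: the lower bound of the degree, from the diamonds. -/
theorem card_idx_le_finrank [FiniteDimensional (LE0 M E) (LE1 M E)]
    (hex : ∀ u : (ZMod M)ˣ, ∃ D : F1 M ≃ₐ[Qb] F1 M, IsDia M u D) :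
    Nat.card (Idx M) ≤ Module.finrank (LE0 M E) (LE1 M E) :=
  card_le_finrank_of_injective (sigma M E) (sigma_injective hex)

/-- **`hcard`**: given the upper bound of the degree (row K.1), `[LE1 : LE0] = |(ℤ/M)ˣ/±1|`. -/
theorem finrank_eq_card_idx [FiniteDimensional (LE0 M E) (LE1 M E)]
    (hex : ∀ u : (ZMod M)ˣ, ∃ D : F1 M ≃ₐ[Qb] F1 M, IsDia M u D)
    (hdeg : Module.finrank (LE0 M E) (LE1 M E) ≤ Nat.card (Idx M)) :
    Nat.card (Idx M) = Module.finrank (LE0 M E) (LE1 M E) :=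
  card_eq_finrank_of_injective (sigma M E) (sigma_injective hex) hdeg

/-- **`hcard`** in the literal shape of `GaussTower.gaussTSD_of_tower'`. -/
theorem fintype_card_idx_eq_finrank [Fintype (Idx M)] [FiniteDimensional (LE0 M E) (LE1 M E)]
    (hex : ∀ u : (ZMod M)ˣ, ∃ D : F1 M ≃ₐ[Qb] F1 M, IsDia M u D)
    (hdeg : Module.finrank (LE0 M E) (LE1 M E) ≤ Nat.card (Idx M)) :
    Fintype.card (Idx M) = Module.finrank (LE0 M E) (LE1 M E) := by
  rw [← Nat.card_eq_fintype_card]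
  exact finrank_eq_card_idx hex hdeg

omit [Algebra ℚ E] [Algebra E Qb] in
variable (M) in
theorem finite_idx [NeZero M] : Finite (Idx M) := inferInstance

/-- Given the degree, `LE1 M E` is Galois over `LE0 M E` (with group the diamonds). -/
theorem isGalois_LE1 [FiniteDimensional (LE0 M E) (LE1 M E)]
    (hex : ∀ u : (ZMod M)ˣ, ∃ D : F1 M ≃ₐ[Qb] F1 M, IsDia M u D)
    (hdeg : Module.finrank (LE0 M E) (LE1 M E) ≤ Nat.card (Idx M)) :
    IsGalois (LE0 M E) (LE1 M E) :=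
  isGalois_of_injective_of_card (sigma M E) (sigma_injective hex) hdeg

/-- Every automorphism of `LE1 M E` over `LE0 M E` is a diamond. -/
theorem sigma_surjective [FiniteDimensional (LE0 M E) (LE1 M E)]
    (hex : ∀ u : (ZMod M)ˣ, ∃ D : F1 M ≃ₐ[Qb] F1 M, IsDia M u D)
    (hdeg : Module.finrank (LE0 M E) (LE1 M E) ≤ Nat.card (Idx M)) :
    Function.Surjective (sigma M E) :=
  surjective_of_injective_of_card (sigma M E) (sigma_injective hex) hdeg

/-- **The fixed field of the diamonds is the `Γ₀(M)`-field.** -/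
theorem exists_incl_eq_of_fixed [FiniteDimensional (LE0 M E) (LE1 M E)]
    (hex : ∀ u : (ZMod M)ˣ, ∃ D : F1 M ≃ₐ[Qb] F1 M, IsDia M u D)
    (hdeg : Module.finrank (LE0 M E) (LE1 M E) ≤ Nat.card (Idx M))
    (x : LE1 M E) (hx : ∀ u : (ZMod M)ˣ, diaE M E u x = x) :
    ∃ y : LE0 M E, IntermediateField.inclusion (LE0_le_LE1 M E) y = x :=
  exists_algebraMap_eq_of_fixed (sigma M E) (sigma_injective hex) hdeg x fun _ => hx _

/-- **The coefficients of `∏ i, (X - σ_i θ)` lie in the `Γ₀(M)`-field.** -/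
theorem coeff_prod_sigma [Fintype (Idx M)] [FiniteDimensional (LE0 M E) (LE1 M E)]
    (hex : ∀ u : (ZMod M)ˣ, ∃ D : F1 M ≃ₐ[Qb] F1 M, IsDia M u D)
    (hdeg : Module.finrank (LE0 M E) (LE1 M E) ≤ Nat.card (Idx M)) (θ : LE1 M E) (k : ℕ) :
    ∃ y : LE0 M E, IntermediateField.inclusion (LE0_le_LE1 M E) y
      = (∏ i, (X - C (sigma M E i θ))).coeff k :=
  exists_algebraMap_eq_coeff_prod (sigma M E) (sigma_injective hex) hdeg θ k

end Family

end Fermat.Agent.S48.G1.K1.DiaE
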