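/-
PROGRAM DS (S48), part G1, AREA K (K1 side, layer L4) — THE BRICK INTERFACE (sub-captain helper289).
Statement-only file: one `Prop` per row `DS.G1.K.<n>` of the team `tasks` table.  Owners prove
`theorem foo : Bricks.Foo …` in THEIR OWN file (importing this one); nobody edits this file
except helper289.

EXIT of the area (consumed by AREA ES / P):  `K1_1 M` and `Gauss1 M`  (for `F1 M`, the function
field of `Γ₁(M)` of `F1/Defs.lean`), from the function-field inputs `FIn.*` of AREA F.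

ROUTE (level-free engine = `S18.K1Main.k1E_of_inputs_tsd`), for `A` over `ℓ ∤ M`, `p ≠ ℓ`:
* base `u = j`, TOWER `E(j) ⊆ K₁ = F₀(M)·E ⊆ L = F₁(M)·E`:
  (i)  Gauss prime: lower layer = landed `E2.G`; `π` prime in the integral closure of `O[j]` in
       `K₁` (Model theorem (a) for `K₁`, landed inputs); upper layer = the family `g^k`
       (`g = g_1`), whose conjugates over `K₁` are the diamond translates `g_u` (`FIn.Dia`), with
       pairwise distinct reductions (`F1/GqLead`); glue = `K1/TowerTSD.tsdField_of_tower_family`.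
  (ii) horizontal: `HorizOfEmb.horizUnram_of_holEmb` with the coset realisations `FIn.HolEmb`,
       `S = {0, 1728}` (unit difference iff `ℓ > 3`).
* `ℓ = 3` (`r = 2`) and `ℓ = 2` (`r = 3`): base = the Hauptmodul `h_r` of `Γ₀(r)` at a level
  divisible by `r` (`HorizOfEmbRel.horizUnram_two/three`, same tower), and norm descent
  `F₁(M r) → F₁(M)` of degree `r² - 1` (prime to `p`) when `r ∤ M` (`FIn.Incl`).
* bridge `ℚ̄ ↔` number fields: generic twins of `S18.K1Top`, `E4.K1Adapt`, `E4.K1Prime`,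
  `E4.GaussNorm` for an arbitrary `F₀ ⊆ ℚ((q))`.
-/
import Mathlib
import Fermat.Agent.S48.G1.F1.Defs
import Fermat.Agent.S48.G1.F1.DiaDefs
import Fermat.Agent.S18.K1Defs
import Fermat.Agent.S18.K1Main.JBase
import Fermat.Agent.S30.Congr
import Fermat.Agent.S30.GaussDescent
import Fermat.Agent.S24.JHol
import Fermat.Agent.S24.Theta

set_option autoImplicit false

noncomputable section

open ModularCurve AlgebraicCurve IntermediateField
open Fermat.Agent.S30 Fermat.Agent.S18.K1Defs Fermat.Agent.S18.K1Main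
open Fermat.Agent.S24.HolH Fermat.Agent.S24.JHol Fermat.Agent.S24.Theta
open Fermat.Agent.S48.G1.F1

namespace Fermat.Agent.S48.G1.K1.Bricks

local notation "Qb" => AlgebraicClosure ℚ

/-! ## 1. Exit shapes, generic in the function field `F ⊆ ℚ̄((q))` -/

/-- **(K1)**, function form (the shape of `S30.E4.K1`), for an arbitrary subfield `F` of
`ℚ̄((q))`: a quotient `U / W` of two `A`-integral `q`-series of `F` with the same nonzero
reduction and divisor divisible by `m` (`ℓ ∤ m`) is an `m`-th power in `F`. -/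
def K1F (F : IntermediateField Qb (LaurentSeries Qb)) (ℓ : ℕ) (A : ValuationSubring Qb) : Prop :=
  ∀ m : ℕ, ¬ ℓ ∣ m → ∀ (U W : LaurentSeries A)
    (hU : Congr.incl A U ∈ F) (hW : Congr.incl A W ∈ F),
    Congr.red A U = Congr.red A W → Congr.red A U ≠ 0 →
    (∀ P : Place Qb F, (m : ℤ) ∣ P.ord (⟨_, hU⟩ : F) - P.ord (⟨_, hW⟩ : F)) →
    ∃ H : F, Congr.incl A U = (H : LaurentSeries Qb) ^ m * Congr.incl A W

/-- Gauss normalisation (the shape of `S30.E4.HasGaussNorm`) for an arbitrary `F`. -/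
def HasGaussNormF (F : IntermediateField Qb (LaurentSeries Qb)) (A : ValuationSubring Qb) :
    Prop :=
  ∀ f : F, f ≠ 0 → ∃ (c : Qb) (P Q : LaurentSeries A)
    (hP : Congr.incl A P ∈ F) (hQ : Congr.incl A Q ∈ F),
    c ≠ 0 ∧ Congr.red A P ≠ 0 ∧ Congr.red A Q ≠ 0 ∧
      f * (⟨_, hQ⟩ : F) = algebraMap Qb F c * (⟨_, hP⟩ : F)

/-- The function form of the Kummer statement at one exponent `p`, up to a constant (the shape
of `S30.E4.FunAt`) for an arbitrary `F`. -/
def FunAtF (F : IntermediateField Qb (LaurentSeries Qb)) (A : ValuationSubring Qb) (p : ℕ) :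
    Prop :=
  ∀ (U W : LaurentSeries A) (hU : Congr.incl A U ∈ F) (hW : Congr.incl A W ∈ F),
    Congr.red A U = Congr.red A W → Congr.red A U ≠ 0 →
    (∀ P : Place Qb F, (p : ℤ) ∣ P.ord (⟨_, hU⟩ : F) - P.ord (⟨_, hW⟩ : F)) →
    ∃ (c : Qb) (H : F), c ≠ 0 ∧
      (⟨Congr.incl A U, hU⟩ : F) = algebraMap Qb F c * H ^ p * (⟨Congr.incl A W, hW⟩ : F)

/-- The `E`-level Kummer statement over every sufficiently large number field (the shape of
`S18.K1Defs.K1Modular`) for an arbitrary `F₀ ⊆ ℚ((q))`. -/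
def K1ModularF (F₀ : IntermediateField ℚ (LaurentSeries ℚ)) (A : ValuationSubring Qb) (p : ℕ) :
    Prop :=
  ∃ S : Finset Qb,
    ∀ (E : IntermediateField ℚ Qb) [FiniteDimensional ℚ E] [IsDiscreteValuationRing (OE A E)],
      (∀ s ∈ S, s ∈ E) → K1E (OE A E) E (laurentBaseChange E F₀) p

/-- **EXIT 1 of AREA K** (= `Bricks1.K1_1`): `(K1)` for `F1 M` at every prime `q ∤ M`. -/
def K1_1 (M : ℕ) : Prop :=
  ∀ q : ℕ, q.Prime → ¬ q ∣ M → ∀ A : ValuationSubring Qb, A.LiesOverPrime q → K1F (F1 M) q A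

/-- **EXIT 2 of AREA K** (= `Bricks1.Gauss1`): Gauss normalisation in `F1 M` at every prime. -/
def Gauss1 (M : ℕ) : Prop :=
  ∀ q : ℕ, q.Prime → ∀ A : ValuationSubring Qb, A.LiesOverPrime q → HasGaussNormF (F1 M) A

/-! ## 2. Generic bridge rows (no modular input; ports of landed S18 / E4 files) -/

/-- **(K.1) BridgeFun** — generic twin of `S18.K1Top.fun_form_of_inputs` +
`E4.K1Bridge.{dvrDescent, coefDescent, placeDescent}`: the function form over `ℚ̄` from the
`E`-level statement, for any `F₀` made of fractions of integral series. -/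
def BridgeFun : Prop :=
  ∀ F₀ : IntermediateField ℚ (LaurentSeries ℚ), (∀ z ∈ F₀, GaussDescent.IntFrac z) →
    ∀ ℓ : ℕ, ℓ.Prime → ∀ A : ValuationSubring Qb, A.LiesOverPrime ℓ → ∀ p : ℕ,
      K1ModularF F₀ A p → FunAtF (laurentBaseChange Qb F₀) A p

/-- **(K.2) BridgeK1** — generic twin of `E4.K1Adapt.k1_of_funAt` (+ `E4.K1Prime.k1_of_k1p`):
`(K1)` at all exponents prime to `ℓ` from the function form at the primes `p ≠ ℓ` and the Gauss
normalisation. -/
def BridgeK1 : Prop :=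
  ∀ (F : IntermediateField Qb (LaurentSeries Qb)) (ℓ : ℕ), ℓ.Prime →
    ∀ A : ValuationSubring Qb, A.LiesOverPrime ℓ → HasGaussNormF F A →
      (∀ p : ℕ, p.Prime → p ≠ ℓ → FunAtF F A p) → K1F F ℓ A

/-- **(K.3) GaussGen** — generic twin of `E4.GaussNorm.hasGaussNorm`: Gauss normalisation in
`ℚ̄ · ℚ(S)` for any set `S` of series with integer coefficients. -/
def GaussGen : Prop :=
  ∀ S : Set (LaurentSeries ℚ),
    (∀ z ∈ S, ∃ a : LaurentSeries ℤ, coeffMap (Int.castRingHom ℚ) a = z) →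
    ∀ ℓ : ℕ, ℓ.Prime → ∀ A : ValuationSubring Qb, A.LiesOverPrime ℓ →
      HasGaussNormF (laurentBaseChange Qb (IntermediateField.adjoin ℚ S)) A

/-- **(K.3') IntGens1** — the generators of `F1Q M` have integer coefficients (so `GaussGen`
gives `Gauss1 M`, and `GaussDescent.intFrac_of_mem_adjoin` gives the hypothesis of
`BridgeFun`). -/
def IntGens1 (M : ℕ) : Prop :=
  ∀ z ∈ gens1Q M, ∃ a : LaurentSeries ℤ, coeffMap (Int.castRingHom ℚ) a = z

/-! ## 3. The `E`-level objects and the Model inputs -/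

/-- The function field of `Γ₁(M)` with constant field `E`, inside `E((q))`. -/
abbrev L1 (M : ℕ) (E : Type*) [Field E] [Algebra ℚ E] : IntermediateField E (LaurentSeries E) :=
  laurentBaseChange E (F1Q M)

/-- `j` as an element of `F1Q M`. -/
def jQ1 (M : ℕ) : F1Q M :=
  ⟨jq, by have h := jqd_mem_F1Q M (one_dvd M); rwa [qExpand_one_apply] at h⟩

/-- `j` as an element of `L1 M E` (underlying series `coeffEmb E jq`). -/
def jE1 (M : ℕ) (E : Type*) [Field E] [Algebra ℚ E] : L1 M E :=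
  ⟨coeffEmb E jq, coeffEmb_mem_laurentBaseChange E (jQ1 M).2⟩

/-- **The inputs of the Model theorem** (trace-self-duality form) for a subfield `L ⊆ E((q))`
over the fraction field `E` of a discrete valuation ring `O`, with the canonical `O`-algebra
structure `algebraOL`: a base `u ∈ L` which is an integral series with a pole modulo the
maximal ideal, a finite set `S ⊆ O` of branch values with pairwise unit differences,
`L / E(u)` finite, hypotheses (i) `GaussTSD` and (ii) `HorizTSD S`.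
(Generic twin of `S18.K1Main.BaseInputsTSDC`.) -/
def BaseTSD (O E : Type) [CommRing O] [IsDomain O] [IsDiscreteValuationRing O] [Field E]
    [CharZero E] [Algebra O E] [IsFractionRing O E]
    (L : IntermediateField E (LaurentSeries E)) : Prop :=
  letI := algebraOL O E L
  haveI := isScalarTower_OL O E L
  ∃ (u : L) (uO : LaurentSeries O) (S : Finset O),
    (u : LaurentSeries E) = GaussDVR.iota O E uO ∧
    (GaussDVR.rho O uO).order < 0 ∧
    (∀ c ∈ S, ∀ c' ∈ S, c ≠ c' → IsUnit (c - c')) ∧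
    FiniteDimensional (IntermediateField.adjoin E {u}) L ∧
    (∀ π : O, Irreducible π → Model.GaussTSD (E := E) π u) ∧
    Model.HorizTSD (E := E) S u

/-- The Model inputs hold for `F₀ · E` over every sufficiently large number field `E ⊆ ℚ̄`. -/
def ModelIn (F₀ : IntermediateField ℚ (LaurentSeries ℚ)) (A : ValuationSubring Qb) : Prop :=
  ∃ S₀ : Finset Qb,
    ∀ (E : IntermediateField ℚ Qb) [FiniteDimensional ℚ E] [IsDiscreteValuationRing (OE A E)],
      (∀ s ∈ S₀, s ∈ E) → BaseTSD (OE A E) E (laurentBaseChange E F₀)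

/-- **(K.4) BridgeModel** — generic twin of `S18.K1Main.k1Modular_of_baseInputsTSD`
(`k1E_of_inputs_tsd` + `S18.LocPow.locPow_of_dvd_ord` + roots of unity in `E`). -/
def BridgeModel : Prop :=
  ∀ F₀ : IntermediateField ℚ (LaurentSeries ℚ), (∀ z ∈ F₀, GaussDescent.IntFrac z) →
    ∀ ℓ : ℕ, ℓ.Prime → ∀ A : ValuationSubring Qb, A.LiesOverPrime ℓ →
      ∀ p : ℕ, p.Prime → p ≠ ℓ → ModelIn F₀ A → K1ModularF F₀ A p

/-! ## 4. The function-field inputs (deliverables of AREA F, consumed here as hypotheses) -/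

namespace FIn

/-- (F.3) the diamond automorphisms exist. -/
def Dia (M : ℕ) : Prop := ∀ u : (ZMod M)ˣ, ∃ D : F1 M ≃ₐ[Qb] F1 M, IsDia M u D

/-- The number of diamond classes `(ℤ/M)ˣ / ±1`. -/
def hCard (M : ℕ) : ℕ := Nat.card ((ZMod M)ˣ ⧸ Subgroup.zpowers (-1 : (ZMod M)ˣ))

/-- (F.1 + F.2) the coset realisations over the `j`-line: `ψ(M) · |(ℤ/M)ˣ/±1|` pairwise
distinct ring homomorphisms `F1 M → Frac(HolH)` (pull-backs by coset representatives of
`±Γ₁(M) \ SL₂(ℤ)`), `iotaBar` on constants, `j ↦ j`, and `[F1 M : ℚ̄(j)]` is at most their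
number.  (Exactly the hypotheses of `HorizOfEmb.horizUnram_of_holEmb` at `E = ℚ̄`.) -/
def HolEmb (M : ℕ) : Prop :=
  ∃ (I : Type) (_ : Fintype I) (ρ : I → F1 M →+* FractionRing HolH),
    Function.Injective ρ ∧
    (∀ i a, ρ i (algebraMap Qb (F1 M) a) =
      algebraMap HolH (FractionRing HolH) (algebraMap ℂ HolH (iotaBar a))) ∧
    (∀ i, ρ i (Dia.jElt M 1 (one_dvd M)) = algebraMap HolH (FractionRing HolH) jHol) ∧
    Fintype.card I = dedekindPsi M * hCard M ∧
    FiniteDimensional Qb⟮Dia.jElt M 1 (one_dvd M)⟯ (F1 M) ∧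
    Module.finrank Qb⟮Dia.jElt M 1 (one_dvd M)⟯ (F1 M) ≤ Fintype.card I

/-- (F.1) the generators `g_b` are integral over `ℚ[j]` (they are holomorphic on `ℍ`; the
polynomial is `∏ₓ (X - g_b ∘ γₓ)`, descended to `ℚ` by linear algebra). -/
def Int (M : ℕ) : Prop :=
  ∀ b : (ZMod M)ˣ, ∃ P : Polynomial (Polynomial ℚ), P.Monic ∧
    P.eval₂ (Polynomial.eval₂RingHom (HahnSeries.C : ℚ →+* LaurentSeries ℚ) jq)
      (gq M (b : ZMod M)) = 0

/-- (F.2, dictionary) level monotonicity: the function field of `Γ₁(M)` is contained in that of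
`Γ₁(M r)` (`g_b` of level `M` is `Γ₁(M r)`-invariant with rational `q`-expansion). -/
def Incl (M r : ℕ) : Prop := F1Q M ≤ F1Q (M * r)

end FIn

/-! ## 5. The modular rows of AREA K -/

/-- **(K.5a) DescMem** — descent of membership (linear disjointness, `E2.Degree.Abs.dualMap`):
a series over `E` whose base change to `ℚ̄` lies in `ℚ̄ · F₀` lies in `E · F₀`. -/
def DescMem : Prop :=
  ∀ (F₀ : IntermediateField ℚ (LaurentSeries ℚ)) (E : IntermediateField ℚ Qb)
    (y : LaurentSeries E), coeffMap (algebraMap E Qb) y ∈ laurentBaseChange Qb F₀ →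
      y ∈ laurentBaseChange E F₀

/-- **(K.5b) DiaE** — the diamond automorphisms over every intermediate field `E ⊆ ℚ̄`
(from `FIn.Dia`, `F1.diaF1_galF1` and `DescMem`): an `E`-automorphism of `L1 M E` fixing the
subfield `LE M E = F₀(M)·E` pointwise and sending `g_b` to `g_{b u⁻¹}`. -/
def DiaE (M : ℕ) : Prop :=
  FIn.Dia M → ∀ (E : IntermediateField ℚ Qb) (u : (ZMod M)ˣ),
    ∃ D : L1 M E ≃ₐ[E] L1 M E,
      (∀ x : L1 M E, (x : LaurentSeries E) ∈ LE M E → D x = x) ∧
      ∀ (b : (ZMod M)ˣ) (x : L1 M E), (x : LaurentSeries E) = coeffEmb E (gq M (b : ZMod M)) →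
        ((D x : L1 M E) : LaurentSeries E) =
          coeffEmb E (gq M ((b * u⁻¹ : (ZMod M)ˣ) : ZMod M))

/-- **(K.5c) DegE** — the degree over `E(j)` for every intermediate field `E ⊆ ℚ̄`
(from `FIn.HolEmb`, `HorizOfEmb.finrank_eq_card` and `E2.Degree.Abs`). -/
def DegE (M : ℕ) : Prop :=
  FIn.HolEmb M → ∀ E : IntermediateField ℚ Qb,
    FiniteDimensional (IntermediateField.adjoin E {jE1 M E}) (L1 M E) ∧
    Module.finrank (IntermediateField.adjoin E {jE1 M E}) (L1 M E) =
      dedekindPsi M * FIn.hCard M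

/-- **(K.5) GaussJ** — hypothesis (i) over the `j`-line for `L1 M E`, `ℓ ∤ M`, `ℓ > 3`, by the
tower `E(j) ⊆ F₀(M)·E ⊆ F₁(M)·E` (`K1/GaussTower.gaussTSD_of_tower` + `K1/GqDisc.hdisc_gq`;
lower layer and `π` prime in the integral closure of `O[j]` in `F₀(M)·E` from the landed
`Γ₀(M)` inputs; `g_1` integral over `O[j]` by `FIn.Int` and the `q`-expansion principle). -/
def GaussJ (M : ℕ) : Prop :=
  FIn.Dia M → FIn.HolEmb M → FIn.Int M →
    ∀ ℓ : ℕ, ℓ.Prime → 3 < ℓ → ¬ ℓ ∣ M → ∀ A : ValuationSubring Qb, A.LiesOverPrime ℓ →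
      ∃ S₀ : Finset Qb, ∀ (E : IntermediateField ℚ Qb) [FiniteDimensional ℚ E]
        [IsDiscreteValuationRing (OE A E)], (∀ s ∈ S₀, s ∈ E) →
          letI := algebraOL (OE A E) E (L1 M E)
          FiniteDimensional (IntermediateField.adjoin E {jE1 M E}) (L1 M E) ∧
          ∀ π : OE A E, Irreducible π → Model.GaussTSD (E := E) π (jE1 M E)

/-- **(K.6) HorizJ** — hypothesis (ii) over the `j`-line for `L1 M E`, branch values `0, 1728`
(`HorizOfEmb.horizUnram_of_holEmb` + restriction of the realisations to `E`). -/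
def HorizJ (M : ℕ) : Prop :=
  FIn.HolEmb M →
    ∀ (E : IntermediateField ℚ Qb) [FiniteDimensional ℚ E] (O : Type) [CommRing O]
      [Algebra O E] (S : Finset O),
      (∃ c ∈ S, algebraMap O E c = 0) → (∃ c ∈ S, algebraMap O E c = 1728) →
        letI := algebraOL O E (L1 M E)
        haveI := isScalarTower_OL O E (L1 M E)
        FiniteDimensional (IntermediateField.adjoin E {jE1 M E}) (L1 M E) ∧
        Model.HorizUnram (E := E) S (jE1 M E)

/-- **(K.7) ModelJ** — the Model inputs with base `j` at residue characteristic `ℓ > 3`. -/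
def ModelJ (M : ℕ) : Prop :=
  FIn.Dia M → FIn.HolEmb M → FIn.Int M →
    ∀ ℓ : ℕ, ℓ.Prime → 3 < ℓ → ¬ ℓ ∣ M → ∀ A : ValuationSubring Qb, A.LiesOverPrime ℓ →
      ModelIn (F1Q M) A

/-- **(K.8) ModelH** — the Model inputs with the Hauptmodul of `Γ₀(r)` as base, at a level
divisible by `r`, for `(ℓ, r) = (3, 2)` and `(2, 3)`. -/
def ModelH (M : ℕ) : Prop :=
  FIn.Dia M → FIn.HolEmb M → FIn.Int M →
    ∀ ℓ r : ℕ, (ℓ = 3 ∧ r = 2) ∨ (ℓ = 2 ∧ r = 3) → r ∣ M → ¬ ℓ ∣ M →
      ∀ A : ValuationSubring Qb, A.LiesOverPrime ℓ → ModelIn (F1Q M) A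

/-- **(K.9) AuxDesc** — norm descent from level `M r` to level `M` (`r` prime, `r ∤ M`,
degree `r² - 1` prime to `p`; `S18.K1Norm.k1E_of_le`). -/
def AuxDesc (M r : ℕ) : Prop :=
  3 ≤ M → r.Prime → ¬ r ∣ M → FIn.Incl M r → FIn.HolEmb M → FIn.HolEmb (M * r) →
    ∀ (A : ValuationSubring Qb) (p : ℕ), p.Prime → Nat.Coprime p (r ^ 2 - 1) →
      K1ModularF (F1Q (M * r)) A p → K1ModularF (F1Q M) A p

/-- **(K.10) Exit** — the assembly: `K1_1 M` for `3 ≤ M` from the function-field inputs at the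
levels `M`, `2 M`, `3 M`. -/
def Exit (M : ℕ) : Prop :=
  3 ≤ M →
    (∀ M' : ℕ, M' = M ∨ M' = M * 2 ∨ M' = M * 3 → FIn.Dia M' ∧ FIn.HolEmb M' ∧ FIn.Int M') →
    FIn.Incl M 2 → FIn.Incl M 3 → K1_1 M

end Fermat.Agent.S48.G1.K1.Bricks
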