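import Mathlib
import Fermat.Agent.S18.K1Main.Generic
import Fermat.Agent.S18.K1Main.ModelThm
import Fermat.Agent.S18.K1Main.JBase
import Fermat.Agent.S18.LocPow
import Fermat.Agent.S30.Haupt.BaseChange
import Fermat.Agent.S48.G1.HauptK1Gen

/-!
# PROGRAM DS (S48) / G1, area K: the level-free cores of `(K1E)` in trace-self-duality form

For a discrete valuation ring `O` with fraction field `E` (characteristic zero) and ANY subfield
`L ⊆ E((q))` containing `jL` (series `coeffEmb E jq`), the statement `K1E O E L p` from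

* `hfrac` (elements of `L` are fractions of `O`-integral series),
* `[L : E(jL)] < ∞`,
* hypothesis (i) in TSD form AT THE BASE `j`: `∀ π, Irreducible π → Model.GaussTSD π jL`
  (this is what the tower `K1/GaussTower.gaussTSD_of_tower'` produces, at every residue
  characteristic),
* hypothesis (ii) in family form at the base actually used:
  - `k1E_j_tsd` : base `j`, branch values `0, 1728` (needs `1728 ∈ Oˣ`, residue char `> 3`);
  - `k1E_two_tsd` : base `h₂` (series `(coeffEmb E s₂)⁻¹`), branch values `0, -64`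
    (needs `2 ∈ Oˣ`; used at residue characteristic `3`);
  - `k1E_three_tsd` : base `h₃`, branch values `0, -27` (needs `3 ∈ Oˣ`; residue char `2`).

The passage `j → h_r` of hypothesis (i) is the landed `S30/Haupt/BaseChange.level_two/_three`;
`LocPow` is the landed generic `S18.LocPow.locPow_of_dvd_ord`.  TSD twins of
`S18.K1Main.k1E_of_jInputs` and of `S48/G1/HauptK1Gen.k1E_two/_three`.
-/

set_option autoImplicit false
set_option linter.unusedSectionVars false
set_option linter.style.haveILetI false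

open ModularCurve AlgebraicCurve Polynomial

noncomputable section

namespace Fermat.Agent.S48.G1.K1.CoreTSD

open Fermat.Agent.S18.K1Defs Fermat.Agent.S18.K1Main Fermat.Agent.S30
open Fermat.Agent.S48.G1.HauptK1Gen

variable {O E : Type} [CommRing O] [IsDomain O] [IsDiscreteValuationRing O]
  [Field E] [CharZero E] [Algebra ℚ E] [Algebra O E] [IsFractionRing O E]
  (L : IntermediateField E (LaurentSeries E)) [Algebra O L] [IsScalarTower O E L]

/-- The branch set `{0, 1728}` of `j` has unit differences as soon as `1728` is a unit. -/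
theorem unit_diff_j [DecidableEq O] (h1728 : IsUnit (1728 : O)) :
    ∀ c ∈ ({0, 1728} : Finset O), ∀ c' ∈ ({0, 1728} : Finset O), c ≠ c' → IsUnit (c - c') := by
  intro c hc c' hc' hne
  simp only [Finset.mem_insert, Finset.mem_singleton] at hc hc'
  rcases hc with rfl | rfl <;> rcases hc' with rfl | rfl
  · exact absurd rfl hne
  · rw [zero_sub]; exact h1728.neg
  · rw [sub_zero]; exact h1728
  · exact absurd rfl hne

/-- `1728 = 2⁶ · 3³` is a unit as soon as `2` and `3` are. -/
theorem isUnit_1728 (h2 : IsUnit (2 : O)) (h3 : IsUnit (3 : O)) : IsUnit (1728 : O) := by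
  have : (1728 : O) = 2 ^ 6 * 3 ^ 3 := by norm_num
  rw [this]
  exact (h2.pow 6).mul (h3.pow 3)

/-- **`(K1E)` over the base `j`, TSD form of hypothesis (i), general branch set.** -/
theorem k1E_j_tsd_of_horiz
    (hfrac : ∀ x : L, (x : LaurentSeries E) ∈ GaussDVR.fracField O E)
    (jL : L) (hj : (jL : LaurentSeries E) = coeffEmb E jq)
    [FiniteDimensional (IntermediateField.adjoin E {jL}) L]
    (hgauss : ∀ π : O, Irreducible π → Model.GaussTSD (E := E) π jL)
    (S : Finset O) (hS : ∀ c ∈ S, ∀ c' ∈ S, c ≠ c' → IsUnit (c - c'))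
    (hhoriz : Model.HorizUnram (E := E) S jL)
    (p : ℕ) (hp : p.Prime) (hpO : IsUnit (p : O)) (ζ : O) (hζ : IsPrimitiveRoot ζ p) :
    K1E O E L p := by
  classical
  obtain ⟨π, hπ⟩ := IsDiscreteValuationRing.exists_irreducible O
  have hT : Transcendental E jL := transcendental_j L jL hj
  have hjO : (jL : LaurentSeries E) = GaussDVR.iota O E (jqModC O) := by
    rw [hj]; exact coeffEmb_jq_eq_iota (O := O) (E := E)
  exact k1E_of_inputs_tsd L hfrac π hπ jL (jqModC O) hjO (order_rho_jqModC_neg (O := O))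
    (hgauss π hπ) S hS (horizTSD_of_horizUnram jL hT S hhoriz) p hp hpO ζ hζ
    (fun g hg hord => Fermat.Agent.S18.LocPow.locPow_of_dvd_ord jL hT p g hg hord)

/-- **`(K1E)` over the base `j`, TSD form, branch values `0, 1728`** (`1728 ∈ Oˣ`: residue
characteristic `> 3`). -/
theorem k1E_j_tsd [DecidableEq O]
    (hfrac : ∀ x : L, (x : LaurentSeries E) ∈ GaussDVR.fracField O E)
    (jL : L) (hj : (jL : LaurentSeries E) = coeffEmb E jq)
    [FiniteDimensional (IntermediateField.adjoin E {jL}) L]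
    (hgauss : ∀ π : O, Irreducible π → Model.GaussTSD (E := E) π jL)
    (hhoriz : Model.HorizUnram (E := E) ({0, 1728} : Finset O) jL)
    (h1728 : IsUnit (1728 : O))
    (p : ℕ) (hp : p.Prime) (hpO : IsUnit (p : O)) (ζ : O) (hζ : IsPrimitiveRoot ζ p) :
    K1E O E L p :=
  k1E_j_tsd_of_horiz L hfrac jL hj hgauss {0, 1728} (unit_diff_j h1728) hhoriz p hp hpO ζ hζ

/-- The element `h₂` of a subfield of `E((q))` is nonzero. -/
theorem h2_ne_zero (tL : L) (ht : (tL : LaurentSeries E) = (coeffEmb E Haupt.Two.s2)⁻¹) :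
    tL ≠ 0 := by
  intro h0
  have h1 : (tL : LaurentSeries E) = 0 := by rw [h0]; rfl
  rw [ht] at h1
  exact coeffEmb_s2_ne_zero (E := E) (inv_eq_zero.mp h1)

/-- The element `h₃` of a subfield of `E((q))` is nonzero. -/
theorem h3_ne_zero (tL : L) (ht : (tL : LaurentSeries E) = (coeffEmb E Haupt.Three.s3)⁻¹) :
    tL ≠ 0 := by
  intro h0
  have h1 : (tL : LaurentSeries E) = 0 := by rw [h0]; rfl
  rw [ht] at h1
  exact coeffEmb_s3_ne_zero (E := E) (inv_eq_zero.mp h1)

/-- **`(K1E)` over the base `h₂`, hypothesis (i) in TSD form at the base `j`, general branch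
set** (`2 ∈ Oˣ`). -/
theorem k1E_two_tsd_of_horiz
    (hfrac : ∀ x : L, (x : LaurentSeries E) ∈ GaussDVR.fracField O E)
    (jL tL : L) (hj : (jL : LaurentSeries E) = coeffEmb E jq)
    (ht : (tL : LaurentSeries E) = (coeffEmb E Haupt.Two.s2)⁻¹)
    [FiniteDimensional (IntermediateField.adjoin E {jL}) L]
    (hgauss : ∀ π : O, Irreducible π → Model.GaussTSD (E := E) π jL)
    (S : Finset O) (hS : ∀ c ∈ S, ∀ c' ∈ S, c ≠ c' → IsUnit (c - c'))
    (hhoriz : Model.HorizUnram (E := E) S tL) (h2 : IsUnit (2 : O))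
    (p : ℕ) (hp : p.Prime) (hpO : IsUnit (p : O)) (ζ : O) (hζ : IsPrimitiveRoot ζ p) :
    K1E O E L p := by
  classical
  obtain ⟨π, hπ⟩ := IsDiscreteValuationRing.exists_irreducible O
  obtain ⟨hT, hFD, hG, -⟩ := Haupt.BaseChange.level_two (E := E) π hπ jL tL
    (transcendental_j L jL hj) (h2_ne_zero L tL ht) (j_mul_h2 L jL tL hj ht) h2
  haveI := hFD
  have htO : (tL : LaurentSeries E) = GaussDVR.iota O E (E2G1Aux.invO O Haupt.Two.s2Z) := by
    rw [ht, Haupt.Two.s2_eq_emb]
    exact E2G1Aux.inv_coeffEmb_eq_iota Haupt.Two.s2Z Haupt.Two.coeff_zero_s2Z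
      Haupt.Two.coeff_one_s2Z
  exact k1E_of_inputs_tsd L hfrac π hπ tL (E2G1Aux.invO O Haupt.Two.s2Z) htO
    (E2G1Aux.order_rho_invO_neg Haupt.Two.s2Z) (hG (hgauss π hπ)) S hS
    (horizTSD_of_horizUnram tL hT S hhoriz) p hp hpO ζ hζ
    (fun g hg hord => Fermat.Agent.S18.LocPow.locPow_of_dvd_ord tL hT p g hg hord)

/-- **`(K1E)` over the base `h₃`, hypothesis (i) in TSD form at the base `j`, general branch
set** (`3 ∈ Oˣ`). -/
theorem k1E_three_tsd_of_horiz
    (hfrac : ∀ x : L, (x : LaurentSeries E) ∈ GaussDVR.fracField O E)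
    (jL tL : L) (hj : (jL : LaurentSeries E) = coeffEmb E jq)
    (ht : (tL : LaurentSeries E) = (coeffEmb E Haupt.Three.s3)⁻¹)
    [FiniteDimensional (IntermediateField.adjoin E {jL}) L]
    (hgauss : ∀ π : O, Irreducible π → Model.GaussTSD (E := E) π jL)
    (S : Finset O) (hS : ∀ c ∈ S, ∀ c' ∈ S, c ≠ c' → IsUnit (c - c'))
    (hhoriz : Model.HorizUnram (E := E) S tL) (h3 : IsUnit (3 : O))
    (p : ℕ) (hp : p.Prime) (hpO : IsUnit (p : O)) (ζ : O) (hζ : IsPrimitiveRoot ζ p) :
    K1E O E L p := by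
  classical
  obtain ⟨π, hπ⟩ := IsDiscreteValuationRing.exists_irreducible O
  obtain ⟨hT, hFD, hG, -⟩ := Haupt.BaseChange.level_three (E := E) π hπ jL tL
    (transcendental_j L jL hj) (h3_ne_zero L tL ht) (j_mul_h3 L jL tL hj ht) h3
  haveI := hFD
  have htO : (tL : LaurentSeries E) = GaussDVR.iota O E (E2G1Aux.invO O Haupt.Three.s3Z) := by
    rw [ht]
    exact E2G1Aux.inv_coeffEmb_eq_iota Haupt.Three.s3Z Haupt.Three.coeff_zero_s3Z
      Haupt.Three.coeff_one_s3Z
  exact k1E_of_inputs_tsd L hfrac π hπ tL (E2G1Aux.invO O Haupt.Three.s3Z) htO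
    (E2G1Aux.order_rho_invO_neg Haupt.Three.s3Z) (hG (hgauss π hπ)) S hS
    (horizTSD_of_horizUnram tL hT S hhoriz) p hp hpO ζ hζ
    (fun g hg hord => Fermat.Agent.S18.LocPow.locPow_of_dvd_ord tL hT p g hg hord)

/-- **`(K1E)` for a subfield `L ∋ j, h₂` of `E((q))`, TSD form**: base `h₂`, branch values
`0, -64` (`2 ∈ Oˣ`). -/
theorem k1E_two_tsd [DecidableEq O]
    (hfrac : ∀ x : L, (x : LaurentSeries E) ∈ GaussDVR.fracField O E)
    (jL tL : L) (hj : (jL : LaurentSeries E) = coeffEmb E jq)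
    (ht : (tL : LaurentSeries E) = (coeffEmb E Haupt.Two.s2)⁻¹)
    [FiniteDimensional (IntermediateField.adjoin E {jL}) L]
    (hgauss : ∀ π : O, Irreducible π → Model.GaussTSD (E := E) π jL)
    (hhoriz : Model.HorizUnram (E := E) ({0, -64} : Finset O) tL)
    (h2 : IsUnit (2 : O))
    (p : ℕ) (hp : p.Prime) (hpO : IsUnit (p : O)) (ζ : O) (hζ : IsPrimitiveRoot ζ p) :
    K1E O E L p :=
  k1E_two_tsd_of_horiz L hfrac jL tL hj ht hgauss {0, -64} (unit_diff_two h2) hhoriz h2
    p hp hpO ζ hζ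

/-- **`(K1E)` for a subfield `L ∋ j, h₃` of `E((q))`, TSD form**: base `h₃`, branch values
`0, -27` (`3 ∈ Oˣ`). -/
theorem k1E_three_tsd [DecidableEq O]
    (hfrac : ∀ x : L, (x : LaurentSeries E) ∈ GaussDVR.fracField O E)
    (jL tL : L) (hj : (jL : LaurentSeries E) = coeffEmb E jq)
    (ht : (tL : LaurentSeries E) = (coeffEmb E Haupt.Three.s3)⁻¹)
    [FiniteDimensional (IntermediateField.adjoin E {jL}) L]
    (hgauss : ∀ π : O, Irreducible π → Model.GaussTSD (E := E) π jL)
    (hhoriz : Model.HorizUnram (E := E) ({0, -27} : Finset O) tL)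
    (h3 : IsUnit (3 : O))
    (p : ℕ) (hp : p.Prime) (hpO : IsUnit (p : O)) (ζ : O) (hζ : IsPrimitiveRoot ζ p) :
    K1E O E L p :=
  k1E_three_tsd_of_horiz L hfrac jL tL hj ht hgauss {0, -27} (unit_diff_three h3) hhoriz h3
    p hp hpO ζ hζ

end Fermat.Agent.S48.G1.K1.CoreTSD
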