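/-
S48 / G1, AREA K (helper70): hypothesis (ii) `Model.HorizUnram` for the `E`-FORM of a function
field of modular type, from analytic realisations at a BIG constant field `Ω` only.

`F₀ ⊆ ℚ((q))` is any subfield (`F1Q M`, or an auxiliary-level field), `Ω` a field of constants
(`ℚ̄` or `ℂ`) over which the coset realisations `ρ i : Ω F₀ →+* Frac(HolH)` are available
(`Ω F₀ := laurentBaseChange Ω F₀`), and `E` any field with `Algebra E Ω` (a number field inside
`ℚ̄`).  The restrictions `ρ i ∘ rhoBC` to `E F₀ := laurentBaseChange E F₀` are again pairwise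
distinct, and the degree over the `j`-line does not change under base change of constants
(`E2.Degree.Abs`).  Hence the level-free theorems `HorizOfEmb.horizUnram_of_holEmb`,
`HorizOfEmbRel.horizUnram_two/_three` apply to the `E`-form:

* `famBC`, `famBC_injective`, `finite_bc`, `finrank_bc_le` : the restricted family;
* `transcendental_of_holEmb` : an element realised by `j` is transcendental;
* `horizUnram_bc` : base `u = j`, `S ∋ 0, 1728`;
* `horizUnram_two_bc` : base `t` with `j t² = (t + 256)³`, `S ∋ 0, -64`;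
* `horizUnram_three_bc` : base `t` with `j t³ = (t + 27)(t + 243)³`, `S ∋ 0, -27`.
-/
import Fermat.Agent.S48.G1.HorizOfEmbRel
import Fermat.Agent.S30.E2.Degree

set_option autoImplicit false
set_option linter.style.haveILetI false

noncomputable section

namespace Fermat.Agent.S48.G1.K1.HorizBC

open UpperHalfPlane Polynomial IntermediateField ModularCurve
open Fermat.Agent.S24.HolH Fermat.Agent.S24.JHol Fermat.Agent.S24.JFun
open Fermat.Agent.S30.E2.Degree.Abs

/-! ### Level-free preliminaries -/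

section Prelim

variable {E L : Type} [Field E] [Field L] [Algebra E L]

/-- Evaluation of a holomorphic function at a point, as a ring homomorphism. -/
def evalAt (τ : ℍ) : HolH →+* ℂ :=
  (Pi.evalRingHom (fun _ : ℍ => ℂ) τ).comp (HolH.val : HolH →+* (ℍ → ℂ))

theorem evalAt_apply (τ : ℍ) (f : HolH) : evalAt τ f = (f : ℍ → ℂ) τ := rfl

/-- A polynomial over `ℂ` vanishing at `j` (as a holomorphic function) is zero. -/
theorem eq_zero_of_eval₂_jHol (Q : ℂ[X]) (h : eval₂ (algebraMap ℂ HolH) jHol Q = 0) : Q = 0 := by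
  apply Polynomial.funext
  intro c
  obtain ⟨τ, hτ⟩ := jFun_surjective c
  have h1 := congrArg (evalAt τ) h
  rw [hom_eval₂, map_zero] at h1
  have h2 : (evalAt τ).comp (algebraMap ℂ HolH) = RingHom.id ℂ := by
    ext a
    rfl
  rw [h2, eval₂_id, evalAt_apply, jHol_apply, hτ] at h1
  rw [h1, eval_zero]

/-- An element which a realisation sends to the modular invariant is transcendental over the
constants. -/
theorem transcendental_of_holEmb (u : L) (ι : E →+* ℂ) (σ : L →+* FractionRing HolH)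
    (hσE : ∀ a, σ (algebraMap E L a) =
      algebraMap HolH (FractionRing HolH) (algebraMap ℂ HolH (ι a)))
    (hσu : σ u = algebraMap HolH (FractionRing HolH) jHol) : Transcendental E u := by
  rintro ⟨P, hP0, hP⟩
  apply hP0
  have h1 := congrArg σ hP
  have hcomp : σ.comp (algebraMap E L) =
      (algebraMap HolH (FractionRing HolH)).comp ((algebraMap ℂ HolH).comp ι) :=
    RingHom.ext hσE
  rw [map_zero, aeval_def, hom_eval₂, hcomp, hσu, ← hom_eval₂] at h1
  have h2 : eval₂ ((algebraMap ℂ HolH).comp ι) jHol P = 0 :=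
    IsFractionRing.injective HolH (FractionRing HolH) (by rw [h1, map_zero])
  rw [← eval₂_map] at h2
  have h3 := eq_zero_of_eval₂_jHol (P.map ι) h2
  exact (Polynomial.map_eq_zero_iff ι.injective).mp h3

/-- If `L` is finite over `E(j)` and `j ∈ E(t)`, then `L` is finite over `E(t)`. -/
theorem finiteDimensional_of_mem (jL t : L) [FiniteDimensional E⟮jL⟯ L] (h : jL ∈ E⟮t⟯) :
    FiniteDimensional E⟮t⟯ L := by
  have hle : E⟮jL⟯ ≤ E⟮t⟯ := adjoin_simple_le_iff.mpr h
  letI : Algebra E⟮jL⟯ E⟮t⟯ := (IntermediateField.inclusion hle).toRingHom.toAlgebra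
  haveI : IsScalarTower E⟮jL⟯ E⟮t⟯ L := IsScalarTower.of_algebraMap_eq (fun x => rfl)
  exact Module.Finite.of_restrictScalars_finite E⟮jL⟯ E⟮t⟯ L

/-- `j ∈ E(t)` from a relation `j · B(t) = A(t)` with `B(t) ≠ 0`. -/
theorem mem_adjoin_of_rel (jL t a b : L) (ha : a ∈ E⟮t⟯) (hb : b ∈ E⟮t⟯) (hb0 : b ≠ 0)
    (hrel : jL * b = a) : jL ∈ E⟮t⟯ := by
  have h : jL = a / b := by rw [← hrel, mul_div_cancel_right₀ _ hb0]
  rw [h]
  exact div_mem ha hb

end Prelim

/-! ### The restricted family -/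

section Family

variable (F₀ : IntermediateField ℚ (LaurentSeries ℚ))
variable {E Ω : Type} [Field E] [Field Ω] [Algebra ℚ E] [Algebra ℚ Ω] [Algebra E Ω]

/-- The restriction of an `Ω`-level realisation to the `E`-form. -/
def famBC {I : Type*} (ρ : I → ↥(laurentBaseChange Ω F₀) →+* FractionRing HolH) (i : I) :
    ↥(laurentBaseChange E F₀) →+* FractionRing HolH :=
  (ρ i).comp (rhoBC F₀ E Ω)

theorem famBC_apply {I : Type*} (ρ : I → ↥(laurentBaseChange Ω F₀) →+* FractionRing HolH)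
    (i : I) (x : ↥(laurentBaseChange E F₀)) :
    famBC F₀ ρ i x = ρ i (rhoBC F₀ E Ω x) := rfl

/-- Two ring homomorphisms on the `Ω`-form which agree on `Ω` and on the image of the `E`-form
are equal. -/
theorem eq_of_eq_on_range {K : Type*} [Field K]
    (σ τ : ↥(laurentBaseChange Ω F₀) →+* K)
    (hΩ : ∀ a : Ω, σ (algebraMap Ω ↥(laurentBaseChange Ω F₀) a) =
      τ (algebraMap Ω ↥(laurentBaseChange Ω F₀) a))
    (h : ∀ x : ↥(laurentBaseChange E F₀), σ (rhoBC F₀ E Ω x) = τ (rhoBC F₀ E Ω x)) :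
    σ = τ := by
  refine RingHom.ext fun y => ?_
  have hy : y ∈ IntermediateField.adjoin Ω (Set.range (rhoBC F₀ E Ω)) := by
    rw [adjoin_range_rhoBC F₀ E Ω]
    exact IntermediateField.mem_top
  induction hy using IntermediateField.adjoin_induction with
  | mem x hx =>
    obtain ⟨x0, rfl⟩ := hx
    exact h x0
  | algebraMap x => exact hΩ x
  | add x y _ _ hx hy => rw [map_add, map_add, hx, hy]
  | inv x _ hx => rw [map_inv₀, map_inv₀, hx]
  | mul x y _ _ hx hy => rw [map_mul, map_mul, hx, hy]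

theorem famBC_injective {I : Type*} (ρ : I → ↥(laurentBaseChange Ω F₀) →+* FractionRing HolH)
    (hρ : Function.Injective ρ)
    (hρΩ : ∀ i j (a : Ω), ρ i (algebraMap Ω ↥(laurentBaseChange Ω F₀) a) =
      ρ j (algebraMap Ω ↥(laurentBaseChange Ω F₀) a)) :
    Function.Injective (famBC (E := E) F₀ ρ) := by
  intro i j hij
  apply hρ
  refine eq_of_eq_on_range (E := E) F₀ (ρ i) (ρ j) (hρΩ i j) fun x => ?_
  exact congrArg (fun φ : ↥(laurentBaseChange E F₀) →+* FractionRing HolH => φ x) hij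

theorem famBC_algebraMap {I : Type*} (ιΩ : Ω →+* ℂ)
    (ρ : I → ↥(laurentBaseChange Ω F₀) →+* FractionRing HolH)
    (hρΩ : ∀ i a, ρ i (algebraMap Ω ↥(laurentBaseChange Ω F₀) a) =
      algebraMap HolH (FractionRing HolH) (algebraMap ℂ HolH (ιΩ a)))
    (i : I) (a : E) :
    famBC F₀ ρ i (algebraMap E ↥(laurentBaseChange E F₀) a) =
      algebraMap HolH (FractionRing HolH)
        (algebraMap ℂ HolH ((ιΩ.comp (algebraMap E Ω)) a)) := by
  rw [famBC_apply, rho_algebraMap, hρΩ, RingHom.comp_apply]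

theorem famBC_embF {I : Type*} (ρ : I → ↥(laurentBaseChange Ω F₀) →+* FractionRing HolH)
    (j₀ : F₀) (hρj : ∀ i, ρ i (embF F₀ Ω j₀) = algebraMap HolH (FractionRing HolH) jHol)
    (i : I) : famBC F₀ ρ i (embF F₀ E j₀) = algebraMap HolH (FractionRing HolH) jHol := by
  rw [famBC_apply, rhoBC_embF, hρj]

variable (E) in
/-- Finiteness over the `j`-line descends to the `E`-form. -/
theorem finite_bc (j₀ : F₀)
    [Module.Finite Ω⟮embF F₀ Ω j₀⟯ ↥(laurentBaseChange Ω F₀)] :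
    Module.Finite E⟮embF F₀ E j₀⟯ ↥(laurentBaseChange E F₀) :=
  (finite_and_finrank_baseChange_down F₀ E Ω j₀).1

variable (E) in
/-- The degree bound over the `j`-line descends to the `E`-form. -/
theorem finrank_bc_le (j₀ : F₀)
    [Module.Finite Ω⟮embF F₀ Ω j₀⟯ ↥(laurentBaseChange Ω F₀)] {n : ℕ}
    (hdeg : Module.finrank Ω⟮embF F₀ Ω j₀⟯ ↥(laurentBaseChange Ω F₀) ≤ n) :
    Module.finrank E⟮embF F₀ E j₀⟯ ↥(laurentBaseChange E F₀) ≤ n := by
  rw [(finite_and_finrank_baseChange_down F₀ E Ω j₀).2]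
  exact hdeg

end Family

/-! ### Hypothesis (ii) for the `E`-form -/

section Main

variable (F₀ : IntermediateField ℚ (LaurentSeries ℚ))
variable {E Ω : Type} [Field E] [Field Ω] [Algebra ℚ E] [Algebra ℚ Ω] [Algebra E Ω]

/-- **Hypothesis (ii), base `u = j`, for the `E`-form**, from an `Ω`-level family of
realisations. -/
theorem horizUnram_embF (j₀ : F₀) (ιΩ : Ω →+* ℂ) {I : Type*} [Finite I]
    (ρ : I → ↥(laurentBaseChange Ω F₀) →+* FractionRing HolH) (hρ : Function.Injective ρ)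
    [Module.Finite Ω⟮embF F₀ Ω j₀⟯ ↥(laurentBaseChange Ω F₀)]
    (hdeg : Module.finrank Ω⟮embF F₀ Ω j₀⟯ ↥(laurentBaseChange Ω F₀) ≤ Nat.card I)
    (hρΩ : ∀ i a, ρ i (algebraMap Ω ↥(laurentBaseChange Ω F₀) a) =
      algebraMap HolH (FractionRing HolH) (algebraMap ℂ HolH (ιΩ a)))
    (hρj : ∀ i, ρ i (embF F₀ Ω j₀) = algebraMap HolH (FractionRing HolH) jHol)
    {O : Type*} [CommRing O] [Algebra O E] (S : Finset O)
    (h0 : ∃ c ∈ S, algebraMap O E c = 0) (h1728 : ∃ c ∈ S, algebraMap O E c = 1728) :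
    Fermat.Agent.S30.Model.HorizUnram (E := E) S (embF F₀ E j₀) := by
  haveI := finite_bc F₀ E (Ω := Ω) j₀
  exact Fermat.Agent.S48.G1.HorizOfEmb.horizUnram_of_holEmb (embF F₀ E j₀)
    (ιΩ.comp (algebraMap E Ω)) (famBC F₀ ρ)
    (famBC_injective F₀ ρ hρ (fun i j a => by rw [hρΩ, hρΩ]))
    (finrank_bc_le F₀ E j₀ hdeg) (famBC_algebraMap F₀ ιΩ ρ hρΩ) (famBC_embF F₀ ρ j₀ hρj)
    S h0 h1728

/-- The same for any element of the `E`-form with the `q`-expansion of `j₀`. -/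
theorem horizUnram_bc (j₀ : F₀) (ιΩ : Ω →+* ℂ) {I : Type*} [Finite I]
    (ρ : I → ↥(laurentBaseChange Ω F₀) →+* FractionRing HolH) (hρ : Function.Injective ρ)
    [Module.Finite Ω⟮embF F₀ Ω j₀⟯ ↥(laurentBaseChange Ω F₀)]
    (hdeg : Module.finrank Ω⟮embF F₀ Ω j₀⟯ ↥(laurentBaseChange Ω F₀) ≤ Nat.card I)
    (hρΩ : ∀ i a, ρ i (algebraMap Ω ↥(laurentBaseChange Ω F₀) a) =
      algebraMap HolH (FractionRing HolH) (algebraMap ℂ HolH (ιΩ a)))
    (hρj : ∀ i, ρ i (embF F₀ Ω j₀) = algebraMap HolH (FractionRing HolH) jHol)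
    (u : ↥(laurentBaseChange E F₀)) (hu : (u : LaurentSeries E) = coeffEmb E (j₀ : LaurentSeries ℚ))
    {O : Type*} [CommRing O] [Algebra O E] (S : Finset O)
    (h0 : ∃ c ∈ S, algebraMap O E c = 0) (h1728 : ∃ c ∈ S, algebraMap O E c = 1728) :
    Fermat.Agent.S30.Model.HorizUnram (E := E) S u := by
  have h : u = embF F₀ E j₀ := Subtype.ext hu
  rw [h]
  exact horizUnram_embF F₀ j₀ ιΩ ρ hρ hdeg hρΩ hρj S h0 h1728

/-- **Hypothesis (ii) for the `E`-form over the Hauptmodul base of level `2`**: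
`j t² = (t + 256)³`, `S ∋ 0, -64`. -/
theorem horizUnram_two_bc (j₀ : F₀) (ιΩ : Ω →+* ℂ) {I : Type*} [Finite I]
    (ρ : I → ↥(laurentBaseChange Ω F₀) →+* FractionRing HolH) (hρ : Function.Injective ρ)
    [Module.Finite Ω⟮embF F₀ Ω j₀⟯ ↥(laurentBaseChange Ω F₀)]
    (hdeg : Module.finrank Ω⟮embF F₀ Ω j₀⟯ ↥(laurentBaseChange Ω F₀) ≤ Nat.card I)
    (hρΩ : ∀ i a, ρ i (algebraMap Ω ↥(laurentBaseChange Ω F₀) a) =
      algebraMap HolH (FractionRing HolH) (algebraMap ℂ HolH (ιΩ a)))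
    (hρj : ∀ i, ρ i (embF F₀ Ω j₀) = algebraMap HolH (FractionRing HolH) jHol)
    (jL t : ↥(laurentBaseChange E F₀))
    (hj : (jL : LaurentSeries E) = coeffEmb E (j₀ : LaurentSeries ℚ))
    (hrel : jL * t ^ 2 = (t + 256) ^ 3)
    {O : Type*} [CommRing O] [Algebra O E] (S : Finset O)
    (h0 : ∃ c ∈ S, algebraMap O E c = 0) (h64 : ∃ c ∈ S, algebraMap O E c = -64) :
    Fermat.Agent.S30.Model.HorizUnram (E := E) S t := by
  have hjL : jL = embF F₀ E j₀ := Subtype.ext hj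
  subst hjL
  have hchar : CharZero E := (RingHom.charZero_iff (ιΩ.comp (algebraMap E Ω)).injective).mpr
    inferInstance
  haveI : CharZero ↥(laurentBaseChange E F₀) :=
    (RingHom.charZero_iff (algebraMap E ↥(laurentBaseChange E F₀)).injective).mp hchar
  haveI := finite_bc F₀ E (Ω := Ω) j₀
  have ht0 : t ≠ 0 := by
    rintro rfl
    have h1 : ((0 : ↥(laurentBaseChange E F₀)) + 256) ^ 3 = 0 := by
      rw [← hrel]
      ring
    have h2 : ((0 : ↥(laurentBaseChange E F₀)) + 256) ^ 3 ≠ 0 := by norm_num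
    exact h2 h1
  have hmem : embF F₀ E j₀ ∈ E⟮t⟯ := by
    have ht : t ∈ E⟮t⟯ := mem_adjoin_simple_self E t
    refine mem_adjoin_of_rel (embF F₀ E j₀) t ((t + 256) ^ 3) (t ^ 2)
      (pow_mem (add_mem ht ?_) 3) (pow_mem ht 2) (pow_ne_zero 2 ht0) hrel
    have h256 : (256 : ↥(laurentBaseChange E F₀)) = algebraMap E _ 256 := (map_ofNat _ 256).symm
    rw [h256]
    exact IntermediateField.algebraMap_mem _ _
  haveI := finiteDimensional_of_mem (embF F₀ E j₀) t hmem
  obtain ⟨i0⟩ : Nonempty I := by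
    by_contra hI
    haveI : IsEmpty I := not_nonempty_iff.mp hI
    have h1 := finrank_bc_le F₀ E j₀ hdeg
    rw [Nat.card_of_isEmpty] at h1
    have h2 : 0 < Module.finrank E⟮embF F₀ E j₀⟯ ↥(laurentBaseChange E F₀) := Module.finrank_pos
    omega
  have hT : Transcendental E (embF F₀ E j₀) :=
    transcendental_of_holEmb (embF F₀ E j₀) (ιΩ.comp (algebraMap E Ω)) (famBC F₀ ρ i0)
      (famBC_algebraMap F₀ ιΩ ρ hρΩ i0) (famBC_embF F₀ ρ j₀ hρj i0)
  exact Fermat.Agent.S48.G1.HorizOfEmbRel.horizUnram_two (embF F₀ E j₀) t hT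
    (ιΩ.comp (algebraMap E Ω)) (famBC F₀ ρ)
    (famBC_injective F₀ ρ hρ (fun i j a => by rw [hρΩ, hρΩ]))
    (finrank_bc_le F₀ E j₀ hdeg) (famBC_algebraMap F₀ ιΩ ρ hρΩ) (famBC_embF F₀ ρ j₀ hρj)
    hrel S h0 h64

/-- **Hypothesis (ii) for the `E`-form over the Hauptmodul base of level `3`**:
`j t³ = (t + 27)(t + 243)³`, `S ∋ 0, -27`. -/
theorem horizUnram_three_bc (j₀ : F₀) (ιΩ : Ω →+* ℂ) {I : Type*} [Finite I]
    (ρ : I → ↥(laurentBaseChange Ω F₀) →+* FractionRing HolH) (hρ : Function.Injective ρ)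
    [Module.Finite Ω⟮embF F₀ Ω j₀⟯ ↥(laurentBaseChange Ω F₀)]
    (hdeg : Module.finrank Ω⟮embF F₀ Ω j₀⟯ ↥(laurentBaseChange Ω F₀) ≤ Nat.card I)
    (hρΩ : ∀ i a, ρ i (algebraMap Ω ↥(laurentBaseChange Ω F₀) a) =
      algebraMap HolH (FractionRing HolH) (algebraMap ℂ HolH (ιΩ a)))
    (hρj : ∀ i, ρ i (embF F₀ Ω j₀) = algebraMap HolH (FractionRing HolH) jHol)
    (jL t : ↥(laurentBaseChange E F₀))
    (hj : (jL : LaurentSeries E) = coeffEmb E (j₀ : LaurentSeries ℚ))
    (hrel : jL * t ^ 3 = (t + 27) * (t + 243) ^ 3)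
    {O : Type*} [CommRing O] [Algebra O E] (S : Finset O)
    (h0 : ∃ c ∈ S, algebraMap O E c = 0) (h27 : ∃ c ∈ S, algebraMap O E c = -27) :
    Fermat.Agent.S30.Model.HorizUnram (E := E) S t := by
  have hjL : jL = embF F₀ E j₀ := Subtype.ext hj
  subst hjL
  have hchar : CharZero E := (RingHom.charZero_iff (ιΩ.comp (algebraMap E Ω)).injective).mpr
    inferInstance
  haveI : CharZero ↥(laurentBaseChange E F₀) :=
    (RingHom.charZero_iff (algebraMap E ↥(laurentBaseChange E F₀)).injective).mp hchar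
  haveI := finite_bc F₀ E (Ω := Ω) j₀
  have ht0 : t ≠ 0 := by
    rintro rfl
    have h1 : ((0 : ↥(laurentBaseChange E F₀)) + 27) * (0 + 243) ^ 3 = 0 := by
      rw [← hrel]
      ring
    have h2 : ((0 : ↥(laurentBaseChange E F₀)) + 27) * (0 + 243) ^ 3 ≠ 0 := by norm_num
    exact h2 h1
  have hmem : embF F₀ E j₀ ∈ E⟮t⟯ := by
    have ht : t ∈ E⟮t⟯ := mem_adjoin_simple_self E t
    have hnum : ∀ n : ℕ, ((n : ℕ) : ↥(laurentBaseChange E F₀)) ∈ E⟮t⟯ := fun n => by
      have h : ((n : ℕ) : ↥(laurentBaseChange E F₀)) = algebraMap E _ (n : E) :=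
        (map_natCast _ n).symm
      rw [h]
      exact IntermediateField.algebraMap_mem _ _
    refine mem_adjoin_of_rel (embF F₀ E j₀) t ((t + 27) * (t + 243) ^ 3) (t ^ 3)
      (mul_mem (add_mem ht ?_) (pow_mem (add_mem ht ?_) 3)) (pow_mem ht 3)
      (pow_ne_zero 3 ht0) hrel
    · exact_mod_cast hnum 27
    · exact_mod_cast hnum 243
  haveI := finiteDimensional_of_mem (embF F₀ E j₀) t hmem
  obtain ⟨i0⟩ : Nonempty I := by
    by_contra hI
    haveI : IsEmpty I := not_nonempty_iff.mp hI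
    have h1 := finrank_bc_le F₀ E j₀ hdeg
    rw [Nat.card_of_isEmpty] at h1
    have h2 : 0 < Module.finrank E⟮embF F₀ E j₀⟯ ↥(laurentBaseChange E F₀) := Module.finrank_pos
    omega
  have hT : Transcendental E (embF F₀ E j₀) :=
    transcendental_of_holEmb (embF F₀ E j₀) (ιΩ.comp (algebraMap E Ω)) (famBC F₀ ρ i0)
      (famBC_algebraMap F₀ ιΩ ρ hρΩ i0) (famBC_embF F₀ ρ j₀ hρj i0)
  exact Fermat.Agent.S48.G1.HorizOfEmbRel.horizUnram_three (embF F₀ E j₀) t hT
    (ιΩ.comp (algebraMap E Ω)) (famBC F₀ ρ)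
    (famBC_injective F₀ ρ hρ (fun i j a => by rw [hρΩ, hρΩ]))
    (finrank_bc_le F₀ E j₀ hdeg) (famBC_algebraMap F₀ ιΩ ρ hρΩ) (famBC_embF F₀ ρ j₀ hρj)
    hrel S h0 h27

end Main

end Fermat.Agent.S48.G1.K1.HorizBC
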