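import Mathlib
import Fermat.Agent.S48.G1.K1.HorizBC
import Fermat.Agent.S48.G1.K1.Bricks
import Fermat.Agent.S48.G1.HauptK1Gen
import Fermat.Agent.S30.Haupt.MemTwo
import Fermat.Agent.S30.Haupt.MemThree

/-!
# PROGRAM DS (S48) / G1, area K, row K.6: the Hauptmodul inputs for `F1Q M` (helper212)

Residue characteristic `3` (resp. `2`) at a level `M` with `2 ∣ M` (resp. `3 ∣ M`): the base of
the Model theorem is the Hauptmodul `h₂ = Δ(q)/Δ(q²)` of `Γ₀(2)` (resp. `h₃ = (η(q)/η(q³))¹²` of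
`Γ₀(3)`), which lies in `F₀(M)·E ⊆ F₁(M)·E = laurentBaseChange E (F1Q M)`.

* `s2E1`, `h2E1`, `s3E1`, `h3E1` : the elements, with `coe_h2E1 : ↑(h2E1 M E h) = (coeffEmb E s₂)⁻¹`
  (the hypothesis `ht` of `K1/HauptTSD`, `HauptK1Gen`);
* `rel_h2E1`, `rel_h3E1` : `j h₂² = (h₂ + 256)³`, `j h₃³ = (h₃ + 27)(h₃ + 243)³`;
* `horizUnram_h2E1_of_family`, `horizUnram_h3E1_of_family` : hypothesis (ii)
  `Model.HorizUnram S h_r` (`S ∋ 0, -64`, resp. `S ∋ 0, -27`) from a family of coset realisations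
  of `laurentBaseChange Ω (F1Q M)` over a big constant field `Ω` (binders of
  `K1/HorizBC.horizUnram_two_bc / _three_bc`);
* `horizUnram_h2E1_of_holEmb`, `horizUnram_h3E1_of_holEmb` : the same from the one-`Prop` input
  `Bricks.FIn.HolEmb M`;
* `..._std` : `S = {0, -64}`, resp. `{0, -27}`.
-/

set_option autoImplicit false
set_option linter.unusedSectionVars false
set_option linter.style.haveILetI false

open ModularCurve AlgebraicCurve Polynomial IntermediateField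

noncomputable section

namespace Fermat.Agent.S48.G1.K1.HauptIn

open Fermat.Agent.S30 Fermat.Agent.S48.G1.F1
open Fermat.Agent.S24.HolH Fermat.Agent.S24.JHol
open Fermat.Agent.S30.E2.Degree.Abs

/-! ### The elements -/

section Elements

variable (M : ℕ) [NeZero M] (E : Type) [Field E] [Algebra ℚ E]

/-- `s₂ = Δ(q²)/Δ(q)` as an element of `F1Q M` (`2 ∣ M`). -/
def s2Q1 (h : 2 ∣ M) : ↥(F1Q M) :=
  ⟨Haupt.Two.s2, full_le_F1Q M (Haupt.MemTwo.s2_mem_full M h)⟩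

/-- `s₃ = (η(q³)/η(q))¹²` as an element of `F1Q M` (`3 ∣ M`). -/
def s3Q1 (h : 3 ∣ M) : ↥(F1Q M) :=
  ⟨Haupt.Three.s3, full_le_F1Q M (Haupt.MemThree.s3_mem_full M h)⟩

@[simp] theorem coe_s2Q1 (h : 2 ∣ M) : ((s2Q1 M h : ↥(F1Q M)) : LaurentSeries ℚ) = Haupt.Two.s2 :=
  rfl

@[simp] theorem coe_s3Q1 (h : 3 ∣ M) :
    ((s3Q1 M h : ↥(F1Q M)) : LaurentSeries ℚ) = Haupt.Three.s3 := rfl

/-- `s₂` as an element of `F₁(M)·E` (`2 ∣ M`). -/
def s2E1 (h : 2 ∣ M) : ↥(laurentBaseChange E (F1Q M)) :=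
  ⟨coeffEmb E Haupt.Two.s2, coeffEmb_mem_laurentBaseChange E (s2Q1 M h).2⟩

/-- The Hauptmodul `h₂ = Δ(q)/Δ(q²) = 1/s₂` of `Γ₀(2)` as an element of `F₁(M)·E` (`2 ∣ M`). -/
def h2E1 (h : 2 ∣ M) : ↥(laurentBaseChange E (F1Q M)) := (s2E1 M E h)⁻¹

/-- `s₃` as an element of `F₁(M)·E` (`3 ∣ M`). -/
def s3E1 (h : 3 ∣ M) : ↥(laurentBaseChange E (F1Q M)) :=
  ⟨coeffEmb E Haupt.Three.s3, coeffEmb_mem_laurentBaseChange E (s3Q1 M h).2⟩

/-- The Hauptmodul `h₃ = (η(q)/η(q³))¹² = 1/s₃` of `Γ₀(3)` as an element of `F₁(M)·E`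
(`3 ∣ M`). -/
def h3E1 (h : 3 ∣ M) : ↥(laurentBaseChange E (F1Q M)) := (s3E1 M E h)⁻¹

@[simp] theorem coe_s2E1 (h : 2 ∣ M) :
    ((s2E1 M E h : ↥(laurentBaseChange E (F1Q M))) : LaurentSeries E) =
      coeffEmb E Haupt.Two.s2 := rfl

theorem coe_h2E1 (h : 2 ∣ M) :
    ((h2E1 M E h : ↥(laurentBaseChange E (F1Q M))) : LaurentSeries E) =
      (coeffEmb E Haupt.Two.s2)⁻¹ := rfl

@[simp] theorem coe_s3E1 (h : 3 ∣ M) :
    ((s3E1 M E h : ↥(laurentBaseChange E (F1Q M))) : LaurentSeries E) =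
      coeffEmb E Haupt.Three.s3 := rfl

theorem coe_h3E1 (h : 3 ∣ M) :
    ((h3E1 M E h : ↥(laurentBaseChange E (F1Q M))) : LaurentSeries E) =
      (coeffEmb E Haupt.Three.s3)⁻¹ := rfl

theorem s2E1_ne_zero (h : 2 ∣ M) : s2E1 M E h ≠ 0 := fun h0 =>
  HauptK1Gen.coeffEmb_s2_ne_zero (E := E) (by
    have h1 := congrArg (fun x : ↥(laurentBaseChange E (F1Q M)) => (x : LaurentSeries E)) h0
    exact h1)

theorem s3E1_ne_zero (h : 3 ∣ M) : s3E1 M E h ≠ 0 := fun h0 =>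
  HauptK1Gen.coeffEmb_s3_ne_zero (E := E) (by
    have h1 := congrArg (fun x : ↥(laurentBaseChange E (F1Q M)) => (x : LaurentSeries E)) h0
    exact h1)

theorem h2E1_ne_zero (h : 2 ∣ M) : h2E1 M E h ≠ 0 := inv_ne_zero (s2E1_ne_zero M E h)

theorem h3E1_ne_zero (h : 3 ∣ M) : h3E1 M E h ≠ 0 := inv_ne_zero (s3E1_ne_zero M E h)

/-- `j · h₂² = (h₂ + 256)³` in `F₁(M)·E`. -/
theorem rel_h2E1 (h : 2 ∣ M) (jL : ↥(laurentBaseChange E (F1Q M)))
    (hj : (jL : LaurentSeries E) = coeffEmb E jq) :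
    jL * h2E1 M E h ^ 2 = (h2E1 M E h + 256) ^ 3 :=
  HauptK1Gen.j_mul_h2 (laurentBaseChange E (F1Q M)) jL (h2E1 M E h) hj (coe_h2E1 M E h)

/-- `j · h₃³ = (h₃ + 27)(h₃ + 243)³` in `F₁(M)·E`. -/
theorem rel_h3E1 (h : 3 ∣ M) (jL : ↥(laurentBaseChange E (F1Q M)))
    (hj : (jL : LaurentSeries E) = coeffEmb E jq) :
    jL * h3E1 M E h ^ 3 = (h3E1 M E h + 27) * (h3E1 M E h + 243) ^ 3 :=
  HauptK1Gen.j_mul_h3 (laurentBaseChange E (F1Q M)) jL (h3E1 M E h) hj (coe_h3E1 M E h)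

end Elements

/-! ### Hypothesis (ii) over the Hauptmodul bases -/

section Horiz

variable (M : ℕ) [NeZero M] {E : Type} [Field E] [Algebra ℚ E]
variable {Ω : Type} [Field Ω] [Algebra ℚ Ω] [Algebra E Ω]

/-- **Hypothesis (ii) for `F₁(M)·E` over the Hauptmodul base `h₂`** (`2 ∣ M`, `S ∋ 0, -64`),
from a family of coset realisations over a big constant field `Ω`. -/
theorem horizUnram_h2E1_of_family (h : 2 ∣ M) (j₀ : ↥(F1Q M))
    (hj₀ : (j₀ : LaurentSeries ℚ) = jq) (ιΩ : Ω →+* ℂ) {I : Type*} [Finite I]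
    (ρ : I → ↥(laurentBaseChange Ω (F1Q M)) →+* FractionRing HolH) (hρ : Function.Injective ρ)
    [Module.Finite Ω⟮embF (F1Q M) Ω j₀⟯ ↥(laurentBaseChange Ω (F1Q M))]
    (hdeg : Module.finrank Ω⟮embF (F1Q M) Ω j₀⟯ ↥(laurentBaseChange Ω (F1Q M)) ≤ Nat.card I)
    (hρΩ : ∀ i a, ρ i (algebraMap Ω ↥(laurentBaseChange Ω (F1Q M)) a) =
      algebraMap HolH (FractionRing HolH) (algebraMap ℂ HolH (ιΩ a)))
    (hρj : ∀ i, ρ i (embF (F1Q M) Ω j₀) = algebraMap HolH (FractionRing HolH) jHol)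
    {O : Type*} [CommRing O] [Algebra O E] (S : Finset O)
    (h0 : ∃ c ∈ S, algebraMap O E c = 0) (h64 : ∃ c ∈ S, algebraMap O E c = -64) :
    Model.HorizUnram (E := E) S (h2E1 M E h) :=
  HorizBC.horizUnram_two_bc (F1Q M) j₀ ιΩ ρ hρ hdeg hρΩ hρj (embF (F1Q M) E j₀) (h2E1 M E h)
    rfl (rel_h2E1 M E h (embF (F1Q M) E j₀) (by rw [coe_embF, hj₀])) S h0 h64

/-- **Hypothesis (ii) for `F₁(M)·E` over the Hauptmodul base `h₃`** (`3 ∣ M`, `S ∋ 0, -27`),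
from a family of coset realisations over a big constant field `Ω`. -/
theorem horizUnram_h3E1_of_family (h : 3 ∣ M) (j₀ : ↥(F1Q M))
    (hj₀ : (j₀ : LaurentSeries ℚ) = jq) (ιΩ : Ω →+* ℂ) {I : Type*} [Finite I]
    (ρ : I → ↥(laurentBaseChange Ω (F1Q M)) →+* FractionRing HolH) (hρ : Function.Injective ρ)
    [Module.Finite Ω⟮embF (F1Q M) Ω j₀⟯ ↥(laurentBaseChange Ω (F1Q M))]
    (hdeg : Module.finrank Ω⟮embF (F1Q M) Ω j₀⟯ ↥(laurentBaseChange Ω (F1Q M)) ≤ Nat.card I)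
    (hρΩ : ∀ i a, ρ i (algebraMap Ω ↥(laurentBaseChange Ω (F1Q M)) a) =
      algebraMap HolH (FractionRing HolH) (algebraMap ℂ HolH (ιΩ a)))
    (hρj : ∀ i, ρ i (embF (F1Q M) Ω j₀) = algebraMap HolH (FractionRing HolH) jHol)
    {O : Type*} [CommRing O] [Algebra O E] (S : Finset O)
    (h0 : ∃ c ∈ S, algebraMap O E c = 0) (h27 : ∃ c ∈ S, algebraMap O E c = -27) :
    Model.HorizUnram (E := E) S (h3E1 M E h) :=
  HorizBC.horizUnram_three_bc (F1Q M) j₀ ιΩ ρ hρ hdeg hρΩ hρj (embF (F1Q M) E j₀) (h3E1 M E h)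
    rfl (rel_h3E1 M E h (embF (F1Q M) E j₀) (by rw [coe_embF, hj₀])) S h0 h27

/-- The branch set `{0, -64}` contains `0` and `-64`. -/
theorem std_two {O : Type*} [CommRing O] [DecidableEq O] [Algebra O E] :
    (∃ c ∈ ({0, -64} : Finset O), algebraMap O E c = 0) ∧
      (∃ c ∈ ({0, -64} : Finset O), algebraMap O E c = -64) :=
  ⟨⟨0, by simp, map_zero _⟩, ⟨-64, by simp, by rw [map_neg, map_ofNat]⟩⟩

/-- The branch set `{0, -27}` contains `0` and `-27`. -/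
theorem std_three {O : Type*} [CommRing O] [DecidableEq O] [Algebra O E] :
    (∃ c ∈ ({0, -27} : Finset O), algebraMap O E c = 0) ∧
      (∃ c ∈ ({0, -27} : Finset O), algebraMap O E c = -27) :=
  ⟨⟨0, by simp, map_zero _⟩, ⟨-27, by simp, by rw [map_neg, map_ofNat]⟩⟩

end Horiz

/-! ### The one-`Prop` form: from `Bricks.FIn.HolEmb M` -/

section HolEmb

local notation "Qb" => AlgebraicClosure ℚ

variable (M : ℕ) [NeZero M]

/-- `j ∈ F1 M` in the two vocabularies. -/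
theorem jElt_eq_embF : Dia.jElt M 1 (one_dvd M) = embF (F1Q M) Qb (Bricks.jQ1 M) := by
  apply Subtype.ext
  rw [Dia.coe_jElt, coe_embF, qExpand_one_apply]
  rfl

/-- The family of `Bricks.FIn.HolEmb M` in the binders of `K1/HorizBC`. -/
theorem family_of_holEmb (hemb : Bricks.FIn.HolEmb M) :
    ∃ (I : Type) (_ : Finite I) (ρ : I → ↥(laurentBaseChange Qb (F1Q M)) →+* FractionRing HolH),
      Function.Injective ρ ∧
      Module.Finite Qb⟮embF (F1Q M) Qb (Bricks.jQ1 M)⟯ ↥(laurentBaseChange Qb (F1Q M)) ∧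
      Module.finrank Qb⟮embF (F1Q M) Qb (Bricks.jQ1 M)⟯ ↥(laurentBaseChange Qb (F1Q M))
        ≤ Nat.card I ∧
      (∀ i a, ρ i (algebraMap Qb ↥(laurentBaseChange Qb (F1Q M)) a) =
        algebraMap HolH (FractionRing HolH) (algebraMap ℂ HolH (Fermat.Agent.S24.Theta.iotaBar a))) ∧
      (∀ i, ρ i (embF (F1Q M) Qb (Bricks.jQ1 M)) = algebraMap HolH (FractionRing HolH) jHol) := by
  obtain ⟨I, hI, ρ, hρ, hρΩ, hρj, -, hfin, hdeg⟩ := hemb
  have key : ∀ x : ↥(F1 M), x = embF (F1Q M) Qb (Bricks.jQ1 M) →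
      (∀ i, ρ i x = algebraMap HolH (FractionRing HolH) jHol) →
      FiniteDimensional Qb⟮x⟯ ↥(F1 M) → Module.finrank Qb⟮x⟯ ↥(F1 M) ≤ Fintype.card I →
      ∃ (I : Type) (_ : Finite I)
        (ρ : I → ↥(laurentBaseChange Qb (F1Q M)) →+* FractionRing HolH),
        Function.Injective ρ ∧
        Module.Finite Qb⟮embF (F1Q M) Qb (Bricks.jQ1 M)⟯ ↥(laurentBaseChange Qb (F1Q M)) ∧
        Module.finrank Qb⟮embF (F1Q M) Qb (Bricks.jQ1 M)⟯ ↥(laurentBaseChange Qb (F1Q M))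
          ≤ Nat.card I ∧
        (∀ i a, ρ i (algebraMap Qb ↥(laurentBaseChange Qb (F1Q M)) a) =
          algebraMap HolH (FractionRing HolH)
            (algebraMap ℂ HolH (Fermat.Agent.S24.Theta.iotaBar a))) ∧
        (∀ i, ρ i (embF (F1Q M) Qb (Bricks.jQ1 M)) =
          algebraMap HolH (FractionRing HolH) jHol) := by
    rintro x rfl hj hf hd
    exact ⟨I, Finite.of_fintype I, ρ, hρ, hf, by rwa [Nat.card_eq_fintype_card], hρΩ, hj⟩
  exact key _ (jElt_eq_embF M) hρj hfin hdeg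

/-- **Hypothesis (ii) over `h₂`** from `Bricks.FIn.HolEmb M` (`2 ∣ M`, `S ∋ 0, -64`), for every
intermediate field `E ⊆ ℚ̄`. -/
theorem horizUnram_h2E1_of_holEmb (h : 2 ∣ M) (hemb : Bricks.FIn.HolEmb M)
    (E : IntermediateField ℚ Qb) {O : Type*} [CommRing O] [Algebra O E] (S : Finset O)
    (h0 : ∃ c ∈ S, algebraMap O E c = 0) (h64 : ∃ c ∈ S, algebraMap O E c = -64) :
    Model.HorizUnram (E := E) S (h2E1 M E h) := by
  obtain ⟨I, hI, ρ, hρ, hfin, hdeg, hρΩ, hρj⟩ := family_of_holEmb M hemb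
  exact horizUnram_h2E1_of_family M h (Bricks.jQ1 M) rfl Fermat.Agent.S24.Theta.iotaBar ρ hρ hdeg
    hρΩ hρj S h0 h64

/-- **Hypothesis (ii) over `h₃`** from `Bricks.FIn.HolEmb M` (`3 ∣ M`, `S ∋ 0, -27`), for every
intermediate field `E ⊆ ℚ̄`. -/
theorem horizUnram_h3E1_of_holEmb (h : 3 ∣ M) (hemb : Bricks.FIn.HolEmb M)
    (E : IntermediateField ℚ Qb) {O : Type*} [CommRing O] [Algebra O E] (S : Finset O)
    (h0 : ∃ c ∈ S, algebraMap O E c = 0) (h27 : ∃ c ∈ S, algebraMap O E c = -27) :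
    Model.HorizUnram (E := E) S (h3E1 M E h) := by
  obtain ⟨I, hI, ρ, hρ, hfin, hdeg, hρΩ, hρj⟩ := family_of_holEmb M hemb
  exact horizUnram_h3E1_of_family M h (Bricks.jQ1 M) rfl Fermat.Agent.S24.Theta.iotaBar ρ hρ hdeg
    hρΩ hρj S h0 h27

/-- `S = {0, -64}`. -/
theorem horizUnram_h2E1_std (h : 2 ∣ M) (hemb : Bricks.FIn.HolEmb M)
    (E : IntermediateField ℚ Qb) {O : Type*} [CommRing O] [DecidableEq O] [Algebra O E] :
    Model.HorizUnram (E := E) ({0, -64} : Finset O) (h2E1 M E h) :=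
  horizUnram_h2E1_of_holEmb M h hemb E _ (std_two (E := E)).1 (std_two (E := E)).2

/-- `S = {0, -27}`. -/
theorem horizUnram_h3E1_std (h : 3 ∣ M) (hemb : Bricks.FIn.HolEmb M)
    (E : IntermediateField ℚ Qb) {O : Type*} [CommRing O] [DecidableEq O] [Algebra O E] :
    Model.HorizUnram (E := E) ({0, -27} : Finset O) (h3E1 M E h) :=
  horizUnram_h3E1_of_holEmb M h hemb E _ (std_three (E := E)).1 (std_three (E := E)).2

end HolEmb

end Fermat.Agent.S48.G1.K1.HauptIn
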