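/-
S48 / G1, AREA K, row K.3 (helper70): the bricks `Bricks.HorizJ M` and `Bricks.DegE M`.

Hypothesis (ii) of the Model theorem over the `j`-line for `L1 M E = F₁(M)·E`, `E ⊆ ℚ̄` any
intermediate field, and the degree `[L1 M E : E(j)] = ψ(M) · |(ℤ/M)ˣ/±1|`, from the `ℚ̄`-level
coset realisations `Bricks.FIn.HolEmb M` (deliverable of AREA F).  Instances of the level-free
`K1/HorizBC.lean` (base change of constants) and `HorizOfEmb.finrank_eq_card`.
-/
import Fermat.Agent.S48.G1.K1.Bricks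
import Fermat.Agent.S48.G1.K1.HorizBC

set_option autoImplicit false
set_option linter.style.haveILetI false
set_option synthInstance.maxHeartbeats 400000

noncomputable section

namespace Fermat.Agent.S48.G1.K1.HorizJ

open ModularCurve IntermediateField
open Fermat.Agent.S24.HolH Fermat.Agent.S24.JHol Fermat.Agent.S24.Theta
open Fermat.Agent.S30.E2.Degree.Abs
open Fermat.Agent.S48.G1.F1 Fermat.Agent.S48.G1.K1.Bricks

local notation "Qb" => AlgebraicClosure ℚ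

/-- The two names of `j` in `F1 M`. -/
theorem jElt_eq_embF (M : ℕ) : Dia.jElt M 1 (one_dvd M) = embF (F1Q M) Qb (jQ1 M) := by
  apply Subtype.ext
  show coeffEmb Qb (qExpand ℚ 1 jq) = coeffEmb Qb jq
  rw [qExpand_one_apply]

/-- The two names of `j` in `L1 M E`. -/
theorem jE1_eq_embF (M : ℕ) (E : Type) [Field E] [Algebra ℚ E] :
    jE1 M E = embF (F1Q M) E (jQ1 M) := rfl

/-- **(K.6) HorizJ.** -/
theorem horizJ (M : ℕ) : Bricks.HorizJ M := by
  rintro ⟨I, hI, ρ, hρ, hρΩ, hρj, -, hfin, hdeg⟩ E _ O _ _ S h0 h1728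
  letI := hI
  rw [jElt_eq_embF] at hfin hdeg
  haveI : Module.Finite Qb⟮embF (F1Q M) Qb (jQ1 M)⟯ ↥(laurentBaseChange Qb (F1Q M)) := hfin
  have hρj' : ∀ i, ρ i (embF (F1Q M) Qb (jQ1 M)) =
      algebraMap HolH (FractionRing HolH) jHol := fun i => by rw [← jElt_eq_embF]; exact hρj i
  have hdeg' : Module.finrank Qb⟮embF (F1Q M) Qb (jQ1 M)⟯ ↥(laurentBaseChange Qb (F1Q M))
      ≤ Nat.card I := by rw [Nat.card_eq_fintype_card]; exact hdeg
  show FiniteDimensional (IntermediateField.adjoin E {jE1 M E}) (L1 M E) ∧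
    Fermat.Agent.S30.Model.HorizUnram (E := E) S (jE1 M E)
  rw [jE1_eq_embF]
  exact ⟨HorizBC.finite_bc (F1Q M) E (Ω := Qb) (jQ1 M),
    HorizBC.horizUnram_embF (F1Q M) (jQ1 M) iotaBar ρ hρ hdeg' hρΩ hρj' S h0 h1728⟩

/-- **(K.5c) DegE.** -/
theorem degE (M : ℕ) : Bricks.DegE M := by
  rintro ⟨I, hI, ρ, hρ, hρΩ, hρj, hcard, hfin, hdeg⟩ E
  letI := hI
  rw [jElt_eq_embF] at hfin hdeg
  haveI : Module.Finite Qb⟮embF (F1Q M) Qb (jQ1 M)⟯ ↥(laurentBaseChange Qb (F1Q M)) := hfin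
  have hρj' : ∀ i, ρ i (embF (F1Q M) Qb (jQ1 M)) =
      algebraMap HolH (FractionRing HolH) jHol := fun i => by rw [← jElt_eq_embF]; exact hρj i
  have hdeg' : Module.finrank Qb⟮embF (F1Q M) Qb (jQ1 M)⟯ ↥(laurentBaseChange Qb (F1Q M))
      ≤ Nat.card I := by rw [Nat.card_eq_fintype_card]; exact hdeg
  have h1 := Fermat.Agent.S48.G1.HorizOfEmb.finrank_eq_card (embF (F1Q M) Qb (jQ1 M)) iotaBar ρ hρ
    hdeg' hρΩ hρj'
  rw [Nat.card_eq_fintype_card, hcard] at h1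
  rw [jE1_eq_embF]
  refine ⟨HorizBC.finite_bc (F1Q M) E (Ω := Qb) (jQ1 M), ?_⟩
  rw [(finite_and_finrank_baseChange_down (F1Q M) E Qb (jQ1 M)).2]
  exact h1

/-- Hypothesis (ii) over the Hauptmodul base of level `2` for `L1 M E` (any element `t` with
`j t² = (t + 256)³`), branch values `0, -64`, from the `ℚ̄`-level coset realisations. -/
theorem horizUnram_two (M : ℕ) (h : FIn.HolEmb M) (E : IntermediateField ℚ Qb)
    (jL t : L1 M E) (hj : (jL : LaurentSeries E) = coeffEmb E jq)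
    (hrel : jL * t ^ 2 = (t + 256) ^ 3)
    {O : Type*} [CommRing O] [Algebra O E] (S : Finset O)
    (h0 : ∃ c ∈ S, algebraMap O E c = 0) (h64 : ∃ c ∈ S, algebraMap O E c = -64) :
    Fermat.Agent.S30.Model.HorizUnram (E := E) S t := by
  obtain ⟨I, hI, ρ, hρ, hρΩ, hρj, -, hfin, hdeg⟩ := h
  letI := hI
  rw [jElt_eq_embF] at hfin hdeg
  haveI : Module.Finite Qb⟮embF (F1Q M) Qb (jQ1 M)⟯ ↥(laurentBaseChange Qb (F1Q M)) := hfin
  have hρj' : ∀ i, ρ i (embF (F1Q M) Qb (jQ1 M)) =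
      algebraMap HolH (FractionRing HolH) jHol := fun i => by rw [← jElt_eq_embF]; exact hρj i
  have hdeg' : Module.finrank Qb⟮embF (F1Q M) Qb (jQ1 M)⟯ ↥(laurentBaseChange Qb (F1Q M))
      ≤ Nat.card I := by rw [Nat.card_eq_fintype_card]; exact hdeg
  exact HorizBC.horizUnram_two_bc (F1Q M) (jQ1 M) iotaBar ρ hρ hdeg' hρΩ hρj' jL t hj hrel S h0 h64

/-- Hypothesis (ii) over the Hauptmodul base of level `3` for `L1 M E` (any element `t` with
`j t³ = (t + 27)(t + 243)³`), branch values `0, -27`, from the `ℚ̄`-level coset realisations. -/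
theorem horizUnram_three (M : ℕ) (h : FIn.HolEmb M) (E : IntermediateField ℚ Qb)
    (jL t : L1 M E) (hj : (jL : LaurentSeries E) = coeffEmb E jq)
    (hrel : jL * t ^ 3 = (t + 27) * (t + 243) ^ 3)
    {O : Type*} [CommRing O] [Algebra O E] (S : Finset O)
    (h0 : ∃ c ∈ S, algebraMap O E c = 0) (h27 : ∃ c ∈ S, algebraMap O E c = -27) :
    Fermat.Agent.S30.Model.HorizUnram (E := E) S t := by
  obtain ⟨I, hI, ρ, hρ, hρΩ, hρj, -, hfin, hdeg⟩ := h
  letI := hI
  rw [jElt_eq_embF] at hfin hdeg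
  haveI : Module.Finite Qb⟮embF (F1Q M) Qb (jQ1 M)⟯ ↥(laurentBaseChange Qb (F1Q M)) := hfin
  have hρj' : ∀ i, ρ i (embF (F1Q M) Qb (jQ1 M)) =
      algebraMap HolH (FractionRing HolH) jHol := fun i => by rw [← jElt_eq_embF]; exact hρj i
  have hdeg' : Module.finrank Qb⟮embF (F1Q M) Qb (jQ1 M)⟯ ↥(laurentBaseChange Qb (F1Q M))
      ≤ Nat.card I := by rw [Nat.card_eq_fintype_card]; exact hdeg
  exact HorizBC.horizUnram_three_bc (F1Q M) (jQ1 M) iotaBar ρ hρ hdeg' hρΩ hρj' jL t hj hrel S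
    h0 h27

/-- Hypothesis (ii) over the `j`-line for `L1 M E`, any element with the `q`-expansion of `j`
(unbundled form of `horizJ`, no finiteness of `E / ℚ` needed). -/
theorem horizUnram_j (M : ℕ) (h : FIn.HolEmb M) (E : IntermediateField ℚ Qb)
    (u : L1 M E) (hu : (u : LaurentSeries E) = coeffEmb E jq)
    {O : Type*} [CommRing O] [Algebra O E] (S : Finset O)
    (h0 : ∃ c ∈ S, algebraMap O E c = 0) (h1728 : ∃ c ∈ S, algebraMap O E c = 1728) :
    Fermat.Agent.S30.Model.HorizUnram (E := E) S u := by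
  obtain ⟨I, hI, ρ, hρ, hρΩ, hρj, -, hfin, hdeg⟩ := h
  letI := hI
  rw [jElt_eq_embF] at hfin hdeg
  haveI : Module.Finite Qb⟮embF (F1Q M) Qb (jQ1 M)⟯ ↥(laurentBaseChange Qb (F1Q M)) := hfin
  have hρj' : ∀ i, ρ i (embF (F1Q M) Qb (jQ1 M)) =
      algebraMap HolH (FractionRing HolH) jHol := fun i => by rw [← jElt_eq_embF]; exact hρj i
  have hdeg' : Module.finrank Qb⟮embF (F1Q M) Qb (jQ1 M)⟯ ↥(laurentBaseChange Qb (F1Q M))
      ≤ Nat.card I := by rw [Nat.card_eq_fintype_card]; exact hdeg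
  exact HorizBC.horizUnram_bc (F1Q M) (jQ1 M) iotaBar ρ hρ hdeg' hρΩ hρj' u hu S h0 h1728

/-- Finiteness over the `j`-line for `L1 M E`, any element with the `q`-expansion of `j`. -/
theorem finite_j (M : ℕ) (h : FIn.HolEmb M) (E : IntermediateField ℚ Qb)
    (u : L1 M E) (hu : (u : LaurentSeries E) = coeffEmb E jq) :
    FiniteDimensional (IntermediateField.adjoin E {u}) (L1 M E) := by
  have hu' : u = embF (F1Q M) E (jQ1 M) := Subtype.ext hu
  rw [hu', ← jE1_eq_embF]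
  exact (degE M h E).1

end Fermat.Agent.S48.G1.K1.HorizJ
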