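import Mathlib
import Fermat.Agent.S18.K1Main.Units
import Fermat.Agent.S30.GaussDescent
import Fermat.Agent.S48.G1.K1Gen.Top
import Fermat.Agent.S48.G1.ES.Gauss1
import Fermat.Agent.S48.G1.K1.Bricks
import Fermat.Agent.S48.G1.K1.CoreTSD
import Fermat.Agent.S48.G1.K1.HorizJ
import Fermat.Agent.S48.G1.K1.HauptIn

/-!
# PROGRAM DS (S48) / G1, area K: THE EXIT `K1_1 M` (Route B) from the two remaining inputs

For a level `M` with `2 ∣ M ∨ 3 ∣ M` (G1 RULING #4: Route B), the Kummer statement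
`ExitD.K1Ord (F1Q M) q A` at every prime `q ∤ M` and every valuation ring `A` of `ℚ̄` over `q`
(literally the body of `Producer1.Bricks1.K1_1 M` and of `ES.K1_1 M`), from exactly TWO Props:

* `Bricks.FIn.HolEmb M` — the coset realisations of `F1 M` over the `j`-line with the degree
  bound (K.1; it gives finiteness over `E(j)` and hypothesis (ii) over every base by the landed
  `K1/HorizJ`, `K1/HauptIn`);
* `GaussJ1 M` (below) — hypothesis (i) in TSD form AT THE BASE `j`, for `L1 M E` over every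
  sufficiently large number field `E`, at every residue characteristic `ℓ ∤ M` (K.2.inst).

Case split on the residue characteristic `q`:
* `3 < q` : base `j`, branch values `0, 1728` (`CoreTSD.k1E_j_tsd`);
* `q ≠ 2`, `2 ∣ M` : base `h₂`, branch values `0, -64` (`CoreTSD.k1E_two_tsd`);
* `q ≠ 3`, `3 ∣ M` : base `h₃`, branch values `0, -27` (`CoreTSD.k1E_three_tsd`).

Exits: `k1ModularG_big / _two / _three` (the three legs, each for an arbitrary level `M`, so
that the Route A extension can call them at the levels `2M`, `3M`), `k1ModularG_routeB`,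
`k1_1`.
-/

set_option autoImplicit false
set_option linter.unusedSectionVars false
set_option linter.style.haveILetI false

open ModularCurve AlgebraicCurve

noncomputable section

namespace Fermat.Agent.S48.G1.K1.Final1

open Fermat.Agent.S18.K1Defs Fermat.Agent.S18.K1Main Fermat.Agent.S30
open Fermat.Agent.S48.G1.F1 Fermat.Agent.S48.G1.K1.Bricks Fermat.Agent.S48.G1

local notation "Qb" => AlgebraicClosure ℚ

/-! ### The seam Prop of K.2.inst -/

/-- **(K.2.inst)** Hypothesis (i) of the Model Theorem in trace-self-duality form at the base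
`j`, for `L1 M E = F₁(M)·E` with the canonical `O`-structure, over every number field
`E ⊆ ℚ̄` containing a finite set `S₀` (depending on `A`), at every residue characteristic
`ℓ ∤ M` (`2` and `3` included). -/
def GaussJ1 (M : ℕ) : Prop :=
  ∀ ℓ : ℕ, ℓ.Prime → ¬ ℓ ∣ M → ∀ A : ValuationSubring Qb, A.LiesOverPrime ℓ →
    ∃ S₀ : Finset Qb, ∀ (E : IntermediateField ℚ Qb) [FiniteDimensional ℚ E]
      [IsDiscreteValuationRing (OE A E)], (∀ s ∈ S₀, s ∈ E) →
        letI := algebraOL (OE A E) E (L1 M E)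
        haveI := isScalarTower_OL (OE A E) E (L1 M E)
        ∀ π : OE A E, Irreducible π → Model.GaussTSD (E := E) π (jE1 M E)

/-! ### Generic bookkeeping: from the `E`-level statements to `K1ModularG` -/

/-- **Bookkeeping.**  `K1ModularG F₀ A p` (`p ≠ ℓ` prime) from `(K1E)` over every large number
field `E`, where the `E`-level statement may use that `p` is a unit of `O_E` and that `O_E`
contains a primitive `p`-th root of unity. -/
theorem k1ModularG_of_k1E (F₀ : IntermediateField ℚ (LaurentSeries ℚ))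
    (A : ValuationSubring Qb) {ℓ : ℕ} (hℓ : ℓ.Prime) (hA : A.LiesOverPrime ℓ)
    (p : ℕ) (hp : p.Prime) (hpℓ : p ≠ ℓ)
    (h : ∃ S₀ : Finset Qb, ∀ (E : IntermediateField ℚ Qb) [FiniteDimensional ℚ E]
      [IsDiscreteValuationRing (OE A E)], (∀ s ∈ S₀, s ∈ E) →
        IsUnit ((p : ℕ) : OE A E) → ∀ ζ : OE A E, IsPrimitiveRoot ζ p →
          K1E (OE A E) E (laurentBaseChange E F₀) p) :
    K1Gen.K1ModularG F₀ A p := by
  classical
  obtain ⟨S₀, h⟩ := h
  have : NeZero (p : Qb) := ⟨Nat.cast_ne_zero.mpr hp.ne_zero⟩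
  obtain ⟨z, hz⟩ := HasEnoughRootsOfUnity.exists_primitiveRoot Qb p
  refine ⟨insert z S₀, fun E _ _ hE => ?_⟩
  have hzE : z ∈ E := hE z (Finset.mem_insert_self _ _)
  obtain ⟨ζ, hζ⟩ := exists_primitiveRoot_OE A E hp.pos hz hzE
  have hpO : IsUnit ((p : ℕ) : OE A E) :=
    isUnit_natCast_OE A E hA p ((Nat.coprime_primes hp hℓ).mpr hpℓ)
  exact h E (fun s hs => hE s (Finset.mem_insert_of_mem hs)) hpO ζ hζ

/-! ### Fractions of integral series -/

/-- The generators of `F1Q M` are series with integer coefficients (existence form). -/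
theorem exists_int_gens1Q (M : ℕ) :
    ∀ z ∈ gens1Q M, ∃ a : LaurentSeries ℤ, coeffMap (Int.castRingHom ℚ) a = z := by
  rintro z (⟨d, hd, _, rfl⟩ | ⟨b, rfl⟩)
  · exact GaussDescent.exists_int_qExpand_jq d
  · exact ⟨_, (ES.Gauss1.gq_eq_coeffMap M _).symm⟩

/-- Every element of `F1Q M` is a fraction of series with integer coefficients. -/
theorem intFrac_F1Q (M : ℕ) : ∀ z ∈ F1Q M, GaussDescent.IntFrac z := fun _ hz =>
  GaussDescent.intFrac_of_mem_adjoin (gens1Q M) (exists_int_gens1Q M) hz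

/-! ### The three legs at the level of a number field -/

section Legs

variable (M : ℕ) [NeZero M] (A : ValuationSubring Qb) (E : IntermediateField ℚ Qb)
  [FiniteDimensional ℚ E] [IsDiscreteValuationRing (OE A E)]

/-- `hfrac` for `L1 M E`. -/
theorem hfrac1 (x : L1 M E) : (x : LaurentSeries E) ∈ GaussDVR.fracField (OE A E) E :=
  GaussDescent.mem_fracField_of_mem_laurentBaseChange A E (F1Q M) (intFrac_F1Q M) x.2

/-- `2` is a unit of `O_E` at odd residue characteristic. -/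
theorem isUnit_two_OE {ℓ : ℕ} (hℓ : ℓ.Prime) (hA : A.LiesOverPrime ℓ) (h2 : ℓ ≠ 2) :
    IsUnit (2 : OE A E) := by
  have h := isUnit_natCast_OE A E hA 2 ((Nat.coprime_primes Nat.prime_two hℓ).mpr h2.symm)
  simpa using h

/-- `3` is a unit of `O_E` at residue characteristic `≠ 3`. -/
theorem isUnit_three_OE {ℓ : ℕ} (hℓ : ℓ.Prime) (hA : A.LiesOverPrime ℓ) (h3 : ℓ ≠ 3) :
    IsUnit (3 : OE A E) := by
  have h := isUnit_natCast_OE A E hA 3 ((Nat.coprime_primes Nat.prime_three hℓ).mpr h3.symm)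
  simpa using h

/-- **The `j`-leg over `E`** (residue characteristic `> 3`). -/
theorem k1E_big (hemb : FIn.HolEmb M) {ℓ : ℕ} (hℓ : ℓ.Prime) (hA : A.LiesOverPrime ℓ)
    (h3 : 3 < ℓ)
    (hg : letI := algebraOL (OE A E) E (L1 M E)
      haveI := isScalarTower_OL (OE A E) E (L1 M E)
      ∀ π : OE A E, Irreducible π → Model.GaussTSD (E := E) π (jE1 M E))
    (p : ℕ) (hp : p.Prime) (hpO : IsUnit ((p : ℕ) : OE A E)) (ζ : OE A E)
    (hζ : IsPrimitiveRoot ζ p) : K1E (OE A E) E (L1 M E) p := by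
  classical
  letI := algebraOL (OE A E) E (L1 M E)
  haveI := isScalarTower_OL (OE A E) E (L1 M E)
  haveI : FiniteDimensional (IntermediateField.adjoin E {jE1 M E}) (L1 M E) :=
    HorizJ.finite_j M hemb E (jE1 M E) rfl
  have h1728 : IsUnit (1728 : OE A E) :=
    CoreTSD.isUnit_1728 (isUnit_two_OE A E hℓ hA (by omega)) (isUnit_three_OE A E hℓ hA (by omega))
  have hhoriz : Model.HorizUnram (E := E) ({0, 1728} : Finset (OE A E)) (jE1 M E) :=
    HorizJ.horizUnram_j M hemb E (jE1 M E) rfl {0, 1728}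
      ⟨0, by simp, map_zero _⟩ ⟨1728, by simp, map_ofNat (algebraMap (OE A E) E) 1728⟩
  exact CoreTSD.k1E_j_tsd (L1 M E) (hfrac1 M A E) (jE1 M E) rfl hg hhoriz h1728 p hp hpO ζ hζ

/-- **The `h₂`-leg over `E`** (`2 ∣ M`, odd residue characteristic). -/
theorem k1E_two (h2M : 2 ∣ M) (hemb : FIn.HolEmb M) {ℓ : ℕ} (hℓ : ℓ.Prime)
    (hA : A.LiesOverPrime ℓ) (h2 : ℓ ≠ 2)
    (hg : letI := algebraOL (OE A E) E (L1 M E)
      haveI := isScalarTower_OL (OE A E) E (L1 M E)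
      ∀ π : OE A E, Irreducible π → Model.GaussTSD (E := E) π (jE1 M E))
    (p : ℕ) (hp : p.Prime) (hpO : IsUnit ((p : ℕ) : OE A E)) (ζ : OE A E)
    (hζ : IsPrimitiveRoot ζ p) : K1E (OE A E) E (L1 M E) p := by
  classical
  letI := algebraOL (OE A E) E (L1 M E)
  haveI := isScalarTower_OL (OE A E) E (L1 M E)
  haveI : FiniteDimensional (IntermediateField.adjoin E {jE1 M E}) (L1 M E) :=
    HorizJ.finite_j M hemb E (jE1 M E) rfl
  exact CoreTSD.k1E_two_tsd (L1 M E) (hfrac1 M A E) (jE1 M E) (HauptIn.h2E1 M E h2M) rfl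
    (HauptIn.coe_h2E1 M E h2M) hg (HauptIn.horizUnram_h2E1_std M h2M hemb E)
    (isUnit_two_OE A E hℓ hA h2) p hp hpO ζ hζ

/-- **The `h₃`-leg over `E`** (`3 ∣ M`, residue characteristic `≠ 3`). -/
theorem k1E_three (h3M : 3 ∣ M) (hemb : FIn.HolEmb M) {ℓ : ℕ} (hℓ : ℓ.Prime)
    (hA : A.LiesOverPrime ℓ) (h3 : ℓ ≠ 3)
    (hg : letI := algebraOL (OE A E) E (L1 M E)
      haveI := isScalarTower_OL (OE A E) E (L1 M E)
      ∀ π : OE A E, Irreducible π → Model.GaussTSD (E := E) π (jE1 M E))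
    (p : ℕ) (hp : p.Prime) (hpO : IsUnit ((p : ℕ) : OE A E)) (ζ : OE A E)
    (hζ : IsPrimitiveRoot ζ p) : K1E (OE A E) E (L1 M E) p := by
  classical
  letI := algebraOL (OE A E) E (L1 M E)
  haveI := isScalarTower_OL (OE A E) E (L1 M E)
  haveI : FiniteDimensional (IntermediateField.adjoin E {jE1 M E}) (L1 M E) :=
    HorizJ.finite_j M hemb E (jE1 M E) rfl
  exact CoreTSD.k1E_three_tsd (L1 M E) (hfrac1 M A E) (jE1 M E) (HauptIn.h3E1 M E h3M) rfl
    (HauptIn.coe_h3E1 M E h3M) hg (HauptIn.horizUnram_h3E1_std M h3M hemb E)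
    (isUnit_three_OE A E hℓ hA h3) p hp hpO ζ hζ

end Legs

/-! ### The three legs over `ℚ̄` -/

section Modular

variable (M : ℕ) [NeZero M] (hemb : FIn.HolEmb M) (hg : GaussJ1 M)
  {ℓ : ℕ} (hℓ : ℓ.Prime) (hℓM : ¬ ℓ ∣ M) (A : ValuationSubring Qb) (hA : A.LiesOverPrime ℓ)
  (p : ℕ) (hp : p.Prime) (hpℓ : p ≠ ℓ)

include hemb hg hℓ hℓM hA hp hpℓ

/-- **`K1ModularG (F1Q M) A p` at residue characteristic `ℓ > 3`** (base `j`). -/
theorem k1ModularG_big (h3 : 3 < ℓ) : K1Gen.K1ModularG (F1Q M) A p := by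
  obtain ⟨S₀, hS₀⟩ := hg ℓ hℓ hℓM A hA
  exact k1ModularG_of_k1E (F1Q M) A hℓ hA p hp hpℓ
    ⟨S₀, fun E _ _ hE hpO ζ hζ => k1E_big M A E hemb hℓ hA h3 (hS₀ E hE) p hp hpO ζ hζ⟩

/-- **`K1ModularG (F1Q M) A p` at odd residue characteristic, `2 ∣ M`** (base `h₂`). -/
theorem k1ModularG_two (h2M : 2 ∣ M) (h2 : ℓ ≠ 2) : K1Gen.K1ModularG (F1Q M) A p := by
  obtain ⟨S₀, hS₀⟩ := hg ℓ hℓ hℓM A hA
  exact k1ModularG_of_k1E (F1Q M) A hℓ hA p hp hpℓ
    ⟨S₀, fun E _ _ hE hpO ζ hζ => k1E_two M A E h2M hemb hℓ hA h2 (hS₀ E hE) p hp hpO ζ hζ⟩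

/-- **`K1ModularG (F1Q M) A p` at residue characteristic `≠ 3`, `3 ∣ M`** (base `h₃`). -/
theorem k1ModularG_three (h3M : 3 ∣ M) (h3 : ℓ ≠ 3) : K1Gen.K1ModularG (F1Q M) A p := by
  obtain ⟨S₀, hS₀⟩ := hg ℓ hℓ hℓM A hA
  exact k1ModularG_of_k1E (F1Q M) A hℓ hA p hp hpℓ
    ⟨S₀, fun E _ _ hE hpO ζ hζ => k1E_three M A E h3M hemb hℓ hA h3 (hS₀ E hE) p hp hpO ζ hζ⟩

/-- **Route B**: `K1ModularG (F1Q M) A p` at every residue characteristic `ℓ ∤ M`, for a level
with `2 ∣ M ∨ 3 ∣ M` (no auxiliary level). -/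
theorem k1ModularG_routeB (h23 : 2 ∣ M ∨ 3 ∣ M) : K1Gen.K1ModularG (F1Q M) A p := by
  by_cases h3 : 3 < ℓ
  · exact k1ModularG_big M hemb hg hℓ hℓM A hA p hp hpℓ h3
  · have hℓ2 : 2 ≤ ℓ := hℓ.two_le
    have hcases : ℓ = 2 ∨ ℓ = 3 := by omega
    rcases hcases with rfl | rfl
    · -- `ℓ = 2 ∤ M`, hence `3 ∣ M`
      have h3M : 3 ∣ M := h23.resolve_left hℓM
      exact k1ModularG_three M hemb hg hℓ hℓM A hA p hp hpℓ h3M (by norm_num)
    · -- `ℓ = 3 ∤ M`, hence `2 ∣ M`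
      have h2M : 2 ∣ M := h23.resolve_right hℓM
      exact k1ModularG_two M hemb hg hℓ hℓM A hA p hp hpℓ h2M (by norm_num)

end Modular

/-! ### The exit -/

/-- **THE EXIT OF AREA K (Route B)**: for a level `M` with `2 ∣ M ∨ 3 ∣ M`, the Kummer
statement `(K1)` (`ord`-difference form) for `F1 M` at every prime `q ∤ M` — literally the
body of `Producer1.Bricks1.K1_1 M` / `ES.K1_1 M` — from the coset realisations
`Bricks.FIn.HolEmb M` and the Gauss input `GaussJ1 M`. -/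
theorem k1_1 (M : ℕ) [NeZero M] (h23 : 2 ∣ M ∨ 3 ∣ M) (hemb : FIn.HolEmb M) (hg : GaussJ1 M) :
    ∀ q : ℕ, q.Prime → ¬ q ∣ M → ∀ A : ValuationSubring Qb, A.LiesOverPrime q →
      Fermat.Agent.S48.ExitD.K1Ord (F1Q M) q A := by
  intro q hq hqM A hA
  haveI : Fact q.Prime := ⟨hq⟩
  exact K1Gen.k1Ord_of_k1ModularG (F1Q M) A hq hA (ES.Gauss1.hasGaussNorm1 M q A hA)
    (fun p hp hpq => k1ModularG_routeB M hemb hg hq hqM A hA p hp hpq h23)

end Fermat.Agent.S48.G1.K1.Final1
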