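/-
S48 / G1, AREA K (K1 side), level-free brick (helper239): hypothesis (i) of the MODEL THEOREM
in a TOWER `E(u) ⊆ K1 ⊆ L`, trace-self-dual form.

For `L = F1(M)·E` over `E(j)` the lower layer `K1 = F0(M)·E` is the landed `Γ₀(M)` case
(`S30/E2`: `GaussUnram`, hence `GaussTSD`, and conclusion (a) of the Model theorem: `π` is a
prime element of the integral closure of `O[j]` in `K1`); the upper layer `L / K1` is Galois with
the diamond automorphisms, and ONE integral element `θ` whose conjugates have differences with
product prime to `π` suffices.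

* `tsdField_tower` (T1): trace-self-duality (`LocalDisc.TSDField`) is transitive in towers.
* `tsdField_of_conj` (T2): the upper layer from `[L : K']` automorphisms and one element.
* `gaussTSD_of_tower`, `gaussTSD_of_tower'` (T4): the consumer form, `Model.GaussTSD` of
  `S30/Model/Defs.lean` (the shape consumed by `S18/K1Main/Generic.k1E_of_inputs_tsd`).

No level, no Laurent series, no discriminant tower formula, no norm argument.
-/
import Mathlib
import Fermat.Agent.S30.Model.Defs
import Fermat.Agent.S30.Model.LocalDisc
import Fermat.Agent.S30.Model.UnramTSD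
import Fermat.Agent.S30.Model.TSDAtIff
import Fermat.Agent.S30.Model.TSDTransport
import Fermat.Agent.S30.Model.ChartInst
import Fermat.Agent.S30.Model.EmbDiscVert

set_option autoImplicit false
set_option linter.style.haveILetI false

noncomputable section

namespace Fermat.Agent.S48.G1.K1.GaussTower

open Fermat.Agent.S30.Model Fermat.Agent.S30.Model.LocalDisc

/-- **(T1) Trace-self-duality is transitive in towers.** -/
theorem tsdField_tower {A B K K' L : Type*} [CommRing A] [CommRing B] [Field K] [Field K']
    [Field L] [Algebra A K] [Algebra K K'] [Algebra K' L] [Algebra K L] [IsScalarTower K K' L]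
    [Algebra A B] [Algebra B K'] [Algebra A K'] [IsScalarTower A B K'] [IsScalarTower A K K']
    [Algebra A L] [Algebra B L] [IsScalarTower A K L] [IsScalarTower B K' L]
    [IsScalarTower A B L] [FiniteDimensional K K'] [FiniteDimensional K' L]
    [IsIntegralClosure B A K'] (p : A)
    (h1 : TSDField A K K' p) (h2 : TSDField B K' L (algebraMap A B p)) :
    TSDField A K L p := by
  have hAK'L : IsScalarTower A K' L := IsScalarTower.of_algebraMap_eq (fun a => by
    rw [IsScalarTower.algebraMap_apply A K L, IsScalarTower.algebraMap_apply K K' L,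
      ← IsScalarTower.algebraMap_apply A K K'])
  have hBint : Algebra.IsIntegral A B := IsIntegralClosure.isIntegral_algebra A K'
  intro x hx hxy
  have hxB : IsIntegral B x := hx.tower_top
  obtain ⟨z, hz, hxz⟩ := h2 x hxB (fun y hy => by
    have hyA : IsIntegral A y := isIntegral_trans y hy
    have ht : IsIntegral A (Algebra.trace K' L (x * y)) := Algebra.isIntegral_trace (hx.mul hyA)
    obtain ⟨t', ht', htt'⟩ := h1 (Algebra.trace K' L (x * y)) ht (fun z hz => by
      obtain ⟨w, hw⟩ := hxy (y * algebraMap K' L z) (hyA.mul hz.algebraMap)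
      refine ⟨w, ?_⟩
      have e1 : Algebra.trace K' L (x * y) * z =
          Algebra.trace K' L (x * (y * algebraMap K' L z)) := by
        rw [mul_comm _ z, ← smul_eq_mul, ← map_smul, Algebra.smul_def]
        congr 1
        ring
      rw [e1, Algebra.trace_trace]
      exact hw)
    obtain ⟨w, hw⟩ := (IsIntegralClosure.isIntegral_iff (A := B)).1 ht'
    refine ⟨w, ?_⟩
    rw [htt', map_mul, hw, ← IsScalarTower.algebraMap_apply A B K'])
  refine ⟨z, isIntegral_trans z hz, ?_⟩
  rw [hxz, ← IsScalarTower.algebraMap_apply A B L]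

/-- The product of the differences over ordered pairs is, up to sign, the square of the
Vandermonde product. -/
theorem prod_erase_eq {R : Type*} [CommRing R] {n : ℕ} (v : Fin n → R) :
    ∃ ε : R, (ε = 1 ∨ ε = -1) ∧
      ∏ i, ∏ j ∈ Finset.univ.erase i, (v i - v j) =
        ε * ((∏ i, ∏ j ∈ Finset.Ioi i, (v j - v i)) * (∏ i, ∏ j ∈ Finset.Ioi i, (v j - v i))) := by
  classical
  have h1 := Finset.prod_prod_Ioi_mul_eq_prod_prod_off_diag (fun a b : Fin n => v b - v a)
  have h2 : ∀ i : Fin n, ({i}ᶜ : Finset (Fin n)) = Finset.univ.erase i := by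
    intro i; ext j; simp
  simp only [h2] at h1
  rw [← h1]
  have h3 : ∀ i j : Fin n, (v i - v j) * (v j - v i) = (-1) * ((v j - v i) * (v j - v i)) := by
    intro i j; ring
  simp only [h3, Finset.prod_mul_distrib]
  refine ⟨∏ i : Fin n, ∏ j ∈ Finset.Ioi i, (-1 : R), ?_, rfl⟩
  simp only [Finset.prod_const]
  rw [Finset.prod_pow_eq_pow_sum]
  exact neg_one_pow_eq_or R _

/-- Reindexing the product of differences over ordered pairs. -/
theorem prod_erase_reindex {R ι κ : Type*} [CommRing R] [Fintype ι] [DecidableEq ι] [Fintype κ]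
    [DecidableEq κ] (e : κ ≃ ι) (r : ι → R) :
    ∏ i, ∏ j ∈ Finset.univ.erase i, (r i - r j) =
      ∏ k, ∏ l ∈ Finset.univ.erase k, (r (e k) - r (e l)) := by
  rw [← Equiv.prod_comp e]
  refine Finset.prod_congr rfl (fun k _ => ?_)
  refine (Finset.prod_equiv e ?_ ?_).symm
  · intro l; simp
  · intro l _; rfl

/-- The determinant of a trace matrix through a full set of embeddings. -/
theorem map_det_traceMatrix_eq_sq {R C Ω : Type*} [CommRing R] [CommRing C] [Algebra R C]
    [Field Ω] {ι κ : Type*} [Fintype ι] [DecidableEq ι] [Fintype κ] [DecidableEq κ]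
    (b : Module.Basis ι R C) (φ : R →+* Ω) (σ : ι → C →+* Ω)
    (hσ : ∀ i, (σ i).comp (algebraMap R C) = φ) (hinj : Function.Injective σ) (e : κ ≃ ι)
    (y : κ → C) :
    φ (Algebra.traceMatrix R y).det =
      (Matrix.of fun k k' => σ (e k) (y k')).det *
        (Matrix.of fun k k' => σ (e k) (y k')).det := by
  have hinj' : Function.Injective fun i => (RingHom.id Ω).comp (σ i) := by
    intro i i' h
    apply hinj
    simpa using h
  set M : Matrix κ κ Ω := Matrix.of fun k k' => σ (e k) (y k') with hM
  have hmat : (Algebra.traceMatrix R y).map φ = M.transpose * M := by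
    apply Matrix.ext
    intro i j
    rw [Matrix.map_apply, Algebra.traceMatrix_apply, Algebra.traceForm_apply,
      EmbDiscVert.map_trace_eq_sum b φ (RingHom.id Ω) σ hσ hinj',
      Matrix.mul_apply, ← Equiv.sum_comp e]
    refine Finset.sum_congr rfl (fun l _ => ?_)
    rw [Matrix.transpose_apply, hM, Matrix.of_apply, Matrix.of_apply, map_mul]
  rw [RingHom.map_det, RingHom.mapMatrix_apply, hmat, Matrix.det_mul, Matrix.det_transpose]

/-- **(T2) Upper layer.**  `L / K'` finite with `[L : K']` automorphisms `σ i` over `K'`, `B` an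
integrally closed domain with fraction field `K'` and `p` a prime element of `B`.  If `θ ∈ L` is
integral over `B` and the product of the differences of its conjugates is not divisible by `p`
in the integral closure, then the integral closure of `B` in `L` is trace-self-dual at `p`. -/
theorem tsdField_of_conj {B K' L : Type*} [CommRing B] [IsDomain B] [IsIntegrallyClosed B]
    [Field K'] [Field L] [Algebra B K'] [IsFractionRing B K'] [Algebra K' L] [Algebra B L]
    [IsScalarTower B K' L] [FiniteDimensional K' L] {p : B} (hp : Prime p)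
    {ι : Type*} [Fintype ι] [DecidableEq ι] (σ : ι → L →ₐ[K'] L)
    (hcard : Fintype.card ι = Module.finrank K' L)
    (θ : L) (hθ : IsIntegral B θ)
    (hdisc : ∀ c : L, IsIntegral B c →
      (∏ i, ∏ j ∈ Finset.univ.erase i, (σ i θ - σ j θ)) ≠ algebraMap B L p * c) :
    TSDField B K' L p := by
  classical
  -- the conjugates are pairwise distinct
  have hprod0 : (∏ i, ∏ j ∈ Finset.univ.erase i, (σ i θ - σ j θ)) ≠ 0 := by
    intro h0
    exact hdisc 0 isIntegral_zero (by rw [h0, mul_zero])
  have hrinj : Function.Injective fun i => σ i θ := by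
    intro i j hij
    by_contra hne
    apply hprod0
    apply Finset.prod_eq_zero (Finset.mem_univ i)
    apply Finset.prod_eq_zero (Finset.mem_erase.mpr ⟨Ne.symm hne, Finset.mem_univ j⟩)
    exact sub_eq_zero.mpr hij
  have hσinj : Function.Injective fun i => ((σ i : L →ₐ[K'] L) : L →+* L) := by
    intro i j hij
    apply hrinj
    exact congrArg (fun f : L →+* L => f θ) hij
  -- index equivalence, basis, family
  let e : Fin (Module.finrank K' L) ≃ ι := (Fintype.equivFinOfCardEq hcard).symm
  let b : Module.Basis ι K' L := (Module.finBasis K' L).reindex e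
  let y : Fin (Module.finrank K' L) → L := fun k => θ ^ (k : ℕ)
  have hy : ∀ k, IsIntegral B (y k) := fun k => hθ.pow _
  have hT : ∀ k l, IsIntegral B (Algebra.traceMatrix K' y k l) := fun k l =>
    Algebra.isIntegral_trace ((hy k).mul (hy l))
  have hdetint : IsIntegral B (Algebra.traceMatrix K' y).det := IsIntegral.det hT
  obtain ⟨d, hd⟩ := IsIntegrallyClosed.isIntegral_iff.1 hdetint
  refine UnramTSD.tsdField_of_family hp y hy d hd ?_
  rintro ⟨c, rfl⟩
  have hdet := map_det_traceMatrix_eq_sq b (algebraMap K' L) (fun i => ((σ i : L →ₐ[K'] L) : L →+* L))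
    (fun i => (σ i).comp_algebraMap) hσinj e y
  have hV : (Matrix.of fun k k' => ((σ (e k) : L →ₐ[K'] L) : L →+* L) (y k')) =
      Matrix.vandermonde (fun k => σ (e k) θ) := by
    ext k k'
    simp [Matrix.vandermonde_apply, y]
  rw [hV, Matrix.det_vandermonde, ← hd] at hdet
  obtain ⟨ε, hε, hprod⟩ := prod_erase_eq (fun k => σ (e k) θ)
  have hre := prod_erase_reindex e (fun i => σ i θ)
  have hεint : IsIntegral B ε := by
    rcases hε with rfl | rfl
    · exact isIntegral_one
    · exact isIntegral_one.neg
  apply hdisc (ε * algebraMap B L c) (hεint.mul isIntegral_algebraMap)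
  rw [hre, hprod, ← hdet, ← IsScalarTower.algebraMap_apply B K' L, map_mul]
  ring


section Consumer

/-- **(T4) Hypothesis (i) of the Model theorem in a tower** `E(u) ⊆ K1 ⊆ L`.

`O` a domain with fraction field `E`; `K1 / E(u1)` finite with the Gauss prime `π` trace-self-dual
(`h1`) and `π` a prime element of the integral closure of `O[u1]` in `K1` (`hprime`, conclusion
(a) of the Model theorem for `K1`); `L / K1` finite with `[L : K1]` automorphisms `σ i` over `K1`
and an element `θ`, integral over `O[u]`, the product of the differences of whose conjugates is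
not divisible by `π` in the integral closure of `O[u]` in `L`.  Then the Gauss prime is
trace-self-dual in `L` (`u` = the image of `u1`). -/
theorem gaussTSD_of_tower {O E K1 L : Type*} [CommRing O] [IsDomain O]
    [Field E] [Algebra O E] [IsFractionRing O E]
    [Field K1] [Algebra E K1] [Algebra O K1] [IsScalarTower O E K1]
    [Field L] [Algebra E L] [Algebra O L]
    [Algebra K1 L] [IsScalarTower E K1 L] [IsScalarTower O K1 L]
    (π : O) (u1 : K1)
    [FiniteDimensional (IntermediateField.adjoin E {u1}) K1] [FiniteDimensional K1 L]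
    (h1 : GaussTSD (E := E) π u1)
    (hprime : Prime (algebraMap (Algebra.adjoin O {u1})
      (integralClosure (Algebra.adjoin O {u1}) K1) (algebraMap O (Algebra.adjoin O {u1}) π)))
    {ι : Type*} [Fintype ι] [DecidableEq ι] (σ : ι → L →ₐ[K1] L)
    (hcard : Fintype.card ι = Module.finrank K1 L)
    (θ : L) (hθ : IsIntegral (Algebra.adjoin O {algebraMap K1 L u1}) θ)
    (hdisc : ∀ c : L, IsIntegral (Algebra.adjoin O {algebraMap K1 L u1}) c →
      (∏ i, ∏ j ∈ Finset.univ.erase i, (σ i θ - σ j θ)) ≠ algebraMap O L π * c) :
    GaussTSD (E := E) π (algebraMap K1 L u1) := by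
  classical
  have hu1K : u1 ∈ IntermediateField.adjoin E {u1} := IntermediateField.mem_adjoin_simple_self E u1
  letI algAK : Algebra (Algebra.adjoin O {u1}) (IntermediateField.adjoin E {u1}) :=
    (ChartInst.incl O u1 (IntermediateField.adjoin E {u1}) hu1K).toAlgebra
  haveI towAKK1 : IsScalarTower (Algebra.adjoin O {u1}) (IntermediateField.adjoin E {u1}) K1 :=
    ChartInst.isScalarTower_incl O u1 (IntermediateField.adjoin E {u1}) hu1K
  haveI fracAK : IsFractionRing (Algebra.adjoin O {u1}) (IntermediateField.adjoin E {u1}) :=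
    ChartInst.isFractionRing_incl O u1 (IntermediateField.adjoin E {u1}) hu1K le_rfl
  haveI towAKL : IsScalarTower (Algebra.adjoin O {u1}) (IntermediateField.adjoin E {u1}) L :=
    IsScalarTower.of_algebraMap_eq (fun _ => rfl)
  haveI towABL : IsScalarTower (Algebra.adjoin O {u1})
      (integralClosure (Algebra.adjoin O {u1}) K1) L :=
    IsScalarTower.of_algebraMap_eq (fun _ => rfl)
  haveI icB : IsIntegrallyClosed (integralClosure (Algebra.adjoin O {u1}) K1) :=
    integralClosure.isIntegrallyClosedOfFiniteExtension (IntermediateField.adjoin E {u1})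
  haveI fracB : IsFractionRing (integralClosure (Algebra.adjoin O {u1}) K1) K1 :=
    integralClosure.isFractionRing_of_finite_extension (IntermediateField.adjoin E {u1}) K1
  -- lower layer
  have hlow : TSDField (Algebra.adjoin O {u1}) (IntermediateField.adjoin E {u1}) K1
      (algebraMap O (Algebra.adjoin O {u1}) π) :=
    (TSDAtIff.tsdAt_iff_tsdField O u1 (IntermediateField.adjoin E {u1}) hu1K
      (algebraMap O (Algebra.adjoin O {u1}) π)).1 h1
  -- upper layer
  have hBint : Algebra.IsIntegral (Algebra.adjoin O {u1})
      (integralClosure (Algebra.adjoin O {u1}) K1) :=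
    IsIntegralClosure.isIntegral_algebra (Algebra.adjoin O {u1}) K1
  have hθA : IsIntegral (Algebra.adjoin O {u1}) θ :=
    (TSDTransport.isIntegral_adjoin_map_iff O u1 θ).2 hθ
  have hup : TSDField (integralClosure (Algebra.adjoin O {u1}) K1) K1 L
      (algebraMap (Algebra.adjoin O {u1}) (integralClosure (Algebra.adjoin O {u1}) K1)
        (algebraMap O (Algebra.adjoin O {u1}) π)) := by
    refine tsdField_of_conj hprime σ hcard θ hθA.tower_top (fun c hc => ?_)
    have hcA : IsIntegral (Algebra.adjoin O {u1}) c := isIntegral_trans c hc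
    have := hdisc c ((TSDTransport.isIntegral_adjoin_map_iff O u1 c).1 hcA)
    rw [IsScalarTower.algebraMap_apply O K1 L] at this
    exact this
  have htot := tsdField_tower (algebraMap O (Algebra.adjoin O {u1}) π) hlow hup
  have hfin := TSDTransport.tsdAt_map_of_tsd (L' := L) O u1
    (algebraMap O (Algebra.adjoin O {u1}) π) htot
  have e1 : algebraMap K1 L ((algebraMap O (Algebra.adjoin O {u1}) π : Algebra.adjoin O {u1}) : K1)
      = algebraMap O L π := by
    rw [IsScalarTower.algebraMap_apply O K1 L]
    rfl
  rw [e1] at hfin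
  exact hfin

/-- **(T4'), convenience form**: the coordinate of `L` is any `u` with
`algebraMap K1 L u1 = u`. -/
theorem gaussTSD_of_tower' {O E K1 L : Type*} [CommRing O] [IsDomain O]
    [Field E] [Algebra O E] [IsFractionRing O E]
    [Field K1] [Algebra E K1] [Algebra O K1] [IsScalarTower O E K1]
    [Field L] [Algebra E L] [Algebra O L]
    [Algebra K1 L] [IsScalarTower E K1 L] [IsScalarTower O K1 L]
    (π : O) (u1 : K1) (u : L) (hu : algebraMap K1 L u1 = u)
    [FiniteDimensional (IntermediateField.adjoin E {u1}) K1] [FiniteDimensional K1 L]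
    (h1 : GaussTSD (E := E) π u1)
    (hprime : Prime (algebraMap (Algebra.adjoin O {u1})
      (integralClosure (Algebra.adjoin O {u1}) K1) (algebraMap O (Algebra.adjoin O {u1}) π)))
    {ι : Type*} [Fintype ι] [DecidableEq ι] (σ : ι → L →ₐ[K1] L)
    (hcard : Fintype.card ι = Module.finrank K1 L)
    (θ : L) (hθ : IsIntegral (Algebra.adjoin O {u}) θ)
    (hdisc : ∀ c : L, IsIntegral (Algebra.adjoin O {u}) c →
      (∏ i, ∏ j ∈ Finset.univ.erase i, (σ i θ - σ j θ)) ≠ algebraMap O L π * c) :
    GaussTSD (E := E) π u := by
  subst hu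
  exact gaussTSD_of_tower π u1 h1 hprime σ hcard θ hθ hdisc

end Consumer

end Fermat.Agent.S48.G1.K1.GaussTower

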