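/-
PROGRAM DS (S48), part G1, AREA K — THE DISCRIMINANT OF THE DIAMOND ORBIT IS A GAUSS UNIT
(helper38).

Upper layer of hypothesis (i) (`GaussUnram` / `GaussTSD`) of the Model theorem for
`L = F1(M)·E` over `F0(M)·E`: the conjugates of `g_1` under the diamonds are the `g_b`,
`b ∈ (ℤ/M)ˣ/±1`, and the product of their pairwise differences has an integral `q`-expansion
which is NONZERO modulo every prime (`GqLead`).  Hence it is not `π · c` for any `c` integral
over `O[u]`.

* `emb_mem_V_of_isIntegral`, `ne_unif_mul_of_rho_ne_zero` : level-free, in the vocabulary of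
  `S30/GaussDVR` + `S30/GaussOne` (`emb : L →ₐ[E] E((q))`, `hfrac`, `hu`);
* `discR R M b` : the product of the pairwise differences of the `gqR R M (b i)`; it is nonzero
  over every field;
* `hdisc_gq` : the instance, literally the `hdisc` hypothesis of the tower lemmas.
-/
import Mathlib
import Fermat.Agent.S30.GaussOne
import Fermat.Agent.S48.G1.F1.GqLeadR

set_option autoImplicit false

open ModularCurve Polynomial

noncomputable section

namespace Fermat.Agent.S48.G1.K1.GqDisc

open Fermat.Agent.S30 Fermat.Agent.S48.G1.F1 Fermat.Agent.S48.G1.F1.GqLead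

/-! ### Level-free: Gauss-integral with nonzero reduction is not `π · (integral)` -/

section LevelFree

variable {O E : Type*} [CommRing O] [IsDomain O] [IsDiscreteValuationRing O] [Field E]
  [Algebra O E] [FaithfulSMul O E]
variable {L : Type*} [Field L] [Algebra E L] [Algebra O L] [IsScalarTower O E L]

/-- An element integral over `O[u]` (`emb u` an integral series) has its expansion in the Gauss
ring. -/
theorem emb_mem_V_of_isIntegral (emb : L →ₐ[E] LaurentSeries E)
    (hfrac : ∀ x : L, emb x ∈ GaussDVR.fracField O E) (π : O) (hπ : Irreducible π) (u : L)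
    (uO : LaurentSeries O) (hu : emb u = GaussDVR.iota O E uO) (c : L)
    (hc : IsIntegral (Algebra.adjoin O {u}) c) : emb c ∈ GaussDVR.V O E := by
  set B : Subalgebra O L := Algebra.adjoin O {u} with hB
  have hBrange : ∀ b : B, ∃ P : O[X], (b : L) = aeval u P := by
    intro b
    have hb : (b : L) ∈ Algebra.adjoin O {u} := b.2
    rw [Algebra.adjoin_singleton_eq_range_aeval] at hb
    obtain ⟨P, hP⟩ := hb
    exact ⟨P, hP.symm⟩
  set φ : B →+* LaurentSeries E := emb.toRingHom.comp (algebraMap B L) with hφ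
  have hφV : ∀ b : B, φ b ∈ GaussDVR.V O E := by
    intro b
    obtain ⟨P, hP⟩ := hBrange b
    show emb (b : L) ∈ GaussDVR.V O E
    rw [hP, GaussOne.emb_aeval emb u uO hu]
    exact GaussDVR.mem_of_int O E _
  refine GaussDVR.mem_of_isIntegralElem E π hπ φ hφV (emb c) (hfrac _) ?_
  obtain ⟨p, hp, hroot⟩ := hc
  refine ⟨p, hp, ?_⟩
  have := congrArg emb hroot
  rw [map_zero, ← AlgHom.coe_toRingHom, hom_eval₂] at this
  exact this

/-- **Level-free non-divisibility.**  If the expansion of `d` is an integral series with nonzero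
reduction, then `d` is not `π` times an element integral over `O[u]`. -/
theorem ne_unif_mul_of_rho_ne_zero (emb : L →ₐ[E] LaurentSeries E)
    (hfrac : ∀ x : L, emb x ∈ GaussDVR.fracField O E) (π : O) (hπ : Irreducible π) (u : L)
    (uO : LaurentSeries O) (hu : emb u = GaussDVR.iota O E uO) (d : L) (a : LaurentSeries O)
    (hd : emb d = GaussDVR.iota O E a) (ha : GaussDVR.rho O a ≠ 0) (c : L)
    (hc : IsIntegral (Algebra.adjoin O {u}) c) : d ≠ algebraMap O L π * c := by
  intro he
  have hcV := emb_mem_V_of_isIntegral emb hfrac π hπ u uO hu c hc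
  have h1 : GaussDVR.iota O E a = HahnSeries.C (algebraMap O E π) * emb c := by
    rw [← hd, he, map_mul, GaussOne.emb_algebraMap]
  have h2 : GaussDVR.ofInt O E a = GaussDVR.unif E π * ⟨emb c, hcV⟩ := by
    apply Subtype.ext
    rw [GaussDVR.coe_ofInt, Subring.coe_mul, GaussDVR.coe_unif]
    exact h1
  have h3 := congrArg (GaussDVR.red O E) h2
  rw [GaussDVR.red_ofInt, map_mul, GaussDVR.red_unif E π hπ, zero_mul] at h3
  exact ha h3

/-- **Level-free `hdisc`** from pairwise distinct reductions: if `θ i` has the integral expansion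
`t i` and the reductions `ρ (t i)` are pairwise distinct, then the product of the pairwise
differences of the `θ i` is not `π · c` for any `c` integral over `O[u]`. -/
theorem hdisc_of_distinct_rho {ι : Type*} [Fintype ι] [DecidableEq ι]
    (emb : L →ₐ[E] LaurentSeries E)
    (hfrac : ∀ x : L, emb x ∈ GaussDVR.fracField O E) (π : O) (hπ : Irreducible π) (u : L)
    (uO : LaurentSeries O) (hu : emb u = GaussDVR.iota O E uO) (θ : ι → L)
    (t : ι → LaurentSeries O) (ht : ∀ i, emb (θ i) = GaussDVR.iota O E (t i))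
    (hdist : ∀ i j, i ≠ j → GaussDVR.rho O (t i) ≠ GaussDVR.rho O (t j)) (c : L)
    (hc : IsIntegral (Algebra.adjoin O {u}) c) :
    (∏ i, ∏ j ∈ Finset.univ.erase i, (θ i - θ j)) ≠ algebraMap O L π * c := by
  refine ne_unif_mul_of_rho_ne_zero emb hfrac π hπ u uO hu _
    (∏ i, ∏ j ∈ Finset.univ.erase i, (t i - t j)) ?_ ?_ c hc
  · simp only [map_prod, map_sub, ht]
  · rw [map_prod, Finset.prod_ne_zero_iff]
    intro i _
    rw [map_prod, Finset.prod_ne_zero_iff]
    intro j hj
    rw [map_sub, sub_ne_zero]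
    exact hdist i j (Finset.mem_erase.mp hj).1.symm

end LevelFree

/-! ### The product of the pairwise differences of the generators -/

section Series

variable {ι : Type*} [Fintype ι] [DecidableEq ι]

/-- The product of the pairwise differences of the series `gqR R M (b i)`. -/
def discR (R : Type*) [CommRing R] (M : ℕ) (b : ι → ZMod M) : LaurentSeries R :=
  ∏ i, ∏ j ∈ Finset.univ.erase i, (gqR R M (b i) - gqR R M (b j))

theorem coeffMap_discR {R S : Type*} [CommRing R] [CommRing S] (f : R →+* S) (M : ℕ)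
    (b : ι → ZMod M) : coeffMap f (discR R M b) = discR S M b := by
  simp only [discR, map_prod, map_sub, coeffMap_gqR]

/-- Over every field the product of the pairwise differences is nonzero. -/
theorem discR_ne_zero (k : Type*) [Field k] (M : ℕ) (b : ι → ZMod M)
    (hb : ∀ i, M ≠ 0 ∨ b i ≠ 0) (hne : ∀ i j, i ≠ j → b j ≠ b i ∧ b j ≠ -b i) :
    discR k M b ≠ 0 := by
  rw [discR, Finset.prod_ne_zero_iff]
  intro i _
  rw [Finset.prod_ne_zero_iff]
  intro j hj
  have hji : j ≠ i := (Finset.mem_erase.mp hj).1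
  rw [sub_ne_zero, Ne, gqR_eq_iff k M (b i) (b j) (hb i) (hb j)]
  have := hne i j hji.symm
  tauto

omit [Fintype ι] [DecidableEq ι] in
theorem hb_of_units (M : ℕ) (bs : ι → (ZMod M)ˣ) :
    ∀ i, M ≠ 0 ∨ ((bs i : (ZMod M)ˣ) : ZMod M) ≠ 0 :=
  fun i => unit_cond M (bs i)

omit [Fintype ι] [DecidableEq ι] in
theorem hne_of_units (M : ℕ) (bs : ι → (ZMod M)ˣ)
    (h : ∀ i j, i ≠ j → bs j ≠ bs i ∧ bs j ≠ -bs i) :
    ∀ i j, i ≠ j → ((bs j : (ZMod M)ˣ) : ZMod M) ≠ (bs i : ZMod M) ∧
      ((bs j : (ZMod M)ˣ) : ZMod M) ≠ -(bs i : ZMod M) := by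
  intro i j hij
  refine ⟨fun e => (h i j hij).1 (Units.ext e), fun e => (h i j hij).2 ?_⟩
  exact (unit_coe_eq_neg_iff M (bs i) (bs j)).mp e

end Series

/-! ### The instance: `hdisc` for the diamond orbit -/

section Instance

variable {O E : Type*} [CommRing O] [IsDomain O] [IsDiscreteValuationRing O] [Field E]
  [Algebra O E] [FaithfulSMul O E] [Algebra ℚ E]
variable {L : Type*} [Field L] [Algebra E L] [Algebra O L] [IsScalarTower O E L]
variable {ι : Type*} [Fintype ι] [DecidableEq ι]

omit [IsDomain O] [IsDiscreteValuationRing O] [FaithfulSMul O E] [Algebra O L]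
  [IsScalarTower O E L] in
/-- The expansion of the product of the pairwise differences is the integral series
`discR O M b`. -/
theorem emb_prod_sub (emb : L →ₐ[E] LaurentSeries E) (M : ℕ) (b : ι → ZMod M) (θ : ι → L)
    (hθ : ∀ i, emb (θ i) = coeffEmb E (gq M (b i))) :
    emb (∏ i, ∏ j ∈ Finset.univ.erase i, (θ i - θ j)) = GaussDVR.iota O E (discR O M b) := by
  rw [coeffMap_discR (algebraMap O E) M b]
  simp only [discR, map_prod, map_sub, hθ, coeffEmb_gq]

/-- **`hdisc` for the diamond orbit.**  `θ i ∈ L` with expansions `gq M (b i)`, the `b i`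
pairwise distinct modulo `±1`: the product of the pairwise differences of the `θ i` is not
`π · c` for any `c` integral over `O[u]`. -/
theorem hdisc_gq (emb : L →ₐ[E] LaurentSeries E)
    (hfrac : ∀ x : L, emb x ∈ GaussDVR.fracField O E) (π : O) (hπ : Irreducible π) (u : L)
    (uO : LaurentSeries O) (hu : emb u = GaussDVR.iota O E uO) (M : ℕ) (b : ι → ZMod M)
    (hb : ∀ i, M ≠ 0 ∨ b i ≠ 0) (hne : ∀ i j, i ≠ j → b j ≠ b i ∧ b j ≠ -b i)
    (θ : ι → L) (hθ : ∀ i, emb (θ i) = coeffEmb E (gq M (b i))) (c : L)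
    (hc : IsIntegral (Algebra.adjoin O {u}) c) :
    (∏ i, ∏ j ∈ Finset.univ.erase i, (θ i - θ j)) ≠ algebraMap O L π * c := by
  refine ne_unif_mul_of_rho_ne_zero emb hfrac π hπ u uO hu _ (discR O M b)
    (emb_prod_sub emb M b θ hθ) ?_ c hc
  rw [coeffMap_discR (IsLocalRing.residue O) M b]
  exact discR_ne_zero _ M b hb hne

/-- `hdisc_gq` for a family of units, pairwise distinct modulo `±1`. -/
theorem hdisc_gq_units (emb : L →ₐ[E] LaurentSeries E)
    (hfrac : ∀ x : L, emb x ∈ GaussDVR.fracField O E) (π : O) (hπ : Irreducible π) (u : L)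
    (uO : LaurentSeries O) (hu : emb u = GaussDVR.iota O E uO) (M : ℕ) (bs : ι → (ZMod M)ˣ)
    (hne : ∀ i j, i ≠ j → bs j ≠ bs i ∧ bs j ≠ -bs i)
    (θ : ι → L) (hθ : ∀ i, emb (θ i) = coeffEmb E (gq M ((bs i : (ZMod M)ˣ) : ZMod M))) (c : L)
    (hc : IsIntegral (Algebra.adjoin O {u}) c) :
    (∏ i, ∏ j ∈ Finset.univ.erase i, (θ i - θ j)) ≠ algebraMap O L π * c :=
  hdisc_gq emb hfrac π hπ u uO hu M (fun i => ((bs i : (ZMod M)ˣ) : ZMod M))
    (hb_of_units M bs) (hne_of_units M bs hne) θ hθ c hc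

omit [IsDomain O] [IsDiscreteValuationRing O] [FaithfulSMul O E] [Algebra O L]
  [IsScalarTower O E L] in
/-- Each `θ i` has its expansion in the Gauss ring, with reduction `gqR k M (b i)`. -/
theorem emb_theta_eq (emb : L →ₐ[E] LaurentSeries E) (M : ℕ) (b : ZMod M) (θ : L)
    (hθ : emb θ = coeffEmb E (gq M b)) : emb θ = GaussDVR.iota O E (gqR O M b) := by
  rw [hθ, coeffEmb_gq, coeffMap_gqR]

theorem rho_gqR (M : ℕ) (b : ZMod M) :
    GaussDVR.rho O (gqR O M b) = gqR (IsLocalRing.ResidueField O) M b :=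
  coeffMap_gqR _ M b

/-- **`hdisc` for a rescaled orbit** `τ · θ i` (`τ` with an integral expansion of nonzero
reduction, e.g. a power of a Hauptmodul `t = q⁻¹ · unit`): needed at the Hauptmodul base, where
`g_1` itself is not integral but `t ^ k · g_1` is. -/
theorem hdisc_gq_mul (emb : L →ₐ[E] LaurentSeries E)
    (hfrac : ∀ x : L, emb x ∈ GaussDVR.fracField O E) (π : O) (hπ : Irreducible π) (u : L)
    (uO : LaurentSeries O) (hu : emb u = GaussDVR.iota O E uO) (M : ℕ) (b : ι → ZMod M)
    (hb : ∀ i, M ≠ 0 ∨ b i ≠ 0) (hne : ∀ i j, i ≠ j → b j ≠ b i ∧ b j ≠ -b i)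
    (τ : L) (T : LaurentSeries O) (hτ : emb τ = GaussDVR.iota O E T) (hT : GaussDVR.rho O T ≠ 0)
    (θ : ι → L) (hθ : ∀ i, emb (θ i) = coeffEmb E (gq M (b i))) (c : L)
    (hc : IsIntegral (Algebra.adjoin O {u}) c) :
    (∏ i, ∏ j ∈ Finset.univ.erase i, (τ * θ i - τ * θ j)) ≠ algebraMap O L π * c := by
  refine hdisc_of_distinct_rho emb hfrac π hπ u uO hu (fun i => τ * θ i)
    (fun i => T * gqR O M (b i)) (fun i => ?_) (fun i j hij he => ?_) c hc
  · rw [map_mul, map_mul, hτ, emb_theta_eq (O := O) emb M (b i) (θ i) (hθ i)]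
  · rw [map_mul, map_mul, rho_gqR, rho_gqR] at he
    have h1 := mul_left_cancel₀ hT he
    rw [gqR_eq_iff _ M (b i) (b j) (hb i) (hb j)] at h1
    have := hne i j hij
    tauto

end Instance

end Fermat.Agent.S48.G1.K1.GqDisc
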