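/-
S48 / G1, AREA K: compiled SEAM of the tower lemma `GaussTower.gaussTSD_of_tower'` (helper239)
with the discriminant of the diamond orbit `GqDisc.hdisc_gq` (helper38).

Hypothesis (i) of the Model theorem (`Model.GaussTSD`) for a field `L ⊆ E((q))`-like (any field
with an `E`-embedding `emb` into `E((q))` all of whose values are fractions of integral series)
over a subfield `K1`, from:
* the lower layer `K1` (`h1`, `hprime`);
* `[L : K1]` automorphisms `σ i` of `L` over `K1` and an element `θ`, integral over `O[u]`, whose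
  conjugates `σ i θ` have the `q`-expansions `gq M (b i)`, the `b i` pairwise distinct modulo `±1`.
-/
import Mathlib
import Fermat.Agent.S48.G1.K1.GaussTower
import Fermat.Agent.S48.G1.K1.GqDisc

set_option autoImplicit false

open ModularCurve

noncomputable section

namespace Fermat.Agent.S48.G1.K1.GaussTowerGq

open Fermat.Agent.S30 Fermat.Agent.S30.Model Fermat.Agent.S48.G1.F1

/-- **Hypothesis (i) in the tower, with the `gq`-orbit as upper layer.** -/
theorem gaussTSD_of_tower_gq {O E K1 L : Type*} [CommRing O] [IsDomain O]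
    [IsDiscreteValuationRing O] [Field E] [Algebra O E] [IsFractionRing O E] [Algebra ℚ E]
    [Field K1] [Algebra E K1] [Algebra O K1] [IsScalarTower O E K1]
    [Field L] [Algebra E L] [Algebra O L] [IsScalarTower O E L]
    [Algebra K1 L] [IsScalarTower E K1 L] [IsScalarTower O K1 L]
    (emb : L →ₐ[E] LaurentSeries E) (hfrac : ∀ x : L, emb x ∈ GaussDVR.fracField O E)
    (π : O) (hπ : Irreducible π) (u1 : K1) (u : L) (hu1 : algebraMap K1 L u1 = u)
    (uO : LaurentSeries O) (hu : emb u = GaussDVR.iota O E uO)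
    [FiniteDimensional (IntermediateField.adjoin E {u1}) K1] [FiniteDimensional K1 L]
    (h1 : GaussTSD (E := E) π u1)
    (hprime : Prime (algebraMap (Algebra.adjoin O {u1})
      (integralClosure (Algebra.adjoin O {u1}) K1) (algebraMap O (Algebra.adjoin O {u1}) π)))
    {ι : Type*} [Fintype ι] [DecidableEq ι] (σ : ι → L →ₐ[K1] L)
    (hcard : Fintype.card ι = Module.finrank K1 L)
    (M : ℕ) (b : ι → ZMod M) (hb : ∀ i, M ≠ 0 ∨ b i ≠ 0)
    (hne : ∀ i j, i ≠ j → b j ≠ b i ∧ b j ≠ -b i)
    (θ : L) (hθint : IsIntegral (Algebra.adjoin O {u}) θ)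
    (hθ : ∀ i, emb (σ i θ) = coeffEmb E (gq M (b i))) :
    GaussTSD (E := E) π u :=
  GaussTower.gaussTSD_of_tower' π u1 u hu1 h1 hprime σ hcard θ hθint
    (fun c hc => GqDisc.hdisc_gq emb hfrac π hπ u uO hu M b hb hne (fun i => σ i θ) hθ c hc)

end Fermat.Agent.S48.G1.K1.GaussTowerGq

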