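/-
PROGRAM DS (S48), part G1, AREA K (helper187): adapters around `K1/GaussInt.lean` (GI-b).

* `isIntegral_adjoin_of_eval₂` : level-free — a root of a monic polynomial with coefficients
  polynomial in `u` over `E` is integral over `E[u]`.
* `isIntegral_of_rat_relation` : base change `ℚ((q)) → E((q))` of an integral relation
  (the rational polynomial form "`g_b` is integral over `ℚ[j]`" gives the hypothesis `hxE` of
  `GaussInt.integral_and_disc_of_conj` over every constant field `E`).
* `isIntegral_algHom_adjoin` : integrality over `E[u]`, `u` coming from `K₁`, is preserved by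
  the `K₁`-algebra endomorphisms of `L`.
* `integral_and_disc_of_conj'` : the exit of `GaussInt` with the integrality over `E[u]` asked
  of `θ` only (not of its conjugates).
-/
import Mathlib
import Fermat.Prelude.Def_ModularCurve_LaurentCoeff
import Fermat.Agent.S48.G1.K1.GaussInt

set_option autoImplicit false

open ModularCurve Polynomial

noncomputable section

namespace Fermat.Agent.S48.G1.K1.IntE

open Fermat.Agent.S30

/-- A root of a monic polynomial whose coefficients are polynomials in `u` over `E` is integral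
over `E[u]`. -/
theorem isIntegral_adjoin_of_eval₂ {E L : Type*} [CommRing E] [CommRing L] [Algebra E L]
    (u x : L) (P : E[X][X]) (hP : P.Monic)
    (h : P.eval₂ ((aeval u : E[X] →ₐ[E] L) : E[X] →+* L) x = 0) :
    IsIntegral (Algebra.adjoin E {u}) x := by
  set u' : Algebra.adjoin E {u} := ⟨u, Algebra.self_mem_adjoin_singleton E u⟩ with hu'
  set φ : E[X] →+* Algebra.adjoin E {u} := ((aeval u' : E[X] →ₐ[E] Algebra.adjoin E {u}) :
    E[X] →+* Algebra.adjoin E {u}) with hφ
  have hcomp : (algebraMap (Algebra.adjoin E {u}) L).comp φ =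
      ((aeval u : E[X] →ₐ[E] L) : E[X] →+* L) := by
    refine Polynomial.ringHom_ext (fun a => ?_) ?_
    · simp only [hφ, RingHom.comp_apply, RingHom.coe_coe, aeval_C]
      rfl
    · simp only [hφ, RingHom.comp_apply, RingHom.coe_coe, aeval_X]
      rfl
  refine ⟨P.map φ, hP.map φ, ?_⟩
  rw [Polynomial.eval₂_map, hcomp]
  exact h

/-- Base change of an integral relation from `ℚ((q))` to a subfield of `E((q))`. -/
theorem isIntegral_of_rat_relation {E : Type*} [Field E] [Algebra ℚ E]
    (L : IntermediateField E (LaurentSeries E)) (u x : L) (j₀ g₀ : LaurentSeries ℚ)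
    (hu : (u : LaurentSeries E) = coeffEmb E j₀) (hx : (x : LaurentSeries E) = coeffEmb E g₀)
    (P : Polynomial (Polynomial ℚ)) (hP : P.Monic)
    (h : P.eval₂ (Polynomial.eval₂RingHom (HahnSeries.C : ℚ →+* LaurentSeries ℚ) j₀) g₀ = 0) :
    IsIntegral (Algebra.adjoin E {u}) x := by
  refine isIntegral_adjoin_of_eval₂ u x (P.map (Polynomial.mapRingHom (algebraMap ℚ E)))
    (hP.map _) ?_
  have hinj : Function.Injective (L.val : L → LaurentSeries E) := Subtype.val_injective
  apply hinj
  rw [map_zero, Polynomial.eval₂_map, ← AlgHom.coe_toRingHom, Polynomial.hom_eval₂]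
  have hcomp : ((L.val : L →+* LaurentSeries E).comp (((aeval u : E[X] →ₐ[E] L) : E[X] →+* L).comp
      (Polynomial.mapRingHom (algebraMap ℚ E)))) =
      (coeffEmb E).comp (Polynomial.eval₂RingHom (HahnSeries.C : ℚ →+* LaurentSeries ℚ) j₀) := by
    refine Polynomial.ringHom_ext (fun a => ?_) ?_
    · simp only [RingHom.comp_apply, Polynomial.coe_mapRingHom, Polynomial.map_C,
        RingHom.coe_coe, aeval_C, Polynomial.coe_eval₂RingHom, Polynomial.eval₂_C]
      show ((algebraMap E L (algebraMap ℚ E a) : L) : LaurentSeries E) = _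
      ext k
      rw [coeffEmb_coeff]
      show (algebraMap E (LaurentSeries E) (algebraMap ℚ E a)).coeff k = _
      rw [algebraMap_laurentSeries_eq_single, HahnSeries.C_apply]
      by_cases hk : k = 0
      · subst hk
        rw [HahnSeries.coeff_single_same, HahnSeries.coeff_single_same]
      · rw [HahnSeries.coeff_single_of_ne hk, HahnSeries.coeff_single_of_ne hk, map_zero]
    · simp only [RingHom.comp_apply, Polynomial.coe_mapRingHom, Polynomial.map_X,
        RingHom.coe_coe, aeval_X, Polynomial.coe_eval₂RingHom, Polynomial.eval₂_X]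
      exact hu
  rw [hcomp]
  have hx' : (L.val : L →+* LaurentSeries E) x = coeffEmb E g₀ := hx
  rw [hx', ← Polynomial.hom_eval₂, h, map_zero]

section Conj

variable {E K₁ L : Type*} [Field E] [Field K₁] [Field L] [Algebra E K₁] [Algebra E L]
  [Algebra K₁ L] [IsScalarTower E K₁ L]

/-- Integrality over `E[u]`, `u` coming from `K₁`, is preserved by the `K₁`-algebra
endomorphisms of `L`. -/
theorem isIntegral_algHom_adjoin (u₁ : K₁) (σ : L →ₐ[K₁] L) (θ : L)
    (h : IsIntegral (Algebra.adjoin E {algebraMap K₁ L u₁}) θ) :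
    IsIntegral (Algebra.adjoin E {algebraMap K₁ L u₁}) (σ θ) := by
  obtain ⟨p, hp, hroot⟩ := h
  refine ⟨p, hp, ?_⟩
  have hfix : ∀ b : Algebra.adjoin E {algebraMap K₁ L u₁}, σ (b : L) = (b : L) := by
    intro b
    have hb : (b : L) ∈ (Polynomial.aeval (algebraMap K₁ L u₁) : E[X] →ₐ[E] L).range := by
      rw [← Algebra.adjoin_singleton_eq_range_aeval]
      exact b.2
    obtain ⟨r, hr⟩ := hb
    have h1 : (σ.restrictScalars E) (aeval (algebraMap K₁ L u₁) r) =
        aeval ((σ.restrictScalars E) (algebraMap K₁ L u₁)) r :=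
      (Polynomial.aeval_algHom_apply (σ.restrictScalars E) (algebraMap K₁ L u₁) r).symm
    have h2 : (σ.restrictScalars E) (algebraMap K₁ L u₁) = algebraMap K₁ L u₁ := σ.commutes u₁
    rw [h2] at h1
    rw [← hr]
    exact h1
  have hcomp : (σ : L →+* L).comp (algebraMap (Algebra.adjoin E {algebraMap K₁ L u₁}) L) =
      algebraMap (Algebra.adjoin E {algebraMap K₁ L u₁}) L :=
    RingHom.ext fun b => hfix b
  have h3 := congrArg σ hroot
  rw [map_zero, ← AlgHom.coe_toRingHom, Polynomial.hom_eval₂, hcomp] at h3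
  exact h3

end Conj

section Exit

variable {O E : Type*} [CommRing O] [IsDomain O] [IsDiscreteValuationRing O] [Field E]
  [Algebra O E] [IsFractionRing O E]
variable {K₁ L : Type*} [Field K₁] [Algebra E K₁] [Algebra O K₁] [IsScalarTower O E K₁]
  [Field L] [Algebra E L] [Algebra O L] [IsScalarTower O E L] [Algebra K₁ L]
  [IsScalarTower E K₁ L] [IsScalarTower O K₁ L]

/-- **The two `q`-expansion hypotheses `hθ`, `hdisc` of the Gauss tower lemma for `L / K₁`**,
with the integrality over `E[u]` asked of `θ` only. -/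
theorem integral_and_disc_of_conj' [FiniteDimensional K₁ L] (emb : L →ₐ[E] LaurentSeries E)
    (hfrac : ∀ x : L, emb x ∈ GaussDVR.fracField O E)
    (π : O) (hπ : Irreducible π) (u₁ : K₁) (uO : LaurentSeries O)
    (hu : emb (algebraMap K₁ L u₁) = GaussDVR.iota O E uO)
    (hpole : (GaussDVR.rho O uO).order < 0)
    (hprime : Prime (algebraMap (Algebra.adjoin O {u₁})
      (integralClosure (Algebra.adjoin O {u₁}) K₁) (algebraMap O (Algebra.adjoin O {u₁}) π)))
    {ι : Type*} [Fintype ι] [DecidableEq ι] (σ : ι → L →ₐ[K₁] L)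
    (hcard : Fintype.card ι = Module.finrank K₁ L) (θ : L) (i₀ : ι) (hi₀ : σ i₀ θ = θ)
    (t : ι → LaurentSeries O) (hx : ∀ i, emb (σ i θ) = GaussDVR.iota O E (t i))
    (hdist : ∀ i j, i ≠ j → GaussDVR.rho O (t i) ≠ GaussDVR.rho O (t j))
    (hθE : IsIntegral (Algebra.adjoin E {algebraMap K₁ L u₁}) θ) :
    IsIntegral (Algebra.adjoin O {algebraMap K₁ L u₁}) θ ∧
      ∀ c : L, IsIntegral (Algebra.adjoin O {algebraMap K₁ L u₁}) c →
        (∏ i, ∏ j ∈ Finset.univ.erase i, (σ i θ - σ j θ)) ≠ algebraMap O L π * c :=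
  GaussInt.integral_and_disc_of_conj emb hfrac π hπ u₁ uO hu hpole hprime σ hcard θ i₀ hi₀ t hx
    hdist fun i => isIntegral_algHom_adjoin u₁ (σ i) θ hθE

end Exit

end Fermat.Agent.S48.G1.K1.IntE
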