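/-
PROGRAM DS (S48), part G1, AREA K (helper187): compiled SEAM of the tower lemma
`GaussTowerGq.gaussTSD_of_tower_gq` (helper239 × helper38) with the `q`-expansion principle for
integrality `IntE.integral_and_disc_of_conj'` (helper187).

Hypothesis (i) of the Model theorem (`Model.GaussTSD`) for `L` over `E(u)` in the tower
`E(u) ⊆ K1 ⊆ L`, from

* the lower layer `K1` (`h1`, `hprime`);
* `[L : K1]` automorphisms `σ i` of `L` over `K1` and an element `θ`, fixed by `σ i₀`, whose
  conjugates `σ i θ` have the `q`-expansions `gq M (b i)`, the `b i` pairwise distinct modulo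
  `±1`;
* `θ` integral over `E[u]` (NOT over `O[u]`: that is the `q`-expansion principle).
-/
import Mathlib
import Fermat.Agent.S48.G1.K1.GaussTowerGq
import Fermat.Agent.S48.G1.K1.IntE

set_option autoImplicit false

open ModularCurve

noncomputable section

namespace Fermat.Agent.S48.G1.K1.GaussTowerQ

open Fermat.Agent.S30 Fermat.Agent.S30.Model Fermat.Agent.S48.G1.F1
  Fermat.Agent.S48.G1.F1.GqLead

/-- **Hypothesis (i) in the tower, `gq`-orbit as upper layer, integrality over `E[u]` only.** -/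
theorem gaussTSD_of_tower_gq_E {O E K1 L : Type*} [CommRing O] [IsDomain O]
    [IsDiscreteValuationRing O] [Field E] [Algebra O E] [IsFractionRing O E] [Algebra ℚ E]
    [Field K1] [Algebra E K1] [Algebra O K1] [IsScalarTower O E K1]
    [Field L] [Algebra E L] [Algebra O L] [IsScalarTower O E L]
    [Algebra K1 L] [IsScalarTower E K1 L] [IsScalarTower O K1 L]
    (emb : L →ₐ[E] LaurentSeries E) (hfrac : ∀ x : L, emb x ∈ GaussDVR.fracField O E)
    (π : O) (hπ : Irreducible π) (u1 : K1) (u : L) (hu1 : algebraMap K1 L u1 = u)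
    (uO : LaurentSeries O) (hu : emb u = GaussDVR.iota O E uO)
    (hpole : (GaussDVR.rho O uO).order < 0)
    [FiniteDimensional (IntermediateField.adjoin E {u1}) K1] [FiniteDimensional K1 L]
    (h1 : GaussTSD (E := E) π u1)
    (hprime : Prime (algebraMap (Algebra.adjoin O {u1})
      (integralClosure (Algebra.adjoin O {u1}) K1) (algebraMap O (Algebra.adjoin O {u1}) π)))
    {ι : Type*} [Fintype ι] [DecidableEq ι] (σ : ι → L →ₐ[K1] L)
    (hcard : Fintype.card ι = Module.finrank K1 L)
    (M : ℕ) (b : ι → ZMod M) (hb : ∀ i, M ≠ 0 ∨ b i ≠ 0)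
    (hne : ∀ i j, i ≠ j → b j ≠ b i ∧ b j ≠ -b i)
    (θ : L) (i₀ : ι) (hi₀ : σ i₀ θ = θ)
    (hθE : IsIntegral (Algebra.adjoin E {u}) θ)
    (hθ : ∀ i, emb (σ i θ) = coeffEmb E (gq M (b i))) :
    GaussTSD (E := E) π u := by
  subst hu1
  have hdist : ∀ i j, i ≠ j →
      GaussDVR.rho O (gqR O M (b i)) ≠ GaussDVR.rho O (gqR O M (b j)) := by
    intro i j hij he
    rw [GqDisc.rho_gqR, GqDisc.rho_gqR, gqR_eq_iff _ M (b i) (b j) (hb i) (hb j)] at he
    have := hne i j hij
    tauto
  obtain ⟨hθint, -⟩ := IntE.integral_and_disc_of_conj' emb hfrac π hπ u1 uO hu hpole hprime σ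
    hcard θ i₀ hi₀ (fun i => gqR O M (b i))
    (fun i => GqDisc.emb_theta_eq (O := O) emb M (b i) (σ i θ) (hθ i)) hdist hθE
  exact GaussTowerGq.gaussTSD_of_tower_gq emb hfrac π hπ u1 _ rfl uO hu h1 hprime σ hcard M b
    hb hne θ hθint hθ

end Fermat.Agent.S48.G1.K1.GaussTowerQ
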