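/-
PROGRAM DS (S48), part G1, AREA K, row K.IntQ (helper83): THE GENERATORS `g_b` ARE INTEGRAL
OVER `ℚ[j]`.

For `2 ≤ M` and `b ∈ (ℤ/M)ˣ` the `q`-series `gq M b ∈ ℚ((q))` is a root of a monic polynomial
whose coefficients are polynomials in `jq` WITH RATIONAL COEFFICIENTS.

Route (no coset family at the `E`-level, no degree, no descent `ℚ̄ → ℚ`):
* `CosetG.exists_poly_relation` for `θ := theta1 iotaBar M hM` at `a := genG M b` over
  `Γ := Gamma1pm M` gives an analytic monic relation of `g_b` with coefficients in `ℂ[j]`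
  (`g_b` is holomorphic on `ℍ` and all its `SL(2, ℤ)`-translates have moderate growth);
* `S24.Degree.exists_poly_relation_of_hasSum` AT `K := ℚ` (`ι := algebraMap ℚ ℂ`) turns it into
  a relation of `q`-series with coefficients in `ℚ[jq]`.

Exits:
* `exists_rat_relation` : the relation `gq ^ n + ∑ k < n, p k (jq) * gq ^ k = 0`, `p k ∈ ℚ[X]`;
* `finInt`              : the two-variable polynomial form (`= K1.Bricks.FIn.Int M` verbatim,
  `= ` the `(P, hP, h)` of `IntE.isIntegral_of_rat_relation`);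
* `isIntegral_gq`       : for every field `E ⊇ ℚ`, every subfield `L ⊆ E((q))`, `u x : L` with
  series `j` resp. `g_b` : `x` is integral over `E[u]`  (the hypothesis `hθE` of
  `IntE.integral_and_disc_of_conj'` / `hxE` of `GaussInt.integral_and_disc_of_conj`).
-/
import Mathlib
import Fermat.Agent.S48.G1.F1.Degree1
import Fermat.Agent.S48.G1.K1.IntE

set_option autoImplicit false
set_option linter.dupNamespace false
set_option linter.style.haveILetI false

noncomputable section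

open UpperHalfPlane ModularCurve CongruenceSubgroup
open scoped MatrixGroups

namespace Fermat.Agent.S48.G1.K1.IntQ

open Fermat.Agent.S24.HolH Fermat.Agent.S24.Theta Fermat.Agent.S24.Degree
open Fermat.Agent.S24.JFun
open Fermat.Agent.S48.G1.F1 Fermat.Agent.S48.G1.F1.Theta1

local notation "𝕢" => Function.Periodic.qParam

/-! ### `q`-expansions with rational coefficients -/

/-- A `q`-expansion with rational coefficients, read through any field `K ⊇ ℚ`, is a
`q`-expansion over `ℚ`. -/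
theorem hasQ_rat_of_hasQ {K : Type*} [Field K] [Algebra ℚ K] (ι : K →+* ℂ)
    {x : LaurentSeries ℚ} {φ : ℍ → ℂ} (h : HasQ ι (coeffEmb K x) φ) :
    HasQ (algebraMap ℚ ℂ) x φ := by
  intro τ
  have h1 := h τ
  have h2 : (fun n : ℤ => ι ((coeffEmb K x).coeff n) * 𝕢 1 (τ : ℂ) ^ n)
      = fun n : ℤ => algebraMap ℚ ℂ (x.coeff n) * 𝕢 1 (τ : ℂ) ^ n := by
    funext n
    rw [coeffEmb_coeff]
    congr 1
    exact RingHom.map_rat_algebraMap ι _
  rw [h2] at h1
  exact h1

/-- Powers of `q`-expansions. -/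
theorem hasQ_pow' {K : Type*} [Field K] {ι : K →+* ℂ} {A : LaurentSeries K} {φ : ℍ → ℂ}
    (h : HasQ ι A φ) (k : ℕ) : HasQ ι (A ^ k) (φ ^ k) := by
  induction k with
  | zero =>
    rw [pow_zero, pow_zero]
    exact hasQ_one ι
  | succ k ih =>
    rw [pow_succ, pow_succ]
    exact ih.mul h

/-- The analytic `j` has the `q`-expansion `jq`, over `ℚ`. -/
theorem hasQ_jq : HasQ (algebraMap ℚ ℂ) jq jFun := by
  have h := hasQ_jqModC (K := ℚ) (algebraMap ℚ ℂ)
  rwa [jqModC_rat] at h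

/-- The function `g_b` has the `q`-expansion `gq M b`, over `ℚ`. -/
theorem hasQ_gq_rat {M : ℕ} (hM : 2 ≤ M) (b : (ZMod M)ˣ) :
    HasQ (algebraMap ℚ ℂ) (gq M (b : ZMod M))
      (theta1 iotaBar M hM (genG M b) : ℍ → ℂ) :=
  hasQ_rat_of_hasQ iotaBar (hasQ_theta1 hM (genG M b))

/-! ### The rational relation -/

/-- **`g_b` is integral over `ℚ[j]`**, relation form. -/
theorem exists_rat_relation (M : ℕ) (hM : 2 ≤ M) (b : (ZMod M)ˣ) :
    ∃ p : ℕ → Polynomial ℚ,
      gq M (b : ZMod M) ^ Nat.card (SL(2, ℤ) ⧸ Gamma1pm M)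
        + ∑ k ∈ Finset.range (Nat.card (SL(2, ℤ) ⧸ Gamma1pm M)),
            Polynomial.aeval jq (p k) * gq M (b : ZMod M) ^ k = 0 := by
  haveI : NeZero M := ⟨by omega⟩
  obtain ⟨P, hP⟩ := Fermat.Agent.S48.G1.CosetG.exists_poly_relation (Γ := Gamma1pm M)
    (theta1 iotaBar M hM)
    (fun γ hγ a => Degree1.compSL_theta1_of_mem_Gamma1pm iotaBar hM hγ a) (genG M b)
    (fun x => Fermat.Agent.S48.G1.CosetG.cosetHomG_mem_cuspMod (theta1 iotaBar M hM)
      (GrowthG.theta1_mem_cuspMod iotaBar hM (genG M b)) x)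
  have hexp : ∀ (e k : ℕ) (τ : ℍ),
      HasSum (fun m : ℤ => algebraMap ℚ ℂ ((jq ^ e * gq M (b : ZMod M) ^ k).coeff m)
          * 𝕢 1 (τ : ℂ) ^ m)
        (jFun τ ^ e * (theta1 iotaBar M hM (genG M b) : ℍ → ℂ) τ ^ k) := fun e k τ =>
    ((hasQ_pow' hasQ_jq e).mul (hasQ_pow' (hasQ_gq_rat hM b) k)) τ
  exact exists_poly_relation_of_hasSum (algebraMap ℚ ℂ) (gq M (b : ZMod M)) jq
    (theta1 iotaBar M hM (genG M b) : ℍ → ℂ) jFun hexp _ P hP

/-- `algebraMap ℚ ℚ((q))` is `HahnSeries.C`. -/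
theorem algebraMap_rat_eq_C :
    algebraMap ℚ (LaurentSeries ℚ) = (HahnSeries.C : ℚ →+* LaurentSeries ℚ) := by
  ext a : 1
  rw [algebraMap_laurentSeries_eq_single, HahnSeries.C_apply]

/-- A relation `g ^ n + ∑ k < n, p k (j) * g ^ k = 0` as a monic two-variable polynomial. -/
theorem exists_monic_of_rat_relation (j g : LaurentSeries ℚ) (n : ℕ) (p : ℕ → Polynomial ℚ)
    (h : g ^ n + ∑ k ∈ Finset.range n, Polynomial.aeval j (p k) * g ^ k = 0) :
    ∃ P : Polynomial (Polynomial ℚ), P.Monic ∧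
      P.eval₂ (Polynomial.eval₂RingHom (HahnSeries.C : ℚ →+* LaurentSeries ℚ) j) g = 0 := by
  set R : Polynomial (Polynomial ℚ) :=
    ∑ k ∈ Finset.range n, Polynomial.C (p k) * Polynomial.X ^ k with hR
  have hRdeg : R.degree < (n : WithBot ℕ) := by
    rw [Polynomial.degree_lt_iff_coeff_zero]
    intro m hm
    rw [hR, Polynomial.finsetSum_coeff]
    refine Finset.sum_eq_zero fun k hk => ?_
    rw [Polynomial.coeff_C_mul_X_pow, if_neg]
    have := Finset.mem_range.mp hk
    omega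
  refine ⟨Polynomial.X ^ n + R, Polynomial.monic_X_pow_add hRdeg, ?_⟩
  rw [Polynomial.eval₂_add, Polynomial.eval₂_X_pow, hR, Polynomial.eval₂_finsetSum, ← h]
  congr 1
  refine Finset.sum_congr rfl fun k _ => ?_
  rw [Polynomial.eval₂_mul, Polynomial.eval₂_C, Polynomial.eval₂_X_pow,
    Polynomial.coe_eval₂RingHom, Polynomial.aeval_def, algebraMap_rat_eq_C]

/-- **`g_b` is integral over `ℚ[j]`**, two-variable polynomial form
(`= K1.Bricks.FIn.Int M`). -/
theorem finInt (M : ℕ) (hM : 2 ≤ M) (b : (ZMod M)ˣ) :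
    ∃ P : Polynomial (Polynomial ℚ), P.Monic ∧
      P.eval₂ (Polynomial.eval₂RingHom (HahnSeries.C : ℚ →+* LaurentSeries ℚ) jq)
        (gq M (b : ZMod M)) = 0 := by
  obtain ⟨p, hp⟩ := exists_rat_relation M hM b
  exact exists_monic_of_rat_relation jq (gq M (b : ZMod M)) _ p hp

/-- **`g_b` is integral over `E[j]`** in every subfield of `E((q))` containing both, for every
field `E ⊇ ℚ`. -/
theorem isIntegral_gq (M : ℕ) (hM : 2 ≤ M) (b : (ZMod M)ˣ) {E : Type*} [Field E] [Algebra ℚ E]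
    (L : IntermediateField E (LaurentSeries E)) (u x : L)
    (hu : (u : LaurentSeries E) = coeffEmb E jq)
    (hx : (x : LaurentSeries E) = coeffEmb E (gq M (b : ZMod M))) :
    IsIntegral (Algebra.adjoin E {u}) x := by
  obtain ⟨P, hP, h⟩ := finInt M hM b
  exact IntE.isIntegral_of_rat_relation L u x jq (gq M (b : ZMod M)) hu hx P hP h

end Fermat.Agent.S48.G1.K1.IntQ
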