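import Mathlib
import Fermat.Agent.S30.Model.ChartInst

/-!
# S48 / G1 / area K: descent of "`π` is prime in the integral closure" along a Hauptmodul relation

Level-free commutative algebra.  `O` a domain, `L` a field over `O`, `j u : L` with
`j * u ^ a = A(u)`, `A ∈ O[X]` monic of degree `> a ≥ 1` with `A(0)` a unit of `O`
(e.g. `j h₂² = (h₂ + 256)³` when `2 ∈ Oˣ`, `j h₃³ = (h₃ + 27)(h₃ + 243)³` when `3 ∈ Oˣ`).

* `isIntegral_subalgebra_iff` : integrality over a subalgebra of `L` through polynomials of `L[X]`.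
* `isIntegral_of_rel`, `isIntegral_inv_of_rel` : `u` and `u⁻¹` are integral over `O[j]`.
* `isIntegral_adjoin_of_isIntegral_adjoin` : integral over `O[u]` ⇒ integral over `O[j]`.
* `isIntegral_pow_mul` : integral over `O[j]` ⇒ `u ^ m * x` integral over `O[u]` for `m ≫ 0`.
* `prime_of_prime_rel` : if `π` is prime in the integral closure of `O[u]` in `L`, then `π` is prime
  in the integral closure of `O[j]` in `L` (literal shape of the conclusion of the Model Theorem (a)).
-/

set_option autoImplicit false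

open Polynomial

noncomputable section

namespace Fermat.Agent.S48.G1.K1.PrimeRel

section Char

variable {R L : Type*} [CommRing R] [Field L] [Algebra R L]

/-- Integrality over a subalgebra `S` of a field `L`, through monic polynomials of `L[X]` with
coefficients in `S`. -/
theorem isIntegral_subalgebra_iff (S : Subalgebra R L) (x : L) :
    IsIntegral S x ↔ ∃ p : L[X], p.Monic ∧ (∀ i, p.coeff i ∈ S) ∧ p.eval x = 0 := by
  constructor
  · rintro ⟨p, hp, hpx⟩
    refine ⟨p.map (algebraMap S L), hp.map _, fun i => ?_, ?_⟩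
    · rw [coeff_map]
      exact (p.coeff i).2
    · rw [eval_map]
      exact hpx
  · rintro ⟨p, hp, hc, hpx⟩
    have hl : p ∈ lifts (algebraMap S L) := by
      rw [lifts_iff_coeff_lifts]
      intro n
      exact ⟨⟨p.coeff n, hc n⟩, rfl⟩
    obtain ⟨q, hq, -, hqm⟩ := lifts_and_natDegree_eq_and_monic hl hp
    refine ⟨q, hqm, ?_⟩
    rw [← eval_map, hq]
    exact hpx

/-- Integrality is monotone in the subalgebra. -/
theorem isIntegral_mono {S T : Subalgebra R L} (h : S ≤ T) {x : L} (hx : IsIntegral S x) :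
    IsIntegral T x := by
  rw [isIntegral_subalgebra_iff] at hx ⊢
  obtain ⟨p, hp, hc, hpx⟩ := hx
  exact ⟨p, hp, fun i => h (hc i), hpx⟩

/-- A root of a monic polynomial whose coefficients are integral over `S` is integral over `S`. -/
theorem isIntegral_of_coeff_isIntegral (S : Subalgebra R L) {x : L} (p : L[X]) (hp : p.Monic)
    (hc : ∀ i, IsIntegral S (p.coeff i)) (hpx : p.eval x = 0) : IsIntegral S x := by
  have h1 : IsIntegral (integralClosure S L) x :=
    (isIntegral_subalgebra_iff (integralClosure S L) x).mpr ⟨p, hp, hc, hpx⟩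
  exact isIntegral_trans x h1

end Char

section Rel

variable {O L : Type*} [CommRing O] [Field L] [Algebra O L]

/-- The `O`-subalgebra of `L` of the elements integral over `O[j]`. -/
def intO (j : L) : Subalgebra O L :=
  (integralClosure (Algebra.adjoin O {j}) L).restrictScalars O

theorem mem_intO {j x : L} : x ∈ intO (O := O) j ↔ IsIntegral (Algebra.adjoin O {j}) x :=
  Iff.rfl

theorem self_mem_intO (j : L) : j ∈ intO (O := O) j :=
  isIntegral_algebraMap (R := Algebra.adjoin O {j}) (A := L)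
    (x := (⟨j, Algebra.subset_adjoin rfl⟩ : Algebra.adjoin O {j}))

theorem aeval_mem_intO {j u : L} (hu : u ∈ intO (O := O) j) (P : O[X]) :
    aeval u P ∈ intO (O := O) j := by
  have h1 : Algebra.adjoin O {u} ≤ intO (O := O) j :=
    Algebra.adjoin_le (Set.singleton_subset_iff.mpr hu)
  exact h1 (aeval_mem_adjoin_singleton O u)

variable [Nontrivial O]

/-- `u` is integral over `O[j]`. -/
theorem isIntegral_of_rel (j u : L) (A : O[X]) (hA : A.Monic) (a : ℕ) (ha : a < A.natDegree)
    (hrel : j * u ^ a = aeval u A) : IsIntegral (Algebra.adjoin O {j}) u := by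
  rw [isIntegral_subalgebra_iff]
  refine ⟨A.map (algebraMap O L) - C j * X ^ a, ?_, ?_, ?_⟩
  · apply (hA.map _).sub_of_left
    rw [hA.degree_map]
    calc (C j * X ^ a).degree ≤ (a : WithBot ℕ) := degree_C_mul_X_pow_le a j
      _ < A.degree := by
        rw [degree_eq_natDegree hA.ne_zero]
        exact_mod_cast ha
  · intro i
    rw [coeff_sub, coeff_map, coeff_C_mul, coeff_X_pow]
    refine Subalgebra.sub_mem _ (Subalgebra.algebraMap_mem _ _) ?_
    split_ifs
    · rw [mul_one]
      exact Algebra.subset_adjoin rfl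
    · rw [mul_zero]
      exact Subalgebra.zero_mem _
  · rw [eval_sub, eval_map, ← aeval_def, eval_mul, eval_C, eval_pow, eval_X, hrel, sub_self]

/-- `u` is invertible in the ring of elements integral over `O[j]`:
`u⁻¹ = A(0)⁻¹ (j u^(a-1) - (A.divX)(u))`. -/
theorem exists_inv_of_rel (j u : L) (A : O[X]) (hA : A.Monic) (a : ℕ) (ha0 : 0 < a)
    (ha : a < A.natDegree) (hA0 : IsUnit (A.coeff 0)) (hrel : j * u ^ a = aeval u A) :
    ∃ v : L, IsIntegral (Algebra.adjoin O {j}) v ∧ u * v = 1 := by
  have hu : u ∈ intO (O := O) j := isIntegral_of_rel j u A hA a ha hrel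
  obtain ⟨c, hc⟩ := hA0
  set w : L := j * u ^ (a - 1) - aeval u A.divX with hw
  have hwT : w ∈ intO (O := O) j :=
    Subalgebra.sub_mem _ (Subalgebra.mul_mem _ (self_mem_intO j) (Subalgebra.pow_mem _ hu _))
      (aeval_mem_intO hu _)
  have h1 : aeval u A = aeval u A.divX * u + algebraMap O L (A.coeff 0) := by
    conv_lhs => rw [← divX_mul_X_add A]
    rw [map_add, map_mul, aeval_X, aeval_C]
  have h2 : u * w = algebraMap O L (A.coeff 0) := by
    have h3 : u ^ a = u ^ (a - 1) * u := by
      rw [← pow_succ, Nat.sub_add_cancel ha0]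
    rw [hw, mul_sub, sub_eq_iff_eq_add]
    calc u * (j * u ^ (a - 1)) = j * (u ^ (a - 1) * u) := by ring
      _ = aeval u A := by rw [← h3, hrel]
      _ = _ := by rw [h1]; ring
  refine ⟨algebraMap O L ((c⁻¹ : Oˣ) : O) * w,
    Subalgebra.mul_mem (intO (O := O) j) (Subalgebra.algebraMap_mem _ _) hwT, ?_⟩
  rw [mul_left_comm, h2, ← hc, ← map_mul, Units.inv_mul, map_one]

/-- `u⁻¹` is integral over `O[j]`. -/
theorem isIntegral_inv_of_rel (j u : L) (A : O[X]) (hA : A.Monic) (a : ℕ) (ha0 : 0 < a)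
    (ha : a < A.natDegree) (hA0 : IsUnit (A.coeff 0)) (hrel : j * u ^ a = aeval u A) :
    IsIntegral (Algebra.adjoin O {j}) u⁻¹ := by
  obtain ⟨v, hv, huv⟩ := exists_inv_of_rel j u A hA a ha0 ha hA0 hrel
  rw [← eq_inv_of_mul_eq_one_right huv]
  exact hv

/-- Integral over `O[u]` implies integral over `O[j]`. -/
theorem isIntegral_adjoin_of_isIntegral_adjoin (j u : L) (A : O[X]) (hA : A.Monic) (a : ℕ)
    (ha : a < A.natDegree) (hrel : j * u ^ a = aeval u A) {x : L}
    (hx : IsIntegral (Algebra.adjoin O {u}) x) : IsIntegral (Algebra.adjoin O {j}) x := by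
  have hu : u ∈ intO (O := O) j := isIntegral_of_rel j u A hA a ha hrel
  have h1 : Algebra.adjoin O {u} ≤ intO (O := O) j :=
    Algebra.adjoin_le (Set.singleton_subset_iff.mpr hu)
  rw [isIntegral_subalgebra_iff] at hx
  obtain ⟨p, hp, hc, hpx⟩ := hx
  exact isIntegral_of_coeff_isIntegral _ p hp (fun i => h1 (hc i)) hpx

omit [Nontrivial O] in
/-- Multiplication by a high power of `u` moves `O[j]` into `O[u]`. -/
theorem exists_pow_mul_mem (j u : L) (A : O[X]) (a : ℕ) (hrel : j * u ^ a = aeval u A) {c : L}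
    (hc : c ∈ Algebra.adjoin O {j}) :
    ∃ N : ℕ, ∀ m : ℕ, N ≤ m → u ^ m * c ∈ Algebra.adjoin O {u} := by
  have huu : u ∈ Algebra.adjoin O {u} := Algebra.subset_adjoin rfl
  induction hc using Algebra.adjoin_induction with
  | mem x hx =>
    rw [Set.mem_singleton_iff] at hx
    refine ⟨a, fun m hm => ?_⟩
    obtain ⟨k, rfl⟩ := Nat.exists_eq_add_of_le hm
    have h1 : u ^ (a + k) * x = u ^ k * aeval u A := by
      rw [← hrel, hx]
      ring
    rw [h1]
    exact Subalgebra.mul_mem _ (Subalgebra.pow_mem _ huu _) (aeval_mem_adjoin_singleton O u)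
  | algebraMap r =>
    exact ⟨0, fun m _ => Subalgebra.mul_mem _ (Subalgebra.pow_mem _ huu _)
      (Subalgebra.algebraMap_mem _ r)⟩
  | add x y _ _ hx hy =>
    obtain ⟨N1, h1⟩ := hx
    obtain ⟨N2, h2⟩ := hy
    refine ⟨max N1 N2, fun m hm => ?_⟩
    rw [mul_add]
    exact Subalgebra.add_mem _ (h1 m (le_trans (le_max_left _ _) hm))
      (h2 m (le_trans (le_max_right _ _) hm))
  | mul x y _ _ hx hy =>
    obtain ⟨N1, h1⟩ := hx
    obtain ⟨N2, h2⟩ := hy
    refine ⟨N1 + N2, fun m hm => ?_⟩
    obtain ⟨k, rfl⟩ := Nat.exists_eq_add_of_le hm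
    have h3 : u ^ (N1 + N2 + k) * (x * y) = (u ^ N1 * x) * (u ^ (N2 + k) * y) := by ring
    rw [h3]
    exact Subalgebra.mul_mem _ (h1 N1 le_rfl) (h2 (N2 + k) (Nat.le_add_right _ _))

omit [Nontrivial O] in
/-- If `x` is integral over `O[j]`, then `u ^ m * x` is integral over `O[u]` for all large `m`. -/
theorem isIntegral_pow_mul (j u : L) (A : O[X]) (a : ℕ) (hrel : j * u ^ a = aeval u A) {x : L}
    (hx : IsIntegral (Algebra.adjoin O {j}) x) :
    ∃ K : ℕ, ∀ m : ℕ, K ≤ m → IsIntegral (Algebra.adjoin O {u}) (u ^ m * x) := by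
  rw [isIntegral_subalgebra_iff] at hx
  obtain ⟨p, hp, hc, hpx⟩ := hx
  have h1 : ∀ i, ∃ N : ℕ, ∀ m : ℕ, N ≤ m → u ^ m * p.coeff i ∈ Algebra.adjoin O {u} :=
    fun i => exists_pow_mul_mem j u A a hrel (hc i)
  choose N hN using h1
  refine ⟨(Finset.range (p.natDegree + 1)).sup N, fun m hm => ?_⟩
  rw [isIntegral_subalgebra_iff]
  refine ⟨scaleRoots p (u ^ m), (monic_scaleRoots_iff _).mpr hp, fun i => ?_, ?_⟩
  · rw [coeff_scaleRoots]
    rcases lt_trichotomy i p.natDegree with hi | hi | hi
    · have h2 : N i ≤ m :=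
        le_trans (Finset.le_sup (f := N) (Finset.mem_range.mpr (by omega))) hm
      have hle : N i ≤ m * (p.natDegree - i) := by
        calc N i ≤ m := h2
          _ = m * 1 := (mul_one m).symm
          _ ≤ m * (p.natDegree - i) := Nat.mul_le_mul_left m (by omega)
      have h3 := hN i _ hle
      rw [← pow_mul, mul_comm (p.coeff i)]
      exact h3
    · rw [hi, Nat.sub_self, pow_zero, mul_one, hp.coeff_natDegree]
      exact Subalgebra.one_mem _
    · rw [coeff_eq_zero_of_natDegree_lt hi, zero_mul]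
      exact Subalgebra.zero_mem _
  · rw [scaleRoots_eval_mul, hpx, mul_zero]

end Rel

section Prime

variable {O L : Type*} [CommRing O] [Field L] [Algebra O L]

/-- Divisibility by `π` in the integral closure of a subalgebra, elementwise. -/
theorem dvd_iff (S : Subalgebra O L) (π : O) (y : integralClosure S L) :
    algebraMap S (integralClosure S L) (algebraMap O S π) ∣ y ↔
      ∃ z : L, IsIntegral S z ∧ (y : L) = algebraMap O L π * z := by
  constructor
  · rintro ⟨z, rfl⟩
    exact ⟨z, z.2, rfl⟩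
  · rintro ⟨z, hz, h⟩
    exact ⟨⟨z, hz⟩, Subtype.ext h⟩

/-- The image of `π` in the integral closure of a subalgebra, as an element of `L`. -/
theorem coe_pi (S : Subalgebra O L) (π : O) :
    ((algebraMap S (integralClosure S L) (algebraMap O S π) : integralClosure S L) : L)
      = algebraMap O L π := rfl

theorem pi_ne_zero_iff (S : Subalgebra O L) (π : O) :
    algebraMap S (integralClosure S L) (algebraMap O S π) ≠ 0 ↔ algebraMap O L π ≠ 0 := by
  rw [not_iff_not]
  constructor
  · intro h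
    rw [← coe_pi S π, h]
    rfl
  · intro h
    apply Subtype.ext
    rw [coe_pi, h]
    rfl

/-- `π` is not a unit of the integral closure of `O[j]` (lying over the prime `π O[j]`). -/
theorem not_isUnit_pi [IsDomain O] (π : O) (hπ : Prime π) (j : L) (hj : Transcendental O j) :
    ¬ IsUnit (algebraMap (Algebra.adjoin O {j}) (integralClosure (Algebra.adjoin O {j}) L)
      (algebraMap O (Algebra.adjoin O {j}) π)) := by
  intro hunit
  have hP : Prime (algebraMap O (Algebra.adjoin O {j}) π) :=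
    Fermat.Agent.S30.Model.ChartInst.prime_algebraMap_adjoin O j hj hπ
  have hPi : (Ideal.span {algebraMap O (Algebra.adjoin O {j}) π}).IsPrime :=
    (Ideal.span_singleton_prime hP.ne_zero).mpr hP
  obtain ⟨Q, -, hQ, hQP⟩ := Ideal.exists_ideal_over_prime_of_isIntegral
    (S := integralClosure (Algebra.adjoin O {j}) L)
    (Ideal.span {algebraMap O (Algebra.adjoin O {j}) π}) ⊥ (by
      intro x hx
      rw [Ideal.mem_comap, Ideal.mem_bot] at hx
      have hx1 : x = 0 := Subtype.ext
        (congrArg (fun y : integralClosure (Algebra.adjoin O {j}) L => (y : L)) hx)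
      rw [hx1]
      exact Ideal.zero_mem _)
  have hmem : algebraMap (Algebra.adjoin O {j}) (integralClosure (Algebra.adjoin O {j}) L)
      (algebraMap O (Algebra.adjoin O {j}) π) ∈ Q := by
    rw [← Ideal.mem_comap, hQP]
    exact Ideal.subset_span rfl
  exact hQ.ne_top (Ideal.eq_top_of_isUnit_mem _ hmem hunit)

/-- The prime property transfers from the `u`-closure to the `j`-closure. -/
theorem dvd_or_dvd_of_rel [Nontrivial O] (π : O) (j u : L)
    (A : O[X]) (hA : A.Monic) (a : ℕ) (ha0 : 0 < a)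
    (ha : a < A.natDegree) (hA0 : IsUnit (A.coeff 0)) (hrel : j * u ^ a = aeval u A)
    (hprime : Prime (algebraMap (Algebra.adjoin O {u}) (integralClosure (Algebra.adjoin O {u}) L)
      (algebraMap O (Algebra.adjoin O {u}) π)))
    (x y : integralClosure (Algebra.adjoin O {j}) L)
    (hxy : algebraMap (Algebra.adjoin O {j}) (integralClosure (Algebra.adjoin O {j}) L)
      (algebraMap O (Algebra.adjoin O {j}) π) ∣ x * y) :
    algebraMap (Algebra.adjoin O {j}) (integralClosure (Algebra.adjoin O {j}) L)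
        (algebraMap O (Algebra.adjoin O {j}) π) ∣ x ∨
      algebraMap (Algebra.adjoin O {j}) (integralClosure (Algebra.adjoin O {j}) L)
        (algebraMap O (Algebra.adjoin O {j}) π) ∣ y := by
  rw [dvd_iff] at hxy
  obtain ⟨c, hc, hxyc⟩ := hxy
  rw [MulMemClass.coe_mul] at hxyc
  obtain ⟨K1, hK1⟩ := isIntegral_pow_mul j u A a hrel x.2
  obtain ⟨K2, hK2⟩ := isIntegral_pow_mul j u A a hrel y.2
  obtain ⟨K3, hK3⟩ := isIntegral_pow_mul j u A a hrel hc
  have hx' : IsIntegral (Algebra.adjoin O {u}) (u ^ (K1 + K2 + K3) * (x : L)) :=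
    hK1 _ (by omega)
  have hy' : IsIntegral (Algebra.adjoin O {u}) (u ^ (K1 + K2 + K3) * (y : L)) :=
    hK2 _ (by omega)
  have hc' : IsIntegral (Algebra.adjoin O {u})
      (u ^ ((K1 + K2 + K3) + (K1 + K2 + K3)) * c) := hK3 _ (by omega)
  have hdvd : algebraMap (Algebra.adjoin O {u}) (integralClosure (Algebra.adjoin O {u}) L)
      (algebraMap O (Algebra.adjoin O {u}) π) ∣
      (⟨u ^ (K1 + K2 + K3) * (x : L), hx'⟩ : integralClosure (Algebra.adjoin O {u}) L) *
        ⟨u ^ (K1 + K2 + K3) * (y : L), hy'⟩ := by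
    rw [dvd_iff]
    refine ⟨u ^ ((K1 + K2 + K3) + (K1 + K2 + K3)) * c, hc', ?_⟩
    show u ^ (K1 + K2 + K3) * (x : L) * (u ^ (K1 + K2 + K3) * (y : L)) =
      algebraMap O L π * (u ^ ((K1 + K2 + K3) + (K1 + K2 + K3)) * c)
    rw [pow_add]
    linear_combination (u ^ (K1 + K2 + K3) * u ^ (K1 + K2 + K3)) * hxyc
  obtain ⟨v, hv, huv⟩ := exists_inv_of_rel j u A hA a ha0 ha hA0 hrel
  have key : ∀ (t : integralClosure (Algebra.adjoin O {j}) L)
      (ht : IsIntegral (Algebra.adjoin O {u}) (u ^ (K1 + K2 + K3) * (t : L))),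
      algebraMap (Algebra.adjoin O {u}) (integralClosure (Algebra.adjoin O {u}) L)
        (algebraMap O (Algebra.adjoin O {u}) π) ∣
        (⟨u ^ (K1 + K2 + K3) * (t : L), ht⟩ : integralClosure (Algebra.adjoin O {u}) L) →
      algebraMap (Algebra.adjoin O {j}) (integralClosure (Algebra.adjoin O {j}) L)
        (algebraMap O (Algebra.adjoin O {j}) π) ∣ t := by
    intro t ht hd
    rw [dvd_iff] at hd ⊢
    obtain ⟨e, he, hte⟩ := hd
    have hte' : u ^ (K1 + K2 + K3) * (t : L) = algebraMap O L π * e := hte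
    refine ⟨e * v ^ (K1 + K2 + K3),
      (isIntegral_adjoin_of_isIntegral_adjoin j u A hA a ha hrel he).mul
        (hv.pow (K1 + K2 + K3)), ?_⟩
    have h1 : (u * v) ^ (K1 + K2 + K3) = 1 := by rw [huv, one_pow]
    calc (t : L) = (u * v) ^ (K1 + K2 + K3) * (t : L) := by rw [h1, one_mul]
      _ = v ^ (K1 + K2 + K3) * (u ^ (K1 + K2 + K3) * (t : L)) := by ring
      _ = v ^ (K1 + K2 + K3) * (algebraMap O L π * e) := by rw [hte']
      _ = algebraMap O L π * (e * v ^ (K1 + K2 + K3)) := by ring
  rcases hprime.dvd_or_dvd hdvd with h | h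
  · exact Or.inl (key x hx' h)
  · exact Or.inr (key y hy' h)

/-- **Descent of primality along a Hauptmodul relation.**  If `π` is prime in the integral
closure of `O[u]` in `L` and `j * u ^ a = A(u)` with `A ∈ O[X]` monic of degree `> a ≥ 1` and
`A(0) ∈ Oˣ`, then `π` is prime in the integral closure of `O[j]` in `L`. -/
theorem prime_of_prime_rel [IsDomain O] (π : O) (hπ : Prime π) (j u : L)
    (hj : Transcendental O j) (A : O[X]) (hA : A.Monic) (a : ℕ) (ha0 : 0 < a)
    (ha : a < A.natDegree) (hA0 : IsUnit (A.coeff 0)) (hrel : j * u ^ a = aeval u A)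
    (hprime : Prime (algebraMap (Algebra.adjoin O {u}) (integralClosure (Algebra.adjoin O {u}) L)
      (algebraMap O (Algebra.adjoin O {u}) π))) :
    Prime (algebraMap (Algebra.adjoin O {j}) (integralClosure (Algebra.adjoin O {j}) L)
      (algebraMap O (Algebra.adjoin O {j}) π)) :=
  ⟨(pi_ne_zero_iff _ π).mpr ((pi_ne_zero_iff _ π).mp hprime.ne_zero),
    not_isUnit_pi π hπ j hj,
    fun x y hxy => dvd_or_dvd_of_rel π j u A hA a ha0 ha hA0 hrel hprime x y hxy⟩

end Prime

end Fermat.Agent.S48.G1.K1.PrimeRel
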