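import Mathlib
import Fermat.Agent.S48.G1.K1.PrimeRel
import Fermat.Agent.S30.Haupt.K1

/-!
# S48 / G1 / area K: `π` is prime in the integral closure of `O[j]` in `F₀(M)·E`
(every residue characteristic)

The lower-layer hypothesis `hprime` of the tower lemmas (`K1/GaussTower.gaussTSD_of_tower`,
`TowerUnram.gaussUnram_of_tower`, `K1/TowerTSD`) for `K₁ = LE M E`, base `u₁ = jE M E`:

    Prime (algebraMap O[j] (integralClosure O[j] (LE M E)) π).

* `prime_jE_of_jInputs` : `1728 ∈ Oˣ` (residue characteristic `> 3`): the Model theorem (a) over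
  the `j`-line (`S18.K1Main.modelA`).
* `prime_jE_two` : `2 ∣ M`, `2 ∈ Oˣ` (used at residue characteristic `3`): the Model theorem (a)
  over the line of the Hauptmodul `h₂` of `Γ₀(2)` (branch values `0, -64`), then the descent
  `PrimeRel.prime_of_prime_rel` along `j h₂² = (h₂ + 256)³`.
* `prime_jE_three` : `3 ∣ M`, `3 ∈ Oˣ` (used at residue characteristic `2`): the same with `h₃`,
  `j h₃³ = (h₃ + 27)(h₃ + 243)³`.

Inputs: the fields `fin`, `gauss`, `horiz` of `S18.K1Main.JInputs` at the level `M` (landed for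
`O = O_E`: `S30.E2.JInputsAll.jInputsC_OE`, every residue characteristic prime to `M`).
-/

set_option autoImplicit false
set_option linter.unusedSectionVars false
set_option linter.style.haveILetI false

open ModularCurve AlgebraicCurve Polynomial

noncomputable section

namespace Fermat.Agent.S48.G1.K1.PrimeJ

open Fermat.Agent.S18.K1Defs Fermat.Agent.S18.K1Main Fermat.Agent.S30

local notation "Qb" => AlgebraicClosure ℚ

variable (M : ℕ) [NeZero M] (E : IntermediateField ℚ Qb)
  {O : Type} [CommRing O] [IsDomain O] [IsDiscreteValuationRing O] [Algebra O E]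
  [IsFractionRing O E]

/-- **`hprime` over the `j`-line, residue characteristic `> 3`.** -/
theorem prime_jE_of_jInputs (h1728 : IsUnit (1728 : O)) (p : ℕ) (h : JInputsC M O E p) (π : O)
    (hπ : Irreducible π) :
    letI := algebraOL O E (LE M E)
    Prime (algebraMap (Algebra.adjoin O {jE M E})
      (integralClosure (Algebra.adjoin O {jE M E}) (LE M E))
      (algebraMap O (Algebra.adjoin O {jE M E}) π)) := by
  classical
  letI := algebraOL O E (LE M E)
  haveI := isScalarTower_OL O E (LE M E)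
  have h' : JInputs M O E p := h
  haveI := h'.fin
  have hS : ∀ c ∈ ({0, 1728} : Finset O), ∀ c' ∈ ({0, 1728} : Finset O), c ≠ c' →
      IsUnit (c - c') := by
    intro c hc c' hc' hne
    simp only [Finset.mem_insert, Finset.mem_singleton] at hc hc'
    rcases hc with rfl | rfl <;> rcases hc' with rfl | rfl
    · exact absurd rfl hne
    · rw [zero_sub]; exact h1728.neg
    · rw [sub_zero]; exact h1728
    · exact absurd rfl hne
  exact modelA π hπ (jE M E) (Haupt.K1.transcendental_jE M E) (algClosedIn_laurent (LE M E))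
    (h'.gauss π hπ) {0, 1728} hS (h'.horiz _ (by simp) (by simp))

/-- **`hprime` over the `j`-line at a level divisible by `2`, `2 ∈ Oˣ`** (residue characteristic
`3` included). -/
theorem prime_jE_two (h2M : 2 ∣ M) (h2 : IsUnit (2 : O)) (p : ℕ) (h : JInputsC M O E p) (π : O)
    (hπ : Irreducible π) :
    letI := algebraOL O E (LE M E)
    Prime (algebraMap (Algebra.adjoin O {jE M E})
      (integralClosure (Algebra.adjoin O {jE M E}) (LE M E))
      (algebraMap O (Algebra.adjoin O {jE M E}) π)) := by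
  classical
  letI := algebraOL O E (LE M E)
  haveI := isScalarTower_OL O E (LE M E)
  have h' : JInputs M O E p := h
  haveI := h'.fin
  have hjT : Transcendental E (jE M E) := Haupt.K1.transcendental_jE M E
  have hrel0 : jE M E * Haupt.HorizTwo.h2E M E h2M ^ 2 = (Haupt.HorizTwo.h2E M E h2M + 256) ^ 3 :=
    Haupt.HorizTwo.jE_mul_h2E M E h2M (jE M E) rfl
  obtain ⟨hT, hFD, hG⟩ := Haupt.Gauss.gaussUnram_t2 π hπ h2 (jE M E) hjT (h'.gauss π hπ)
    (Haupt.HorizTwo.h2E M E h2M) hrel0
  haveI := hFD
  have h64 : IsUnit (64 : O) := by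
    have : (64 : O) = 2 ^ 6 := by norm_num
    rw [this]
    exact h2.pow 6
  have hS : ∀ c ∈ ({0, -64} : Finset O), ∀ c' ∈ ({0, -64} : Finset O), c ≠ c' →
      IsUnit (c - c') := by
    intro c hc c' hc' hne
    simp only [Finset.mem_insert, Finset.mem_singleton] at hc hc'
    rcases hc with rfl | rfl <;> rcases hc' with rfl | rfl
    · exact absurd rfl hne
    · rw [zero_sub, neg_neg]; exact h64
    · rw [sub_zero]; exact h64.neg
    · exact absurd rfl hne
  have hii : Model.HorizUnram (E := E) ({0, -64} : Finset O) (Haupt.HorizTwo.h2E M E h2M) :=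
    Haupt.HorizTwo.horizUnram_h2 M E h2M {0, -64}
      ⟨0, by simp, map_zero _⟩ ⟨-64, by simp, by rw [map_neg, map_ofNat]⟩
  have hprime_u := modelA π hπ (Haupt.HorizTwo.h2E M E h2M) hT (algClosedIn_laurent (LE M E)) hG
    {0, -64} hS hii
  have hA0 : IsUnit (((X + C (256 : O)) ^ 3 : O[X]).coeff 0) := by
    have e : ((X + C (256 : O)) ^ 3 : O[X]).coeff 0 = 2 ^ 24 := by
      rw [coeff_zero_eq_eval_zero, eval_pow, eval_add, eval_X, eval_C]
      norm_num
    rw [e]
    exact h2.pow 24
  have hrel : jE M E * Haupt.HorizTwo.h2E M E h2M ^ 2 =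
      aeval (Haupt.HorizTwo.h2E M E h2M) ((X + C (256 : O)) ^ 3 : O[X]) := by
    rw [hrel0, map_pow, map_add, aeval_X, aeval_C, map_ofNat]
  exact PrimeRel.prime_of_prime_rel π hπ.prime (jE M E) (Haupt.HorizTwo.h2E M E h2M)
    (Model.FamilyTSD.transcendental_base (E := E) (jE M E) hjT) ((X + C (256 : O)) ^ 3)
    ((monic_X_add_C (256 : O)).pow 3) 2 (by norm_num)
    (by rw [natDegree_pow_X_add_C]; norm_num) hA0 hrel hprime_u

/-- **`hprime` over the `j`-line at a level divisible by `3`, `3 ∈ Oˣ`** (residue characteristic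
`2` included). -/
theorem prime_jE_three (h3M : 3 ∣ M) (h3 : IsUnit (3 : O)) (p : ℕ) (h : JInputsC M O E p) (π : O)
    (hπ : Irreducible π) :
    letI := algebraOL O E (LE M E)
    Prime (algebraMap (Algebra.adjoin O {jE M E})
      (integralClosure (Algebra.adjoin O {jE M E}) (LE M E))
      (algebraMap O (Algebra.adjoin O {jE M E}) π)) := by
  classical
  letI := algebraOL O E (LE M E)
  haveI := isScalarTower_OL O E (LE M E)
  have h' : JInputs M O E p := h
  haveI := h'.fin
  have hjT : Transcendental E (jE M E) := Haupt.K1.transcendental_jE M E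
  have hrel0 : jE M E * Haupt.HorizThree.h3E M E h3M ^ 3 =
      (Haupt.HorizThree.h3E M E h3M + 27) * (Haupt.HorizThree.h3E M E h3M + 243) ^ 3 :=
    Haupt.HorizThree.jE_mul_h3E M E h3M (jE M E) rfl
  obtain ⟨hT, hFD, hG⟩ := Haupt.Gauss.gaussUnram_t3 π hπ h3 (jE M E) hjT (h'.gauss π hπ)
    (Haupt.HorizThree.h3E M E h3M) hrel0
  haveI := hFD
  have h27 : IsUnit (27 : O) := by
    have : (27 : O) = 3 ^ 3 := by norm_num
    rw [this]
    exact h3.pow 3
  have hS : ∀ c ∈ ({0, -27} : Finset O), ∀ c' ∈ ({0, -27} : Finset O), c ≠ c' →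
      IsUnit (c - c') := by
    intro c hc c' hc' hne
    simp only [Finset.mem_insert, Finset.mem_singleton] at hc hc'
    rcases hc with rfl | rfl <;> rcases hc' with rfl | rfl
    · exact absurd rfl hne
    · rw [zero_sub, neg_neg]; exact h27
    · rw [sub_zero]; exact h27.neg
    · exact absurd rfl hne
  have hii : Model.HorizUnram (E := E) ({0, -27} : Finset O) (Haupt.HorizThree.h3E M E h3M) :=
    Haupt.HorizThree.horizUnram_h3 M E h3M {0, -27}
      ⟨0, by simp, map_zero _⟩ ⟨-27, by simp, by rw [map_neg, map_ofNat]⟩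
  have hprime_u := modelA π hπ (Haupt.HorizThree.h3E M E h3M) hT (algClosedIn_laurent (LE M E))
    hG {0, -27} hS hii
  have hmon : ((X + C (27 : O)) * (X + C (243 : O)) ^ 3 : O[X]).Monic :=
    (monic_X_add_C (27 : O)).mul ((monic_X_add_C (243 : O)).pow 3)
  have hdeg : ((X + C (27 : O)) * (X + C (243 : O)) ^ 3 : O[X]).natDegree = 4 := by
    rw [(monic_X_add_C (27 : O)).natDegree_mul ((monic_X_add_C (243 : O)).pow 3),
      natDegree_X_add_C, natDegree_pow_X_add_C]
  have hA0 : IsUnit (((X + C (27 : O)) * (X + C (243 : O)) ^ 3 : O[X]).coeff 0) := by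
    have e : ((X + C (27 : O)) * (X + C (243 : O)) ^ 3 : O[X]).coeff 0 = 3 ^ 18 := by
      rw [coeff_zero_eq_eval_zero, eval_mul, eval_pow, eval_add, eval_add, eval_X, eval_C, eval_C]
      norm_num
    rw [e]
    exact h3.pow 18
  have hrel : jE M E * Haupt.HorizThree.h3E M E h3M ^ 3 =
      aeval (Haupt.HorizThree.h3E M E h3M)
        ((X + C (27 : O)) * (X + C (243 : O)) ^ 3 : O[X]) := by
    rw [hrel0, map_mul, map_pow, map_add, map_add, aeval_X, aeval_C, aeval_C, map_ofNat,
      map_ofNat]
  exact PrimeRel.prime_of_prime_rel π hπ.prime (jE M E) (Haupt.HorizThree.h3E M E h3M)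
    (Model.FamilyTSD.transcendental_base (E := E) (jE M E) hjT)
    ((X + C (27 : O)) * (X + C (243 : O)) ^ 3) hmon 3 (by norm_num)
    (by rw [hdeg]; norm_num) hA0 hrel hprime_u

end Fermat.Agent.S48.G1.K1.PrimeJ
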