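import Mathlib
import Fermat.Agent.S48.G1.K1.PrimeJ
import Fermat.Agent.S30.E2.JInputsAll

/-!
# S48 / G1 / area K: `hprime` over the `j`-line for `F₀(M)·E` over `O_E = A ∩ E`, every residue
characteristic

`prime_jE_OE` : for a valuation ring `A` of `ℚ̄` over a prime `ℓ ∤ M`, with `2 ∣ M` if `ℓ = 3` and
`3 ∣ M` if `ℓ = 2`, and a subfield `E ⊆ ℚ̄` containing a primitive `M`-th root of unity with
`O_E` a discrete valuation ring, `π` is a prime element of the integral closure of `O_E[j]` in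
`LE M E` — the literal lower-layer hypothesis `hprime` of the tower lemmas
(`K1/GaussTower.gaussTSD_of_tower`, `TowerUnram.gaussUnram_of_tower`) with `K₁ = LE M E`,
`u₁ = jE M E`.  Inputs: the landed `S30.E2.JInputsAll.jInputsC_OE` and `K1/PrimeJ.lean`.
-/

set_option autoImplicit false
set_option linter.unusedSectionVars false
set_option linter.style.haveILetI false

open ModularCurve AlgebraicCurve Polynomial

noncomputable section

namespace Fermat.Agent.S48.G1.K1.PrimeJOE

open Fermat.Agent.S18.K1Defs Fermat.Agent.S18.K1Main Fermat.Agent.S30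

local notation "Qb" => AlgebraicClosure ℚ

/-- **`hprime` over the `j`-line for `LE M E` over `O_E`**, residue characteristic `ℓ ∤ M`
arbitrary (`2 ∣ M` if `ℓ = 3`, `3 ∣ M` if `ℓ = 2`). -/
theorem prime_jE_OE (M : ℕ) [NeZero M] (A : ValuationSubring Qb) (E : IntermediateField ℚ Qb)
    [IsDiscreteValuationRing (OE A E)] {ℓ : ℕ} [Fact ℓ.Prime] (hA : A.LiesOverPrime ℓ)
    (hℓM : ¬ ℓ ∣ M) (h3 : ℓ = 3 → 2 ∣ M) (h2 : ℓ = 2 → 3 ∣ M) {z : Qb}
    (hz : IsPrimitiveRoot z M) (hzE : z ∈ E) (π : OE A E) (hπ : Irreducible π) :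
    letI := algebraOL (OE A E) E (LE M E)
    Prime (algebraMap (Algebra.adjoin (OE A E) {jE M E})
      (integralClosure (Algebra.adjoin (OE A E) {jE M E}) (LE M E))
      (algebraMap (OE A E) (Algebra.adjoin (OE A E) {jE M E}) π)) := by
  have hℓp : ℓ.Prime := Fact.out
  have hMℓ : Nat.Coprime M ℓ :=
    Nat.coprime_comm.mp ((Nat.Prime.coprime_iff_not_dvd hℓp).mpr hℓM)
  have hJ : JInputsC M (OE A E) E 2 := E2.JInputsAll.jInputsC_OE M A E hA hMℓ hz hzE 2
  by_cases hl3 : ℓ = 3
  · have hu2 : IsUnit (2 : OE A E) := by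
      have hc : Nat.Coprime 2 ℓ := by rw [hl3]; decide
      have := isUnit_natCast_OE A E hA 2 hc
      exact_mod_cast this
    exact PrimeJ.prime_jE_two M E (h3 hl3) hu2 2 hJ π hπ
  by_cases hl2 : ℓ = 2
  · have hu3 : IsUnit (3 : OE A E) := by
      have hc : Nat.Coprime 3 ℓ := by rw [hl2]; decide
      have := isUnit_natCast_OE A E hA 3 hc
      exact_mod_cast this
    exact PrimeJ.prime_jE_three M E (h2 hl2) hu3 2 hJ π hπ
  · have h3lt : 3 < ℓ := by
      have := hℓp.two_le
      omega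
    exact PrimeJ.prime_jE_of_jInputs M E (isUnit_1728_OE A E hℓp hA h3lt) 2 hJ π hπ

end Fermat.Agent.S48.G1.K1.PrimeJOE
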