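/-
PROGRAM DS (S48), part G1, AREA K, row K.2.inst (helper117): HYPOTHESIS (i) OF THE MODEL THEOREM
FOR `L = F₁(M)·E` OVER `E(j)` — the instance of the tower lemma at `K₁ = F₀(M)·E`.

* `gaussTSD_of_diamonds` : generic in the discrete valuation ring `O` (fraction field `E`).
  From the lower layer (`h1` : `GaussTSD π j` for `LE M E`, `hprime` : `π` prime in the integral
  closure of `O[j]` in `LE M E`) and a family `σ i` of `[L1 M E : LE M E]` algebra endomorphisms
  of `L1 M E` over `LE M E` (the diamonds) such that the conjugates `σ i θ` of one element `θ`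
  (`= g_1`, integral over `E[j]`) have the `q`-expansions `gq M (bs i)`, the `bs i` pairwise
  distinct modulo `±1`:  `Model.GaussTSD π j` for `L1 M E`.
  (= `GaussTowerQ.gaussTSD_of_tower_gq_E` at `K1 = LE M E`, `L = L1 M E`.)
  The `LE M E`-algebra structure of `L1 M E` is an INSTANCE ARGUMENT with its defining property
  `halg` (the underlying series is unchanged), so that any presentation of the inclusion plugs in.
* `intGens1`, `intFrac_of_mem_F1Q`, `hfrac_L1` : the generators of `F1Q M` have integer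
  coefficients; hence `L1 M E` consists of fractions of `O_E`-integral series.
* `gaussTSD_OE1_of_diamonds` : the instance `O = O_E = A ∩ E` (`A` over `ℓ ∤ M`, `E ∋ ζ_M`), every
  residue characteristic: lower layer `h1` = the landed `E2.GaussUnramAltMain.gaussUnram_OE`,
  `hprime` = `PrimeJOE.prime_jE_OE`, integrality of `g_b` over `E[j]` = `IntQ.isIntegral_gq`.
  The only remaining inputs are the diamonds `σ` with their count `hcard`.

CAUTION for users: never let Lean compare an element of `LE M E` with an element of `L1 M E` by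
`rfl` (the unifier then tries `LE M E =?= L1 M E` and unfolds the function fields); go through
the underlying series with `coe_jE1` / `K1Main.coe_jE` / `coe_algebraMap_sub`.
-/
import Mathlib
import Fermat.Agent.S48.G1.K1.Bricks
import Fermat.Agent.S48.G1.K1.GaussTowerQ
import Fermat.Agent.S48.G1.K1.IntQ
import Fermat.Agent.S48.G1.K1.PrimeJOE
import Fermat.Agent.S30.E2.GaussUnramAltMain

set_option autoImplicit false
set_option linter.style.haveILetI false
set_option linter.unusedSectionVars false
set_option synthInstance.maxHeartbeats 400000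

open ModularCurve

noncomputable section

namespace Fermat.Agent.S48.G1.K1.GaussOE1

open Fermat.Agent.S30 Fermat.Agent.S18.K1Defs Fermat.Agent.S18.K1Main
open Fermat.Agent.S48.G1.F1 Fermat.Agent.S48.G1.F1.GqLead Fermat.Agent.S48.G1.K1.Bricks

local notation "Qb" => AlgebraicClosure ℚ

/-! ### Coercion lemmas (to avoid cross-field `rfl`) -/

theorem coe_jE1 (M : ℕ) (E : Type*) [Field E] [Algebra ℚ E] :
    ((jE1 M E : L1 M E) : LaurentSeries E) = coeffEmb E jq := rfl

theorem coe_algebraMap_sub {E : Type*} [Field E] (S : IntermediateField E (LaurentSeries E))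
    (e : E) : ((algebraMap E S e : S) : LaurentSeries E) = algebraMap E (LaurentSeries E) e := rfl

/-! ### The algebra structure of `L1 M E` over `LE M E`, through its defining property -/

section Halg

variable (M : ℕ) {E : Type*} [Field E] [Algebra ℚ E] [Algebra (LE M E) (L1 M E)]

/-- Any `LE M E`-algebra structure on `L1 M E` whose `algebraMap` is the inclusion is compatible
with the `E`-algebra structures. -/
theorem isScalarTower_of_halg
    (halg : ∀ x : LE M E,
      ((algebraMap (LE M E) (L1 M E) x : L1 M E) : LaurentSeries E) = (x : LaurentSeries E)) :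
    IsScalarTower E (LE M E) (L1 M E) := by
  refine IsScalarTower.of_algebraMap_eq (fun e => ?_)
  apply Subtype.ext
  rw [halg]
  exact (coe_algebraMap_sub (L1 M E) e).trans (coe_algebraMap_sub (LE M E) e).symm

/-- `j ∈ LE M E` maps to `j ∈ L1 M E`. -/
theorem algebraMap_jE_of_halg [NeZero M]
    (halg : ∀ x : LE M E,
      ((algebraMap (LE M E) (L1 M E) x : L1 M E) : LaurentSeries E) = (x : LaurentSeries E)) :
    algebraMap (LE M E) (L1 M E) (jE M E) = jE1 M E := by
  apply Subtype.ext
  rw [halg]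
  exact (coe_jE M E).trans (coe_jE1 M E).symm

end Halg

/-! ### The generic instance of the tower lemma -/

section Generic

variable (M : ℕ) [NeZero M] {O E : Type} [CommRing O] [IsDomain O] [IsDiscreteValuationRing O]
  [Field E] [CharZero E] [Algebra O E] [IsFractionRing O E] [Algebra ℚ E]
  [Algebra O (LE M E)] [IsScalarTower O E (LE M E)]
  [Algebra O (L1 M E)] [IsScalarTower O E (L1 M E)]

set_option maxHeartbeats 2000000 in
/-- **Hypothesis (i) for `F₁(M)·E` from the diamonds** (generic in the discrete valuation ring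
`O`; the `O`-algebra structures act through `E`, the `LE M E`-algebra structure of `L1 M E` is any
structure whose `algebraMap` is the inclusion). -/
theorem gaussTSD_of_diamonds
    (hfrac : ∀ x : LaurentSeries E, x ∈ L1 M E → x ∈ GaussDVR.fracField O E)
    (π : O) (hπ : Irreducible π)
    [Algebra (LE M E) (L1 M E)]
    (halg : ∀ x : LE M E,
      ((algebraMap (LE M E) (L1 M E) x : L1 M E) : LaurentSeries E) = (x : LaurentSeries E))
    [FiniteDimensional (LE M E) (L1 M E)]
    [FiniteDimensional (IntermediateField.adjoin E {jE M E}) (LE M E)]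
    (h1 : Model.GaussTSD (E := E) π (jE M E))
    (hprime : Prime (algebraMap (Algebra.adjoin O {jE M E})
      (integralClosure (Algebra.adjoin O {jE M E}) (LE M E))
      (algebraMap O (Algebra.adjoin O {jE M E}) π)))
    {ι : Type*} [Fintype ι] [DecidableEq ι] (σ : ι → L1 M E →ₐ[LE M E] L1 M E)
    (hcard : Fintype.card ι = Module.finrank (LE M E) (L1 M E))
    (bs : ι → (ZMod M)ˣ) (hne : ∀ i j, i ≠ j → bs j ≠ bs i ∧ bs j ≠ -bs i)
    (θ : L1 M E) (i₀ : ι) (hi₀ : σ i₀ θ = θ)
    (hθ : ∀ i, ((σ i θ : L1 M E) : LaurentSeries E)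
      = coeffEmb E (gq M ((bs i : (ZMod M)ˣ) : ZMod M)))
    (hθE : IsIntegral (Algebra.adjoin E {jE1 M E}) θ) :
    Model.GaussTSD (E := E) π (jE1 M E) := by
  classical
  haveI tEKL : IsScalarTower E (LE M E) (L1 M E) := isScalarTower_of_halg M halg
  haveI tOKL : IsScalarTower O (LE M E) (L1 M E) :=
    IsScalarTower.of_algebraMap_eq (fun o => by
      rw [IsScalarTower.algebraMap_apply O E (L1 M E),
        IsScalarTower.algebraMap_apply O E (LE M E),
        ← IsScalarTower.algebraMap_apply E (LE M E) (L1 M E)])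
  have hu1 : algebraMap (LE M E) (L1 M E) (jE M E) = jE1 M E := algebraMap_jE_of_halg M halg
  exact GaussTowerQ.gaussTSD_of_tower_gq_E (L1 M E).val (fun x => hfrac x x.2) π hπ
    (jE M E) (jE1 M E) hu1 (jqModC O) (coeffEmb_jq_eq_iota (O := O) (E := E))
    (order_rho_jqModC_neg (O := O)) h1 hprime σ hcard M
    (fun i => ((bs i : (ZMod M)ˣ) : ZMod M)) (GqDisc.hb_of_units M bs)
    (GqDisc.hne_of_units M bs hne) θ i₀ hi₀ hθE hθ

end Generic

/-! ### `L1 M E` consists of fractions of integral series -/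

/-- The generators of `F1Q M` have integer coefficients (`Bricks.IntGens1`). -/
theorem intGens1 (M : ℕ) : IntGens1 M := by
  rintro x (⟨d, hd, _, rfl⟩ | ⟨b, rfl⟩)
  · exact GaussDescent.exists_int_qExpand_jq d
  · exact ⟨gqR ℤ M (b : ZMod M), coeffMap_gqR_int_rat M _⟩

/-- Every element of `F1Q M` is a fraction of two series with integer coefficients. -/
theorem intFrac_of_mem_F1Q (M : ℕ) : ∀ z ∈ F1Q M, GaussDescent.IntFrac z := fun _ hz =>
  GaussDescent.intFrac_of_mem_adjoin (gens1Q M) (intGens1 M) hz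

/-- Every element of `L1 M E` is a fraction of two `O_E`-integral series. -/
theorem hfrac_L1 (M : ℕ) (A : ValuationSubring Qb) (E : IntermediateField ℚ Qb)
    [IsDiscreteValuationRing (OE A E)] :
    ∀ x : LaurentSeries E, x ∈ L1 M E → x ∈ GaussDVR.fracField (OE A E) E := fun _ hx =>
  GaussDescent.mem_fracField_of_mem_laurentBaseChange A E (F1Q M) (intFrac_of_mem_F1Q M) hx

/-! ### The instance `O = O_E` -/

set_option maxHeartbeats 2000000 in
/-- **Hypothesis (i) for `F₁(M)·E` over `O_E`** at EVERY residue characteristic `ℓ ∤ M`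
(`2 ∣ M` if `ℓ = 3`, `3 ∣ M` if `ℓ = 2`), `E ∋ ζ_M`, from the diamonds: a family `σ i` of
`[L1 M E : LE M E]` algebra endomorphisms of `L1 M E` over `LE M E` and an element `θ` fixed by
`σ i₀` whose conjugates `σ i θ` have the `q`-expansions `gq M (bs i)`, the `bs i` pairwise
distinct modulo `±1`. -/
theorem gaussTSD_OE1_of_diamonds (M : ℕ) [NeZero M] (hM : 2 ≤ M) (A : ValuationSubring Qb)
    (E : IntermediateField ℚ Qb) [IsDiscreteValuationRing (OE A E)] {ℓ : ℕ} [Fact ℓ.Prime]
    (hA : A.LiesOverPrime ℓ) (hℓM : ¬ ℓ ∣ M) (h3 : ℓ = 3 → 2 ∣ M) (h2 : ℓ = 2 → 3 ∣ M)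
    {z : Qb} (hz : IsPrimitiveRoot z M) (hzE : z ∈ E) (π : OE A E) (hπ : Irreducible π)
    [Algebra (LE M E) (L1 M E)]
    (halg : ∀ x : LE M E,
      ((algebraMap (LE M E) (L1 M E) x : L1 M E) : LaurentSeries E) = (x : LaurentSeries E))
    [FiniteDimensional (LE M E) (L1 M E)]
    {ι : Type*} [Fintype ι] [DecidableEq ι] (σ : ι → L1 M E →ₐ[LE M E] L1 M E)
    (hcard : Fintype.card ι = Module.finrank (LE M E) (L1 M E))
    (bs : ι → (ZMod M)ˣ) (hne : ∀ i j, i ≠ j → bs j ≠ bs i ∧ bs j ≠ -bs i)
    (θ : L1 M E) (i₀ : ι) (hi₀ : σ i₀ θ = θ)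
    (hθ : ∀ i, ((σ i θ : L1 M E) : LaurentSeries E)
      = coeffEmb E (gq M ((bs i : (ZMod M)ˣ) : ZMod M))) :
    letI := algebraOL (OE A E) E (L1 M E)
    haveI := isScalarTower_OL (OE A E) E (L1 M E)
    Model.GaussTSD (E := E) π (jE1 M E) := by
  letI := algebraOL (OE A E) E (LE M E)
  haveI := isScalarTower_OL (OE A E) E (LE M E)
  letI := algebraOL (OE A E) E (L1 M E)
  haveI := isScalarTower_OL (OE A E) E (L1 M E)
  have hℓp : ℓ.Prime := Fact.out
  have hMℓ : Nat.Coprime M ℓ :=
    Nat.coprime_comm.mp ((Nat.Prime.coprime_iff_not_dvd hℓp).mpr hℓM)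
  haveI hfd : FiniteDimensional (IntermediateField.adjoin E {jE M E}) (LE M E) :=
    Fermat.Agent.S30.E2Deg.finite_LE M E
  have hT : Transcendental E (jE M E) := Fermat.Agent.S30.E2Deg.transcendental_jE M E
  have h1 : Model.GaussTSD (E := E) π (jE M E) :=
    gaussTSD_of_gaussUnram π hπ (jE M E) hT
      (Fermat.Agent.S30.E2.GaussUnramAltMain.gaussUnram_OE M A E hA hMℓ hz hzE π hπ)
  have hprime := PrimeJOE.prime_jE_OE M A E hA hℓM h3 h2 hz hzE π hπ
  have hθ₀ : ((θ : L1 M E) : LaurentSeries E)
      = coeffEmb E (gq M ((bs i₀ : (ZMod M)ˣ) : ZMod M)) := by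
    rw [← hθ i₀, hi₀]
  have hθE : IsIntegral (Algebra.adjoin E {jE1 M E}) θ :=
    IntQ.isIntegral_gq M hM (bs i₀) (L1 M E) (jE1 M E) θ (coe_jE1 M E) hθ₀
  exact gaussTSD_of_diamonds M (hfrac_L1 M A E) π hπ halg h1 hprime σ hcard bs hne θ i₀ hi₀ hθ
    hθE

end Fermat.Agent.S48.G1.K1.GaussOE1
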