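/-
PROGRAM DS (S48) / G1, AREA K (helper154): the index of `±Γ₁(N)` and the degree ratio at the
auxiliary levels used for residue characteristic `2` and `3`.

The Model Theorem at residue characteristic `3` (resp. `2`) is applied at a level divisible by
`2` (resp. `3`), i.e. at the level `M * r` with `r = 2` (resp. `r = 3`) when `r ∤ M`, and the
Kummer statement is brought back to the level `M` by the norm (`S18/LevelDescent`).  For the
function fields of `X₁` the degree of level `M * r` over level `M` is the index of `±Γ₁(M r)`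
in `±Γ₁(M)`, which is `r ^ 2 - 1` (`3` resp. `8`), prime to the exponent.

* `chi N`            : the lower right entry `Γ₀(N) → (ℤ/N)ˣ`, `chi_surjective`;
* `pmUnits N`        : `{±1} ⊆ (ℤ/N)ˣ`, of index `φ(N) / 2` for `N ≥ 3`;
* `pm1 N`            : `±Γ₁(N)` as the preimage of `{±1}` (`mem_pm1`, `mem_pm1_iff_gamma1`);
* `two_mul_index_pm1`: `2 [SL₂(ℤ) : ±Γ₁(N)] = ψ(N) φ(N)` for `N ≥ 3`;
* `index_pm1_mul_prime`, `card_quotient_pm1_mul_prime` :
  `[SL₂(ℤ) : ±Γ₁(M r)] = [SL₂(ℤ) : ±Γ₁(M)] (r² - 1)` for a prime `r ∤ M`, `M ≥ 3`;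
* `index_pm1_two`, `pm1_one` : the small levels.

* `pm1_eq_Gamma1pm` and the exits for `F1.Gamma1pm` (helper86): `index_Gamma1pm`,
  `two_mul_index_Gamma1pm`, `index_Gamma1pm_mul_prime`, `card_quotient_Gamma1pm_mul_prime`,
  `_mul_two`, `_mul_three`;
* the same in the vocabulary of `K1/Bricks.lean` (`FIn.hCard M` = number of diamond classes
  `(ℤ/M)ˣ / ±1`, degree `ψ(M) · hCard M`): `two_mul_card_units_quot`,
  `psi_mul_card_units_quot_mul_prime`.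

Only Mathlib, `Lib/Gamma0Index` (index of `Γ₀(N)`) and `F1/Gamma1pm` (definition) are used.
-/
import Mathlib
import Fermat.Agent.Lib.Gamma0Index
import Fermat.Agent.S48.G1.F1.Gamma1pm

set_option autoImplicit false

namespace Fermat.Agent.S48.G1.K1.AuxIndex

open CongruenceSubgroup Matrix
open scoped MatrixGroups

/-! ### The character `Γ₀(N) → (ℤ/N)ˣ` -/

/-- The lower right entry, as a homomorphism `Γ₀(N) → (ℤ/N)ˣ`. -/
def chi (N : ℕ) : Gamma0 N →* (ZMod N)ˣ := (Gamma0Map N).toHomUnits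

theorem coe_chi (N : ℕ) (γ : Gamma0 N) :
    ((chi N γ : (ZMod N)ˣ) : ZMod N) = (((γ : SL(2, ℤ)) 1 1 : ℤ) : ZMod N) := rfl

/-- Every unit modulo `N` is the lower right entry of an element of `Γ₀(N)`. -/
theorem chi_surjective (N : ℕ) [NeZero N] : Function.Surjective (chi N) := by
  intro u
  have hcop : Nat.Coprime (u : ZMod N).val N := ZMod.val_coe_unit_coprime u
  have hcop' : IsCoprime (N : ℤ) (((u : ZMod N).val : ℕ) : ℤ) := by
    rw [Int.isCoprime_iff_gcd_eq_one, Int.gcd_natCast_natCast]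
    exact Nat.Coprime.symm hcop
  obtain ⟨g, hg0, hg1⟩ := hcop'.exists_SL2_row 1
  have hmem : g ∈ Gamma0 N := by
    rw [Gamma0_mem, hg0]
    simp
  refine ⟨⟨g, hmem⟩, Units.ext ?_⟩
  rw [coe_chi]
  show ((g 1 1 : ℤ) : ZMod N) = u
  rw [hg1]
  simp

/-! ### The subgroup `{±1}` of `(ℤ/N)ˣ` -/

/-- `{±1} ⊆ (ℤ/N)ˣ`. -/
def pmUnits (N : ℕ) : Subgroup (ZMod N)ˣ := Subgroup.zpowers (-1)

theorem mem_pmUnits {N : ℕ} {x : (ZMod N)ˣ} : x ∈ pmUnits N ↔ x = 1 ∨ x = -1 := by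
  constructor
  · rintro ⟨k, rfl⟩
    rcases Int.even_or_odd k with h | h
    · left
      exact h.neg_one_zpow
    · right
      exact h.neg_one_zpow
  · rintro (rfl | rfl)
    · exact one_mem _
    · exact Subgroup.mem_zpowers _

/-- `{±1}` has index `φ(N) / 2` in `(ℤ/N)ˣ` for `N ≥ 3`. -/
theorem two_mul_index_pmUnits (N : ℕ) (hN : 3 ≤ N) : 2 * (pmUnits N).index = N.totient := by
  have : NeZero N := ⟨by omega⟩
  have : Fact (1 < N) := ⟨by omega⟩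
  have h1 : Nat.card (pmUnits N) = 2 := by
    rw [pmUnits, Nat.card_zpowers, ← orderOf_units, Units.val_neg, Units.val_one,
      orderOf_neg_one, ZMod.ringChar_zmod_n, if_neg (by omega)]
  have h2 := (pmUnits N).card_mul_index
  rw [h1, Nat.card_eq_fintype_card, ZMod.card_units_eq_totient] at h2
  exact h2

/-! ### The group `±Γ₁(N)` -/

/-- `±Γ₁(N)`: the elements of `Γ₀(N)` with lower right entry `≡ ±1 mod N`. -/
def pm1 (N : ℕ) : Subgroup SL(2, ℤ) := ((pmUnits N).comap (chi N)).map (Gamma0 N).subtype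

theorem mem_pm1 {N : ℕ} {γ : SL(2, ℤ)} :
    γ ∈ pm1 N ↔ γ ∈ Gamma0 N ∧
      (((γ 1 1 : ℤ) : ZMod N) = 1 ∨ ((γ 1 1 : ℤ) : ZMod N) = -1) := by
  rw [pm1, Subgroup.mem_map]
  constructor
  · rintro ⟨x, hx, rfl⟩
    rw [Subgroup.mem_comap, mem_pmUnits] at hx
    refine ⟨x.2, ?_⟩
    rcases hx with h | h
    · left
      have := congrArg (Units.val) h
      rwa [coe_chi, Units.val_one] at this
    · right
      have := congrArg (Units.val) h
      rwa [coe_chi, Units.val_neg, Units.val_one] at this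
  · rintro ⟨h0, h⟩
    refine ⟨⟨γ, h0⟩, ?_, rfl⟩
    rw [Subgroup.mem_comap, mem_pmUnits]
    rcases h with h | h
    · left
      apply Units.ext
      rw [coe_chi, Units.val_one]
      exact h
    · right
      apply Units.ext
      rw [coe_chi, Units.val_neg, Units.val_one]
      exact h

theorem pm1_le_Gamma0 (N : ℕ) : pm1 N ≤ Gamma0 N := fun _ h => (mem_pm1.mp h).1

theorem Gamma1_le_pm1 (N : ℕ) : Gamma1 N ≤ pm1 N := by
  intro γ hγ
  rw [Gamma1_mem] at hγ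
  exact mem_pm1.mpr ⟨Gamma0_mem.mpr hγ.2.2, Or.inl hγ.2.1⟩

theorem neg_one_mem_pm1 (N : ℕ) : (-1 : SL(2, ℤ)) ∈ pm1 N := by
  rw [mem_pm1]
  refine ⟨?_, Or.inr ?_⟩
  · rw [Gamma0_mem]
    simp
  · simp

/-- `γ ∈ ±Γ₁(N)` iff `γ ∈ Γ₁(N)` or `-γ ∈ Γ₁(N)`. -/
theorem mem_pm1_iff_gamma1 {N : ℕ} {γ : SL(2, ℤ)} :
    γ ∈ pm1 N ↔ γ ∈ Gamma1 N ∨ -γ ∈ Gamma1 N := by
  constructor
  · intro h
    obtain ⟨h0, h1⟩ := mem_pm1.mp h
    rw [Gamma0_mem] at h0
    have hdet : ((γ 0 0 : ℤ) : ZMod N) * ((γ 1 1 : ℤ) : ZMod N) = 1 := by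
      have h2 : ((γ 0 0 * γ 1 1 - γ 0 1 * γ 1 0 : ℤ) : ZMod N) = 1 := by
        have := γ.det_coe
        rw [Matrix.det_fin_two] at this
        rw [this]
        simp
      push_cast at h2
      rw [h0, mul_zero, sub_zero] at h2
      exact h2
    rcases h1 with h1 | h1
    · left
      rw [Gamma1_mem]
      refine ⟨?_, h1, h0⟩
      rw [h1, mul_one] at hdet
      exact hdet
    · right
      rw [Gamma1_mem]
      have e00 : ((-γ) 0 0 : ℤ) = -(γ 0 0) := by simp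
      have e11 : ((-γ) 1 1 : ℤ) = -(γ 1 1) := by simp
      have e10 : ((-γ) 1 0 : ℤ) = -(γ 1 0) := by simp
      rw [e00, e11, e10]
      push_cast
      rw [h1, h0, neg_neg, neg_zero]
      refine ⟨?_, rfl, rfl⟩
      rw [h1, mul_neg, mul_one] at hdet
      exact hdet
  · rintro (h | h)
    · exact Gamma1_le_pm1 N h
    · have h2 := (pm1 N).mul_mem (neg_one_mem_pm1 N) (Gamma1_le_pm1 N h)
      have e : (-1 : SL(2, ℤ)) * -γ = γ := by simp
      rwa [e] at h2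

/-! ### Indices -/

/-- `2 [SL₂(ℤ) : ±Γ₁(N)] = ψ(N) φ(N)` for `N ≥ 3`. -/
theorem two_mul_index_pm1 (N : ℕ) (hN : 3 ≤ N) :
    2 * (pm1 N).index = ModularCurve.dedekindPsi N * N.totient := by
  have : NeZero N := ⟨by omega⟩
  rw [pm1, Subgroup.index_map_subtype,
    Subgroup.index_comap_of_surjective (pmUnits N) (chi_surjective N),
    Fermat.Agent.Lib.Gamma0Count.index_Gamma0 N (by omega), ← two_mul_index_pmUnits N hN]
  ring

theorem index_pm1_ne_zero (N : ℕ) (hN : 3 ≤ N) : (pm1 N).index ≠ 0 := by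
  intro h0
  have h := two_mul_index_pm1 N hN
  rw [h0, mul_zero] at h
  have hψ : ModularCurve.dedekindPsi N ≠ 0 := by
    rw [← Fermat.Agent.Lib.Gamma0Count.index_Gamma0 N (by omega)]
    have : NeZero N := ⟨by omega⟩
    exact Subgroup.FiniteIndex.index_ne_zero
  have hφ : N.totient ≠ 0 := (Nat.totient_pos.mpr (by omega)).ne'
  exact (Nat.mul_ne_zero hψ hφ) h.symm

/-- **The aux-level index ratio**: for a prime `r ∤ M` and `M ≥ 3`,
`[SL₂(ℤ) : ±Γ₁(M r)] = [SL₂(ℤ) : ±Γ₁(M)] (r² - 1)`. -/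
theorem index_pm1_mul_prime (M r : ℕ) (hM : 3 ≤ M) (hr : r.Prime) (hrM : ¬ r ∣ M) :
    (pm1 (M * r)).index = (pm1 M).index * (r ^ 2 - 1) := by
  have hMr : 3 ≤ M * r := le_trans hM (Nat.le_mul_of_pos_right _ hr.pos)
  have h1 := two_mul_index_pm1 (M * r) hMr
  have h2 := two_mul_index_pm1 M hM
  have hψ := Fermat.Agent.Lib.Gamma0Count.dedekindPsi_mul_prime_of_not_dvd M r (by omega) hr hrM
  have hcop : Nat.Coprime M r :=
    Nat.Coprime.symm ((Nat.Prime.coprime_iff_not_dvd hr).mpr hrM)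
  have hφ : (M * r).totient = M.totient * (r - 1) := by
    rw [Nat.totient_mul hcop, Nat.totient_prime hr]
  rw [hψ, hφ] at h1
  have h3 : (r + 1) * (r - 1) = r ^ 2 - 1 := by
    obtain ⟨s, rfl⟩ : ∃ s, r = s + 1 := ⟨r - 1, (Nat.succ_pred_eq_of_pos hr.pos).symm⟩
    have e1 : s + 1 - 1 = s := by omega
    have e2 : (s + 1) ^ 2 - 1 = (s + 1 + 1) * s := by
      have : (s + 1) ^ 2 = (s + 1 + 1) * s + 1 := by ring
      rw [this, Nat.add_sub_cancel]
    rw [e1, e2]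
  apply Nat.eq_of_mul_eq_mul_left (two_pos)
  calc 2 * (pm1 (M * r)).index
      = (r + 1) * ModularCurve.dedekindPsi M * (M.totient * (r - 1)) := h1
    _ = (ModularCurve.dedekindPsi M * M.totient) * ((r + 1) * (r - 1)) := by ring
    _ = 2 * ((pm1 M).index * (r ^ 2 - 1)) := by rw [← h2, h3]; ring

/-- The aux-level index ratio, as a count of cosets. -/
theorem card_quotient_pm1_mul_prime (M r : ℕ) (hM : 3 ≤ M) (hr : r.Prime) (hrM : ¬ r ∣ M) :
    Nat.card (SL(2, ℤ) ⧸ pm1 (M * r)) = Nat.card (SL(2, ℤ) ⧸ pm1 M) * (r ^ 2 - 1) :=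
  index_pm1_mul_prime M r hM hr hrM

/-- Residue characteristic `3`: the aux level `2 M` has degree `3` over the level `M`. -/
theorem card_quotient_pm1_mul_two (M : ℕ) (hM : 3 ≤ M) (h2 : ¬ 2 ∣ M) :
    Nat.card (SL(2, ℤ) ⧸ pm1 (M * 2)) = Nat.card (SL(2, ℤ) ⧸ pm1 M) * 3 :=
  card_quotient_pm1_mul_prime M 2 hM Nat.prime_two h2

/-- Residue characteristic `2`: the aux level `3 M` has degree `8` over the level `M`. -/
theorem card_quotient_pm1_mul_three (M : ℕ) (hM : 3 ≤ M) (h3 : ¬ 3 ∣ M) :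
    Nat.card (SL(2, ℤ) ⧸ pm1 (M * 3)) = Nat.card (SL(2, ℤ) ⧸ pm1 M) * 8 :=
  card_quotient_pm1_mul_prime M 3 hM Nat.prime_three h3

theorem card_quotient_pm1_ne_zero (N : ℕ) (hN : 3 ≤ N) : Nat.card (SL(2, ℤ) ⧸ pm1 N) ≠ 0 :=
  index_pm1_ne_zero N hN

/-! ### Small levels -/

/-- At the levels `1` and `2` every unit is `±1`: `±Γ₁(N) = Γ₀(N)`. -/
theorem pm1_eq_Gamma0_of_le_two (N : ℕ) (hN : N ≤ 2) (hN0 : N ≠ 0) : pm1 N = Gamma0 N := by
  apply le_antisymm (pm1_le_Gamma0 N)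
  intro γ hγ
  rw [mem_pm1]
  refine ⟨hγ, ?_⟩
  have hN12 : N = 1 ∨ N = 2 := by omega
  rcases hN12 with rfl | rfl
  · left
    exact Subsingleton.elim _ _
  · -- `N = 2`: the lower right entry is odd
    left
    rw [Gamma0_mem] at hγ
    have hdet : ((γ 0 0 : ℤ) : ZMod 2) * ((γ 1 1 : ℤ) : ZMod 2) = 1 := by
      have h2 : ((γ 0 0 * γ 1 1 - γ 0 1 * γ 1 0 : ℤ) : ZMod 2) = 1 := by
        have := γ.det_coe
        rw [Matrix.det_fin_two] at this
        rw [this]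
        simp
      push_cast at h2
      rw [hγ, mul_zero, sub_zero] at h2
      exact h2
    generalize ((γ 0 0 : ℤ) : ZMod 2) = a at hdet
    generalize ((γ 1 1 : ℤ) : ZMod 2) = d at hdet
    revert a d
    decide

theorem pm1_one : pm1 1 = ⊤ := by
  rw [pm1_eq_Gamma0_of_le_two 1 (by norm_num) (by norm_num),
    Fermat.Agent.Lib.Gamma0Count.Gamma0_one_eq_top]

theorem index_pm1_two : (pm1 2).index = 3 := by
  rw [pm1_eq_Gamma0_of_le_two 2 le_rfl (by norm_num),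
    Fermat.Agent.Lib.Gamma0Count.index_Gamma0 2 (by norm_num)]
  have h := Fermat.Agent.Lib.Gamma0Count.dedekindPsi_mul_prime_of_not_dvd 1 2 one_ne_zero
    Nat.prime_two (by norm_num)
  rw [one_mul, ModularCurve.dedekindPsi_one] at h
  exact h

/-! ### The exits for `F1.Gamma1pm` -/

open Fermat.Agent.S48.G1.F1 in
/-- `pm1 N` is the group `±Γ₁(N)` of `F1/Gamma1pm.lean`. -/
theorem pm1_eq_Gamma1pm (N : ℕ) : pm1 N = Gamma1pm N :=
  Subgroup.ext fun _ => mem_pm1.trans mem_Gamma1pm_iff'.symm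

/-- `[SL₂(ℤ) : ±Γ₁(N)] = |(ℤ/N)ˣ / ±1| · [SL₂(ℤ) : Γ₀(N)]`, every `N ≠ 0`. -/
theorem index_pm1 (N : ℕ) [NeZero N] :
    (pm1 N).index = (pmUnits N).index * (Gamma0 N).index := by
  rw [pm1, Subgroup.index_map_subtype,
    Subgroup.index_comap_of_surjective (pmUnits N) (chi_surjective N)]

open Fermat.Agent.S48.G1.F1 in
/-- `[SL₂(ℤ) : ±Γ₁(N)] = ψ(N) · |(ℤ/N)ˣ / ±1|`, every `N ≠ 0`. -/
theorem index_Gamma1pm (N : ℕ) [NeZero N] :
    (Gamma1pm N).index =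
      ModularCurve.dedekindPsi N * Nat.card ((ZMod N)ˣ ⧸ Subgroup.zpowers (-1 : (ZMod N)ˣ)) := by
  rw [← pm1_eq_Gamma1pm, index_pm1, Fermat.Agent.Lib.Gamma0Count.index_Gamma0 N (NeZero.ne N),
    mul_comm]
  rfl

open Fermat.Agent.S48.G1.F1 in
theorem card_quotient_Gamma1pm (N : ℕ) [NeZero N] :
    Nat.card (SL(2, ℤ) ⧸ Gamma1pm N) =
      ModularCurve.dedekindPsi N * Nat.card ((ZMod N)ˣ ⧸ Subgroup.zpowers (-1 : (ZMod N)ˣ)) :=
  index_Gamma1pm N

open Fermat.Agent.S48.G1.F1 in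
/-- `2 [SL₂(ℤ) : ±Γ₁(N)] = ψ(N) φ(N)` for `N ≥ 3`. -/
theorem two_mul_index_Gamma1pm (N : ℕ) (hN : 3 ≤ N) :
    2 * (Gamma1pm N).index = ModularCurve.dedekindPsi N * N.totient := by
  rw [← pm1_eq_Gamma1pm]
  exact two_mul_index_pm1 N hN

open Fermat.Agent.S48.G1.F1 in
theorem index_Gamma1pm_two : (Gamma1pm 2).index = 3 := by
  rw [← pm1_eq_Gamma1pm]
  exact index_pm1_two

open Fermat.Agent.S48.G1.F1 in
/-- **The aux-level index ratio** for `±Γ₁`: `r` prime, `r ∤ M`, `M ≥ 3`. -/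
theorem index_Gamma1pm_mul_prime (M r : ℕ) (hM : 3 ≤ M) (hr : r.Prime) (hrM : ¬ r ∣ M) :
    (Gamma1pm (M * r)).index = (Gamma1pm M).index * (r ^ 2 - 1) := by
  rw [← pm1_eq_Gamma1pm, ← pm1_eq_Gamma1pm]
  exact index_pm1_mul_prime M r hM hr hrM

open Fermat.Agent.S48.G1.F1 in
theorem card_quotient_Gamma1pm_mul_prime (M r : ℕ) (hM : 3 ≤ M) (hr : r.Prime)
    (hrM : ¬ r ∣ M) :
    Nat.card (SL(2, ℤ) ⧸ Gamma1pm (M * r)) = Nat.card (SL(2, ℤ) ⧸ Gamma1pm M) * (r ^ 2 - 1) :=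
  index_Gamma1pm_mul_prime M r hM hr hrM

open Fermat.Agent.S48.G1.F1 in
/-- Residue characteristic `3`: the aux level `2 M` has degree `3` over the level `M`. -/
theorem card_quotient_Gamma1pm_mul_two (M : ℕ) (hM : 3 ≤ M) (h2 : ¬ 2 ∣ M) :
    Nat.card (SL(2, ℤ) ⧸ Gamma1pm (M * 2)) = Nat.card (SL(2, ℤ) ⧸ Gamma1pm M) * 3 :=
  card_quotient_Gamma1pm_mul_prime M 2 hM Nat.prime_two h2

open Fermat.Agent.S48.G1.F1 in
/-- Residue characteristic `2`: the aux level `3 M` has degree `8` over the level `M`. -/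
theorem card_quotient_Gamma1pm_mul_three (M : ℕ) (hM : 3 ≤ M) (h3 : ¬ 3 ∣ M) :
    Nat.card (SL(2, ℤ) ⧸ Gamma1pm (M * 3)) = Nat.card (SL(2, ℤ) ⧸ Gamma1pm M) * 8 :=
  card_quotient_Gamma1pm_mul_prime M 3 hM Nat.prime_three h3

open Fermat.Agent.S48.G1.F1 in
theorem card_quotient_Gamma1pm_ne_zero (N : ℕ) (hN : 3 ≤ N) :
    Nat.card (SL(2, ℤ) ⧸ Gamma1pm N) ≠ 0 := by
  rw [← pm1_eq_Gamma1pm]
  exact card_quotient_pm1_ne_zero N hN

/-! ### The same in the vocabulary of `K1/Bricks.lean` (degree `ψ(M) · hCard M`) -/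

/-- `2 |(ℤ/N)ˣ / ±1| = φ(N)` for `N ≥ 3` (`Bricks.FIn.hCard N` is this cardinal). -/
theorem two_mul_card_units_quot (N : ℕ) (hN : 3 ≤ N) :
    2 * Nat.card ((ZMod N)ˣ ⧸ Subgroup.zpowers (-1 : (ZMod N)ˣ)) = N.totient :=
  two_mul_index_pmUnits N hN

theorem card_units_quot_ne_zero (N : ℕ) (hN : 3 ≤ N) :
    Nat.card ((ZMod N)ˣ ⧸ Subgroup.zpowers (-1 : (ZMod N)ˣ)) ≠ 0 := by
  intro h0
  have h := two_mul_card_units_quot N hN
  rw [h0, mul_zero] at h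
  exact (Nat.totient_pos.mpr (by omega)).ne' h.symm

/-- **The aux-level degree ratio** in the form `ψ(M r) · hCard (M r) = ψ(M) · hCard M · (r² - 1)`
(`r` prime, `r ∤ M`, `M ≥ 3`). -/
theorem psi_mul_card_units_quot_mul_prime (M r : ℕ) (hM : 3 ≤ M) (hr : r.Prime)
    (hrM : ¬ r ∣ M) :
    ModularCurve.dedekindPsi (M * r) *
        Nat.card ((ZMod (M * r))ˣ ⧸ Subgroup.zpowers (-1 : (ZMod (M * r))ˣ)) =
      ModularCurve.dedekindPsi M *
        Nat.card ((ZMod M)ˣ ⧸ Subgroup.zpowers (-1 : (ZMod M)ˣ)) * (r ^ 2 - 1) := by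
  have : NeZero M := ⟨by omega⟩
  have : NeZero (M * r) := ⟨Nat.mul_ne_zero (by omega) hr.ne_zero⟩
  have h := index_Gamma1pm_mul_prime M r hM hr hrM
  rw [index_Gamma1pm (M * r), index_Gamma1pm M] at h
  exact h

/-- The degree `ψ(M) · hCard M` is nonzero for `M ≥ 3`. -/
theorem psi_mul_card_units_quot_ne_zero (N : ℕ) (hN : 3 ≤ N) :
    ModularCurve.dedekindPsi N *
      Nat.card ((ZMod N)ˣ ⧸ Subgroup.zpowers (-1 : (ZMod N)ˣ)) ≠ 0 := by
  have : NeZero N := ⟨by omega⟩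
  rw [← index_Gamma1pm N, ← pm1_eq_Gamma1pm]
  exact index_pm1_ne_zero N hN

/-- `r² - 1` is prime to `p` in the two cases used: `(r, p) = (2, p ≠ 3)` and `(3, p ≠ 2)`. -/
theorem coprime_sq_sub_one_two {p : ℕ} (hp : p.Prime) (hp3 : p ≠ 3) :
    Nat.Coprime p (2 ^ 2 - 1) := by
  have h3 : (2 : ℕ) ^ 2 - 1 = 3 := by norm_num
  rw [h3]
  exact (Nat.coprime_primes hp Nat.prime_three).mpr hp3

theorem coprime_sq_sub_one_three {p : ℕ} (hp : p.Prime) (hp2 : p ≠ 2) :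
    Nat.Coprime p (3 ^ 2 - 1) := by
  have h8 : (3 : ℕ) ^ 2 - 1 = 2 ^ 3 := by norm_num
  rw [h8]
  exact Nat.Coprime.pow_right 3 ((Nat.coprime_primes hp Nat.prime_two).mpr hp2)

end Fermat.Agent.S48.G1.K1.AuxIndex
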