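/-
S48 / G1, AREA K (G1 DEAL #4, helper70): the input sheet `Bricks.FIn.HolEmb M` holds for every
`M ≥ 2`.

The coset realisations are `DegreeG.cosetEmbG` at `θ = theta1`, `Γ = ±Γ₁(M) = Gamma1pm M`
(helper145's generic degree file): pull-backs of `theta1` by coset representatives of
`SL₂(ℤ) ⧸ ±Γ₁(M)`.  They are pairwise distinct (the joint stabiliser of `theta1` is `±Γ₁(M)`),
are `iotaBar` on constants, send `j` to `j`, their number is
`[SL₂(ℤ) : ±Γ₁(M)] = ψ(M) · |(ℤ/M)ˣ/±1|` (`AuxIndex.card_quotient_Gamma1pm`) and equals the degree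
of `F1 M` over `ℚ̄(j)` (`Degree1.finrank_F1`).

* `cosetEmbG_algebraMap_val`, `cosetEmbG_J_val` : the VALUES of the generic coset embeddings on
  constants and on `j` (generic in `ι`, `A`, `θ`, `Γ`);
* `holEmb1 M hM : Bricks.FIn.HolEmb M`.
-/
import Fermat.Agent.S48.G1.F1.Degree1
import Fermat.Agent.S48.G1.K1.AuxIndex
import Fermat.Agent.S48.G1.K1.Bricks

set_option autoImplicit false
set_option linter.style.haveILetI false
set_option synthInstance.maxHeartbeats 400000

noncomputable section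

open UpperHalfPlane ModularCurve CongruenceSubgroup IntermediateField
open scoped MatrixGroups

namespace Fermat.Agent.S48.G1.K1.HolEmb1

open Fermat.Agent.S24.HolH Fermat.Agent.S24.JHol Fermat.Agent.S24.JFun Fermat.Agent.S24.Theta
open Fermat.Agent.S48.G1 Fermat.Agent.S48.G1.CosetG
open Fermat.Agent.S48.G1.F1 Fermat.Agent.S48.G1.F1.Theta1 Fermat.Agent.S48.G1.F1.Degree1

local notation "Qb" => AlgebraicClosure ℚ

/-! ### Values of the generic coset embeddings -/

section Gen

variable {L : Type*} [Field L] [CharZero L] [Algebra ℚ L] (ι : L →+* ℂ)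
  {F : IntermediateField L (LaurentSeries L)} (A : Subalgebra L F)
  (θ : A →+* HolH) (G : Subgroup SL(2, ℤ)) (J : A)

/-- The coset embeddings are `ι` on constants. -/
theorem cosetEmbG_algebraMap_val [IsFractionRing A F]
    (hQ : ∀ a : A, HasQ ι ((a : F) : LaurentSeries L) (θ a : ℍ → ℂ)) (x : SL(2, ℤ) ⧸ G)
    (c : L) :
    DegreeG.cosetEmbG ι A θ G hQ x (algebraMap L F c) =
      algebraMap HolH (FractionRing HolH) (algebraMap ℂ HolH (ι c)) := by
  have h : algebraMap L F c = ((algebraMap L A c : A) : F) := rfl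
  have hθ : θ (algebraMap L A c) = algebraMap ℂ HolH (ι c) :=
    Subtype.ext (funext fun τ => DegreeG.theta_algebraMap_apply ι A θ hQ c τ)
  rw [h, DegreeG.cosetEmbG_coe,
    cosetHomG_of_invariant θ (fun g => DegreeG.compSL_theta_algebraMap ι A θ hQ g c) x, hθ]

/-- The coset embeddings send `j` to the modular invariant. -/
theorem cosetEmbG_J_val [IsFractionRing A F]
    (hJ : ((J : F) : LaurentSeries L) = coeffEmb L jq)
    (hQ : ∀ a : A, HasQ ι ((a : F) : LaurentSeries L) (θ a : ℍ → ℂ)) (x : SL(2, ℤ) ⧸ G) :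
    DegreeG.cosetEmbG ι A θ G hQ x (J : F) = algebraMap HolH (FractionRing HolH) jHol := by
  have hθ : θ J = jHol :=
    Subtype.ext (funext fun τ => DegreeG.theta_J_apply ι A θ J hJ hQ τ)
  rw [DegreeG.cosetEmbG_coe,
    cosetHomG_of_invariant θ (fun g => DegreeG.compSL_theta_J ι A θ J hJ hQ g) x, hθ]

end Gen

/-! ### The sheet `FIn.HolEmb M` -/

/-- **`Bricks.FIn.HolEmb M` for every `M ≥ 2`**: the coset realisations of `F1 M` over the
`j`-line. -/
theorem holEmb1 (M : ℕ) (hM : 2 ≤ M) : Bricks.FIn.HolEmb M := by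
  classical
  haveI : NeZero M := ⟨by omega⟩
  letI : Fintype (SL(2, ℤ) ⧸ Gamma1pm M) := Fintype.ofFinite _
  have hj : ((Dia.jElt M 1 (one_dvd M) : F1 M) : LaurentSeries Qb) = coeffEmb Qb jq := by
    rw [Dia.coe_jElt, qExpand_one_apply]
  have hjeq : Dia.jElt M 1 (one_dvd M) = ((jA01 M : A01 M) : F1 M) := eq_jF1 hj
  refine ⟨SL(2, ℤ) ⧸ Gamma1pm M, inferInstance,
    DegreeG.cosetEmbG iotaBar (A01 M) (theta1 iotaBar M hM) (Gamma1pm M)
      (fun a => hasQ_theta1 hM a),
    DegreeG.cosetEmbG_injective iotaBar (A01 M) (theta1 iotaBar M hM) (Gamma1pm M)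
      (fun a => hasQ_theta1 hM a)
      (fun _ hγ a => compSL_theta1_of_mem_Gamma1pm iotaBar hM hγ a)
      (mem_Gamma1pm_of_compSL_theta1 iotaBar hM),
    fun i a => cosetEmbG_algebraMap_val iotaBar (A01 M) (theta1 iotaBar M hM) (Gamma1pm M)
      (fun a => hasQ_theta1 hM a) i a,
    fun i => ?_, ?_, finite_F1 hM _ hj, ?_⟩
  · rw [hjeq]
    exact cosetEmbG_J_val iotaBar (A01 M) (theta1 iotaBar M hM) (Gamma1pm M) (jA01 M)
      (coe_jA01 M) (fun a => hasQ_theta1 hM a) i
  · rw [← Nat.card_eq_fintype_card]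
    exact AuxIndex.card_quotient_Gamma1pm M
  · rw [← Nat.card_eq_fintype_card]
    exact (finrank_F1 hM _ hj).le

end Fermat.Agent.S48.G1.K1.HolEmb1
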