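/-
PROGRAM DS (S48), part G1, AREA K, row K.2.inst (helper117): THE GAUSS INPUT `Final1.GaussJ1 M`.

`gaussJ1 : 2 ≤ M → 2 ∣ M ∨ 3 ∣ M → Final1.GaussJ1 M` — hypothesis (i) of the Model theorem in
trace-self-duality form at the base `j` for `L1 M E = F₁(M)·E`, over every number field
`E ⊆ ℚ̄` containing a primitive `M`-th root of unity, at every residue characteristic `ℓ ∤ M`
(the single remaining input of `K1/Main.lean`, i.e. of the exit `K1_1` of AREA K).

Assembly of landed pieces: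
* `GaussOE1.gaussTSD_OE1_of_diamonds` (the tower lemma at `K₁ = LE M E`, `L = L1 M E`; lower
  layer `E2.G` + `PrimeJOE`, integrality `IntQ`);
* `DiaE` (helper216): the diamonds `sigma M E i`, `i ∈ (ℤ/M)ˣ/±1`, with `σ_i g_1 = g_{rep i}`;
* `DiaFinal.exists_isDia1` (helper71): existence of the diamonds over `ℚ̄`;
* the degree `[L1 M E : LE M E] = |(ℤ/M)ˣ/±1|`: `HorizJ.degE` ∘ `HolEmb1.holEmb1`
  (`[L1 M E : E(j)] = ψ(M)·|(ℤ/M)ˣ/±1|`), `E2Deg.finrank_LE` (`[LE M E : E(j)] = ψ(M)`) and the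
  tower law `finite_and_finrank_mul` below (generic, Mathlib only).
-/
import Mathlib
import Fermat.Agent.S48.G1.K1.GaussOE1
import Fermat.Agent.S48.G1.K1.DiaE
import Fermat.Agent.S48.G1.K1.Final1
import Fermat.Agent.S48.G1.K1.HolEmb1
import Fermat.Agent.S48.G1.F1.DiaFinal

set_option autoImplicit false
set_option linter.style.haveILetI false
set_option linter.unusedSectionVars false
set_option synthInstance.maxHeartbeats 400000

open ModularCurve IntermediateField

noncomputable section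

namespace Fermat.Agent.S48.G1.K1.GaussJ1

open Fermat.Agent.S30 Fermat.Agent.S18.K1Defs Fermat.Agent.S18.K1Main
open Fermat.Agent.S48.G1.F1 Fermat.Agent.S48.G1.K1.Bricks

local notation "Qb" => AlgebraicClosure ℚ

/-! ### The tower law through an intermediate field given as an algebra (generic) -/

section TowerLaw

variable {E K1 L : Type*} [Field E] [Field K1] [Field L] [Algebra E K1] [Algebra E L]
  [Algebra K1 L] [IsScalarTower E K1 L]

/-- The bijection `E⟮u1⟯ → E⟮algebraMap u1⟯` induced by `K1 → L`. -/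
theorem exists_adjoin_equiv (u1 : K1) :
    ∃ i : E⟮u1⟯ → E⟮algebraMap K1 L u1⟯, Function.Bijective i ∧
      ∀ r : E⟮u1⟯, ((i r : E⟮algebraMap K1 L u1⟯) : L) = algebraMap K1 L (r : K1) := by
  set f : K1 →ₐ[E] L := IsScalarTower.toAlgHom E K1 L with hf
  have hmap : (E⟮u1⟯).map f = E⟮algebraMap K1 L u1⟯ := by
    rw [IntermediateField.adjoin_map, Set.image_singleton]
    rfl
  let e := (IntermediateField.equivMap (E⟮u1⟯) f).trans (IntermediateField.equivOfEq hmap)
  exact ⟨e, e.bijective, fun r => rfl⟩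

theorem rank_adjoin_eq (u1 : K1) :
    Module.rank E⟮u1⟯ L = Module.rank E⟮algebraMap K1 L u1⟯ L := by
  obtain ⟨i, hi, hc⟩ := exists_adjoin_equiv (E := E) (L := L) u1
  refine rank_eq_of_equiv_equiv i (AddEquiv.refl L) hi (fun r m => ?_)
  show r • m = i r • m
  rw [Algebra.smul_def, Algebra.smul_def]
  congr 1
  rw [IntermediateField.algebraMap_apply, hc]
  rfl

/-- **Tower law**: `L` is finite over `K1` and `[K1 : E(u1)]·[L : K1] = [L : E(u)]`, `u` the image
of `u1`, as soon as `L` is finite over `E(u)`. -/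
theorem finite_and_finrank_mul (u1 : K1) [FiniteDimensional E⟮algebraMap K1 L u1⟯ L] :
    FiniteDimensional K1 L ∧
      Module.finrank E⟮u1⟯ K1 * Module.finrank K1 L
        = Module.finrank E⟮algebraMap K1 L u1⟯ L := by
  have hr := rank_adjoin_eq (E := E) (L := L) u1
  have hfin : Module.Finite E⟮u1⟯ L := by
    rw [← Module.rank_lt_aleph0_iff, hr, Module.rank_lt_aleph0_iff]
    infer_instance
  haveI := hfin
  haveI hK : FiniteDimensional K1 L := Module.Finite.of_restrictScalars_finite E⟮u1⟯ K1 L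
  refine ⟨hK, ?_⟩
  rw [Module.finrank_mul_finrank E⟮u1⟯ K1 L]
  unfold Module.finrank
  rw [hr]

end TowerLaw

/-! ### The degree of `L1 M E` over `LE M E` -/

/-- `halg` for the inclusion algebra `DiaE.algebraLE`. -/
theorem halg_algebraLE (M : ℕ) (E : Type*) [Field E] [Algebra ℚ E] :
    letI := DiaE.algebraLE M E
    ∀ x : LE M E,
      ((algebraMap (LE M E) (L1 M E) x : L1 M E) : LaurentSeries E) = (x : LaurentSeries E) :=
  fun x => IntermediateField.coe_inclusion (DiaE.LE0_le_LE1 M E) x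

set_option maxHeartbeats 2000000 in
/-- **`[L1 M E : LE M E] = |(ℤ/M)ˣ/±1|`**, and `L1 M E` is finite over `LE M E`
(inclusion algebra `DiaE.algebraLE`). -/
theorem finite_and_finrank_LE_L1 (M : ℕ) [NeZero M] (hM : 2 ≤ M) (E : IntermediateField ℚ Qb) :
    letI := DiaE.algebraLE M E
    FiniteDimensional (LE M E) (L1 M E) ∧
      Module.finrank (LE M E) (L1 M E) = Nat.card (DiaE.Idx M) := by
  letI := DiaE.algebraLE M E
  haveI : IsScalarTower E (LE M E) (L1 M E) :=
    GaussOE1.isScalarTower_of_halg M (halg_algebraLE M E)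
  have hu1 : algebraMap (LE M E) (L1 M E) (jE M E) = jE1 M E :=
    GaussOE1.algebraMap_jE_of_halg M (halg_algebraLE M E)
  obtain ⟨hfin1, hrank1⟩ := HorizJ.degE M (HolEmb1.holEmb1 M hM) E
  haveI : FiniteDimensional E⟮algebraMap (LE M E) (L1 M E) (jE M E)⟯ (L1 M E) := by
    rw [hu1]
    exact hfin1
  obtain ⟨hK, hmul⟩ := finite_and_finrank_mul (E := E) (L := L1 M E) (jE M E)
  rw [hu1, hrank1] at hmul
  haveI : FiniteDimensional E⟮jE M E⟯ (LE M E) := Fermat.Agent.S30.E2Deg.finite_LE M E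
  have hψ : Module.finrank E⟮jE M E⟯ (LE M E) = dedekindPsi M :=
    Fermat.Agent.S30.E2Deg.finrank_LE M E
  have hpos : 0 < dedekindPsi M := by
    rw [← hψ]
    exact Module.finrank_pos
  rw [hψ] at hmul
  exact ⟨hK, Nat.eq_of_mul_eq_mul_left hpos hmul⟩

/-! ### The class of `1` -/

theorem eq_one_or_neg_one_of_mem_zpowers {M : ℕ} (x : (ZMod M)ˣ)
    (hx : x ∈ Subgroup.zpowers (-1 : (ZMod M)ˣ)) : x = 1 ∨ x = -1 := by
  obtain ⟨k, rfl⟩ := Subgroup.mem_zpowers_iff.mp hx
  rcases Int.even_or_odd k with ⟨m, rfl⟩ | ⟨m, rfl⟩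
  · left
    rw [zpow_add, ← mul_zpow, neg_mul_neg, mul_one, one_zpow]
  · right
    rw [zpow_add, zpow_mul, zpow_two, neg_mul_neg, mul_one, one_zpow, one_mul, zpow_one]

/-- The chosen representative of the class of `1` is `±1`. -/
theorem rep_one (M : ℕ) :
    DiaE.rep M (QuotientGroup.mk 1 : DiaE.Idx M) = 1 ∨
      DiaE.rep M (QuotientGroup.mk 1 : DiaE.Idx M) = -1 := by
  have h := DiaE.mk_rep (QuotientGroup.mk (1 : (ZMod M)ˣ) : DiaE.Idx M)
  rw [QuotientGroup.eq, mul_one] at h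
  rcases eq_one_or_neg_one_of_mem_zpowers _ h with h1 | h1
  · left
    exact inv_eq_one.mp h1
  · right
    rw [← inv_inv (DiaE.rep M _), h1, inv_neg, inv_one]

/-! ### The Gauss input -/

set_option maxHeartbeats 4000000 in
/-- **(K.2.inst) `Final1.GaussJ1 M`** for every level `M ≥ 2` divisible by `2` or `3`. -/
theorem gaussJ1 (M : ℕ) (hM : 2 ≤ M) (h23 : 2 ∣ M ∨ 3 ∣ M) : Final1.GaussJ1 M := by
  classical
  haveI : NeZero M := ⟨by omega⟩
  intro ℓ hℓ hℓM A hA
  haveI : Fact ℓ.Prime := ⟨hℓ⟩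
  have : NeZero (M : Qb) := ⟨Nat.cast_ne_zero.mpr (NeZero.ne M)⟩
  obtain ⟨z, hz⟩ := HasEnoughRootsOfUnity.exists_primitiveRoot Qb M
  refine ⟨{z}, fun E _ _ hE π hπ => ?_⟩
  have hzE : z ∈ E := hE z (Finset.mem_singleton_self z)
  have h3 : ℓ = 3 → 2 ∣ M := fun h => h23.resolve_right (h ▸ hℓM)
  have h2 : ℓ = 2 → 3 ∣ M := fun h => h23.resolve_left (h ▸ hℓM)
  have hex : ∀ u : (ZMod M)ˣ, ∃ D : F1 M ≃ₐ[Qb] F1 M, IsDia M u D := fun u =>
    DiaFinal.exists_isDia1 hM u
  letI := DiaE.algebraLE M E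
  obtain ⟨hfd, hd⟩ := finite_and_finrank_LE_L1 M hM E
  haveI := hfd
  haveI := DiaE.finite_idx M
  letI := Fintype.ofFinite (DiaE.Idx M)
  have hcard : Fintype.card (DiaE.Idx M) = Module.finrank (LE M E) (L1 M E) :=
    DiaE.fintype_card_idx_eq_finrank (E := E) hex hd.le
  have hi₀ : DiaE.sigma M E (QuotientGroup.mk 1 : DiaE.Idx M) (DiaE.gE1 M E 1)
      = DiaE.gE1 M E 1 := by
    rw [DiaE.sigma_gE1 hex, DiaE.gE1_eq_iff]
    rcases rep_one M with h | h
    · left; exact h.symm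
    · right; rw [h, neg_neg]
  exact GaussOE1.gaussTSD_OE1_of_diamonds M hM A E hA hℓM h3 h2 hz hzE π hπ
    (halg_algebraLE M E) (fun i => (DiaE.sigma M E i : L1 M E →ₐ[LE M E] L1 M E)) hcard
    (DiaE.rep M) DiaE.rep_ne (DiaE.gE1 M E 1) (QuotientGroup.mk 1) hi₀ (DiaE.coe_sigma_gE1 hex)

end Fermat.Agent.S48.G1.K1.GaussJ1
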