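/-
PROGRAM DS (S48), part G1, AREA K, row K.7 (helper284): DESCENT FROM THE AUXILIARY LEVEL.

For residue characteristic `ℓ = 3` (resp. `ℓ = 2`) the Model theorem is applied at a level
divisible by `r = 2` (resp. `r = 3`) with the Hauptmodul of `Γ₀(r)` as base.  When `r ∤ M` one
works at the level `M r` and descends to the level `M` by the norm; the degree
`[F₁(M r) : F₁(M)] = r² - 1` (`3` resp. `8`) is a power of `ℓ`, hence prime to every exponent
`p ≠ ℓ`.

* `lbc_mono` : monotonicity of `laurentBaseChange E ·`.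
* `k1ModularG_of_le_of_coprime`, `k1ModularG_of_le_of_finrank` : the generic descent for
  `K1Gen.K1ModularG` (twins of `S18.LevelDescent.k1Modular_of_dvd`, `…_of_finrank`).
* `incl_of_mem` : `F1Q M ≤ F1Q (M r)` from the membership over `ℚ̄` of the generators `g_b` of
  level `M` (linear disjointness `S30.KummerDescent.mem_adjoin_of_coeffMap_mem`).
* `auxDesc`, `auxDesc_of_mem` : the descent `F₁(M r) → F₁(M)` from the two degrees over `ℚ̄(j)`.
* `k1ModularG_of_cases` : the case split on the residue characteristic (twin of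
  `S18.K1Aux.k1Modular_of_cases`), for an arbitrary family of fields.
-/
import Mathlib
import Fermat.Agent.S48.G1.K1Gen.Top
import Fermat.Agent.S18.LevelDescent
import Fermat.Agent.S30.KummerDescent
import Fermat.Agent.S48.G1.F1.Defs
import Fermat.Agent.S48.G1.F1.FieldFin

set_option autoImplicit false

noncomputable section

namespace Fermat.Agent.S48.G1.K1.AuxDesc

open ModularCurve AlgebraicCurve IntermediateField HahnSeries
open Fermat.Agent.S18.K1Defs Fermat.Agent.S18.LevelDescent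
open Fermat.Agent.S30.E2.Degree Fermat.Agent.S48.G1.F1 Fermat.Agent.S48.G1.K1Gen
open Fermat.Agent.S48.G1.FieldFin

local notation "Qb" => AlgebraicClosure ℚ

/-- Monotonicity of the base change of constants in the `ℚ`-field. -/
theorem lbc_mono (E : Type*) [Field E] [Algebra ℚ E]
    {F₀ F₀' : IntermediateField ℚ (LaurentSeries ℚ)} (h : F₀ ≤ F₀') :
    laurentBaseChange E F₀ ≤ laurentBaseChange E F₀' := by
  rw [laurentBaseChange, IntermediateField.adjoin_le_iff]
  rintro _ ⟨y, hy, rfl⟩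
  exact coeffEmb_mem_laurentBaseChange E (h hy)

/-- **Generic descent for `K1ModularG`**: `F₀ ≤ F₀'` and, over every number field `E`, the degree
of `F₀' · E` over `F₀ · E` prime to `p`. -/
theorem k1ModularG_of_le_of_coprime (F₀ F₀' : IntermediateField ℚ (LaurentSeries ℚ))
    (hle : F₀ ≤ F₀') (A : ValuationSubring Qb) (p : ℕ) (hp1 : p ≠ 1)
    (hdeg : ∀ (E : IntermediateField ℚ Qb) [FiniteDimensional ℚ E],
      letI := (IntermediateField.inclusion (lbc_mono E hle)).toRingHom.toAlgebra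
      Nat.Coprime p (Module.finrank (laurentBaseChange E F₀) (laurentBaseChange E F₀')))
    (h : K1ModularG F₀' A p) : K1ModularG F₀ A p := by
  obtain ⟨S, hS⟩ := h
  exact ⟨S, fun E _ _ hSE =>
    k1E_of_le (laurentBaseChange E F₀) (laurentBaseChange E F₀') (lbc_mono E hle) p (hdeg E) hp1
      (hS E hSE)⟩

/-- **Generic descent for `K1ModularG`**, the degrees being given over `E(x)` for an element
`x ∈ F₀`: `[F₀ · E : E(x)] = n`, `[F₀' · E : E(x)] = n d`, `d` prime to `p`. -/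
theorem k1ModularG_of_le_of_finrank (F₀ F₀' : IntermediateField ℚ (LaurentSeries ℚ))
    (hle : F₀ ≤ F₀') (A : ValuationSubring Qb) (p : ℕ) (hp1 : p ≠ 1) (x : F₀) (n d : ℕ)
    (hn0 : n ≠ 0) (hpd : Nat.Coprime p d)
    (hn : ∀ (E : IntermediateField ℚ Qb) [FiniteDimensional ℚ E],
      Module.finrank E⟮Abs.embF F₀ E x⟯ (laurentBaseChange E F₀) = n)
    (hn' : ∀ (E : IntermediateField ℚ Qb) [FiniteDimensional ℚ E],
      Module.finrank E⟮Abs.embF F₀' E ⟨x, hle x.2⟩⟯ (laurentBaseChange E F₀') = n * d)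
    (h : K1ModularG F₀' A p) : K1ModularG F₀ A p := by
  obtain ⟨S, hS⟩ := h
  refine ⟨S, fun E _ _ hSE => ?_⟩
  refine k1E_of_le_of_finrank (laurentBaseChange E F₀) (laurentBaseChange E F₀')
    (lbc_mono E hle) p hp1 (Abs.embF F₀ E x) n d hn0 (hn E) ?_ hpd (hS E hSE)
  have hx : IntermediateField.inclusion (lbc_mono E hle) (Abs.embF F₀ E x)
      = Abs.embF F₀' E ⟨x, hle x.2⟩ := Subtype.ext rfl
  rw [hx]
  exact hn' E

/-- **Level monotonicity** `F1Q M ≤ F1Q (M r)` from the membership, over `ℚ̄`, of the generators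
`g_b` of level `M` in the function field of level `M r` (the `j(q^d)`, `d ∣ M`, are generators of
both levels). -/
theorem incl_of_mem (M r : ℕ)
    (hmem : ∀ b : (ZMod M)ˣ, coeffEmb Qb (gq M (b : ZMod M)) ∈ F1 (M * r)) :
    F1Q M ≤ F1Q (M * r) := by
  rw [F1Q, IntermediateField.adjoin_le_iff]
  rintro x (hx | hx)
  · obtain ⟨d, hd0, hd, rfl⟩ := hx
    haveI := hd0
    exact jqd_mem_F1Q (M * r) (hd.trans (Dvd.intro r rfl))
  · obtain ⟨b, rfl⟩ := hx
    have h1 : coeffEmb Qb (gq M (b : ZMod M))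
        ∈ IntermediateField.adjoin Qb (⇑(coeffEmb Qb) '' gens1Q (M * r)) := by
      rw [← Fermat.Agent.S24.DegreeGen.laurentBaseChange_adjoin Qb (gens1Q (M * r))]
      exact hmem b
    exact Fermat.Agent.S30.KummerDescent.mem_adjoin_of_coeffMap_mem (K := ℚ) (Ω := Qb)
      (gens1Q (M * r)) h1

/-- **(K.7) Descent from the auxiliary level `M r` to the level `M`** for `K1ModularG`, from the
inclusion of the function fields and the two degrees over `ℚ̄(j)`:
`[F₁(M) : ℚ̄(j)] = n`, `[F₁(M r) : ℚ̄(j)] = n d`, `d` prime to `p`. -/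
theorem auxDesc (M r : ℕ) (hincl : F1Q M ≤ F1Q (M * r)) (n d : ℕ) (hn0 : n ≠ 0)
    [Module.Finite Qb⟮jF1 M⟯ (F1 M)] (hn : Module.finrank Qb⟮jF1 M⟯ (F1 M) = n)
    [Module.Finite Qb⟮jF1 (M * r)⟯ (F1 (M * r))]
    (hn' : Module.finrank Qb⟮jF1 (M * r)⟯ (F1 (M * r)) = n * d)
    (A : ValuationSubring Qb) (p : ℕ) (hp1 : p ≠ 1) (hpd : Nat.Coprime p d)
    (h : K1ModularG (F1Q (M * r)) A p) : K1ModularG (F1Q M) A p := by
  refine k1ModularG_of_le_of_finrank (F1Q M) (F1Q (M * r)) hincl A p hp1 (jQ1 M) n d hn0 hpd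
    (fun E _ => ?_) (fun E _ => ?_) h
  · rw [← hn]
    exact finrank_F1E_eq_of_finite (M := M) Qb E
  · have hx : (⟨(jQ1 M : LaurentSeries ℚ), hincl (jQ1 M).2⟩ : F1Q (M * r)) = jQ1 (M * r) :=
      Subtype.ext rfl
    rw [hx, ← hn']
    exact finrank_F1E_eq_of_finite (M := M * r) Qb E

/-- `auxDesc` with the inclusion derived from the membership of the generators over `ℚ̄`. -/
theorem auxDesc_of_mem (M r : ℕ)
    (hmem : ∀ b : (ZMod M)ˣ, coeffEmb Qb (gq M (b : ZMod M)) ∈ F1 (M * r)) (n d : ℕ)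
    (hn0 : n ≠ 0)
    [Module.Finite Qb⟮jF1 M⟯ (F1 M)] (hn : Module.finrank Qb⟮jF1 M⟯ (F1 M) = n)
    [Module.Finite Qb⟮jF1 (M * r)⟯ (F1 (M * r))]
    (hn' : Module.finrank Qb⟮jF1 (M * r)⟯ (F1 (M * r)) = n * d)
    (A : ValuationSubring Qb) (p : ℕ) (hp1 : p ≠ 1) (hpd : Nat.Coprime p d)
    (h : K1ModularG (F1Q (M * r)) A p) : K1ModularG (F1Q M) A p :=
  auxDesc M r (incl_of_mem M r hmem) n d hn0 hn hn' A p hp1 hpd h

/-- **The case split on the residue characteristic** for a family `F M` of fields (e.g.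
`F = F1Q`): base `j` for `ℓ > 3`; the Hauptmodul of level `2` (resp. `3`) at the levels divisible
by `2` (resp. `3`) for `ℓ = 3` (resp. `ℓ = 2`), and the descent from the level `M * 2`
(resp. `M * 3`) when `2 ∤ M` (resp. `3 ∤ M`). -/
theorem k1ModularG_of_cases (F : ℕ → IntermediateField ℚ (LaurentSeries ℚ)) (M : ℕ) {ℓ : ℕ}
    [Fact ℓ.Prime] (hℓM : ¬ ℓ ∣ M) (A : ValuationSubring Qb) (p : ℕ)
    (hbig : 3 < ℓ → K1ModularG (F M) A p)
    (htwo : ∀ M' : ℕ, 2 ∣ M' → ¬ ℓ ∣ M' → ℓ ≠ 2 → K1ModularG (F M') A p)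
    (hthree : ∀ M' : ℕ, 3 ∣ M' → ¬ ℓ ∣ M' → ℓ ≠ 3 → K1ModularG (F M') A p)
    (hd2 : ¬ 2 ∣ M → ℓ = 3 → K1ModularG (F (M * 2)) A p → K1ModularG (F M) A p)
    (hd3 : ¬ 3 ∣ M → ℓ = 2 → K1ModularG (F (M * 3)) A p → K1ModularG (F M) A p) :
    K1ModularG (F M) A p := by
  have hℓ : ℓ.Prime := Fact.out
  rcases lt_or_ge 3 ℓ with h3 | h3
  · exact hbig h3
  have hℓ23 : ℓ = 2 ∨ ℓ = 3 := by
    have h2 := hℓ.two_le
    interval_cases ℓ
    · exact Or.inl rfl
    · exact Or.inr rfl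
  rcases hℓ23 with rfl | rfl
  · -- `ℓ = 2`: base the level-`3` Hauptmodul
    by_cases h3M : 3 ∣ M
    · exact hthree M h3M hℓM (by norm_num)
    · refine hd3 h3M rfl (hthree (M * 3) (Dvd.intro_left _ rfl) ?_ (by norm_num))
      intro hd
      rcases (Nat.Prime.dvd_mul Nat.prime_two).mp hd with hd | hd
      · exact hℓM hd
      · norm_num at hd
  · -- `ℓ = 3`: base the level-`2` Hauptmodul
    by_cases h2M : 2 ∣ M
    · exact htwo M h2M hℓM (by norm_num)
    · refine hd2 h2M rfl (htwo (M * 2) (Dvd.intro_left _ rfl) ?_ (by norm_num))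
      intro hd
      rcases (Nat.Prime.dvd_mul Nat.prime_three).mp hd with hd | hd
      · exact hℓM hd
      · norm_num at hd

end Fermat.Agent.S48.G1.K1.AuxDesc
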