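/-
PROGRAM DS (S48), part G1, AREA K, row K.7 (helper284): THE ROUTE A EXTENSION.

The area exit of K is proved at the levels `M'` divisible by `2` or `3` (route B: for such a level
every residue characteristic `q ∤ M'` is either `≥ 5`, base `j`, or `q ∈ {2, 3}` with the
Hauptmodul of the other level in `F1Q M'`).  This file extends it to EVERY level `M ≥ 2`:

* `gq_mem_F1_mul`, `F1Q_mono_mul` : the function field of `Γ₁(M)` is contained in that of
  `Γ₁(M r)` (NOT formal: `g_b` of level `M` is not a generator of level `M r`; it is a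
  `Γ₁(M r)`-invariant function of moderate growth with rational expansion, hence in the field by
  `Invariant1.mem_F1_of_invariant`).
* `finrank_F1_mul` : `[F₁(M r) : F₁(M)] = r² - 1` over `ℚ̄` (`r` prime, `r ∤ M`, `3 ≤ M`).
* `auxDesc1`, `k1ModularG_of_routeB` : the number-field form (`K1Gen.K1ModularG`).
* `K1At`, `k1At_descent` : the norm descent over `ℚ̄` of the Kummer statement at one prime
  exponent, for `F₀ ≤ F₀'` with relative degree prime to the exponent.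
* `k1_1_A` : **the exit** `ES.K1_1 M` (unfolded) for every `M ≥ 2`, from the exit at the levels
  divisible by `2` or `3`.  For a prime `q ∤ M` and a prime exponent `p ≠ q` one descends from
  the level `2 M` (degree `3`) if `q ≠ 2` and `p ≠ 3`, and from the level `3 M` (degree `8`)
  otherwise.
-/
import Mathlib
import Fermat.Agent.S48.G1.K1.AuxDesc
import Fermat.Agent.S48.G1.K1.AuxIndex
import Fermat.Agent.S48.G1.F1.Invariant1
import Fermat.Agent.S48.G1.F1.GHol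
import Fermat.Agent.S48.G1.F1.GrowthG
import Fermat.Agent.S48.G1.ES.Gauss1
import Fermat.Agent.Lib.PlaceRes

set_option autoImplicit false

noncomputable section

open ModularCurve AlgebraicCurve IntermediateField HahnSeries CongruenceSubgroup
open scoped MatrixGroups
open Fermat.Agent.S30 Fermat.Agent.S48
open Fermat.Agent.S48.G1.F1 Fermat.Agent.S48.G1.K1Gen

namespace Fermat.Agent.S48.G1.K1.RouteA

local notation "Qb" => AlgebraicClosure ℚ

/-! ### The inclusion of the function fields -/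

/-- `Γ₁(M r) ≤ Γ₁(M)`. -/
theorem gamma1_mul_le (M r : ℕ) : Gamma1 (M * r) ≤ Gamma1 M := by
  intro γ hγ
  rw [Gamma1_mem] at hγ ⊢
  obtain ⟨h1, h2, h3⟩ := hγ
  have hd : M ∣ M * r := Dvd.intro r rfl
  have key : ∀ a : ℤ, ZMod.castHom hd (ZMod M) ((a : ZMod (M * r))) = (a : ZMod M) :=
    fun a => map_intCast _ a
  refine ⟨?_, ?_, ?_⟩
  · rw [← key, h1, map_one]
  · rw [← key, h2, map_one]
  · rw [← key, h3, map_zero]

/-- **(in1)** The generators `g_b` of level `M` lie in the function field of level `M r`. -/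
theorem gq_mem_F1_mul (M r : ℕ) (hM : 2 ≤ M) (hr : r ≠ 0) (b : (ZMod M)ˣ) :
    coeffEmb Qb (gq M (b : ZMod M)) ∈ F1 (M * r) := by
  have hMr : 2 ≤ M * r := le_trans hM (Nat.le_mul_of_pos_right M (Nat.pos_of_ne_zero hr))
  exact Invariant1.mem_F1_of_invariant Fermat.Agent.S24.Theta.iotaBar (M := M * r) hMr _
    (GHol.gHol M (b : ZMod M)) (GHol.hasQ_gq_unit Fermat.Agent.S24.Theta.iotaBar hM b)
    (fun γ hγ => GHol.compSL_gHol_Gamma1 _ (gamma1_mul_le M r hγ))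
    (GrowthG.gHol_mem_cuspMod M _)

/-- **Level monotonicity**: `F1Q M ≤ F1Q (M r)` (`2 ≤ M`, `r ≠ 0`). -/
theorem F1Q_mono_mul (M r : ℕ) (hM : 2 ≤ M) (hr : r ≠ 0) : F1Q M ≤ F1Q (M * r) :=
  AuxDesc.incl_of_mem M r (gq_mem_F1_mul M r hM hr)

/-- The same over `ℚ̄`. -/
theorem F1_mono_mul (M r : ℕ) (hM : 2 ≤ M) (hr : r ≠ 0) : F1 M ≤ F1 (M * r) :=
  AuxDesc.lbc_mono Qb (F1Q_mono_mul M r hM hr)

/-! ### The relative degree -/

/-- **The relative degree** `[F₁(M r) : F₁(M)] = r² - 1` over `ℚ̄`, for a prime `r ∤ M`,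
`3 ≤ M`. -/
theorem finrank_F1_mul (M r : ℕ) (hM : 3 ≤ M) (hr : r.Prime) (hrM : ¬ r ∣ M)
    (hle : F1 M ≤ F1 (M * r)) :
    letI := (IntermediateField.inclusion hle).toRingHom.toAlgebra
    Module.finrank (F1 M) (F1 (M * r)) = r ^ 2 - 1 := by
  have hM2 : 2 ≤ M := by omega
  have hMr2 : 2 ≤ M * r :=
    le_trans hM2 (Nat.le_mul_of_pos_right M hr.pos)
  have h1 := Fermat.Agent.S18.LevelDescent.finrank_adjoin_simple_mul (F1 M) (F1 (M * r)) hle
    (FieldFin.jF1 M)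
  have hx : IntermediateField.inclusion hle (FieldFin.jF1 M) = FieldFin.jF1 (M * r) :=
    Subtype.ext rfl
  rw [hx, Degree1.finrank_F1 hMr2 _ (FieldFin.coe_jF1 _),
    Degree1.finrank_F1 hM2 _ (FieldFin.coe_jF1 _),
    AuxIndex.card_quotient_Gamma1pm_mul_prime M r hM hr hrM] at h1
  exact (Nat.eq_of_mul_eq_mul_left
    (Nat.pos_of_ne_zero (AuxIndex.card_quotient_Gamma1pm_ne_zero M hM)) h1).symm

/-! ### The number-field form -/

/-- **(K.7)** Descent from the auxiliary level `M r` to the level `M` for `K1ModularG`,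
unconditional: `r` prime, `r ∤ M`, `3 ≤ M`, exponent prime to `r² - 1`. -/
theorem auxDesc1 (M r : ℕ) (hM : 3 ≤ M) (hr : r.Prime) (hrM : ¬ r ∣ M)
    (A : ValuationSubring Qb) (p : ℕ) (hp1 : p ≠ 1) (hpd : Nat.Coprime p (r ^ 2 - 1))
    (h : K1ModularG (F1Q (M * r)) A p) : K1ModularG (F1Q M) A p := by
  have hM2 : 2 ≤ M := by omega
  have hMr2 : 2 ≤ M * r :=
    le_trans hM2 (Nat.le_mul_of_pos_right M hr.pos)
  haveI : Module.Finite Qb⟮FieldFin.jF1 M⟯ (F1 M) :=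
    Degree1.finite_F1 hM2 _ (FieldFin.coe_jF1 M)
  haveI : Module.Finite Qb⟮FieldFin.jF1 (M * r)⟯ (F1 (M * r)) :=
    Degree1.finite_F1 hMr2 _ (FieldFin.coe_jF1 (M * r))
  refine AuxDesc.auxDesc_of_mem M r (gq_mem_F1_mul M r hM2 hr.ne_zero)
    (Nat.card (SL(2, ℤ) ⧸ Gamma1pm M)) (r ^ 2 - 1)
    (AuxIndex.card_quotient_Gamma1pm_ne_zero M hM)
    (Degree1.finrank_F1 hM2 _ (FieldFin.coe_jF1 M)) ?_ A p hp1 hpd h
  rw [Degree1.finrank_F1 hMr2 _ (FieldFin.coe_jF1 (M * r))]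
  exact AuxIndex.card_quotient_Gamma1pm_mul_prime M r hM hr hrM

/-- **Route A, number-field form**: `K1ModularG (F1Q M) A p` at every level `M ≥ 2` (`A` over
`ℓ ∤ M`, `p ≠ ℓ` prime) from the same statement at the levels divisible by `2` or `3`. -/
theorem k1ModularG_of_routeB (M : ℕ) (hM : 2 ≤ M) {ℓ : ℕ} [Fact ℓ.Prime] (hℓM : ¬ ℓ ∣ M)
    (A : ValuationSubring Qb) (p : ℕ) (hp : p.Prime) (hpℓ : p ≠ ℓ)
    (hB : ∀ M' : ℕ, 2 ≤ M' → (2 ∣ M' ∨ 3 ∣ M') → ¬ ℓ ∣ M' → K1ModularG (F1Q M') A p) :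
    K1ModularG (F1Q M) A p := by
  have hℓ : ℓ.Prime := Fact.out
  by_cases h2 : 2 ∣ M
  · exact hB M hM (Or.inl h2) hℓM
  by_cases h3 : 3 ∣ M
  · exact hB M hM (Or.inr h3) hℓM
  have hM3 : 3 ≤ M := by omega
  by_cases hc : ℓ ≠ 2 ∧ p ≠ 3
  · refine auxDesc1 M 2 hM3 Nat.prime_two h2 A p hp.ne_one
      (AuxIndex.coprime_sq_sub_one_two hp hc.2)
      (hB (M * 2) (by omega) (Or.inl (Dvd.intro_left _ rfl)) ?_)
    intro hd
    rcases (Nat.Prime.dvd_mul hℓ).mp hd with hd | hd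
    · exact hℓM hd
    · exact hc.1 ((Nat.prime_dvd_prime_iff_eq hℓ Nat.prime_two).mp hd)
  · have hℓ3 : ℓ ≠ 3 := by
      rintro rfl
      exact hc ⟨by norm_num, hpℓ⟩
    have hp2 : p ≠ 2 := by
      rintro rfl
      exact hc ⟨fun h => hpℓ h.symm, by norm_num⟩
    refine auxDesc1 M 3 hM3 Nat.prime_three h3 A p hp.ne_one
      (AuxIndex.coprime_sq_sub_one_three hp hp2)
      (hB (M * 3) (by omega) (Or.inr (Dvd.intro_left _ rfl)) ?_)
    intro hd
    rcases (Nat.Prime.dvd_mul hℓ).mp hd with hd | hd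
    · exact hℓM hd
    · exact hℓ3 ((Nat.prime_dvd_prime_iff_eq hℓ Nat.prime_three).mp hd)

/-! ### The descent over `ℚ̄` -/

/-- The Kummer statement `(K1)` at ONE exponent `m` for the field `F₀ · ℚ̄` (the body of
`ExitD.K1Ord` / `K1Gen.K1pOrd`). -/
def K1At (F₀ : IntermediateField ℚ (LaurentSeries ℚ)) (A : ValuationSubring Qb) (m : ℕ) : Prop :=
  ∀ (U W : LaurentSeries A)
    (hU : Congr.incl A U ∈ laurentBaseChange Qb F₀)
    (hW : Congr.incl A W ∈ laurentBaseChange Qb F₀),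
    Congr.red A U = Congr.red A W → Congr.red A U ≠ 0 →
    (∀ P : Place Qb (laurentBaseChange Qb F₀),
      (m : ℤ) ∣ P.ord (⟨_, hU⟩ : laurentBaseChange Qb F₀) -
        P.ord (⟨_, hW⟩ : laurentBaseChange Qb F₀)) →
    ∃ H : laurentBaseChange Qb F₀, Congr.incl A U = (H : LaurentSeries Qb) ^ m * Congr.incl A W

theorem k1Ord_iff_k1At (F₀ : IntermediateField ℚ (LaurentSeries ℚ)) (ℓ : ℕ)
    (A : ValuationSubring Qb) :
    ExitD.K1Ord F₀ ℓ A ↔ ∀ m : ℕ, ¬ ℓ ∣ m → K1At F₀ A m := Iff.rfl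

theorem k1pOrd_iff_k1At (F₀ : IntermediateField ℚ (LaurentSeries ℚ)) (ℓ : ℕ)
    (A : ValuationSubring Qb) :
    K1pOrd F₀ ℓ A ↔ ∀ p : ℕ, p.Prime → p ≠ ℓ → K1At F₀ A p := Iff.rfl

/-- **Norm descent over `ℚ̄`** of `(K1)` at a prime exponent `p`: `F₀ ≤ F₀'` with
`[F₀' · ℚ̄ : F₀ · ℚ̄]` prime to `p`. -/
theorem k1At_descent (F₀ F₀' : IntermediateField ℚ (LaurentSeries ℚ)) (hle : F₀ ≤ F₀')
    (A : ValuationSubring Qb) (p : ℕ) (hp : p.Prime)
    (hpd : letI := (IntermediateField.inclusion (AuxDesc.lbc_mono Qb hle)).toRingHom.toAlgebra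
      Nat.Coprime p (Module.finrank (laurentBaseChange Qb F₀) (laurentBaseChange Qb F₀')))
    (h : K1At F₀' A p) : K1At F₀ A p := by
  have hLL' : laurentBaseChange Qb F₀ ≤ laurentBaseChange Qb F₀' := AuxDesc.lbc_mono Qb hle
  letI : Algebra (laurentBaseChange Qb F₀) (laurentBaseChange Qb F₀') :=
    (IntermediateField.inclusion hLL').toRingHom.toAlgebra
  haveI : IsScalarTower Qb (laurentBaseChange Qb F₀) (laurentBaseChange Qb F₀') :=
    IsScalarTower.of_algebraMap_eq fun x => rfl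
  have hd0 : Module.finrank (laurentBaseChange Qb F₀) (laurentBaseChange Qb F₀') ≠ 0 := by
    intro h0
    rw [h0, Nat.coprime_zero_right] at hpd
    exact hp.ne_one hpd
  haveI : Module.Finite (laurentBaseChange Qb F₀) (laurentBaseChange Qb F₀') :=
    Module.finite_of_finrank_pos (Nat.pos_of_ne_zero hd0)
  haveI : Algebra.IsAlgebraic (laurentBaseChange Qb F₀) (laurentBaseChange Qb F₀') :=
    Algebra.IsAlgebraic.of_finite _ _
  intro U W hU hW hred hne hdiv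
  obtain ⟨H, hH⟩ := h U W (hLL' hU) (hLL' hW) hred hne (by
    intro P'
    obtain ⟨P, e, -, he⟩ := Fermat.Agent.Lib.PlaceRes.exists_place_below (K := Qb)
      (L := laurentBaseChange Qb F₀) (M := laurentBaseChange Qb F₀') P'
    have h1 : P'.ord (⟨_, hLL' hU⟩ : laurentBaseChange Qb F₀')
        = e * P.ord (⟨_, hU⟩ : laurentBaseChange Qb F₀) := he ⟨_, hU⟩
    have h2 : P'.ord (⟨_, hLL' hW⟩ : laurentBaseChange Qb F₀')
        = e * P.ord (⟨_, hW⟩ : laurentBaseChange Qb F₀) := he ⟨_, hW⟩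
    rw [h1, h2, ← mul_sub]
    exact Dvd.dvd.mul_left (hdiv P) _)
  have hW0 : (⟨_, hW⟩ : laurentBaseChange Qb F₀) ≠ 0 :=
    mk_ne_zero_of_red_ne_zero A hW (hred ▸ hne)
  have key : algebraMap (laurentBaseChange Qb F₀) (laurentBaseChange Qb F₀')
      ((⟨_, hU⟩ : laurentBaseChange Qb F₀) / (⟨_, hW⟩ : laurentBaseChange Qb F₀))
        = algebraMap Qb (laurentBaseChange Qb F₀') 1 * H ^ p := by
    rw [map_one, one_mul, map_div₀, div_eq_iff ((map_ne_zero _).mpr hW0)]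
    exact Subtype.ext hH
  obtain ⟨c', H', hc'⟩ := Fermat.Agent.S18.LevelDescent.exists_eq_mul_pow_of_coprime p hpd
    ((⟨_, hU⟩ : laurentBaseChange Qb F₀) / (⟨_, hW⟩ : laurentBaseChange Qb F₀)) (1 : Qb) H key
  obtain ⟨d, hd⟩ := IsAlgClosed.exists_pow_nat_eq c' hp.pos
  refine ⟨algebraMap Qb (laurentBaseChange Qb F₀) d * H', ?_⟩
  have h3 : (⟨_, hU⟩ : laurentBaseChange Qb F₀)
      = (algebraMap Qb (laurentBaseChange Qb F₀) d * H') ^ p
        * (⟨_, hW⟩ : laurentBaseChange Qb F₀) := by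
    rw [mul_pow, ← map_pow, hd, ← hc', div_mul_cancel₀ _ hW0]
  exact congrArg Subtype.val h3

/-! ### The exit -/

/-- **ROUTE A EXTENSION.**  The area exit `ES.K1_1 M` (stated unfolded: `ExitD.K1Ord (F1Q M) q A`
for every `A` over a prime `q ∤ M`) at EVERY level `M ≥ 2`, from the exit at the levels
divisible by `2` or `3`. -/
theorem k1_1_A
    (hB : ∀ M' : ℕ, 2 ≤ M' → (2 ∣ M' ∨ 3 ∣ M') → ∀ q : ℕ, q.Prime → ¬ q ∣ M' →
      ∀ A : ValuationSubring Qb, A.LiesOverPrime q → ExitD.K1Ord (F1Q M') q A)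
    (M : ℕ) (hM : 2 ≤ M) :
    ∀ q : ℕ, q.Prime → ¬ q ∣ M → ∀ A : ValuationSubring Qb, A.LiesOverPrime q →
      ExitD.K1Ord (F1Q M) q A := by
  by_cases h2 : 2 ∣ M
  · exact hB M hM (Or.inl h2)
  by_cases h3 : 3 ∣ M
  · exact hB M hM (Or.inr h3)
  have hM3 : 3 ≤ M := by omega
  intro q hq hqM A hA
  haveI : Fact q.Prime := ⟨hq⟩
  refine k1Ord_of_k1pOrd (Fermat.Agent.S48.G1.ES.Gauss1.hasGaussNorm1 M q A hA) ?_
  rw [k1pOrd_iff_k1At]
  intro p hp hpq
  have hqp : ¬ q ∣ p := fun h => hpq ((Nat.prime_dvd_prime_iff_eq hq hp).mp h).symm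
  by_cases hc : q ≠ 2 ∧ p ≠ 3
  · have hqM2 : ¬ q ∣ M * 2 := by
      intro hd
      rcases (Nat.Prime.dvd_mul hq).mp hd with hd | hd
      · exact hqM hd
      · exact hc.1 ((Nat.prime_dvd_prime_iff_eq hq Nat.prime_two).mp hd)
    have hK : K1At (F1Q (M * 2)) A p :=
      (k1Ord_iff_k1At _ _ _).mp
        (hB (M * 2) (by omega) (Or.inl (Dvd.intro_left _ rfl)) q hq hqM2 A hA) p hqp
    have hincl : F1Q M ≤ F1Q (M * 2) := F1Q_mono_mul M 2 hM (by norm_num)
    refine k1At_descent (F1Q M) (F1Q (M * 2)) hincl A p hp ?_ hK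
    have hfr := finrank_F1_mul M 2 hM3 Nat.prime_two h2 (AuxDesc.lbc_mono Qb hincl)
    rw [hfr]
    exact AuxIndex.coprime_sq_sub_one_two hp hc.2
  · have hq3 : q ≠ 3 := by
      rintro rfl
      exact hc ⟨by norm_num, hpq⟩
    have hp2 : p ≠ 2 := by
      rintro rfl
      exact hc ⟨fun h => hpq h.symm, by norm_num⟩
    have hqM3 : ¬ q ∣ M * 3 := by
      intro hd
      rcases (Nat.Prime.dvd_mul hq).mp hd with hd | hd
      · exact hqM hd
      · exact hq3 ((Nat.prime_dvd_prime_iff_eq hq Nat.prime_three).mp hd)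
    have hK : K1At (F1Q (M * 3)) A p :=
      (k1Ord_iff_k1At _ _ _).mp
        (hB (M * 3) (by omega) (Or.inr (Dvd.intro_left _ rfl)) q hq hqM3 A hA) p hqp
    have hincl : F1Q M ≤ F1Q (M * 3) := F1Q_mono_mul M 3 hM (by norm_num)
    refine k1At_descent (F1Q M) (F1Q (M * 3)) hincl A p hp ?_ hK
    have hfr := finrank_F1_mul M 3 hM3 Nat.prime_three h3 (AuxDesc.lbc_mono Qb hincl)
    rw [hfr]
    exact AuxIndex.coprime_sq_sub_one_three hp hp2

end Fermat.Agent.S48.G1.K1.RouteA
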