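import Mathlib
import Fermat.Agent.S48.G1.K1.Final1
import Fermat.Agent.S48.G1.K1.HolEmb1
import Fermat.Agent.S48.G1.K1.RouteA

/-!
# PROGRAM DS (S48) / G1, area K: the exit `K1_1 M` from the single remaining input `GaussJ1`

Composition of the landed pieces:

* `Final1.k1_1` (Route B exit from `Bricks.FIn.HolEmb M` and `Final1.GaussJ1 M`);
* `HolEmb1.holEmb1` (the coset realisations, unconditional for `2 ≤ M`);
* `RouteA.k1_1_A` (extension from the levels divisible by `2` or `3` to every level `M ≥ 2`).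

Exits (the conclusion is literally the body of `Producer1.Bricks1.K1_1 M` / `ES.K1_1 M`):

* `k1_1_B` : `2 ≤ M`, `2 ∣ M ∨ 3 ∣ M`, from `Final1.GaussJ1 M`;
* `k1_1_A` : every `M ≥ 2`, from `Final1.GaussJ1` at the levels divisible by `2` or `3`.
-/

set_option autoImplicit false

open ModularCurve AlgebraicCurve

noncomputable section

namespace Fermat.Agent.S48.G1.K1.Main

open Fermat.Agent.S18.K1Defs Fermat.Agent.S30 Fermat.Agent.S48.G1.F1

local notation "Qb" => AlgebraicClosure ℚ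

/-- **Area K exit, Route B**: for `2 ≤ M` with `2 ∣ M ∨ 3 ∣ M`, the Kummer statement `(K1)`
for `F1 M` at every prime `q ∤ M`, from the Gauss input `Final1.GaussJ1 M` alone. -/
theorem k1_1_B (M : ℕ) (hM : 2 ≤ M) (h23 : 2 ∣ M ∨ 3 ∣ M) (hg : Final1.GaussJ1 M) :
    ∀ q : ℕ, q.Prime → ¬ q ∣ M → ∀ A : ValuationSubring Qb, A.LiesOverPrime q →
      Fermat.Agent.S48.ExitD.K1Ord (F1Q M) q A := by
  haveI : NeZero M := ⟨by omega⟩
  exact Final1.k1_1 M h23 (HolEmb1.holEmb1 M hM) hg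

/-- **Area K exit, Route A**: for EVERY level `M ≥ 2`, the Kummer statement `(K1)` for `F1 M`
at every prime `q ∤ M`, from the Gauss input `Final1.GaussJ1` at the levels divisible by `2` or
`3`. -/
theorem k1_1_A (hg : ∀ M : ℕ, 2 ≤ M → (2 ∣ M ∨ 3 ∣ M) → Final1.GaussJ1 M) (M : ℕ) (hM : 2 ≤ M) :
    ∀ q : ℕ, q.Prime → ¬ q ∣ M → ∀ A : ValuationSubring Qb, A.LiesOverPrime q →
      Fermat.Agent.S48.ExitD.K1Ord (F1Q M) q A :=
  RouteA.k1_1_A (fun M' hM' h23 => k1_1_B M' hM' h23 (hg M' hM' h23)) M hM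

end Fermat.Agent.S48.G1.K1.Main
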