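/-
PROGRAM DS (S48), part G1, AREA K, row K.7 (level descent `F1(rM) → F1(M)`): the inclusion of the
`E`-level function fields (helper48).

For `Γ₀` the inclusion `LE N E ≤ LE N' E` (`N ∣ N'`) is by generators.  For `Γ₁` it is not: the
generators `gq M b` of `F1Q M` are not generators of `F1Q (M * r)`.  What the dictionary gives is the
`ℚ̄`-level membership `coeffEmb ℚ̄ (gq M b) ∈ F1 (M * r)` (an invariant function lies in the field).
This file turns the `ℚ̄`-level membership of finitely many generators into the inclusion of the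
`E`-level fields for all sufficiently large number fields `E` — the only form `K1Modular`-type
statements need.

* `F1Q_le_mul`               : THE EXIT (K.7 input (in1)): `F1Q M ≤ F1Q (M * r)` over `ℚ`, from the
                               `ℚ̄`-level membership of the `gq M b` (linear disjointness
                               `S30.KummerDescent.mem_adjoin_of_coeffMap_mem`).
* `mem_of_coeffEmb_mem`, `adjoin_le_of_coeffEmb_mem`, `laurentBaseChange_mono`,
  `F1Q_baseChange_le_all`   : the generic steps and the `E`-level corollary for every `E`.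
* `baseChange_adjoin_le`     : generators in ⟹ base change of the adjoin is in (any field `E`).
* `exists_baseChange_le`     : `ℚ̄`-level membership of a finite generating set ⟹ inclusion over
                               every `E ≥ E₀`, `E₀` a number field.
* `exists_finset_baseChange_le` : the same with a finite set of algebraic numbers.
* `F1Q_baseChange_le`        : the instance `F1Q M`, `F1Q (M * r)`.
-/
import Mathlib
import Fermat.Prelude.Def_ModularCurve_LaurentCoeff
import Fermat.Agent.S30.GaussDescent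
import Fermat.Agent.S30.KummerDescent
import Fermat.Agent.S48.G1.F1.Defs

set_option autoImplicit false

noncomputable section

open ModularCurve

namespace Fermat.Agent.S48.G1.K1.BaseChangeLe

open Fermat.Agent.S30.GaussDescent

local notation "Qb" => AlgebraicClosure ℚ

/-- The constants of `ℚ((q))` go to constants under extension of coefficients. -/
theorem coeffEmb_algebraMap (E : Type*) [Field E] [Algebra ℚ E] (c : ℚ) :
    coeffEmb E (algebraMap ℚ (LaurentSeries ℚ) c)
      = algebraMap E (LaurentSeries E) (algebraMap ℚ E c) := by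
  rw [algebraMap_laurentSeries_eq_single, algebraMap_laurentSeries_eq_single, coeffEmb,
    coeffMap_single]

/-- If the images of the generators lie in `laurentBaseChange E F'`, so does the base change of
the field they generate. -/
theorem baseChange_adjoin_le (E : Type*) [Field E] [Algebra ℚ E] (G : Set (LaurentSeries ℚ))
    (F' : IntermediateField ℚ (LaurentSeries ℚ))
    (h : ∀ x ∈ G, coeffEmb E x ∈ laurentBaseChange E F') :
    laurentBaseChange E (IntermediateField.adjoin ℚ G) ≤ laurentBaseChange E F' := by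
  rw [laurentBaseChange, IntermediateField.adjoin_le_iff]
  rintro _ ⟨x, hx, rfl⟩
  induction hx using IntermediateField.adjoin_induction with
  | mem x hx => exact h x hx
  | algebraMap c =>
      rw [coeffEmb_algebraMap]
      exact (laurentBaseChange E F').algebraMap_mem _
  | add x y _ _ hx hy => rw [map_add]; exact add_mem hx hy
  | inv x _ hx => rw [map_inv₀]; exact inv_mem hx
  | mul x y _ _ hx hy => rw [map_mul]; exact mul_mem hx hy

/-- One generator: `ℚ̄`-level membership descends to every sufficiently large number field. -/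
theorem exists_coeffEmb_mem (F' : IntermediateField ℚ (LaurentSeries ℚ)) (x : LaurentSeries ℚ)
    (h : coeffEmb Qb x ∈ laurentBaseChange Qb F') :
    ∃ E₀ : IntermediateField ℚ Qb, FiniteDimensional ℚ E₀ ∧
      ∀ E : IntermediateField ℚ Qb, E₀ ≤ E → coeffEmb E x ∈ laurentBaseChange E F' := by
  obtain ⟨E₀, hE₀, hdesc⟩ := exists_descent F' h
  refine ⟨E₀, hE₀, fun E hE => ?_⟩
  obtain ⟨y, hy, hyx⟩ := hdesc E hE
  have : y = coeffEmb E x := up_injective E (by rw [hyx, up_coeffEmb])
  rw [← this]
  exact hy

/-- Finitely many generators: a common number field. -/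
theorem exists_forall_coeffEmb_mem (F' : IntermediateField ℚ (LaurentSeries ℚ))
    (G : Set (LaurentSeries ℚ)) (hG : G.Finite)
    (h : ∀ x ∈ G, coeffEmb Qb x ∈ laurentBaseChange Qb F') :
    ∃ E₀ : IntermediateField ℚ Qb, FiniteDimensional ℚ E₀ ∧
      ∀ E : IntermediateField ℚ Qb, E₀ ≤ E → ∀ x ∈ G, coeffEmb E x ∈ laurentBaseChange E F' := by
  induction G, hG using Set.Finite.induction_on with
  | empty => exact ⟨⊥, inferInstance, fun E _ x hx => absurd hx (Set.notMem_empty x)⟩
  | @insert a s _ _ ih =>
      obtain ⟨E₁, hE₁, h₁⟩ := ih fun x hx => h x (Set.mem_insert_of_mem a hx)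
      obtain ⟨E₂, hE₂, h₂⟩ := exists_coeffEmb_mem F' a (h a (Set.mem_insert a s))
      refine ⟨E₁ ⊔ E₂, IntermediateField.finiteDimensional_sup E₁ E₂, fun E hE x hx => ?_⟩
      rcases hx with rfl | hx
      · exact h₂ E (le_trans le_sup_right hE)
      · exact h₁ E (le_trans le_sup_left hE) x hx

/-- **The `E`-level inclusion from `ℚ̄`-level membership of a finite generating set.** -/
theorem exists_baseChange_le (G : Set (LaurentSeries ℚ)) (hG : G.Finite)
    (F' : IntermediateField ℚ (LaurentSeries ℚ))
    (h : ∀ x ∈ G, coeffEmb Qb x ∈ laurentBaseChange Qb F') :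
    ∃ E₀ : IntermediateField ℚ Qb, FiniteDimensional ℚ E₀ ∧
      ∀ E : IntermediateField ℚ Qb, E₀ ≤ E →
        laurentBaseChange E (IntermediateField.adjoin ℚ G) ≤ laurentBaseChange E F' := by
  obtain ⟨E₀, hE₀, hmem⟩ := exists_forall_coeffEmb_mem F' G hG h
  exact ⟨E₀, hE₀, fun E hE => baseChange_adjoin_le E G F' (hmem E hE)⟩

/-- A number field inside `ℚ̄` is generated by a finite set: `E₀ ≤ E` as soon as `E` contains
it. -/
theorem exists_finset_le (E₀ : IntermediateField ℚ Qb) [FiniteDimensional ℚ E₀] :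
    ∃ S₀ : Finset Qb, ∀ E : IntermediateField ℚ Qb, (∀ s ∈ S₀, s ∈ E) → E₀ ≤ E := by
  classical
  let b := Module.finBasis ℚ E₀
  refine ⟨Finset.univ.image fun i => ((b i : E₀) : Qb), fun E hE x hx => ?_⟩
  have h2 : x = ∑ i, b.repr ⟨x, hx⟩ i • ((b i : E₀) : Qb) := by
    calc x = ((∑ i, b.repr ⟨x, hx⟩ i • b i : E₀) : Qb) := by rw [b.sum_repr]
      _ = ∑ i, b.repr ⟨x, hx⟩ i • ((b i : E₀) : Qb) := by
        rw [IntermediateField.coe_sum]
        rfl
  rw [h2]
  refine sum_mem fun i _ => ?_
  rw [Algebra.smul_def]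
  exact E.mul_mem (E.algebraMap_mem _) (hE _ (Finset.mem_image_of_mem _ (Finset.mem_univ i)))

/-- **Finite-set form** (the shape of `K1Modular`-type statements). -/
theorem exists_finset_baseChange_le (G : Set (LaurentSeries ℚ)) (hG : G.Finite)
    (F' : IntermediateField ℚ (LaurentSeries ℚ))
    (h : ∀ x ∈ G, coeffEmb Qb x ∈ laurentBaseChange Qb F') :
    ∃ S₀ : Finset Qb, ∀ E : IntermediateField ℚ Qb, (∀ s ∈ S₀, s ∈ E) →
      laurentBaseChange E (IntermediateField.adjoin ℚ G) ≤ laurentBaseChange E F' := by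
  obtain ⟨E₀, hE₀, hle⟩ := exists_baseChange_le G hG F' h
  obtain ⟨S₀, hS₀⟩ := exists_finset_le E₀
  exact ⟨S₀, fun E hE => hle E (hS₀ E hE)⟩

/-! ### The instance `F1Q M`, `F1Q (M * r)` -/

open Fermat.Agent.S48.G1.F1

/-! ### The `ℚ`-level inclusion (exit of this file) -/

/-- Linear disjointness: a series over `ℚ` whose extension of coefficients lies in the base change
of `F'` lies in `F'`. -/
theorem mem_of_coeffEmb_mem {L : Type*} [Field L] [Algebra ℚ L]
    (F' : IntermediateField ℚ (LaurentSeries ℚ)) {x : LaurentSeries ℚ}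
    (h : coeffEmb L x ∈ laurentBaseChange L F') : x ∈ F' := by
  have h1 := Fermat.Agent.S30.KummerDescent.mem_adjoin_of_coeffMap_mem (Ω := L)
    (F' : Set (LaurentSeries ℚ)) (z := x) h
  rwa [IntermediateField.adjoin_self] at h1

/-- Generators whose extension of coefficients lies in the base change of `F'` generate a subfield
of `F'`. -/
theorem adjoin_le_of_coeffEmb_mem {L : Type*} [Field L] [Algebra ℚ L]
    (G : Set (LaurentSeries ℚ)) (F' : IntermediateField ℚ (LaurentSeries ℚ))
    (h : ∀ x ∈ G, coeffEmb L x ∈ laurentBaseChange L F') :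
    IntermediateField.adjoin ℚ G ≤ F' :=
  IntermediateField.adjoin_le_iff.mpr fun x hx => mem_of_coeffEmb_mem F' (h x hx)

/-- Base change is monotone. -/
theorem laurentBaseChange_mono (E : Type*) [Field E] [Algebra ℚ E]
    {F F' : IntermediateField ℚ (LaurentSeries ℚ)} (h : F ≤ F') :
    laurentBaseChange E F ≤ laurentBaseChange E F' :=
  IntermediateField.adjoin.mono E _ _ (Set.image_mono h)

/-- **Level monotonicity of the `Γ₁` function fields over `ℚ`** (K.7 input (in1)), from the
`ℚ̄`-level membership of the generators `gq M b` in `F1 (M * r)` (supplied by the dictionary: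
`gHol M b` is `Γ₁(M * r)`-invariant). -/
theorem F1Q_le_mul (M r : ℕ) [NeZero M]
    (hmem : ∀ b : (ZMod M)ˣ, coeffEmb Qb (gq M (b : ZMod M)) ∈ F1 (M * r)) :
    F1Q M ≤ F1Q (M * r) := by
  refine adjoin_le_of_coeffEmb_mem (L := Qb) (gens1Q M) (F1Q (M * r)) ?_
  rintro x (⟨d, hd0, hd, rfl⟩ | ⟨b, rfl⟩)
  · have := hd0
    exact coeffEmb_mem_laurentBaseChange Qb (jqd_mem_F1Q (M * r) (Dvd.dvd.mul_right hd r))
  · exact hmem b

/-- The `E`-level inclusion, for every coefficient field `E`. -/
theorem F1Q_baseChange_le_all (M r : ℕ) [NeZero M]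
    (hmem : ∀ b : (ZMod M)ˣ, coeffEmb Qb (gq M (b : ZMod M)) ∈ F1 (M * r))
    (E : Type*) [Field E] [Algebra ℚ E] :
    laurentBaseChange E (F1Q M) ≤ laurentBaseChange E (F1Q (M * r)) :=
  laurentBaseChange_mono E (F1Q_le_mul M r hmem)

/-- The converse direction of `hmem`: the inclusion gives the membership. -/
theorem coeffEmb_gq_mem_of_le (M r : ℕ) (hle : F1Q M ≤ F1Q (M * r)) (b : (ZMod M)ˣ) :
    coeffEmb Qb (gq M (b : ZMod M)) ∈ F1 (M * r) :=
  coeffEmb_mem_laurentBaseChange Qb (hle (gq_mem_F1Q M b))

/-! ### The `E`-level statements for large number fields (optional; superseded by the above) -/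

theorem divisorExpansions_finite (M : ℕ) [NeZero M] : (divisorExpansions M).Finite := by
  classical
  let g : ℕ → LaurentSeries ℚ := fun d =>
    if h : d = 0 then 0 else (haveI : NeZero d := ⟨h⟩; qExpand ℚ d jq)
  apply Set.Finite.subset ((M.divisors : Set ℕ).toFinite.image g)
  rintro x ⟨d, hd, hdM, rfl⟩
  refine ⟨d, ?_, ?_⟩
  · simpa using ⟨hdM, NeZero.ne M⟩
  · simp only [g]
    rw [dif_neg (NeZero.ne d)]

theorem eisExpansions_finite (M : ℕ) [NeZero M] : (eisExpansions M).Finite := by
  have : eisExpansions M ⊆ Set.range fun b : (ZMod M)ˣ => gq M (b : ZMod M) := by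
    rintro x ⟨b, rfl⟩
    exact ⟨b, rfl⟩
  exact (Set.finite_range _).subset this

theorem gens1Q_finite (M : ℕ) [NeZero M] : (gens1Q M).Finite :=
  (divisorExpansions_finite M).union (eisExpansions_finite M)

/-- **Level monotonicity of the `Γ₁` function fields over large number fields**, from the
`ℚ̄`-level membership of the generators `gq M b` in `F1 (M * r)` (supplied by the dictionary:
`gHol M b` is `Γ₁(M * r)`-invariant). -/
theorem F1Q_baseChange_le (M r : ℕ) [NeZero M] [NeZero r]
    (hmem : ∀ b : (ZMod M)ˣ, coeffEmb Qb (gq M (b : ZMod M)) ∈ F1 (M * r)) :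
    ∃ S₀ : Finset Qb, ∀ E : IntermediateField ℚ Qb, (∀ s ∈ S₀, s ∈ E) →
      laurentBaseChange E (F1Q M) ≤ laurentBaseChange E (F1Q (M * r)) := by
  refine exists_finset_baseChange_le (gens1Q M) (gens1Q_finite M) (F1Q (M * r)) ?_
  rintro x (⟨d, hd0, hd, rfl⟩ | ⟨b, rfl⟩)
  · have := hd0
    exact coeffEmb_mem_laurentBaseChange Qb (jqd_mem_F1Q (M * r) (Dvd.dvd.mul_right hd r))
  · exact hmem b

/-- The same with an explicit number field `E₀`. -/
theorem F1Q_baseChange_le' (M r : ℕ) [NeZero M] [NeZero r]
    (hmem : ∀ b : (ZMod M)ˣ, coeffEmb Qb (gq M (b : ZMod M)) ∈ F1 (M * r)) :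
    ∃ E₀ : IntermediateField ℚ Qb, FiniteDimensional ℚ E₀ ∧
      ∀ E : IntermediateField ℚ Qb, E₀ ≤ E →
        laurentBaseChange E (F1Q M) ≤ laurentBaseChange E (F1Q (M * r)) := by
  refine exists_baseChange_le (gens1Q M) (gens1Q_finite M) (F1Q (M * r)) ?_
  rintro x (⟨d, hd0, hd, rfl⟩ | ⟨b, rfl⟩)
  · have := hd0
    exact coeffEmb_mem_laurentBaseChange Qb (jqd_mem_F1Q (M * r) (Dvd.dvd.mul_right hd r))
  · exact hmem b

end Fermat.Agent.S48.G1.K1.BaseChangeLe
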