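/-
PROGRAM DS (S48), part G1, AREA K, row K.1 (B1) (helper63): THE COSET FAMILY OF REALISATIONS OF
`F1 M` OVER `ℚ̄`.

For `2 ≤ M`, an embedding `ι : ℚ̄ →+* ℂ` and a coset `x ∈ X1 M := SL(2, ℤ) ⧸ ±Γ₁(M)`,

  `cosetEmb1 ι M hM x : F1 M →+* Frac(HolH)`

is the extension to the fraction field `F1 M = Frac(A01 M)` of `a ↦ θ₁(a) ∘ g⁻¹` (`x = g·±Γ₁(M)`),
i.e. the instance of helper145's generic `DegreeG.cosetEmbG` at `A := A01 M`, `θ := theta1`,
`G := Gamma1pm M`.  Exit lemmas: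

* `cosetEmb1_coe`        : on `A01 M` it is `cosetHomG (Gamma1pm M) (theta1 ι M hM) x`;
* `cosetEmb1_algebraMap` : a constant `c : ℚ̄` goes to the constant function `ι c`;
* `cosetEmb1_j`          : any element with series `j(q)` goes to the modular invariant `jHol`;
* `cosetEmb1_injective`  : distinct cosets give distinct realisations;
* `cosetEmb1_embF`, `finite_embF`, `finrank_embF`, `finrank_embF_le` : the same facts in the
  binder shapes of `K1/HorizBC` (`Ω := ℚ̄`, `F₀ := F1Q M`, `I := X1 M`), for any `j₀ : F1Q M`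
  with series `jq`;
* `cosetEmb1_embF_j`, `finite_embF_j`, `finrank_eq_card`, `finrank_le_card` : the same at
  `j₀ := Bricks.jQ1 M`;
* `card_X1` : `Nat.card (X1 M) = (Gamma1pm M).index`.
-/
import Mathlib
import Fermat.Agent.S48.G1.F1.Degree1
import Fermat.Agent.S48.G1.K1.Bricks
import Fermat.Agent.S30.E2.Degree

set_option autoImplicit false
set_option linter.dupNamespace false
set_option linter.style.haveILetI false

noncomputable section

open UpperHalfPlane ModularCurve IntermediateField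
open scoped MatrixGroups

namespace Fermat.Agent.S48.G1.K1.DegreeE

open Fermat.Agent.S24.HolH Fermat.Agent.S24.JHol Fermat.Agent.S24.JFun Fermat.Agent.S24.Theta
open Fermat.Agent.S48.G1.F1 Fermat.Agent.S48.G1.F1.Theta1 Fermat.Agent.S48.G1.F1.Degree1
open Fermat.Agent.S48.G1.CosetG
open Fermat.Agent.S30.E2.Degree.Abs

/-- The index set of the family: the cosets of `±Γ₁(M)` in `SL(2, ℤ)`. -/
abbrev X1 (M : ℕ) : Type := SL(2, ℤ) ⧸ Gamma1pm M

theorem card_X1 (M : ℕ) : Nat.card (X1 M) = (Gamma1pm M).index := rfl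

/-! ### The family -/

/-- **The coset family of realisations of `F1 M`** in `Frac(HolH)`. -/
def cosetEmb1 (ι : Qb →+* ℂ) (M : ℕ) (hM : 2 ≤ M) (x : X1 M) : F1 M →+* FractionRing HolH :=
  Fermat.Agent.S48.G1.DegreeG.cosetEmbG ι (A01 M) (theta1 ι M hM) (Gamma1pm M)
    (fun a => hasQ_theta1 hM a) x

theorem cosetEmb1_coe (ι : Qb →+* ℂ) (M : ℕ) (hM : 2 ≤ M) (x : X1 M) (a : A01 M) :
    cosetEmb1 ι M hM x (a : F1 M)
      = algebraMap HolH (FractionRing HolH) (cosetHomG (Gamma1pm M) (theta1 ι M hM) x a) :=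
  Fermat.Agent.S48.G1.DegreeG.cosetEmbG_coe ι (A01 M) (theta1 ι M hM) (Gamma1pm M)
    (fun a => hasQ_theta1 hM a) x a

/-- Constants go to constant functions. -/
theorem cosetEmb1_algebraMap (ι : Qb →+* ℂ) (M : ℕ) (hM : 2 ≤ M) (x : X1 M) (c : Qb) :
    cosetEmb1 ι M hM x (algebraMap Qb (F1 M) c)
      = algebraMap HolH (FractionRing HolH) (algebraMap ℂ HolH (ι c)) := by
  have h : algebraMap Qb (F1 M) c = ((algebraMap Qb (A01 M) c : A01 M) : F1 M) := rfl
  rw [h, cosetEmb1_coe,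
    cosetHomG_of_invariant (theta1 ι M hM)
      (fun g => Fermat.Agent.S48.G1.DegreeG.compSL_theta_algebraMap ι (A01 M) (theta1 ι M hM)
        (fun a => hasQ_theta1 hM a) g c) x,
    theta1_algebraMap]

/-- `theta1` sends `j` to the modular invariant. -/
theorem theta1_jA01 (ι : Qb →+* ℂ) (M : ℕ) (hM : 2 ≤ M) : theta1 ι M hM (jA01 M) = jHol := by
  apply Subtype.ext
  funext τ
  exact Fermat.Agent.S48.G1.DegreeG.theta_J_apply ι (A01 M) (theta1 ι M hM) (jA01 M)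
    (coe_jA01 M) (fun a => hasQ_theta1 hM a) τ

/-- The element `jF1 M` goes to the modular invariant. -/
theorem cosetEmb1_jF1 (ι : Qb →+* ℂ) (M : ℕ) (hM : 2 ≤ M) (x : X1 M) :
    cosetEmb1 ι M hM x (jF1 M) = algebraMap HolH (FractionRing HolH) jHol := by
  rw [jF1_eq, cosetEmb1_coe,
    cosetHomG_of_invariant (theta1 ι M hM)
      (fun g => Fermat.Agent.S48.G1.DegreeG.compSL_theta_J ι (A01 M) (theta1 ι M hM) (jA01 M)
        (coe_jA01 M) (fun a => hasQ_theta1 hM a) g) x,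
    theta1_jA01]

/-- Any element of `F1 M` with series `j(q)` goes to the modular invariant. -/
theorem cosetEmb1_j (ι : Qb →+* ℂ) (M : ℕ) (hM : 2 ≤ M) (x : X1 M) (j : F1 M)
    (hj : ((j : F1 M) : LaurentSeries Qb) = coeffEmb Qb jq) :
    cosetEmb1 ι M hM x j = algebraMap HolH (FractionRing HolH) jHol := by
  rw [eq_jF1 hj]
  exact cosetEmb1_jF1 ι M hM x

/-- Distinct cosets give distinct realisations. -/
theorem cosetEmb1_injective (ι : Qb →+* ℂ) (M : ℕ) (hM : 2 ≤ M) :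
    Function.Injective (cosetEmb1 ι M hM) :=
  Fermat.Agent.S48.G1.DegreeG.cosetEmbG_injective ι (A01 M) (theta1 ι M hM) (Gamma1pm M)
    (fun a => hasQ_theta1 hM a)
    (fun _ hγ a => compSL_theta1_of_mem_Gamma1pm ι hM hγ a)
    (mem_Gamma1pm_of_compSL_theta1 ι hM)

/-- The realisation at the trivial coset is `theta1` on `A01 M`. -/
theorem cosetEmb1_one_coe (ι : Qb →+* ℂ) (M : ℕ) (hM : 2 ≤ M) (a : A01 M) :
    cosetEmb1 ι M hM ((1 : SL(2, ℤ)) : X1 M) (a : F1 M)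
      = algebraMap HolH (FractionRing HolH) (theta1 ι M hM a) := by
  rw [cosetEmb1_coe,
    cosetHomG_one (theta1 ι M hM) (fun _ hγ a => compSL_theta1_of_mem_Gamma1pm ι hM hγ a)]

/-- The realisation at the coset of `g` is `a ↦ θ₁(a) ∘ g⁻¹` on `A01 M`. -/
theorem cosetEmb1_mk_coe (ι : Qb →+* ℂ) (M : ℕ) (hM : 2 ≤ M) (g : SL(2, ℤ)) (a : A01 M) :
    cosetEmb1 ι M hM ((g : SL(2, ℤ)) : X1 M) (a : F1 M)
      = algebraMap HolH (FractionRing HolH) (compSL g⁻¹ (theta1 ι M hM a)) := by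
  rw [cosetEmb1_coe,
    cosetHomG_mk (theta1 ι M hM) (fun _ hγ a => compSL_theta1_of_mem_Gamma1pm ι hM hγ a)]

/-! ### The `HorizBC` binder shapes (`Ω := ℚ̄`, `F₀ := F1Q M`, `I := X1 M`) -/

section Shapes

variable (ι : Qb →+* ℂ) (M : ℕ) (hM : 2 ≤ M)

/-- `hρΩ` of `HorizBC`. -/
theorem cosetEmb1_const (x : X1 M) (c : Qb) :
    cosetEmb1 ι M hM x (algebraMap Qb ↥(laurentBaseChange Qb (F1Q M)) c)
      = algebraMap HolH (FractionRing HolH) (algebraMap ℂ HolH (ι c)) :=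
  cosetEmb1_algebraMap ι M hM x c

/-- `hρj` of `HorizBC`, for any `j₀ : F1Q M` with series `jq`. -/
theorem cosetEmb1_embF (j₀ : F1Q M) (hj₀ : (j₀ : LaurentSeries ℚ) = jq) (x : X1 M) :
    cosetEmb1 ι M hM x (embF (F1Q M) Qb j₀) = algebraMap HolH (FractionRing HolH) jHol :=
  cosetEmb1_j ι M hM x (embF (F1Q M) Qb j₀) (by rw [coe_embF, hj₀])

include hM in
/-- The `Module.Finite` instance argument of `HorizBC`. -/
theorem finite_embF (j₀ : F1Q M) (hj₀ : (j₀ : LaurentSeries ℚ) = jq) :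
    Module.Finite Qb⟮embF (F1Q M) Qb j₀⟯ ↥(laurentBaseChange Qb (F1Q M)) :=
  finite_F1 hM (embF (F1Q M) Qb j₀) (by rw [coe_embF, hj₀])

include hM in
/-- The degree of `F1 M` over `ℚ̄(j)` is the number of cosets. -/
theorem finrank_embF (j₀ : F1Q M) (hj₀ : (j₀ : LaurentSeries ℚ) = jq) :
    Module.finrank Qb⟮embF (F1Q M) Qb j₀⟯ ↥(laurentBaseChange Qb (F1Q M)) = Nat.card (X1 M) :=
  finrank_F1 hM (embF (F1Q M) Qb j₀) (by rw [coe_embF, hj₀])

include hM in
/-- `hdeg` of `HorizBC`. -/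
theorem finrank_embF_le (j₀ : F1Q M) (hj₀ : (j₀ : LaurentSeries ℚ) = jq) :
    Module.finrank Qb⟮embF (F1Q M) Qb j₀⟯ ↥(laurentBaseChange Qb (F1Q M)) ≤ Nat.card (X1 M) :=
  (finrank_embF M hM j₀ hj₀).le

/-! #### The instance `j₀ := Bricks.jQ1 M` -/

/-- `hρj` of `HorizBC` at `j₀ := Bricks.jQ1 M`. -/
theorem cosetEmb1_embF_j (x : X1 M) :
    cosetEmb1 ι M hM x (embF (F1Q M) Qb (Fermat.Agent.S48.G1.K1.Bricks.jQ1 M))
      = algebraMap HolH (FractionRing HolH) jHol :=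
  cosetEmb1_embF ι M hM (Fermat.Agent.S48.G1.K1.Bricks.jQ1 M) rfl x

include hM in
/-- The `Module.Finite` instance argument of `HorizBC` at `j₀ := Bricks.jQ1 M`. -/
theorem finite_embF_j :
    Module.Finite Qb⟮embF (F1Q M) Qb (Fermat.Agent.S48.G1.K1.Bricks.jQ1 M)⟯
      ↥(laurentBaseChange Qb (F1Q M)) :=
  finite_embF M hM (Fermat.Agent.S48.G1.K1.Bricks.jQ1 M) rfl

include hM in
/-- The degree of `F1 M` over `ℚ̄(j)`, at `j₀ := Bricks.jQ1 M`. -/
theorem finrank_eq_card :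
    Module.finrank Qb⟮embF (F1Q M) Qb (Fermat.Agent.S48.G1.K1.Bricks.jQ1 M)⟯
      ↥(laurentBaseChange Qb (F1Q M)) = Nat.card (X1 M) :=
  finrank_embF M hM (Fermat.Agent.S48.G1.K1.Bricks.jQ1 M) rfl

include hM in
/-- `hdeg` of `HorizBC` at `j₀ := Bricks.jQ1 M`. -/
theorem finrank_le_card :
    Module.finrank Qb⟮embF (F1Q M) Qb (Fermat.Agent.S48.G1.K1.Bricks.jQ1 M)⟯
      ↥(laurentBaseChange Qb (F1Q M)) ≤ Nat.card (X1 M) :=
  (finrank_eq_card M hM).le

end Shapes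

end Fermat.Agent.S48.G1.K1.DegreeE

end
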