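/-
PROGRAM DS (S48), part G1, AREA K, row K.2.inst (a), complement to `K1/DiaE.lean` (helper216):
the diamond family in the LITERAL binder shapes of `GaussTowerQ.gaussTSD_of_tower_gq_E` /
`GaussTowerGqInt.gaussTSD_of_tower_gq_int` (`σ`, `b`, `hb`, `hne`, `i₀`, `hi₀`, `hθ`, `hcard`).

* `diaE_of_mem_zpowers` : `⟨±1⟩ = id` (unconditional);
* `i0 M : Idx M` (the class of `1`), `sigma_i0` : `σ_{i₀} = id` (unconditional);
* `bz M i : ZMod M` (`= rep M i`), `bz_cond` (`hb`), `bz_ne` (`hne`);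
* `sigmaHom M E i : LE1 M E →ₐ[LE0 M E] LE1 M E`, `sigmaHom_i0` (`hi₀`), `val_sigmaHom_gE1` (`hθ`
  for `emb := (LE1 M E).val`, `θ := gE1 M E 1`); `hcard` is `DiaE.fintype_card_idx_eq_finrank`;
* `isScalarTower_LE` : `E → LE0 M E → LE1 M E` is a tower (proved without any cross-field `rfl`).
-/
import Mathlib
import Fermat.Agent.S48.G1.K1.DiaE

set_option autoImplicit false

noncomputable section

namespace Fermat.Agent.S48.G1.K1.DiaE

open ModularCurve IntermediateField Polynomial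
open Fermat.Agent.S30.E2.Degree Fermat.Agent.S30.E2.Degree.Abs
open Fermat.Agent.S48.G1.F1 Fermat.Agent.S48.G1.F1.Dia
open Fermat.Agent.S48.G1.K1.DiaEGen

section Fam

variable {M : ℕ} {E : Type*} [Field E] [Algebra ℚ E] [Algebra E Qb]

omit [Field E] [Algebra ℚ E] [Algebra E Qb] in
theorem eq_one_or_neg_one_of_mem_zpowers {u : (ZMod M)ˣ}
    (hu : u ∈ Subgroup.zpowers (-1 : (ZMod M)ˣ)) : u = 1 ∨ u = -1 := by
  obtain ⟨k, rfl⟩ := Subgroup.mem_zpowers_iff.mp hu
  rcases Int.even_or_odd k with hk | hk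
  · exact Or.inl hk.neg_one_zpow
  · exact Or.inr hk.neg_one_zpow

/-- `⟨u⟩ = id` for `u = ±1` (unconditional). -/
theorem diaE_of_mem_zpowers {u : (ZMod M)ˣ} (hu : u ∈ Subgroup.zpowers (-1 : (ZMod M)ˣ))
    (z : LE1 M E) : diaE M E u z = z := by
  rcases eq_one_or_neg_one_of_mem_zpowers hu with rfl | rfl
  · exact diaE_one_apply z
  · exact diaE_neg_one_apply z

variable (M) in
/-- The class of `1` in `(ℤ/M)ˣ / ±1`. -/
def i0 : Idx M := QuotientGroup.mk 1

omit [Field E] [Algebra ℚ E] [Algebra E Qb] in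
theorem rep_i0_mem : (rep M (i0 M))⁻¹ ∈ Subgroup.zpowers (-1 : (ZMod M)ˣ) := by
  have h : (QuotientGroup.mk (rep M (i0 M)) : Idx M) = QuotientGroup.mk 1 := mk_rep (i0 M)
  have h2 := QuotientGroup.eq.mp h
  rwa [mul_one] at h2

attribute [local instance] algebraLE

/-- `σ_{i₀} = id` (unconditional). -/
theorem sigma_i0 (z : LE1 M E) : sigma M E (i0 M) z = z := by
  rw [sigma_apply]
  exact diaE_of_mem_zpowers rep_i0_mem z

variable (M) in
/-- The residues of the representatives: the `b` of the tower lemmas. -/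
def bz (i : Idx M) : ZMod M := ((rep M i : (ZMod M)ˣ) : ZMod M)

omit [Field E] [Algebra ℚ E] [Algebra E Qb] in
/-- `hb` of the tower lemmas. -/
theorem bz_cond (i : Idx M) : M ≠ 0 ∨ bz M i ≠ 0 := GqLead.unit_cond M (rep M i)

omit [Field E] [Algebra ℚ E] [Algebra E Qb] in
/-- `hne` of the tower lemmas. -/
theorem bz_ne (i j : Idx M) (hij : i ≠ j) : bz M j ≠ bz M i ∧ bz M j ≠ -bz M i := by
  obtain ⟨h1, h2⟩ := rep_ne i j hij
  exact ⟨fun e => h1 (Units.ext e), fun e => h2 ((GqLead.unit_coe_eq_neg_iff M _ _).mp e)⟩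

variable (M E) in
/-- **The family `σ`** as algebra homomorphisms over `LE0 M E` (the literal `σ` of the tower
lemmas). -/
def sigmaHom (i : Idx M) : LE1 M E →ₐ[LE0 M E] LE1 M E := (sigma M E i).toAlgHom

theorem sigmaHom_apply (i : Idx M) (z : LE1 M E) : sigmaHom M E i z = diaE M E (rep M i)⁻¹ z :=
  rfl

/-- `hi₀` of `GaussTowerQ.gaussTSD_of_tower_gq_E` (unconditional). -/
theorem sigmaHom_i0 (z : LE1 M E) : sigmaHom M E (i0 M) z = z := sigma_i0 z

/-- `hθ` of the tower lemmas for `emb := (LE1 M E).val`, `θ := gE1 M E 1`. -/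
theorem val_sigmaHom_gE1 (hex : ∀ u : (ZMod M)ˣ, ∃ D : F1 M ≃ₐ[Qb] F1 M, IsDia M u D)
    (i : Idx M) :
    (LE1 M E).val (sigmaHom M E i (gE1 M E 1)) = coeffEmb E (gq M (bz M i)) :=
  coe_sigma_gE1 hex i

theorem sigmaHom_injective (hex : ∀ u : (ZMod M)ˣ, ∃ D : F1 M ≃ₐ[Qb] F1 M, IsDia M u D) :
    Function.Injective (sigmaHom M E) := by
  intro i j h
  apply sigma_injective (E := E) hex
  exact AlgEquiv.ext fun z => congrArg (fun φ : LE1 M E →ₐ[LE0 M E] LE1 M E => φ z) h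

/-- `E → LE0 M E → LE1 M E` is a tower. -/
theorem isScalarTower_LE (M : ℕ) (E : Type*) [Field E] [Algebra ℚ E] :
    IsScalarTower E (LE0 M E) (LE1 M E) :=
  IsScalarTower.of_algebraMap_eq fun e =>
    ((IntermediateField.inclusion (LE0_le_LE1 M E)).commutes e).symm

end Fam

end Fermat.Agent.S48.G1.K1.DiaE
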