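import Mathlib
import Fermat.Agent.S30.E2.Degree
import Fermat.Agent.S24.HolH

/-!
# S48 / G1, AREA K, row K.1 (generic half): degree and coset embeddings descend along constants

`F₀` an arbitrary intermediate field of `ℚ((q)) / ℚ` (for G1: `F1Q M`), `E ⊆ Ω` fields of
constants (for G1: `E` a number field inside `Ω = ℚ̄`), `j₀ : F₀`.  Write
`L_E := laurentBaseChange E F₀`, `L_Ω := laurentBaseChange Ω F₀`, `u_E := embF F₀ E j₀`.

Given at the `Ω`-level (the exit of the C-side/`ℚ̄`-side degree dictionary, row F.2)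

* `[L_Ω : Ω(u_Ω)]` finite and `≤ |I|`,
* a family `ρ : I → L_Ω →+* T` (`T` a field) of pairwise distinct ring homomorphisms which agree
  on the constants `Ω`,

the restricted family `down ρ i := ρ i ∘ (L_E → L_Ω)` is still pairwise distinct
(`down_family_injective`: `L_Ω` is generated over `Ω` by the image of `L_E`), and
`[L_E : E(u_E)]` is finite, equal to `[L_Ω : Ω(u_Ω)]` (`S30.E2.Degree.Abs`).

`exists_holEmb_down` bundles the result in the literal shape of the hypotheses of
`S48.G1.HorizOfEmb.horizUnram_of_holEmb` (row K.3): target `T = FractionRing HolH`, constants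
through `ι`, `u ↦ jHol`.
-/

set_option autoImplicit false

noncomputable section

namespace Fermat.Agent.S48.G1.K1.EmbDown

open ModularCurve IntermediateField HahnSeries
open Fermat.Agent.S30.E2.Degree Fermat.Agent.S30.E2.Degree.Abs

variable (F₀ : IntermediateField ℚ (LaurentSeries ℚ))
variable (E Ω : Type*) [Field E] [Field Ω] [Algebra ℚ E] [Algebra ℚ Ω] [Algebra E Ω]

section Down

variable {T : Type*} [Field T]

/-- Restriction of a ring homomorphism of the `Ω`-level function field to the `E`-level one. -/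
def down (ρ : laurentBaseChange Ω F₀ →+* T) : laurentBaseChange E F₀ →+* T :=
  ρ.comp (rhoBC F₀ E Ω)

theorem down_apply (ρ : laurentBaseChange Ω F₀ →+* T) (x : laurentBaseChange E F₀) :
    down F₀ E Ω ρ x = ρ (rhoBC F₀ E Ω x) := rfl

theorem down_algebraMap (ρ : laurentBaseChange Ω F₀ →+* T) (a : E) :
    down F₀ E Ω ρ (algebraMap E (laurentBaseChange E F₀) a)
      = ρ (algebraMap Ω (laurentBaseChange Ω F₀) (algebraMap E Ω a)) := by
  rw [down_apply]
  congr 1
  exact rho_algebraMap (laurentBaseChange E F₀) (laurentBaseChange Ω F₀)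
    (fun _ hx => iota_mem_laurentBaseChange F₀ Ω hx) a

theorem down_embF (ρ : laurentBaseChange Ω F₀ →+* T) (x : F₀) :
    down F₀ E Ω ρ (embF F₀ E x) = ρ (embF F₀ Ω x) := by
  rw [down_apply, rhoBC_embF]

/-- Two ring homomorphisms of the `Ω`-level field into a field which agree on the constants and
on the image of the `E`-level field are equal. -/
theorem eq_of_down_eq (ρ ρ' : laurentBaseChange Ω F₀ →+* T)
    (hΩ : ∀ c : Ω, ρ (algebraMap Ω (laurentBaseChange Ω F₀) c)
      = ρ' (algebraMap Ω (laurentBaseChange Ω F₀) c))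
    (h : down F₀ E Ω ρ = down F₀ E Ω ρ') : ρ = ρ' := by
  ext w
  have hw : w ∈ IntermediateField.adjoin Ω (Set.range (rhoBC F₀ E Ω)) := by
    rw [adjoin_range_rhoBC]
    exact IntermediateField.mem_top
  induction hw using IntermediateField.adjoin_induction with
  | mem x hx =>
    obtain ⟨y, rfl⟩ := hx
    exact congrArg (fun f : laurentBaseChange E F₀ →+* T => f y) h
  | algebraMap c => exact hΩ c
  | add x y _ _ hx hy => rw [map_add, map_add, hx, hy]
  | inv x _ hx => rw [map_inv₀, map_inv₀, hx]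
  | mul x y _ _ hx hy => rw [map_mul, map_mul, hx, hy]

/-- **A pairwise distinct family stays pairwise distinct on the `E`-level field.** -/
theorem down_family_injective {I : Type*} (ρ : I → laurentBaseChange Ω F₀ →+* T)
    (hρ : Function.Injective ρ)
    (hΩ : ∀ i i' (c : Ω), ρ i (algebraMap Ω (laurentBaseChange Ω F₀) c)
      = ρ i' (algebraMap Ω (laurentBaseChange Ω F₀) c)) :
    Function.Injective fun i => down F₀ E Ω (ρ i) := by
  intro i i' h
  exact hρ (eq_of_down_eq F₀ E Ω (ρ i) (ρ i') (hΩ i i') h)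

end Down

section Hol

open Fermat.Agent.S24.HolH

/-- **Row K.1, generic half.**  Degree and holomorphic coset embeddings at the `E`-level from
the `Ω`-level, in the literal shape of the hypotheses of `HorizOfEmb.horizUnram_of_holEmb`
(`L := laurentBaseChange E F₀`, `u := embF F₀ E j₀`, `ι := ιΩ.comp (algebraMap E Ω)`,
`ρ := fun i => down F₀ E Ω (ρ i)`). -/
theorem exists_holEmb_down (j₀ : F₀)
    [Module.Finite Ω⟮embF F₀ Ω j₀⟯ (laurentBaseChange Ω F₀)]
    (ιΩ : Ω →+* ℂ) (jH : FractionRing HolH) {I : Type*}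
    (ρ : I → laurentBaseChange Ω F₀ →+* FractionRing HolH) (hρ : Function.Injective ρ)
    (hdeg : Module.finrank Ω⟮embF F₀ Ω j₀⟯ (laurentBaseChange Ω F₀) ≤ Nat.card I)
    (hρΩ : ∀ i a, ρ i (algebraMap Ω (laurentBaseChange Ω F₀) a) =
      algebraMap HolH (FractionRing HolH) (algebraMap ℂ HolH (ιΩ a)))
    (hρu : ∀ i, ρ i (embF F₀ Ω j₀) = jH) :
    Module.Finite E⟮embF F₀ E j₀⟯ (laurentBaseChange E F₀) ∧
      Module.finrank E⟮embF F₀ E j₀⟯ (laurentBaseChange E F₀)
        = Module.finrank Ω⟮embF F₀ Ω j₀⟯ (laurentBaseChange Ω F₀) ∧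
      Module.finrank E⟮embF F₀ E j₀⟯ (laurentBaseChange E F₀) ≤ Nat.card I ∧
      Function.Injective (fun i => down F₀ E Ω (ρ i)) ∧
      (∀ i a, down F₀ E Ω (ρ i) (algebraMap E (laurentBaseChange E F₀) a) =
        algebraMap HolH (FractionRing HolH)
          (algebraMap ℂ HolH ((ιΩ.comp (algebraMap E Ω)) a))) ∧
      (∀ i, down F₀ E Ω (ρ i) (embF F₀ E j₀) = jH) := by
  obtain ⟨hfin, hrank⟩ := finite_and_finrank_baseChange_down F₀ E Ω j₀
  refine ⟨hfin, hrank, hrank.le.trans hdeg, ?_, ?_, ?_⟩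
  · exact down_family_injective F₀ E Ω ρ hρ (fun i i' c => by rw [hρΩ i c, hρΩ i' c])
  · intro i a
    rw [down_algebraMap, hρΩ]
    rfl
  · intro i
    rw [down_embF, hρu]

end Hol

end Fermat.Agent.S48.G1.K1.EmbDown
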