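/-
PROGRAM DS (S48), part G1, AREA K — INTEGRALITY OF THE UPPER GENERATOR OVER `O[u]` (helper38;
second on GaussInt (GI-b), G1 DEAL #3 (R8)).

Setting of `GaussTower.gaussTSD_of_tower` (T4): a tower `E(u1) ⊆ K1 ⊆ L`, `[L : K1]` automorphisms
`σ i` of `L` over `K1`, an `E`-embedding `emb : L → E((q))`.

* (C1) `isIntegral_of_monic_root` : a root in `L` of a monic polynomial over `K1` whose
  coefficients are integral over `O[u1]` is integral over `O[u]`.
* (C2) `exists_eq_of_card`, `fixed_of_card` : `[L : K1]` distinct `K1`-endomorphisms of `L` are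
  all of them, and their common fixed points are `K1` (Galois).
* (C3) `isIntegral_of_conj` : `θ` integral over `E[u]` whose conjugates have integral expansions is
  integral over `O[u]`, given the `q`-expansion principle `hGI` on `K1` ((GI-b): integral over
  `E[u1]` with an integral expansion ⇒ integral over `O[u1]`).  Proof: the orbit polynomial
  `∏ i, (X - σ i θ)` has coefficients in `K1`, integral over `E[u1]`, with integral expansions.
* (C4) `isIntegral_theta_gq` : the instance for the diamond orbit of `g_1` (expansions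
  `gq M (b i)`): the hypothesis `hθint` of `GaussTowerGq.gaussTSD_of_tower_gq`.
-/
import Mathlib
import Fermat.Agent.S30.Model.TSDTransport
import Fermat.Agent.S48.G1.K1.GqDisc

set_option autoImplicit false

open ModularCurve Polynomial

noncomputable section

namespace Fermat.Agent.S48.G1.K1.GaussIntCor

open Fermat.Agent.S30 Fermat.Agent.S30.Model Fermat.Agent.S48.G1.F1
  Fermat.Agent.S48.G1.F1.GqLead

/-! ### (C1) a root of a monic polynomial with integral coefficients -/

theorem isIntegral_of_monic_root {O K1 L : Type*} [CommRing O] [Field K1] [Algebra O K1]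
    [Field L] [Algebra K1 L] [Algebra O L] [IsScalarTower O K1 L] (u1 : K1) (P : K1[X])
    (hP : P.Monic) (hcoef : ∀ n, IsIntegral (Algebra.adjoin O {u1}) (P.coeff n)) (θ : L)
    (hroot : Polynomial.aeval θ P = 0) :
    IsIntegral (Algebra.adjoin O {algebraMap K1 L u1}) θ := by
  have towABL : IsScalarTower (Algebra.adjoin O {u1})
      (integralClosure (Algebra.adjoin O {u1}) K1) L :=
    IsScalarTower.of_algebraMap_eq (fun _ => rfl)
  have hmem : P ∈ Polynomial.lifts (algebraMap (integralClosure (Algebra.adjoin O {u1}) K1) K1) := by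
    rw [Polynomial.lifts_iff_coeff_lifts]
    intro n
    exact ⟨⟨P.coeff n, hcoef n⟩, rfl⟩
  obtain ⟨Q, hQ, -, hQm⟩ := Polynomial.lifts_and_natDegree_eq_and_monic hmem hP
  have hθC : IsIntegral (integralClosure (Algebra.adjoin O {u1}) K1) θ := by
    refine ⟨Q, hQm, ?_⟩
    rw [← Polynomial.aeval_def, ← Polynomial.aeval_map_algebraMap K1, hQ]
    exact hroot
  have hBint : Algebra.IsIntegral (Algebra.adjoin O {u1})
      (integralClosure (Algebra.adjoin O {u1}) K1) :=
    IsIntegralClosure.isIntegral_algebra (Algebra.adjoin O {u1}) K1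
  have hθB : IsIntegral (Algebra.adjoin O {u1}) θ := isIntegral_trans θ hθC
  exact (TSDTransport.isIntegral_adjoin_map_iff O u1 θ).1 hθB

/-! ### (C2) `[L : K1]` distinct automorphisms are all of them -/

section Galois

variable {K1 L : Type*} [Field K1] [Field L] [Algebra K1 L] [FiniteDimensional K1 L]
  {ι : Type*} [Fintype ι]

theorem exists_eq_of_card (σ : ι → L →ₐ[K1] L) (hinj : Function.Injective σ)
    (hcard : Fintype.card ι = Module.finrank K1 L) (f : L →ₐ[K1] L) : ∃ i, σ i = f := by
  classical
  have hle : Fintype.card (L →ₐ[K1] L) ≤ Fintype.card ι := by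
    rw [hcard]
    exact AlgHom.card_le
  have hbij : Function.Bijective σ :=
    (Fintype.bijective_iff_injective_and_card σ).mpr
      ⟨hinj, le_antisymm (Fintype.card_le_of_injective σ hinj) hle⟩
  exact hbij.2 f

theorem fixed_of_card (σ : ι → L →ₐ[K1] L) (hinj : Function.Injective σ)
    (hcard : Fintype.card ι = Module.finrank K1 L) (x : L) (hx : ∀ i, σ i x = x) :
    x ∈ Set.range (algebraMap K1 L) := by
  classical
  have hall := exists_eq_of_card σ hinj hcard
  have hcardE : Nat.card (L ≃ₐ[K1] L) = Module.finrank K1 L := by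
    rw [Nat.card_congr (algEquivEquivAlgHom K1 L).toEquiv, Nat.card_eq_fintype_card, ← hcard]
    exact (Fintype.card_of_bijective
      ((Fintype.bijective_iff_injective_and_card σ).mpr
        ⟨hinj, le_antisymm (Fintype.card_le_of_injective σ hinj)
          (by rw [hcard]; exact AlgHom.card_le)⟩)).symm
  have hgal : IsGalois K1 L := IsGalois.of_card_aut_eq_finrank K1 L hcardE
  have hfix : IntermediateField.fixedField (⊤ : Subgroup (L ≃ₐ[K1] L)) = ⊥ :=
    (IsGalois.tfae (F := K1) (E := L)).out 0 1 |>.mp hgal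
  have hxmem : x ∈ IntermediateField.fixedField (⊤ : Subgroup (L ≃ₐ[K1] L)) := by
    rw [IntermediateField.mem_fixedField_iff]
    intro f _
    obtain ⟨i, hi⟩ := hall (f : L →ₐ[K1] L)
    have := hx i
    rw [hi] at this
    exact this
  rw [hfix] at hxmem
  exact IntermediateField.mem_bot.mp hxmem

end Galois

/-! ### (C3) integrality of `θ` over `O[u]` from the orbit of its conjugates -/

section Orbit

variable {O E K1 L : Type*} [CommRing O] [IsDomain O] [IsDiscreteValuationRing O]
  [Field E] [Algebra O E] [IsFractionRing O E]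
  [Field K1] [Algebra E K1] [Algebra O K1] [IsScalarTower O E K1]
  [Field L] [Algebra E L] [Algebra O L] [IsScalarTower O E L]
  [Algebra K1 L] [IsScalarTower E K1 L] [IsScalarTower O K1 L]
  [FiniteDimensional K1 L]
  {ι : Type*} [Fintype ι] [DecidableEq ι]

/-- The polynomial `∏ i, (X - σ i θ)`. -/
def orbitPoly (σ : ι → L →ₐ[K1] L) (θ : L) : L[X] := ∏ i, (X - C (σ i θ))

omit [FiniteDimensional K1 L] [DecidableEq ι] in
theorem orbitPoly_monic (σ : ι → L →ₐ[K1] L) (θ : L) : (orbitPoly σ θ).Monic :=
  Polynomial.monic_prod_of_monic _ _ (fun _ _ => Polynomial.monic_X_sub_C _)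

omit [DecidableEq ι] in
/-- The orbit polynomial is fixed by every `σ j`. -/
theorem orbitPoly_map (σ : ι → L →ₐ[K1] L) (hinj : Function.Injective σ)
    (hcard : Fintype.card ι = Module.finrank K1 L) (θ : L) (j : ι) :
    (orbitPoly σ θ).map (σ j : L →+* L) = orbitPoly σ θ := by
  classical
  choose p hp using fun i => exists_eq_of_card σ hinj hcard ((σ j).comp (σ i))
  have hpinj : Function.Injective p := by
    intro i i' hii
    apply hinj
    have h1 : (σ j).comp (σ i) = (σ j).comp (σ i') := by rw [← hp i, ← hp i', hii]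
    ext x
    have h2 := congrArg (fun f : L →ₐ[K1] L => f x) h1
    exact (σ j).injective h2
  have hpbij : Function.Bijective p := Finite.injective_iff_bijective.mp hpinj
  have hstep : ∀ i, (X - C (σ i θ)).map (σ j : L →+* L) = X - C (σ (p i) θ) := by
    intro i
    rw [Polynomial.map_sub, Polynomial.map_X, Polynomial.map_C, hp i]
    rfl
  rw [orbitPoly, Polynomial.map_prod]
  simp only [hstep]
  exact hpbij.prod_comp fun i => X - C (σ i θ)

omit [DecidableEq ι] in
/-- The orbit polynomial has coefficients in `K1`. -/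
theorem exists_orbitPoly_lift (σ : ι → L →ₐ[K1] L) (hinj : Function.Injective σ)
    (hcard : Fintype.card ι = Module.finrank K1 L) (θ : L) :
    ∃ P : K1[X], P.map (algebraMap K1 L) = orbitPoly σ θ ∧ P.Monic := by
  have hmem : orbitPoly σ θ ∈ Polynomial.lifts (algebraMap K1 L) := by
    rw [Polynomial.lifts_iff_coeff_lifts]
    intro n
    refine fixed_of_card σ hinj hcard _ (fun j => ?_)
    have h := congrArg (fun Q : L[X] => Q.coeff n) (orbitPoly_map σ hinj hcard θ j)
    simp only [Polynomial.coeff_map] at h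
    exact h
  obtain ⟨P, hP, -, hPm⟩ :=
    Polynomial.lifts_and_natDegree_eq_and_monic hmem (orbitPoly_monic σ θ)
  exact ⟨P, hP, hPm⟩

omit [DecidableEq ι] in
theorem orbitPoly_eval_self (σ : ι → L →ₐ[K1] L) (hinj : Function.Injective σ)
    (hcard : Fintype.card ι = Module.finrank K1 L) (θ : L) : (orbitPoly σ θ).eval θ = 0 := by
  obtain ⟨i₀, hi₀⟩ := exists_eq_of_card σ hinj hcard (AlgHom.id K1 L)
  rw [orbitPoly, Polynomial.eval_prod]
  refine Finset.prod_eq_zero (Finset.mem_univ i₀) ?_
  rw [Polynomial.eval_sub, Polynomial.eval_X, Polynomial.eval_C, hi₀]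
  simp

omit [DecidableEq ι] [IsDomain O] [IsDiscreteValuationRing O] [IsFractionRing O E]
  [IsScalarTower O E K1] [IsScalarTower O E L] in
/-- **(C3)** `θ ∈ L` integral over `E[u]`, whose conjugates `σ i θ` under the `[L : K1]`
automorphisms have integral expansions: then `θ` is integral over `O[u]`, PROVIDED the
`q`-expansion principle `hGI` holds on `K1` (= (GI-b): integral over `E[u1]` + integral expansion
⇒ integral over `O[u1]`). -/
theorem isIntegral_of_conj (emb : L →ₐ[E] LaurentSeries E) (u1 : K1) (u : L)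
    (hu1 : algebraMap K1 L u1 = u) (σ : ι → L →ₐ[K1] L) (hinj : Function.Injective σ)
    (hcard : Fintype.card ι = Module.finrank K1 L) (θ : L)
    (hθE : IsIntegral (Algebra.adjoin E {u}) θ) (t : ι → LaurentSeries O)
    (ht : ∀ i, emb (σ i θ) = GaussDVR.iota O E (t i))
    (hGI : ∀ x : K1, IsIntegral (Algebra.adjoin E {u1}) x →
      (∃ a : LaurentSeries O, emb (algebraMap K1 L x) = GaussDVR.iota O E a) →
      IsIntegral (Algebra.adjoin O {u1}) x) :
    IsIntegral (Algebra.adjoin O {u}) θ := by
  subst hu1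
  obtain ⟨P, hPmap, hPm⟩ := exists_orbitPoly_lift σ hinj hcard θ
  have hcoeff : ∀ n, algebraMap K1 L (P.coeff n) = (orbitPoly σ θ).coeff n := by
    intro n
    rw [← hPmap, Polynomial.coeff_map]
  -- integrality over `E[u1]`
  have hθE1 : IsIntegral (Algebra.adjoin E {u1}) θ :=
    (TSDTransport.isIntegral_adjoin_map_iff E u1 θ).2 hθE
  have hconj : ∀ i, IsIntegral (Algebra.adjoin E {u1}) (σ i θ) := fun i =>
    IsIntegral.map ((σ i).restrictScalars (Algebra.adjoin E {u1})) hθE1
  have hcoefE : ∀ n, IsIntegral (Algebra.adjoin E {u1}) ((orbitPoly σ θ).coeff n) := by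
    intro n
    set Q : (integralClosure (Algebra.adjoin E {u1}) L)[X] :=
      ∏ i, (X - C (⟨σ i θ, hconj i⟩ : integralClosure (Algebra.adjoin E {u1}) L)) with hQ
    have hmap : Q.map (algebraMap (integralClosure (Algebra.adjoin E {u1}) L) L) =
        orbitPoly σ θ := by
      rw [hQ, orbitPoly, Polynomial.map_prod]
      refine Finset.prod_congr rfl fun i _ => ?_
      rw [Polynomial.map_sub, Polynomial.map_X, Polynomial.map_C]
      rfl
    rw [← hmap, Polynomial.coeff_map]
    exact (Q.coeff n).2
  -- integral expansions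
  have hcoefInt : ∀ n, ∃ a : LaurentSeries O,
      emb ((orbitPoly σ θ).coeff n) = GaussDVR.iota O E a := by
    intro n
    refine ⟨(∏ i, (X - C (t i))).coeff n, ?_⟩
    have h1 : (orbitPoly σ θ).map (emb : L →+* LaurentSeries E) =
        (∏ i, (X - C (t i))).map (GaussDVR.iota O E) := by
      rw [orbitPoly, Polynomial.map_prod, Polynomial.map_prod]
      refine Finset.prod_congr rfl fun i _ => ?_
      rw [Polynomial.map_sub, Polynomial.map_X, Polynomial.map_C, Polynomial.map_sub,
        Polynomial.map_X, Polynomial.map_C]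
      congr 2
      exact ht i
    have h2 := congrArg (fun Q : (LaurentSeries E)[X] => Q.coeff n) h1
    simp only [Polynomial.coeff_map] at h2
    exact h2
  refine isIntegral_of_monic_root u1 P hPm (fun n => hGI _ ?_ ?_) θ ?_
  · rw [← isIntegral_algebraMap_iff (algebraMap K1 L).injective, hcoeff]
    exact hcoefE n
  · rw [hcoeff]
    exact hcoefInt n
  · rw [Polynomial.aeval_def, Polynomial.eval₂_eq_eval_map, hPmap]
    exact orbitPoly_eval_self σ hinj hcard θ

omit [DecidableEq ι] [IsDomain O] [IsDiscreteValuationRing O] [IsFractionRing O E]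
  [IsScalarTower O E K1] [IsScalarTower O E L] in
/-- **(C4)** the `gq`-orbit: `θ` integral over `E[u]` whose conjugates have the expansions
`gq M (b i)` (pairwise distinct modulo `±1`) is integral over `O[u]`, given (GI-b) on `K1`.
This is the hypothesis `hθint` of `GaussTowerGq.gaussTSD_of_tower_gq`. -/
theorem isIntegral_theta_gq [Algebra ℚ E] (emb : L →ₐ[E] LaurentSeries E) (u1 : K1) (u : L)
    (hu1 : algebraMap K1 L u1 = u) (σ : ι → L →ₐ[K1] L)
    (hcard : Fintype.card ι = Module.finrank K1 L)
    (M : ℕ) (b : ι → ZMod M) (hb : ∀ i, M ≠ 0 ∨ b i ≠ 0)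
    (hne : ∀ i j, i ≠ j → b j ≠ b i ∧ b j ≠ -b i)
    (θ : L) (hθ : ∀ i, emb (σ i θ) = coeffEmb E (gq M (b i)))
    (hθE : IsIntegral (Algebra.adjoin E {u}) θ)
    (hGI : ∀ x : K1, IsIntegral (Algebra.adjoin E {u1}) x →
      (∃ a : LaurentSeries O, emb (algebraMap K1 L x) = GaussDVR.iota O E a) →
      IsIntegral (Algebra.adjoin O {u1}) x) :
    IsIntegral (Algebra.adjoin O {u}) θ := by
  have hinj : Function.Injective σ := by
    intro i j hij
    by_contra hne'
    have h1 : emb (σ i θ) = emb (σ j θ) := by rw [hij]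
    rw [hθ i, hθ j, coeffEmb_gq_eq_iff E M (b i) (b j) (hb i) (hb j)] at h1
    have := hne i j hne'
    tauto
  exact isIntegral_of_conj emb u1 u hu1 σ hinj hcard θ hθE (fun i => gqR O M (b i))
    (fun i => GqDisc.emb_theta_eq emb M (b i) (σ i θ) (hθ i)) hGI

end Orbit

end Fermat.Agent.S48.G1.K1.GaussIntCor
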