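/-
PROGRAM DS (S48), part G1, AREA K — COMPILED SEAM of the Gauss tower for the diamond orbit
(helper38; compiled review of `K1/GaussInt.lean` (helper187) against `K1/GaussTowerGq.lean`
(helper239) and `K1/GaussIntCor.lean`, `K1/GqDisc.lean`).

`gaussTSD_of_tower_gq_int` : hypothesis (i) of the Model theorem (`Model.GaussTSD`) for `L` over
`E(u)` from
* the lower layer `K1` (`h1`, `hprime`), a base coordinate `u1` whose expansion is an integral
  series with a pole modulo `π` (`hu`, `hpole`), `hfrac`;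
* `[L : K1]` automorphisms `σ i` of `L` over `K1` and `θ ∈ L`, integral over `E[u]` (NOT yet over
  `O[u]`), whose conjugates `σ i θ` have the `q`-expansions `gq M (b i)`, the `b i` pairwise
  distinct modulo `±1`.
Integrality of `θ` over `O[u]` (`q`-expansion principle on `K1`, (GI-b)) and the discriminant
condition (`GqDisc.hdisc_gq`) are discharged here.
-/
import Mathlib
import Fermat.Agent.S48.G1.K1.GaussTowerGq
import Fermat.Agent.S48.G1.K1.GaussInt
import Fermat.Agent.S48.G1.K1.GaussIntCor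

set_option autoImplicit false
set_option linter.unusedSectionVars false

open ModularCurve

noncomputable section

namespace Fermat.Agent.S48.G1.K1.GaussTowerGqInt

open Fermat.Agent.S30 Fermat.Agent.S30.Model Fermat.Agent.S48.G1.F1

variable {O E K1 L : Type*} [CommRing O] [IsDomain O] [IsDiscreteValuationRing O]
  [Field E] [Algebra O E] [IsFractionRing O E]
  [Field K1] [Algebra E K1] [Algebra O K1] [IsScalarTower O E K1]
  [Field L] [Algebra E L] [Algebra O L] [IsScalarTower O E L]
  [Algebra K1 L] [IsScalarTower E K1 L] [IsScalarTower O K1 L]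

omit [Algebra O L] [IsScalarTower O E L] [IsScalarTower O K1 L] in
/-- **(GI-b) on the lower field**, in the consumer form `hGI` of `GaussIntCor`: from
`GaussInt.isIntegral_of_mem_V` applied to `K1` with the embedding `emb ∘ (K1 → L)`. -/
theorem hGI_of_prime (emb : L →ₐ[E] LaurentSeries E)
    (hfrac : ∀ x : L, emb x ∈ GaussDVR.fracField O E) (π : O) (hπ : Irreducible π) (u1 : K1)
    (uO : LaurentSeries O) (hu : emb (algebraMap K1 L u1) = GaussDVR.iota O E uO)
    (hpole : (GaussDVR.rho O uO).order < 0)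
    (hprime : Prime (algebraMap (Algebra.adjoin O {u1})
      (integralClosure (Algebra.adjoin O {u1}) K1) (algebraMap O (Algebra.adjoin O {u1}) π)))
    (x : K1) (hxE : IsIntegral (Algebra.adjoin E {u1}) x)
    (hxa : ∃ a : LaurentSeries O, emb (algebraMap K1 L x) = GaussDVR.iota O E a) :
    IsIntegral (Algebra.adjoin O {u1}) x := by
  obtain ⟨a, ha⟩ := hxa
  refine GaussInt.isIntegral_of_mem_V (emb.comp (IsScalarTower.toAlgHom E K1 L))
    (fun y => hfrac _) π hπ u1 uO hu hpole hprime x hxE ?_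
  show emb (algebraMap K1 L x) ∈ GaussDVR.V O E
  rw [ha]
  exact GaussDVR.mem_of_int O E a

/-- **`θ` is integral over `O[u]`** (the hypothesis `hθint` of `gaussTSD_of_tower_gq`). -/
theorem isIntegral_theta [Algebra ℚ E] [FiniteDimensional K1 L]
    (emb : L →ₐ[E] LaurentSeries E) (hfrac : ∀ x : L, emb x ∈ GaussDVR.fracField O E)
    (π : O) (hπ : Irreducible π) (u1 : K1) (u : L) (hu1 : algebraMap K1 L u1 = u)
    (uO : LaurentSeries O) (hu : emb u = GaussDVR.iota O E uO)
    (hpole : (GaussDVR.rho O uO).order < 0)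
    (hprime : Prime (algebraMap (Algebra.adjoin O {u1})
      (integralClosure (Algebra.adjoin O {u1}) K1) (algebraMap O (Algebra.adjoin O {u1}) π)))
    {ι : Type*} [Fintype ι] (σ : ι → L →ₐ[K1] L)
    (hcard : Fintype.card ι = Module.finrank K1 L)
    (M : ℕ) (b : ι → ZMod M) (hb : ∀ i, M ≠ 0 ∨ b i ≠ 0)
    (hne : ∀ i j, i ≠ j → b j ≠ b i ∧ b j ≠ -b i)
    (θ : L) (hθE : IsIntegral (Algebra.adjoin E {u}) θ)
    (hθ : ∀ i, emb (σ i θ) = coeffEmb E (gq M (b i))) :
    IsIntegral (Algebra.adjoin O {u}) θ :=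
  GaussIntCor.isIntegral_theta_gq emb u1 u hu1 σ hcard M b hb hne θ hθ hθE
    (fun x hxE hxa => hGI_of_prime emb hfrac π hπ u1 uO (by rw [hu1]; exact hu) hpole hprime
      x hxE hxa)

/-- **Hypothesis (i) in the tower for the diamond orbit, from `E`-integrality only.** -/
theorem gaussTSD_of_tower_gq_int [Algebra ℚ E]
    (emb : L →ₐ[E] LaurentSeries E) (hfrac : ∀ x : L, emb x ∈ GaussDVR.fracField O E)
    (π : O) (hπ : Irreducible π) (u1 : K1) (u : L) (hu1 : algebraMap K1 L u1 = u)
    (uO : LaurentSeries O) (hu : emb u = GaussDVR.iota O E uO)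
    (hpole : (GaussDVR.rho O uO).order < 0)
    [FiniteDimensional (IntermediateField.adjoin E {u1}) K1] [FiniteDimensional K1 L]
    (h1 : GaussTSD (E := E) π u1)
    (hprime : Prime (algebraMap (Algebra.adjoin O {u1})
      (integralClosure (Algebra.adjoin O {u1}) K1) (algebraMap O (Algebra.adjoin O {u1}) π)))
    {ι : Type*} [Fintype ι] [DecidableEq ι] (σ : ι → L →ₐ[K1] L)
    (hcard : Fintype.card ι = Module.finrank K1 L)
    (M : ℕ) (b : ι → ZMod M) (hb : ∀ i, M ≠ 0 ∨ b i ≠ 0)
    (hne : ∀ i j, i ≠ j → b j ≠ b i ∧ b j ≠ -b i)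
    (θ : L) (hθE : IsIntegral (Algebra.adjoin E {u}) θ)
    (hθ : ∀ i, emb (σ i θ) = coeffEmb E (gq M (b i))) :
    GaussTSD (E := E) π u :=
  GaussTowerGq.gaussTSD_of_tower_gq emb hfrac π hπ u1 u hu1 uO hu h1 hprime σ hcard M b hb hne θ
    (isIntegral_theta emb hfrac π hπ u1 u hu1 uO hu hpole hprime σ hcard M b hb hne θ hθE hθ) hθ

end Fermat.Agent.S48.G1.K1.GaussTowerGqInt
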