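/-
PROGRAM DS (S48), part G1, AREA K — integrality over the Hauptmodul line (helper92).

At residue characteristic `2`, `3` the base of the Model theorem is the line `E(t)` of a level-`r`
Hauptmodul `t` (with `j · t^a = A(t)`), not the `j`-line.  A function `θ` which is holomorphic on
`ℍ` is integral over `E[j]`, but in general NOT over `E[t]` (it may have poles at the cusps over
`t = 0`).  This file provides the level-free repair: `t^k · θ` is integral over `E[t]` for `k`
large, together with the bookkeeping for the discriminant-type product of the conjugates of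
`t^k · θ`.
-/
import Mathlib

set_option autoImplicit false

namespace Fermat.Agent.S48.G1.K1.HauptInt

open Polynomial

variable {E L : Type*} [Field E] [Field L] [Algebra E L]

/-- Clearing the `t`-denominators of an element of `E[j]`, where `j · t^a = A(t)`. -/
theorem exists_pow_mul_mem (jL t : L) (A : Polynomial E) (a : ℕ)
    (hrel : jL * t ^ a = Polynomial.aeval t A) {c : L} (hc : c ∈ Algebra.adjoin E {jL}) :
    ∃ d : ℕ, ∀ d' : ℕ, d ≤ d' → t ^ (a * d') * c ∈ Algebra.adjoin E {t} := by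
  have ht : t ∈ Algebra.adjoin E {t} := Algebra.subset_adjoin (Set.mem_singleton t)
  have hA : Polynomial.aeval t A ∈ Algebra.adjoin E {t} := by
    rw [Algebra.adjoin_singleton_eq_range_aeval]
    exact ⟨A, rfl⟩
  induction hc using Algebra.adjoin_induction with
  | mem x hx =>
    rw [Set.mem_singleton_iff] at hx
    subst hx
    refine ⟨1, fun d' hd' => ?_⟩
    obtain ⟨m, rfl⟩ := Nat.exists_eq_add_of_le hd'
    have h : t ^ (a * (1 + m)) * x = t ^ (a * m) * Polynomial.aeval t A := by
      rw [← hrel]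
      ring
    rw [h]
    exact mul_mem (pow_mem ht _) hA
  | algebraMap r =>
    exact ⟨0, fun d' _ => mul_mem (pow_mem ht _) (Subalgebra.algebraMap_mem _ r)⟩
  | add x y _ _ hx hy =>
    obtain ⟨d₁, h₁⟩ := hx
    obtain ⟨d₂, h₂⟩ := hy
    refine ⟨max d₁ d₂, fun d' hd' => ?_⟩
    rw [mul_add]
    exact add_mem (h₁ d' (le_trans (le_max_left _ _) hd'))
      (h₂ d' (le_trans (le_max_right _ _) hd'))
  | mul x y _ _ hx hy =>
    obtain ⟨d₁, h₁⟩ := hx
    obtain ⟨d₂, h₂⟩ := hy
    refine ⟨d₁ + d₂, fun d' hd' => ?_⟩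
    obtain ⟨m, rfl⟩ := Nat.exists_eq_add_of_le hd'
    have h : t ^ (a * (d₁ + d₂ + m)) * (x * y)
        = (t ^ (a * (d₁ + m)) * x) * (t ^ (a * d₂) * y) := by
      ring
    rw [h]
    exact mul_mem (h₁ _ (Nat.le_add_right _ _)) (h₂ _ le_rfl)

/-- A monic relation over a subalgebra, in expanded form, gives integrality. -/
theorem isIntegral_of_relation (B : Subalgebra E L) (x : L) (n : ℕ) (b : ℕ → B)
    (h : x ^ n + ∑ i ∈ Finset.range n, (b i : L) * x ^ i = 0) : IsIntegral B x := by
  set R : Polynomial B := ∑ i ∈ Finset.range n, Polynomial.C (b i) * Polynomial.X ^ i with hR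
  have hRdeg : R.degree < (n : WithBot ℕ) := by
    rw [Polynomial.degree_lt_iff_coeff_zero]
    intro m hm
    rw [hR, Polynomial.finsetSum_coeff]
    refine Finset.sum_eq_zero fun k hk => ?_
    rw [Polynomial.coeff_C_mul_X_pow, if_neg]
    have := Finset.mem_range.mp hk
    omega
  refine ⟨Polynomial.X ^ n + R, Polynomial.monic_X_pow_add hRdeg, ?_⟩
  rw [Polynomial.eval₂_add, Polynomial.eval₂_pow, Polynomial.eval₂_X, hR,
    Polynomial.eval₂_finsetSum, ← h]
  congr 1
  refine Finset.sum_congr rfl fun i _ => ?_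
  rw [Polynomial.eval₂_mul, Polynomial.eval₂_C, Polynomial.eval₂_pow, Polynomial.eval₂_X]
  rfl

/-- **Integrality over the Hauptmodul line, uniform form.**  If `θ` is integral over `E[j]` and
`j · t^a = A(t)`, then `t^(a·d) · θ` is integral over `E[t]` for all `d` large. -/
theorem exists_forall_isIntegral (jL t θ : L) (A : Polynomial E) (a : ℕ)
    (hrel : jL * t ^ a = Polynomial.aeval t A)
    (hθ : IsIntegral (Algebra.adjoin E {jL}) θ) :
    ∃ d : ℕ, ∀ d' : ℕ, d ≤ d' → IsIntegral (Algebra.adjoin E {t}) (t ^ (a * d') * θ) := by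
  classical
  obtain ⟨p, hp, hpθ⟩ := hθ
  set n : ℕ := p.natDegree with hn
  -- the coefficients of `p`, in `L`
  set c : ℕ → L := fun i => ((p.coeff i : Algebra.adjoin E {jL}) : L) with hc
  have hcmem : ∀ i, c i ∈ Algebra.adjoin E {jL} := fun i => (p.coeff i).2
  -- uniform exponent
  have hex : ∀ i, ∃ d : ℕ, ∀ d' : ℕ, d ≤ d' → t ^ (a * d') * c i ∈ Algebra.adjoin E {t} :=
    fun i => exists_pow_mul_mem jL t A a hrel (hcmem i)
  choose dd hdd using hex
  refine ⟨(Finset.range n).sup dd, fun d' hd' => ?_⟩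
  have hd'i : ∀ i ∈ Finset.range n, dd i ≤ d' := fun i hi =>
    le_trans (Finset.le_sup (f := dd) hi) hd'
  -- the relation satisfied by `θ`
  have hrelθ : θ ^ n + ∑ i ∈ Finset.range n, c i * θ ^ i = 0 := by
    have h1 := hpθ
    rw [Polynomial.eval₂_eq_sum_range, Finset.sum_range_succ, ← hn] at h1
    have h2 : (algebraMap (Algebra.adjoin E {jL}) L) (p.coeff n) = 1 := by
      rw [hn, Polynomial.Monic.coeff_natDegree hp, map_one]
    rw [h2, one_mul, add_comm] at h1
    exact h1
  -- the coefficients of the scaled relation lie in `E[t]`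
  have hb : ∀ i, ∃ b : Algebra.adjoin E {t}, i < n → (b : L) = t ^ (a * d' * (n - i)) * c i := by
    intro i
    by_cases hi : i < n
    · have h1 : dd i ≤ d' * (n - i) :=
        le_trans (hd'i i (Finset.mem_range.mpr hi))
          (Nat.le_mul_of_pos_right d' (Nat.sub_pos_of_lt hi))
      have h2 := hdd i (d' * (n - i)) h1
      rw [← mul_assoc] at h2
      exact ⟨⟨_, h2⟩, fun _ => rfl⟩
    · exact ⟨0, fun h => absurd h hi⟩
  choose b hb using hb
  refine isIntegral_of_relation (Algebra.adjoin E {t}) _ n b ?_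
  have h3 : ∀ i ∈ Finset.range n,
      (b i : L) * (t ^ (a * d') * θ) ^ i = t ^ (a * d' * n) * (c i * θ ^ i) := by
    intro i hi
    have hi' := Finset.mem_range.mp hi
    rw [hb i hi', mul_pow, ← pow_mul]
    have h4 : a * d' * n = a * d' * (n - i) + a * d' * i := by
      rw [← mul_add, Nat.sub_add_cancel hi'.le]
    rw [h4, pow_add]
    ring
  rw [Finset.sum_congr rfl h3, ← Finset.mul_sum, mul_pow, ← pow_mul, ← mul_add, hrelθ, mul_zero]

/-- **Integrality over the Hauptmodul line.**  If `θ` is integral over `E[j]` and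
`j · t^a = A(t)`, then `t^k · θ` is integral over `E[t]` for some `k`. -/
theorem exists_pow_mul_isIntegral (jL t θ : L) (A : Polynomial E) (a : ℕ)
    (hrel : jL * t ^ a = Polynomial.aeval t A)
    (hθ : IsIntegral (Algebra.adjoin E {jL}) θ) :
    ∃ k : ℕ, IsIntegral (Algebra.adjoin E {t}) (t ^ k * θ) := by
  obtain ⟨d, hd⟩ := exists_forall_isIntegral jL t θ A a hrel hθ
  exact ⟨a * d, hd d le_rfl⟩

/-- Monotone form: once `t^k · θ` is integral over `E[t]`, so is `t^k' · θ` for `k' ≥ k`. -/
theorem isIntegral_pow_mul_of_le (t θ : L) {k k' : ℕ} (hkk' : k ≤ k')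
    (h : IsIntegral (Algebra.adjoin E {t}) (t ^ k * θ)) :
    IsIntegral (Algebra.adjoin E {t}) (t ^ k' * θ) := by
  obtain ⟨m, rfl⟩ := Nat.exists_eq_add_of_le hkk'
  have ht : IsIntegral (Algebra.adjoin E {t}) t := by
    have h1 : t ∈ Algebra.adjoin E {t} := Algebra.subset_adjoin (Set.mem_singleton t)
    exact isIntegral_algebraMap (x := (⟨t, h1⟩ : Algebra.adjoin E {t}))
  have h2 : t ^ (k + m) * θ = t ^ m * (t ^ k * θ) := by ring
  rw [h2]
  exact (ht.pow m).mul h

/-- The level-2 Hauptmodul relation `j · t² = (t + 256)³`. -/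
theorem exists_pow_mul_isIntegral_two (jL t θ : L) (hrel : jL * t ^ 2 = (t + 256) ^ 3)
    (hθ : IsIntegral (Algebra.adjoin E {jL}) θ) :
    ∃ k : ℕ, IsIntegral (Algebra.adjoin E {t}) (t ^ k * θ) := by
  refine exists_pow_mul_isIntegral jL t θ ((Polynomial.X + Polynomial.C 256) ^ 3) 2 ?_ hθ
  rw [hrel]
  simp [map_ofNat]

/-- The level-3 Hauptmodul relation `j · t³ = (t + 27)(t + 243)³`. -/
theorem exists_pow_mul_isIntegral_three (jL t θ : L)
    (hrel : jL * t ^ 3 = (t + 27) * (t + 243) ^ 3)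
    (hθ : IsIntegral (Algebra.adjoin E {jL}) θ) :
    ∃ k : ℕ, IsIntegral (Algebra.adjoin E {t}) (t ^ k * θ) := by
  refine exists_pow_mul_isIntegral jL t θ
    ((Polynomial.X + Polynomial.C 27) * (Polynomial.X + Polynomial.C 243) ^ 3) 3 ?_ hθ
  rw [hrel]
  simp [map_ofNat]

/-! ### The discriminant-type product of the conjugates of `t^k · θ` -/

/-- Scaling all conjugates by a common factor scales the product of their differences. -/
theorem prod_pow_mul {R ι : Type*} [CommRing R] [Fintype ι] [DecidableEq ι] (s : R) (x : ι → R) :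
    (∏ i, ∏ j ∈ Finset.univ.erase i, (s * x i - s * x j))
      = s ^ (Fintype.card ι * (Fintype.card ι - 1)) *
        ∏ i, ∏ j ∈ Finset.univ.erase i, (x i - x j) := by
  have h1 : ∀ i : ι, (∏ j ∈ Finset.univ.erase i, (s * x i - s * x j))
      = s ^ (Fintype.card ι - 1) * ∏ j ∈ Finset.univ.erase i, (x i - x j) := by
    intro i
    have h2 : ∀ j ∈ Finset.univ.erase i, s * x i - s * x j = s * (x i - x j) :=
      fun j _ => by ring
    rw [Finset.prod_congr rfl h2, Finset.prod_mul_distrib, Finset.prod_const,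
      Finset.card_erase_of_mem (Finset.mem_univ i), Finset.card_univ]
  rw [Finset.prod_congr rfl fun i _ => h1 i, Finset.prod_mul_distrib, Finset.prod_const,
    Finset.card_univ, ← pow_mul, mul_comm (Fintype.card ι - 1)]

/-- The conjugates of `t^k · θ` under algebra homomorphisms fixing `t`. -/
theorem prod_conj_pow_mul {K₁ : Type*} [Field K₁] [Algebra K₁ L] {ι : Type*} [Fintype ι]
    [DecidableEq ι] (σ : ι → L →ₐ[K₁] L) (t₁ : K₁) (k : ℕ) (θ : L) :
    (∏ i, ∏ j ∈ Finset.univ.erase i,
        (σ i (algebraMap K₁ L t₁ ^ k * θ) - σ j (algebraMap K₁ L t₁ ^ k * θ)))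
      = algebraMap K₁ L t₁ ^ (k * (Fintype.card ι * (Fintype.card ι - 1))) *
        ∏ i, ∏ j ∈ Finset.univ.erase i, (σ i θ - σ j θ) := by
  have h : ∀ i, σ i (algebraMap K₁ L t₁ ^ k * θ) = algebraMap K₁ L t₁ ^ k * σ i θ := by
    intro i
    rw [map_mul, map_pow, AlgHom.commutes]
  simp only [h]
  rw [prod_pow_mul, ← pow_mul]

end Fermat.Agent.S48.G1.K1.HauptInt
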