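import Mathlib
import Fermat.Agent.S48.G1.HauptK1Gen
import Fermat.Agent.S30.Haupt.BaseChange

/-!
# PROGRAM DS (S48) / G1, area K, row K.6: `(K1E)` over a Hauptmodul base from TSD inputs

Companion of `S48/G1/HauptK1Gen.lean` (which consumes `Model.GaussUnram π j`): the same exits
from the TRACE-SELF-DUALITY forms delivered by the tower rows of area K (K.2), for ANY subfield
`L` of `E((q))` containing `h₂ = 1/s₂` (resp. `h₃ = 1/s₃`):

* `k1E_two_of_tsd_t`, `k1E_three_of_tsd_t` : from `Model.GaussTSD π t` and `Model.HorizTSD S t`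
  at the Hauptmodul base `t = h_r` itself (tower run over the Hauptmodul line);
* `k1E_two_of_tsd_t'`, `k1E_three_of_tsd_t'` : same with `Model.HorizUnram S t`;
* `k1E_two_of_tsd_j`, `k1E_three_of_tsd_j` : from `Model.GaussTSD π j` at the base `j` (tower run
  over the `j`-line) and `Model.HorizUnram S t`; the change of base `j ↦ h_r` of trace
  self-duality is the landed `S30/Haupt/BaseChange.level_two/_three` (needs `2 ∈ Oˣ` resp.
  `3 ∈ Oˣ`).
-/

set_option autoImplicit false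
set_option linter.unusedSectionVars false
set_option linter.style.haveILetI false

open ModularCurve AlgebraicCurve Polynomial

noncomputable section

namespace Fermat.Agent.S48.G1.K1.HauptTSD

open Fermat.Agent.S18.K1Defs Fermat.Agent.S18.K1Main Fermat.Agent.S30
open Fermat.Agent.S48.G1.HauptK1Gen

variable {O E : Type} [CommRing O] [IsDomain O] [IsDiscreteValuationRing O]
  [Field E] [CharZero E] [Algebra ℚ E] [Algebra O E] [IsFractionRing O E]
  (L : IntermediateField E (LaurentSeries E)) [Algebra O L] [IsScalarTower O E L]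

/-- `h₂ = ι(invO s2Z)`: the integral model of `h₂` in any subfield of `E((q))`. -/
theorem coe_h2_eq_iota (tL : L) (ht : (tL : LaurentSeries E) = (coeffEmb E Haupt.Two.s2)⁻¹) :
    (tL : LaurentSeries E) = GaussDVR.iota O E (E2G1Aux.invO O Haupt.Two.s2Z) := by
  rw [ht, Haupt.Two.s2_eq_emb]
  exact E2G1Aux.inv_coeffEmb_eq_iota Haupt.Two.s2Z Haupt.Two.coeff_zero_s2Z
    Haupt.Two.coeff_one_s2Z

/-- `h₃ = ι(invO s3Z)`: the integral model of `h₃` in any subfield of `E((q))`. -/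
theorem coe_h3_eq_iota (tL : L) (ht : (tL : LaurentSeries E) = (coeffEmb E Haupt.Three.s3)⁻¹) :
    (tL : LaurentSeries E) = GaussDVR.iota O E (E2G1Aux.invO O Haupt.Three.s3Z) := by
  rw [ht]
  exact E2G1Aux.inv_coeffEmb_eq_iota Haupt.Three.s3Z Haupt.Three.coeff_zero_s3Z
    Haupt.Three.coeff_one_s3Z

omit [CharZero E] in
/-- `h₂` has a pole at `q = 0`. -/
theorem order_h2_neg (tL : L) (ht : (tL : LaurentSeries E) = (coeffEmb E Haupt.Two.s2)⁻¹) :
    (tL : LaurentSeries E).order < 0 := by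
  rw [ht, Haupt.Two.s2_eq_emb, E2G1Aux.coeffEmb_ofPowerSeries,
    inv_eq_of_mul_eq_one_left (E2G1Aux.coeffMap_invZ_mul (Int.castRingHom E) Haupt.Two.s2Z
      Haupt.Two.coeff_zero_s2Z Haupt.Two.coeff_one_s2Z)]
  exact E2G1Aux.order_coeffMap_invZ_neg _ _

omit [CharZero E] in
/-- `h₃` has a pole at `q = 0`. -/
theorem order_h3_neg (tL : L) (ht : (tL : LaurentSeries E) = (coeffEmb E Haupt.Three.s3)⁻¹) :
    (tL : LaurentSeries E).order < 0 := by
  have hs : Haupt.Three.s3 =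
      HahnSeries.ofPowerSeries ℤ ℚ (Haupt.Three.s3Z.map (Int.castRingHom ℚ)) := rfl
  rw [ht, hs, E2G1Aux.coeffEmb_ofPowerSeries,
    inv_eq_of_mul_eq_one_left (E2G1Aux.coeffMap_invZ_mul (Int.castRingHom E) Haupt.Three.s3Z
      Haupt.Three.coeff_zero_s3Z Haupt.Three.coeff_one_s3Z)]
  exact E2G1Aux.order_coeffMap_invZ_neg _ _

omit [CharZero E] in
/-- `h₂` is transcendental over `E`. -/
theorem transcendental_h2 (tL : L) (ht : (tL : LaurentSeries E) = (coeffEmb E Haupt.Two.s2)⁻¹) :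
    Transcendental E tL :=
  transcendental_of_order_neg L tL (order_h2_neg L tL ht)

omit [CharZero E] in
/-- `h₃` is transcendental over `E`. -/
theorem transcendental_h3 (tL : L)
    (ht : (tL : LaurentSeries E) = (coeffEmb E Haupt.Three.s3)⁻¹) :
    Transcendental E tL :=
  transcendental_of_order_neg L tL (order_h3_neg L tL ht)

/-! ### Inputs at the Hauptmodul base -/

/-- **`(K1E)` over the base `h₂`** from the trace-self-duality inputs at `t = h₂`. -/
theorem k1E_two_of_tsd_t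
    (hfrac : ∀ x : L, (x : LaurentSeries E) ∈ GaussDVR.fracField O E)
    (tL : L) (ht : (tL : LaurentSeries E) = (coeffEmb E Haupt.Two.s2)⁻¹)
    [FiniteDimensional (IntermediateField.adjoin E {tL}) L]
    (hgauss : ∀ π : O, Irreducible π → Model.GaussTSD (E := E) π tL)
    (S : Finset O) (hS : ∀ c ∈ S, ∀ c' ∈ S, c ≠ c' → IsUnit (c - c'))
    (hhoriz : Model.HorizTSD (E := E) S tL)
    (p : ℕ) (hp : p.Prime) (hpO : IsUnit (p : O)) (ζ : O) (hζ : IsPrimitiveRoot ζ p) :
    K1E O E L p := by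
  obtain ⟨π, hπ⟩ := IsDiscreteValuationRing.exists_irreducible O
  exact k1E_of_inputs_tsd L hfrac π hπ tL (E2G1Aux.invO O Haupt.Two.s2Z) (coe_h2_eq_iota L tL ht)
    (E2G1Aux.order_rho_invO_neg Haupt.Two.s2Z) (hgauss π hπ) S hS hhoriz p hp hpO ζ hζ
    (fun g hg hord => Fermat.Agent.S18.LocPow.locPow_of_dvd_ord tL
      (transcendental_h2 L tL ht) p g hg hord)

/-- **`(K1E)` over the base `h₃`** from the trace-self-duality inputs at `t = h₃`. -/
theorem k1E_three_of_tsd_t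
    (hfrac : ∀ x : L, (x : LaurentSeries E) ∈ GaussDVR.fracField O E)
    (tL : L) (ht : (tL : LaurentSeries E) = (coeffEmb E Haupt.Three.s3)⁻¹)
    [FiniteDimensional (IntermediateField.adjoin E {tL}) L]
    (hgauss : ∀ π : O, Irreducible π → Model.GaussTSD (E := E) π tL)
    (S : Finset O) (hS : ∀ c ∈ S, ∀ c' ∈ S, c ≠ c' → IsUnit (c - c'))
    (hhoriz : Model.HorizTSD (E := E) S tL)
    (p : ℕ) (hp : p.Prime) (hpO : IsUnit (p : O)) (ζ : O) (hζ : IsPrimitiveRoot ζ p) :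
    K1E O E L p := by
  obtain ⟨π, hπ⟩ := IsDiscreteValuationRing.exists_irreducible O
  exact k1E_of_inputs_tsd L hfrac π hπ tL (E2G1Aux.invO O Haupt.Three.s3Z)
    (coe_h3_eq_iota L tL ht) (E2G1Aux.order_rho_invO_neg Haupt.Three.s3Z) (hgauss π hπ) S hS
    hhoriz p hp hpO ζ hζ
    (fun g hg hord => Fermat.Agent.S18.LocPow.locPow_of_dvd_ord tL
      (transcendental_h3 L tL ht) p g hg hord)

/-- `k1E_two_of_tsd_t` with hypothesis (ii) in the family form `Model.HorizUnram`. -/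
theorem k1E_two_of_tsd_t'
    (hfrac : ∀ x : L, (x : LaurentSeries E) ∈ GaussDVR.fracField O E)
    (tL : L) (ht : (tL : LaurentSeries E) = (coeffEmb E Haupt.Two.s2)⁻¹)
    [FiniteDimensional (IntermediateField.adjoin E {tL}) L]
    (hgauss : ∀ π : O, Irreducible π → Model.GaussTSD (E := E) π tL)
    (S : Finset O) (hS : ∀ c ∈ S, ∀ c' ∈ S, c ≠ c' → IsUnit (c - c'))
    (hhoriz : Model.HorizUnram (E := E) S tL)
    (p : ℕ) (hp : p.Prime) (hpO : IsUnit (p : O)) (ζ : O) (hζ : IsPrimitiveRoot ζ p) :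
    K1E O E L p :=
  k1E_two_of_tsd_t L hfrac tL ht hgauss S hS
    (horizTSD_of_horizUnram tL (transcendental_h2 L tL ht) S hhoriz) p hp hpO ζ hζ

/-- `k1E_three_of_tsd_t` with hypothesis (ii) in the family form `Model.HorizUnram`. -/
theorem k1E_three_of_tsd_t'
    (hfrac : ∀ x : L, (x : LaurentSeries E) ∈ GaussDVR.fracField O E)
    (tL : L) (ht : (tL : LaurentSeries E) = (coeffEmb E Haupt.Three.s3)⁻¹)
    [FiniteDimensional (IntermediateField.adjoin E {tL}) L]
    (hgauss : ∀ π : O, Irreducible π → Model.GaussTSD (E := E) π tL)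
    (S : Finset O) (hS : ∀ c ∈ S, ∀ c' ∈ S, c ≠ c' → IsUnit (c - c'))
    (hhoriz : Model.HorizUnram (E := E) S tL)
    (p : ℕ) (hp : p.Prime) (hpO : IsUnit (p : O)) (ζ : O) (hζ : IsPrimitiveRoot ζ p) :
    K1E O E L p :=
  k1E_three_of_tsd_t L hfrac tL ht hgauss S hS
    (horizTSD_of_horizUnram tL (transcendental_h3 L tL ht) S hhoriz) p hp hpO ζ hζ

/-! ### Gauss input at the base `j` -/

/-- `h₂ ≠ 0`. -/
theorem h2_ne_zero (tL : L) (ht : (tL : LaurentSeries E) = (coeffEmb E Haupt.Two.s2)⁻¹) :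
    tL ≠ 0 := by
  intro h0
  have h1 : (tL : LaurentSeries E) = 0 := by rw [h0]; rfl
  rw [ht, inv_eq_zero] at h1
  exact coeffEmb_s2_ne_zero h1

/-- `h₃ ≠ 0`. -/
theorem h3_ne_zero (tL : L) (ht : (tL : LaurentSeries E) = (coeffEmb E Haupt.Three.s3)⁻¹) :
    tL ≠ 0 := by
  intro h0
  have h1 : (tL : LaurentSeries E) = 0 := by rw [h0]; rfl
  rw [ht, inv_eq_zero] at h1
  exact coeffEmb_s3_ne_zero h1

/-- **Change of base `j ↦ h₂` for hypothesis (i), TSD form** (`2 ∈ Oˣ`). -/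
theorem gaussTSD_h2_of_j (π : O) (hπ : Irreducible π) (h2 : IsUnit (2 : O))
    (jL tL : L) (hj : (jL : LaurentSeries E) = coeffEmb E jq)
    (ht : (tL : LaurentSeries E) = (coeffEmb E Haupt.Two.s2)⁻¹)
    [FiniteDimensional (IntermediateField.adjoin E {jL}) L]
    (hi : Model.GaussTSD (E := E) π jL) :
    FiniteDimensional (IntermediateField.adjoin E {tL}) L ∧ Model.GaussTSD (E := E) π tL := by
  obtain ⟨-, hFD, hTSD, -⟩ := Haupt.BaseChange.level_two π hπ jL tL (transcendental_j L jL hj)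
    (h2_ne_zero L tL ht) (j_mul_h2 L jL tL hj ht) h2
  exact ⟨hFD, hTSD hi⟩

/-- **Change of base `j ↦ h₃` for hypothesis (i), TSD form** (`3 ∈ Oˣ`). -/
theorem gaussTSD_h3_of_j (π : O) (hπ : Irreducible π) (h3 : IsUnit (3 : O))
    (jL tL : L) (hj : (jL : LaurentSeries E) = coeffEmb E jq)
    (ht : (tL : LaurentSeries E) = (coeffEmb E Haupt.Three.s3)⁻¹)
    [FiniteDimensional (IntermediateField.adjoin E {jL}) L]
    (hi : Model.GaussTSD (E := E) π jL) :
    FiniteDimensional (IntermediateField.adjoin E {tL}) L ∧ Model.GaussTSD (E := E) π tL := by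
  obtain ⟨-, hFD, hTSD, -⟩ := Haupt.BaseChange.level_three π hπ jL tL (transcendental_j L jL hj)
    (h3_ne_zero L tL ht) (j_mul_h3 L jL tL hj ht) h3
  exact ⟨hFD, hTSD hi⟩

/-- **`(K1E)` over the base `h₂`** from `Model.GaussTSD π j` at the base `j` and
`Model.HorizUnram S h₂`. -/
theorem k1E_two_of_tsd_j
    (hfrac : ∀ x : L, (x : LaurentSeries E) ∈ GaussDVR.fracField O E)
    (jL tL : L) (hj : (jL : LaurentSeries E) = coeffEmb E jq)
    (ht : (tL : LaurentSeries E) = (coeffEmb E Haupt.Two.s2)⁻¹)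
    [FiniteDimensional (IntermediateField.adjoin E {jL}) L]
    (hgauss : ∀ π : O, Irreducible π → Model.GaussTSD (E := E) π jL)
    (S : Finset O) (hS : ∀ c ∈ S, ∀ c' ∈ S, c ≠ c' → IsUnit (c - c'))
    (hhoriz : Model.HorizUnram (E := E) S tL) (h2 : IsUnit (2 : O))
    (p : ℕ) (hp : p.Prime) (hpO : IsUnit (p : O)) (ζ : O) (hζ : IsPrimitiveRoot ζ p) :
    K1E O E L p := by
  obtain ⟨π₀, hπ₀⟩ := IsDiscreteValuationRing.exists_irreducible O
  haveI := (gaussTSD_h2_of_j L π₀ hπ₀ h2 jL tL hj ht (hgauss π₀ hπ₀)).1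
  exact k1E_two_of_tsd_t' L hfrac tL ht
    (fun π hπ => (gaussTSD_h2_of_j L π hπ h2 jL tL hj ht (hgauss π hπ)).2) S hS hhoriz p hp hpO
    ζ hζ

/-- **`(K1E)` over the base `h₃`** from `Model.GaussTSD π j` at the base `j` and
`Model.HorizUnram S h₃`. -/
theorem k1E_three_of_tsd_j
    (hfrac : ∀ x : L, (x : LaurentSeries E) ∈ GaussDVR.fracField O E)
    (jL tL : L) (hj : (jL : LaurentSeries E) = coeffEmb E jq)
    (ht : (tL : LaurentSeries E) = (coeffEmb E Haupt.Three.s3)⁻¹)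
    [FiniteDimensional (IntermediateField.adjoin E {jL}) L]
    (hgauss : ∀ π : O, Irreducible π → Model.GaussTSD (E := E) π jL)
    (S : Finset O) (hS : ∀ c ∈ S, ∀ c' ∈ S, c ≠ c' → IsUnit (c - c'))
    (hhoriz : Model.HorizUnram (E := E) S tL) (h3 : IsUnit (3 : O))
    (p : ℕ) (hp : p.Prime) (hpO : IsUnit (p : O)) (ζ : O) (hζ : IsPrimitiveRoot ζ p) :
    K1E O E L p := by
  obtain ⟨π₀, hπ₀⟩ := IsDiscreteValuationRing.exists_irreducible O
  haveI := (gaussTSD_h3_of_j L π₀ hπ₀ h3 jL tL hj ht (hgauss π₀ hπ₀)).1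
  exact k1E_three_of_tsd_t' L hfrac tL ht
    (fun π hπ => (gaussTSD_h3_of_j L π hπ h3 jL tL hj ht (hgauss π hπ)).2) S hS hhoriz p hp hpO
    ζ hζ

end Fermat.Agent.S48.G1.K1.HauptTSD
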