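/-
S48 / G1, AREA K, row `DS.G1.K.HolIntGen` (helper109): level-free "holomorphic ⇒ integral".

`isIntegral_of_holEmb`: let `L / E(u)` be a finite extension of fields (`u` plays the role of
`j`), `ι : E →+* ℂ`, and let `ρ i : L →+* Frac(HolH)` (`i : I`, `I` finite) be pairwise distinct
ring homomorphisms into the fraction field of the ring of holomorphic functions on `ℍ` which
are `ι` on constants and send `u` to the modular invariant `j`, with `[L : E(u)] ≤ |I|`
(literally the hypotheses of `HorizOfEmb.horizUnram_of_holEmb`).  If every `ρ i f` is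
holomorphic on `ℍ`, then `f` is integral over `E[u]`.

Only holomorphy on `ℍ` is used: no expansion at any cusp.  Proof: the Taylor embeddings
`tayFrac τ0 ∘ ρ i` at a point `τ0` are all the embeddings of `L` over `E(u)`, so the coefficients
of the minimal polynomial of `f` have power-series Taylor expansions at every point
(`S36.HolInt.coeff_minpoly_mem_of_embeddings`); a rational function of `j` with this property is
a polynomial in `j` (`j : ℍ → ℂ` is surjective).

* `transcendental_of_holEmb`, `exists_aeval_of_holEmb` : the two soft facts used.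
* `exists_monic_poly_of_isIntegral`, `isIntegral_of_monic_poly` : the dictionary with the
  two-variable polynomial form `P ∈ E[X][Y]` monic in `Y`, `P(u, f) = 0` (the shape of
  `K1.Bricks.FIn.Int`).
* `isIntegral_map_of_monic_poly` : base change of such a relation along a ring homomorphism
  (e.g. `coeffEmb E : ℚ((q)) → E((q))`).
-/
import Fermat.Agent.S48.G1.HorizOfEmb
import Fermat.Agent.S36.HolInt

set_option autoImplicit false
set_option linter.style.haveILetI false

noncomputable section

namespace Fermat.Agent.S48.G1.K1.HolIntGen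

open UpperHalfPlane Polynomial IntermediateField
open Fermat.Agent.S24.HolH Fermat.Agent.S24.JHol Fermat.Agent.S24.JFun
open Fermat.Agent.S30.Ramif.TaylorEmb Fermat.Agent.S30.E2.HorizTaylor
open Fermat.Agent.S48.G1.HorizOfEmb

/-! ### The dictionary `IsIntegral E[u]` ↔ two-variable monic relation (pure algebra) -/

section Dictionary

variable {E L : Type*} [Field E] [CommRing L] [Algebra E L]

/-- The surjection `E[X] → E[u]`. -/
def toAdjoin (u : L) : E[X] →+* Algebra.adjoin E {u} :=
  ((aeval u : E[X] →ₐ[E] L).codRestrict (Algebra.adjoin E {u}) (fun g => by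
    rw [Algebra.adjoin_singleton_eq_range_aeval]
    exact ⟨g, rfl⟩)).toRingHom

theorem coe_toAdjoin (u : L) (g : E[X]) : ((toAdjoin u g : Algebra.adjoin E {u}) : L) = aeval u g :=
  rfl

theorem toAdjoin_surjective (u : L) : Function.Surjective (toAdjoin (E := E) u) := by
  rintro ⟨x, hx⟩
  rw [Algebra.adjoin_singleton_eq_range_aeval] at hx
  obtain ⟨g, rfl⟩ := hx
  exact ⟨g, Subtype.ext rfl⟩

theorem algebraMap_comp_toAdjoin (u : L) :
    (algebraMap (Algebra.adjoin E {u}) L).comp (toAdjoin u) =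
      Polynomial.eval₂RingHom (algebraMap E L) u := by
  refine RingHom.ext fun g => ?_
  show ((toAdjoin u g : Algebra.adjoin E {u}) : L) = eval₂ (algebraMap E L) u g
  rw [coe_toAdjoin, aeval_def]

/-- An element integral over `E[u]` satisfies a relation `P(u, f) = 0` with `P ∈ E[X][Y]` monic
in `Y`. -/
theorem exists_monic_poly_of_isIntegral (u f : L) (h : IsIntegral (Algebra.adjoin E {u}) f) :
    ∃ P : Polynomial (Polynomial E), P.Monic ∧
      P.eval₂ (Polynomial.eval₂RingHom (algebraMap E L) u) f = 0 := by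
  obtain ⟨Q, hQmonic, hQ⟩ := h
  have hlift : Q ∈ Polynomial.lifts (toAdjoin (E := E) u) := by
    rw [Polynomial.lifts_iff_coeff_lifts]
    intro n
    exact toAdjoin_surjective u (Q.coeff n)
  obtain ⟨P, hP, -, hPmonic⟩ := Polynomial.lifts_and_natDegree_eq_and_monic hlift hQmonic
  refine ⟨P, hPmonic, ?_⟩
  rw [← algebraMap_comp_toAdjoin, ← Polynomial.eval₂_map, hP]
  exact hQ

/-- Conversely, a relation `P(u, f) = 0` with `P ∈ E[X][Y]` monic in `Y` makes `f` integral over
`E[u]`. -/
theorem isIntegral_of_monic_poly (u f : L) (P : Polynomial (Polynomial E)) (hP : P.Monic)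
    (h0 : P.eval₂ (Polynomial.eval₂RingHom (algebraMap E L) u) f = 0) :
    IsIntegral (Algebra.adjoin E {u}) f := by
  refine ⟨P.map (toAdjoin u), hP.map _, ?_⟩
  rw [Polynomial.eval₂_map, algebraMap_comp_toAdjoin]
  exact h0

/-- **Base change of an integrality relation.**  `φ : L₀ → L` a ring homomorphism over
`E₀ → E` (constants of `L₀` given by any ring homomorphism `c₀`): a relation `P(u, f) = 0` in
`L₀`, `P ∈ E₀[X][Y]` monic in `Y`, makes `φ f` integral over `E[φ u]`. -/
theorem isIntegral_map_of_monic_poly {E₀ L₀ : Type*} [CommRing E₀] [CommRing L₀]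
    (c₀ : E₀ →+* L₀) (e : E₀ →+* E) (φ : L₀ →+* L)
    (hφ : ∀ a : E₀, φ (c₀ a) = algebraMap E L (e a)) (u f : L₀)
    (P : Polynomial (Polynomial E₀)) (hP : P.Monic)
    (h0 : P.eval₂ (Polynomial.eval₂RingHom c₀ u) f = 0) :
    IsIntegral (Algebra.adjoin E {φ u}) (φ f) := by
  refine isIntegral_of_monic_poly (φ u) (φ f) (P.map (Polynomial.mapRingHom e)) (hP.map _) ?_
  rw [Polynomial.eval₂_map]
  have hcomp : (Polynomial.eval₂RingHom (algebraMap E L) (φ u)).comp (Polynomial.mapRingHom e) =
      φ.comp (Polynomial.eval₂RingHom c₀ u) := by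
    refine Polynomial.ringHom_ext (fun a => ?_) ?_
    · simp [hφ]
    · simp
  rw [hcomp, ← Polynomial.hom_eval₂, h0, map_zero]

end Dictionary

/-! ### Holomorphic realisations -/

variable {E L : Type} [Field E] [Field L] [Algebra E L]

/-- The value of a Taylor embedding on a polynomial in `u`. -/
theorem emb_aeval (ι : E →+* ℂ) (τ0 : ℍ) {I : Type*} (ρ : I → L →+* FractionRing HolH) (u : L)
    (hρE : ∀ i a, ρ i (algebraMap E L a) =
      algebraMap HolH (FractionRing HolH) (algebraMap ℂ HolH (ι a)))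
    (hρu : ∀ i, ρ i u = algebraMap HolH (FractionRing HolH) jHol) (i : I) (g : E[X]) :
    emb τ0 ρ i (aeval u g) =
      HahnSeries.ofPowerSeries ℤ ℂ (aeval (taylorHol τ0 jHol) (g.map ι)) :=
  Fermat.Agent.S30.E2.HorizGen.map_aeval_eq ι (taylorHol τ0 jHol) (emb τ0 ρ i) u
    (emb_algebraMap ι τ0 ρ hρE i) (emb_u τ0 ρ u hρu i) g

/-- The constant coefficient of the Taylor expansion of a polynomial in `j`. -/
theorem constantCoeff_aeval_taylor (ι : E →+* ℂ) (τ0 : ℍ) (g : E[X]) :
    PowerSeries.constantCoeff (aeval (taylorHol τ0 jHol) (g.map ι)) =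
      (g.map ι).eval (jFun τ0) := by
  rw [Fermat.Agent.S30.E2.HorizGen.constantCoeff_aeval, constantCoeff_taylorHol, jHol_apply]

/-- The Taylor expansion of an element with a holomorphic realisation is a power series. -/
theorem emb_of_hol (τ0 : ℍ) {I : Type*} (ρ : I → L →+* FractionRing HolH) (i : I) (f : L)
    (hf : ∃ h : HolH, ρ i f = algebraMap HolH (FractionRing HolH) h) :
    ∃ p : PowerSeries ℂ, emb τ0 ρ i f = HahnSeries.ofPowerSeries ℤ ℂ p := by
  obtain ⟨h, hh⟩ := hf
  exact ⟨taylorHol τ0 h, by rw [HorizOfEmb.emb, RingHom.comp_apply, hh, tayFrac_algebraMap]⟩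

/-- `u` is transcendental over `E` as soon as one realisation sends it to `j`. -/
theorem transcendental_of_holEmb (u : L) (ι : E →+* ℂ) {I : Type*}
    (ρ : I → L →+* FractionRing HolH)
    (hρE : ∀ i a, ρ i (algebraMap E L a) =
      algebraMap HolH (FractionRing HolH) (algebraMap ℂ HolH (ι a)))
    (hρu : ∀ i, ρ i u = algebraMap HolH (FractionRing HolH) jHol) (i0 : I) :
    Transcendental E u := by
  intro halg
  obtain ⟨P, hP0, hP⟩ := halg
  have h4 : ∀ τ : ℍ, (P.map ι).eval (jFun τ) = 0 := by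
    intro τ
    have h1 := congrArg (emb τ ρ i0) hP
    rw [emb_aeval ι τ ρ u hρE hρu, map_zero] at h1
    have h1' : HahnSeries.ofPowerSeries ℤ ℂ (aeval (taylorHol τ jHol) (P.map ι)) =
        HahnSeries.ofPowerSeries ℤ ℂ 0 := by
      rw [h1, map_zero]
    have h2 := HahnSeries.ofPowerSeries_injective h1'
    have h3 := congrArg PowerSeries.constantCoeff h2
    rwa [constantCoeff_aeval_taylor, map_zero] at h3
  have h7 : P.map ι = 0 := by
    apply Polynomial.funext
    intro c
    obtain ⟨τ, rfl⟩ := jFun_surjective c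
    rw [h4 τ, Polynomial.eval_zero]
  exact hP0 ((Polynomial.map_eq_zero_iff ι.injective).mp h7)

/-- A rational function of `u` whose Taylor expansion at every point of `ℍ` (through one
realisation) is a power series is a polynomial in `u`. -/
theorem exists_aeval_of_taylor (u : L) (ι : E →+* ℂ) {I : Type*}
    (ρ : I → L →+* FractionRing HolH)
    (hρE : ∀ i a, ρ i (algebraMap E L a) =
      algebraMap HolH (FractionRing HolH) (algebraMap ℂ HolH (ι a)))
    (hρu : ∀ i, ρ i u = algebraMap HolH (FractionRing HolH) jHol) (i0 : I)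
    (c : L) (hc : c ∈ E⟮u⟯)
    (h : ∀ τ0 : ℍ, ∃ p : PowerSeries ℂ, emb τ0 ρ i0 c = HahnSeries.ofPowerSeries ℤ ℂ p) :
    ∃ g : E[X], c = aeval u g := by
  classical
  have htr : Transcendental E u := transcendental_of_holEmb u ι ρ hρE hρu i0
  have hinj : Function.Injective (aeval u : E[X] → L) := transcendental_iff_injective.mp htr
  obtain ⟨r, s, hrs⟩ := (IntermediateField.mem_adjoin_simple_iff E c).mp hc
  by_cases hs : s = 0
  · refine ⟨0, ?_⟩
    rw [map_zero, hrs, hs, map_zero, div_zero]
  -- cancel the gcd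
  obtain ⟨r', hr'⟩ := EuclideanDomain.gcd_dvd_left r s
  obtain ⟨s', hs'⟩ := EuclideanDomain.gcd_dvd_right r s
  set d := EuclideanDomain.gcd r s with hd
  have hd0 : d ≠ 0 := by
    intro h0
    rw [h0, zero_mul] at hs'
    exact hs hs'
  have hs'0 : s' ≠ 0 := by
    rintro rfl
    rw [mul_zero] at hs'
    exact hs hs'
  have hcop : IsCoprime r' s' := by
    have hab := EuclideanDomain.gcd_eq_gcd_ab r s
    rw [← hd] at hab
    refine ⟨EuclideanDomain.gcdA r s, EuclideanDomain.gcdB r s, ?_⟩
    have h1 : d * (EuclideanDomain.gcdA r s * r' + EuclideanDomain.gcdB r s * s') = d * 1 := by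
      calc d * (EuclideanDomain.gcdA r s * r' + EuclideanDomain.gcdB r s * s')
          = (d * r') * EuclideanDomain.gcdA r s + (d * s') * EuclideanDomain.gcdB r s := by ring
        _ = r * EuclideanDomain.gcdA r s + s * EuclideanDomain.gcdB r s := by rw [← hr', ← hs']
        _ = d * 1 := by rw [mul_one]; exact hab.symm
    exact mul_left_cancel₀ hd0 h1
  have hjd : aeval u d ≠ 0 := fun h0 => hd0 (hinj (by rw [h0, map_zero]))
  have hjs' : aeval u s' ≠ 0 := fun h0 => hs'0 (hinj (by rw [h0, map_zero]))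
  have hc' : c * aeval u s' = aeval u r' := by
    rw [hrs, hr', hs', map_mul, map_mul]
    field_simp
  by_cases hdeg : s'.natDegree = 0
  · obtain ⟨a, ha⟩ := natDegree_eq_zero.mp hdeg
    have ha0 : a ≠ 0 := by
      rintro rfl
      rw [map_zero] at ha
      exact hs'0 ha.symm
    refine ⟨C a⁻¹ * r', ?_⟩
    rw [map_mul, aeval_C, ← hc', ← ha, aeval_C, mul_comm c, ← mul_assoc, ← map_mul,
      inv_mul_cancel₀ ha0, map_one, one_mul]
  · exfalso
    -- a root of `s'` in `ℂ`
    have hdeg' : (s'.map ι).degree ≠ 0 := by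
      rw [degree_map]
      intro h0
      exact hdeg (natDegree_eq_zero_iff_degree_le_zero.mpr h0.le)
    obtain ⟨c0, hc0⟩ := IsAlgClosed.exists_root (s'.map ι) hdeg'
    obtain ⟨τ0, hτ0⟩ := jFun_surjective c0
    obtain ⟨p, hp⟩ := h τ0
    have h1 := congrArg (emb τ0 ρ i0) hc'
    rw [map_mul, hp, emb_aeval ι τ0 ρ u hρE hρu, emb_aeval ι τ0 ρ u hρE hρu, ← map_mul] at h1
    have h2 := HahnSeries.ofPowerSeries_injective h1
    have h3 := congrArg PowerSeries.constantCoeff h2
    rw [map_mul, constantCoeff_aeval_taylor, constantCoeff_aeval_taylor, hτ0] at h3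
    have h4 : (s'.map ι).eval c0 = 0 := hc0
    rw [h4, mul_zero] at h3
    -- coprimality gives a contradiction
    obtain ⟨a, b, hab⟩ := hcop
    have h5 := congrArg (fun P : E[X] => (P.map ι).eval c0) hab
    simp only [Polynomial.map_add, Polynomial.map_mul, Polynomial.map_one, eval_add, eval_mul,
      eval_one] at h5
    rw [h4, ← h3] at h5
    simp at h5

/-- A rational function of `u` with a holomorphic realisation is a polynomial in `u`. -/
theorem exists_aeval_of_holEmb (u : L) (ι : E →+* ℂ) {I : Type*}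
    (ρ : I → L →+* FractionRing HolH)
    (hρE : ∀ i a, ρ i (algebraMap E L a) =
      algebraMap HolH (FractionRing HolH) (algebraMap ℂ HolH (ι a)))
    (hρu : ∀ i, ρ i u = algebraMap HolH (FractionRing HolH) jHol) (i0 : I)
    (c : L) (hc : c ∈ E⟮u⟯)
    (h : ∃ h : HolH, ρ i0 c = algebraMap HolH (FractionRing HolH) h) :
    ∃ g : E[X], c = aeval u g :=
  exists_aeval_of_taylor u ι ρ hρE hρu i0 c hc fun τ0 => emb_of_hol τ0 ρ i0 c h

/-- **Holomorphic ⇒ integral.**  If `L / E(u)` has `[L : E(u)]` pairwise distinct realisations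
`ρ i : L →+* Frac(HolH)` over `u ↦ j`, and every `ρ i f` is holomorphic on `ℍ`, then `f` is
integral over `E[u]`. -/
theorem isIntegral_of_holEmb (u : L) [FiniteDimensional E⟮u⟯ L] (ι : E →+* ℂ)
    {I : Type*} [Finite I] (ρ : I → L →+* FractionRing HolH) (hρ : Function.Injective ρ)
    (hdeg : Module.finrank E⟮u⟯ L ≤ Nat.card I)
    (hρE : ∀ i a, ρ i (algebraMap E L a) =
      algebraMap HolH (FractionRing HolH) (algebraMap ℂ HolH (ι a)))
    (hρu : ∀ i, ρ i u = algebraMap HolH (FractionRing HolH) jHol)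
    (f : L) (hf : ∀ i, ∃ h : HolH, ρ i f = algebraMap HolH (FractionRing HolH) h) :
    IsIntegral (Algebra.adjoin E {u}) f := by
  classical
  haveI : CharZero E := (RingHom.charZero_iff ι.injective).mpr inferInstance
  have hcard : Nat.card I = Module.finrank E⟮u⟯ L :=
    (finrank_eq_card u ι ρ hρ hdeg hρE hρu).symm
  have hpos : 0 < Module.finrank E⟮u⟯ L := Module.finrank_pos
  have hne : Nonempty I := by
    by_contra hne
    rw [not_nonempty_iff] at hne
    rw [Nat.card_of_isEmpty] at hcard
    omega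
  obtain ⟨i0⟩ := hne
  -- every coefficient of the minimal polynomial is a polynomial in `u`
  have hcoeff : ∀ n : ℕ, ∃ g : E[X],
      (((minpoly E⟮u⟯ f).coeff n : E⟮u⟯) : L) = aeval u g := by
    intro n
    refine exists_aeval_of_taylor u ι ρ hρE hρu i0 _ ((minpoly E⟮u⟯ f).coeff n).2 fun τ0 => ?_
    exact Fermat.Agent.S36.HolInt.coeff_minpoly_mem_of_embeddings
      ((emb τ0 ρ i0).comp (algebraMap E⟮u⟯ L)) hcard (emb τ0 ρ)
      (emb_injective τ0 ρ hρ)
      (fun i c => eq_on_adjoin u (emb τ0 ρ i) (emb τ0 ρ i0)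
        (fun a => by rw [emb_algebraMap ι τ0 ρ hρE, emb_algebraMap ι τ0 ρ hρE])
        (by rw [emb_u τ0 ρ u hρu, emb_u τ0 ρ u hρu]) c)
      f (fun i => emb_of_hol τ0 ρ i f (hf i)) n
  -- lift the minimal polynomial to `E[u]`
  have hint : IsIntegral E⟮u⟯ f := IsIntegral.of_finite _ f
  set M : L[X] := (minpoly E⟮u⟯ f).map (algebraMap E⟮u⟯ L) with hM
  have hMmonic : M.Monic := (minpoly.monic hint).map _
  have hlift : M ∈ Polynomial.lifts (algebraMap (Algebra.adjoin E {u}) L) := by
    rw [Polynomial.lifts_iff_coeff_lifts]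
    intro n
    obtain ⟨g, hg⟩ := hcoeff n
    refine ⟨⟨aeval u g, ?_⟩, ?_⟩
    · rw [Algebra.adjoin_singleton_eq_range_aeval]
      exact ⟨g, rfl⟩
    · rw [hM, coeff_map]
      exact hg.symm
  obtain ⟨Q, hQ, -, hQmonic⟩ := Polynomial.lifts_and_natDegree_eq_and_monic hlift hMmonic
  refine ⟨Q, hQmonic, ?_⟩
  rw [← eval_map, hQ, hM, eval_map, ← aeval_def]
  exact minpoly.aeval _ f

/-- **Holomorphic ⇒ integral**, two-variable polynomial form (the shape of
`K1.Bricks.FIn.Int`). -/
theorem exists_monic_poly_of_holEmb (u : L) [FiniteDimensional E⟮u⟯ L] (ι : E →+* ℂ)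
    {I : Type*} [Finite I] (ρ : I → L →+* FractionRing HolH) (hρ : Function.Injective ρ)
    (hdeg : Module.finrank E⟮u⟯ L ≤ Nat.card I)
    (hρE : ∀ i a, ρ i (algebraMap E L a) =
      algebraMap HolH (FractionRing HolH) (algebraMap ℂ HolH (ι a)))
    (hρu : ∀ i, ρ i u = algebraMap HolH (FractionRing HolH) jHol)
    (f : L) (hf : ∀ i, ∃ h : HolH, ρ i f = algebraMap HolH (FractionRing HolH) h) :
    ∃ P : Polynomial (Polynomial E), P.Monic ∧
      P.eval₂ (Polynomial.eval₂RingHom (algebraMap E L) u) f = 0 :=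
  exists_monic_poly_of_isIntegral u f (isIntegral_of_holEmb u ι ρ hρ hdeg hρE hρu f hf)

end Fermat.Agent.S48.G1.K1.HolIntGen
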