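/-
S48 / G1, AREA K, row K.3, final step (helper70): the UNCONDITIONAL horizontal inputs for
`L1 M E = F₁(M)·E`, every `M ≥ 2` and every intermediate field `E ⊆ ℚ̄`.

`HolEmb1.holEmb1` discharges the one-Prop input sheet `Bricks.FIn.HolEmb M`.  Consequences
(instances of `K1/HorizJ.lean`): hypothesis (ii) of the Model theorem over the `j`-line
(`S ∋ 0, 1728`) and over the Hauptmodul bases of level `2`, `3`, and the degree of `L1 M E` over
`E(j)`.
-/
import Fermat.Agent.S48.G1.K1.HolEmb1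
import Fermat.Agent.S48.G1.K1.HorizJ

set_option autoImplicit false
set_option linter.style.haveILetI false
set_option synthInstance.maxHeartbeats 400000

noncomputable section

namespace Fermat.Agent.S48.G1.K1.HorizInst

open ModularCurve IntermediateField
open Fermat.Agent.S24.HolH Fermat.Agent.S24.JHol Fermat.Agent.S24.Theta
open Fermat.Agent.S30.E2.Degree.Abs
open Fermat.Agent.S48.G1.F1 Fermat.Agent.S48.G1.K1.Bricks

local notation "Qb" => AlgebraicClosure ℚ

variable (M : ℕ) (hM : 2 ≤ M) (E : IntermediateField ℚ Qb)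

include hM

/-- **Hypothesis (ii) over the `j`-line for `L1 M E`**, `S ∋ 0, 1728`. -/
theorem horizUnram_jE1 {O : Type*} [CommRing O] [Algebra O E] (S : Finset O)
    (h0 : ∃ c ∈ S, algebraMap O E c = 0) (h1728 : ∃ c ∈ S, algebraMap O E c = 1728) :
    Fermat.Agent.S30.Model.HorizUnram (E := E) S (jE1 M E) :=
  HorizJ.horizUnram_j M (HolEmb1.holEmb1 M hM) E (jE1 M E) rfl S h0 h1728

/-- `L1 M E` is finite over `E(j)`. -/
theorem finite_jE1 : FiniteDimensional (IntermediateField.adjoin E {jE1 M E}) (L1 M E) :=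
  (HorizJ.degE M (HolEmb1.holEmb1 M hM) E).1

/-- `[L1 M E : E(j)] = ψ(M) · |(ℤ/M)ˣ/±1|`. -/
theorem finrank_jE1 :
    Module.finrank (IntermediateField.adjoin E {jE1 M E}) (L1 M E) =
      dedekindPsi M * FIn.hCard M :=
  (HorizJ.degE M (HolEmb1.holEmb1 M hM) E).2

/-- **Hypothesis (ii) over the Hauptmodul base of level `2` for `L1 M E`**, `S ∋ 0, -64`. -/
theorem horizUnram_two1 (jL t : L1 M E) (hj : (jL : LaurentSeries E) = coeffEmb E jq)
    (hrel : jL * t ^ 2 = (t + 256) ^ 3)
    {O : Type*} [CommRing O] [Algebra O E] (S : Finset O)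
    (h0 : ∃ c ∈ S, algebraMap O E c = 0) (h64 : ∃ c ∈ S, algebraMap O E c = -64) :
    Fermat.Agent.S30.Model.HorizUnram (E := E) S t :=
  HorizJ.horizUnram_two M (HolEmb1.holEmb1 M hM) E jL t hj hrel S h0 h64

/-- **Hypothesis (ii) over the Hauptmodul base of level `3` for `L1 M E`**, `S ∋ 0, -27`. -/
theorem horizUnram_three1 (jL t : L1 M E) (hj : (jL : LaurentSeries E) = coeffEmb E jq)
    (hrel : jL * t ^ 3 = (t + 27) * (t + 243) ^ 3)
    {O : Type*} [CommRing O] [Algebra O E] (S : Finset O)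
    (h0 : ∃ c ∈ S, algebraMap O E c = 0) (h27 : ∃ c ∈ S, algebraMap O E c = -27) :
    Fermat.Agent.S30.Model.HorizUnram (E := E) S t :=
  HorizJ.horizUnram_three M (HolEmb1.holEmb1 M hM) E jL t hj hrel S h0 h27

end Fermat.Agent.S48.G1.K1.HorizInst
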