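/-
S48 / G1, AREA K, row `DS.G1.K.IntRat1` (helper109): the generators `g_b` of the function field
of `Γ₁(M)` are integral over `ℚ[j]`.

* `rho1` : the coset realisations `F1 M →+* Frac(HolH)` (`= DegreeG.cosetEmbG` for `theta1`), with
  `rho1_coe`, `rho1_injective`, `rho1_algebraMap`, `rho1_j`.
* `isIntegral_embF_bc` : level-free — "holomorphic ⇒ integral over `E[j]`" for the `E`-form
  `laurentBaseChange E F₀` from a family of realisations over a big constant field `Ω` (binders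
  of `HorizBC.horizUnram_embF`).
* `isIntegral_embF_gQ1` : `g_b` is integral over `E[j]` in `laurentBaseChange E (F1Q M)`, for
  every field `E` with `Algebra E ℚ̄`.
* `exists_rat_relation_gq` : a monic relation `P(j, g_b) = 0`, `P ∈ ℚ[X][Y]`, in `ℚ((q))`
  (the shape of `K1.Bricks.FIn.Int` and of the hypothesis of `IntE.isIntegral_of_rat_relation`).
* `isIntegral_gq` : hence `g_b` is integral over `E[j]` in every subfield of `E((q))`, for
  every field `E` of characteristic zero.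

Only holomorphy of the translates of `g_b` on `ℍ` is used (`K1/HolIntGen.lean`).
-/
import Mathlib
import Fermat.Agent.S48.G1.F1.Degree1
import Fermat.Agent.S48.G1.K1.HorizBC
import Fermat.Agent.S48.G1.K1.HolIntGen
import Fermat.Agent.S48.G1.K1.IntE

set_option autoImplicit false
set_option linter.style.haveILetI false

noncomputable section

open UpperHalfPlane ModularCurve CongruenceSubgroup IntermediateField Polynomial
open scoped MatrixGroups

namespace Fermat.Agent.S48.G1.K1.IntRat1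

open Fermat.Agent.S24.HolH Fermat.Agent.S24.JHol Fermat.Agent.S24.Theta
open Fermat.Agent.S30.E2.Degree.Abs
open Fermat.Agent.S48.G1.F1 Fermat.Agent.S48.G1.F1.Theta1 Fermat.Agent.S48.G1.F1.Degree1
open Fermat.Agent.S48.G1.CosetG Fermat.Agent.S48.G1.DegreeG
open Fermat.Agent.S48.G1.K1.HorizBC Fermat.Agent.S48.G1.K1.HolIntGen

/-! ### The coset realisations of `F1 M` -/

/-- The coset realisations of `F1 M` in `Frac(HolH)`. -/
def rho1 (M : ℕ) (hM : 2 ≤ M) (x : SL(2, ℤ) ⧸ Gamma1pm M) : F1 M →+* FractionRing HolH :=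
  cosetEmbG iotaBar (A01 M) (theta1 iotaBar M hM) (Gamma1pm M) (fun a => hasQ_theta1 hM a) x

theorem rho1_coe (M : ℕ) (hM : 2 ≤ M) (x : SL(2, ℤ) ⧸ Gamma1pm M) (a : A01 M) :
    rho1 M hM x (a : F1 M) = algebraMap HolH (FractionRing HolH)
      (cosetHomG (Gamma1pm M) (theta1 iotaBar M hM) x a) :=
  cosetEmbG_coe iotaBar (A01 M) (theta1 iotaBar M hM) (Gamma1pm M)
    (fun a => hasQ_theta1 hM a) x a

theorem rho1_injective (M : ℕ) (hM : 2 ≤ M) : Function.Injective (rho1 M hM) :=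
  cosetEmbG_injective iotaBar (A01 M) (theta1 iotaBar M hM) (Gamma1pm M)
    (fun a => hasQ_theta1 hM a)
    (fun _ hγ a => compSL_theta1_of_mem_Gamma1pm iotaBar hM hγ a)
    (mem_Gamma1pm_of_compSL_theta1 iotaBar hM)

theorem rho1_algebraMap (M : ℕ) (hM : 2 ≤ M) (x : SL(2, ℤ) ⧸ Gamma1pm M) (c : Qb) :
    rho1 M hM x (algebraMap Qb (F1 M) c) =
      algebraMap HolH (FractionRing HolH) (algebraMap ℂ HolH (iotaBar c)) := by
  have h : algebraMap Qb (F1 M) c = ((algebraMap Qb (A01 M) c : A01 M) : F1 M) := rfl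
  rw [h, rho1_coe, cosetHomG_of_invariant (theta1 iotaBar M hM)
    (fun g => compSL_theta_algebraMap iotaBar (A01 M) (theta1 iotaBar M hM)
      (fun a => hasQ_theta1 hM a) g c) x, theta1_algebraMap]

theorem rho1_j (M : ℕ) (hM : 2 ≤ M) (x : SL(2, ℤ) ⧸ Gamma1pm M) (j : F1 M)
    (hj : (j : LaurentSeries Qb) = coeffEmb Qb jq) :
    rho1 M hM x j = algebraMap HolH (FractionRing HolH) jHol := by
  have hj' : j = ((jA01 M : A01 M) : F1 M) := eq_jF1 hj
  rw [hj', rho1_coe, cosetHomG_of_invariant (theta1 iotaBar M hM)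
    (fun g => compSL_theta_J iotaBar (A01 M) (theta1 iotaBar M hM) (jA01 M) (coe_jA01 M)
      (fun a => hasQ_theta1 hM a) g) x]
  congr 1
  apply Subtype.ext
  funext τ
  exact theta_J_apply iotaBar (A01 M) (theta1 iotaBar M hM) (jA01 M) (coe_jA01 M)
    (fun a => hasQ_theta1 hM a) τ

/-! ### Level-free: the `E`-form -/

section BC

variable (F₀ : IntermediateField ℚ (LaurentSeries ℚ))
variable {E Ω : Type} [Field E] [Field Ω] [Algebra ℚ E] [Algebra ℚ Ω] [Algebra E Ω]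

/-- **Holomorphic ⇒ integral, for the `E`-form**, from an `Ω`-level family of realisations
(the binders of `HorizBC.horizUnram_embF`): if every realisation of `g₀` is holomorphic on `ℍ`,
then `g₀` is integral over `E[j₀]` in `laurentBaseChange E F₀`. -/
theorem isIntegral_embF_bc (j₀ : F₀) (ιΩ : Ω →+* ℂ) {I : Type*} [Finite I]
    (ρ : I → ↥(laurentBaseChange Ω F₀) →+* FractionRing HolH) (hρ : Function.Injective ρ)
    [Module.Finite Ω⟮embF F₀ Ω j₀⟯ ↥(laurentBaseChange Ω F₀)]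
    (hdeg : Module.finrank Ω⟮embF F₀ Ω j₀⟯ ↥(laurentBaseChange Ω F₀) ≤ Nat.card I)
    (hρΩ : ∀ i a, ρ i (algebraMap Ω ↥(laurentBaseChange Ω F₀) a) =
      algebraMap HolH (FractionRing HolH) (algebraMap ℂ HolH (ιΩ a)))
    (hρj : ∀ i, ρ i (embF F₀ Ω j₀) = algebraMap HolH (FractionRing HolH) jHol)
    (g₀ : F₀)
    (hg : ∀ i, ∃ h : HolH, ρ i (embF F₀ Ω g₀) = algebraMap HolH (FractionRing HolH) h) :
    IsIntegral (Algebra.adjoin E {embF F₀ E j₀}) (embF F₀ E g₀) := by
  haveI := finite_bc F₀ E (Ω := Ω) j₀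
  exact isIntegral_of_holEmb (embF F₀ E j₀) (ιΩ.comp (algebraMap E Ω)) (famBC F₀ ρ)
    (famBC_injective F₀ ρ hρ (fun i j a => by rw [hρΩ, hρΩ]))
    (finrank_bc_le F₀ E j₀ hdeg) (famBC_algebraMap F₀ ιΩ ρ hρΩ) (famBC_embF F₀ ρ j₀ hρj)
    (embF F₀ E g₀) (fun i => by
      obtain ⟨h, hh⟩ := hg i
      exact ⟨h, by rw [famBC_apply, rhoBC_embF, hh]⟩)

end BC

/-! ### The generators `g_b` -/

/-- `j` as an element of `F1Q M`. -/
def jQ (M : ℕ) : F1Q M :=
  ⟨jq, by have h := jqd_mem_F1Q M (one_dvd M); rwa [qExpand_one_apply] at h⟩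

/-- `g_b` as an element of `F1Q M`. -/
def gQ (M : ℕ) (b : (ZMod M)ˣ) : F1Q M := ⟨gq M (b : ZMod M), gq_mem_F1Q M b⟩

theorem coe_embF_jQ (M : ℕ) (E : Type*) [Field E] [Algebra ℚ E] :
    ((embF (F1Q M) E (jQ M) : laurentBaseChange E (F1Q M)) : LaurentSeries E) = coeffEmb E jq :=
  rfl

theorem coe_embF_gQ (M : ℕ) (b : (ZMod M)ˣ) (E : Type*) [Field E] [Algebra ℚ E] :
    ((embF (F1Q M) E (gQ M b) : laurentBaseChange E (F1Q M)) : LaurentSeries E) =
      coeffEmb E (gq M (b : ZMod M)) :=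
  rfl

theorem embF_gQ_eq (M : ℕ) (b : (ZMod M)ˣ) :
    embF (F1Q M) Qb (gQ M b) = ((genG M b : A01 M) : F1 M) :=
  Subtype.ext rfl

/-- **`g_b` is integral over `E[j]`** in `laurentBaseChange E (F1Q M)`, `E ⊆ ℚ̄`. -/
theorem isIntegral_embF_gQ (M : ℕ) (hM : 2 ≤ M) (b : (ZMod M)ˣ)
    (E : Type) [Field E] [Algebra ℚ E] [Algebra E Qb] :
    IsIntegral (Algebra.adjoin E {embF (F1Q M) E (jQ M)}) (embF (F1Q M) E (gQ M b)) := by
  haveI : NeZero M := ⟨by omega⟩
  haveI : Module.Finite Qb⟮embF (F1Q M) Qb (jQ M)⟯ ↥(laurentBaseChange Qb (F1Q M)) :=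
    finite_F1 hM (embF (F1Q M) Qb (jQ M)) rfl
  refine isIntegral_embF_bc (F1Q M) (jQ M) iotaBar (rho1 M hM) (rho1_injective M hM) ?_
    (rho1_algebraMap M hM) (fun x => rho1_j M hM x _ rfl) (gQ M b) (fun x => ?_)
  · exact (finrank_F1 hM (embF (F1Q M) Qb (jQ M)) rfl).le
  · exact ⟨_, by rw [embF_gQ_eq, rho1_coe]⟩

/-- Base change of constants `ℚ → ℚ` is the identity. -/
theorem coeffEmb_rat (z : LaurentSeries ℚ) : coeffEmb ℚ z = z := by
  ext k
  rw [coeffEmb_coeff]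
  rfl

/-- The monic relation `P(j, g_b) = 0`, `P ∈ E[X][Y]`, in `E((q))`, for `E ⊆ ℚ̄`. -/
theorem exists_relation_coeffEmb_gq (M : ℕ) (hM : 2 ≤ M) (b : (ZMod M)ˣ)
    (E : Type) [Field E] [Algebra ℚ E] [Algebra E Qb] :
    ∃ P : Polynomial (Polynomial E), P.Monic ∧
      P.eval₂ (Polynomial.eval₂RingHom (HahnSeries.C : E →+* LaurentSeries E) (coeffEmb E jq))
        (coeffEmb E (gq M (b : ZMod M))) = 0 := by
  obtain ⟨P, hP, h0⟩ := exists_monic_poly_of_isIntegral _ _ (isIntegral_embF_gQ M hM b E)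
  refine ⟨P, hP, ?_⟩
  have h1 := congrArg (algebraMap ↥(laurentBaseChange E (F1Q M)) (LaurentSeries E)) h0
  rw [map_zero, Polynomial.hom_eval₂] at h1
  have hcomp : (algebraMap ↥(laurentBaseChange E (F1Q M)) (LaurentSeries E)).comp
      (Polynomial.eval₂RingHom (algebraMap E ↥(laurentBaseChange E (F1Q M)))
        (embF (F1Q M) E (jQ M))) =
      Polynomial.eval₂RingHom (HahnSeries.C : E →+* LaurentSeries E) (coeffEmb E jq) := by
    refine Polynomial.ringHom_ext (fun a => ?_) ?_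
    · simp only [RingHom.comp_apply, Polynomial.coe_eval₂RingHom, Polynomial.eval₂_C]
      show algebraMap E (LaurentSeries E) a = HahnSeries.C a
      rw [algebraMap_laurentSeries_eq_single, HahnSeries.C_apply]
    · simp only [RingHom.comp_apply, Polynomial.coe_eval₂RingHom, Polynomial.eval₂_X]
      rfl
  rw [hcomp] at h1
  exact h1

/-- **`g_b` is integral over `ℚ[j]`**, two-variable polynomial form: a monic relation
`P(j, g_b) = 0` in `ℚ((q))` with `P ∈ ℚ[X][Y]`. -/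
theorem exists_rat_relation_gq (M : ℕ) (hM : 2 ≤ M) (b : (ZMod M)ˣ) :
    ∃ P : Polynomial (Polynomial ℚ), P.Monic ∧
      P.eval₂ (Polynomial.eval₂RingHom (HahnSeries.C : ℚ →+* LaurentSeries ℚ) jq)
        (gq M (b : ZMod M)) = 0 := by
  obtain ⟨P, hP, h0⟩ := exists_relation_coeffEmb_gq M hM b ℚ
  refine ⟨P, hP, ?_⟩
  rw [coeffEmb_rat, coeffEmb_rat] at h0
  exact h0

/-- **`g_b` is integral over `E[j]`** in every subfield of `E((q))` containing `j` and `g_b`,
for every field `E ⊇ ℚ`. -/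
theorem isIntegral_gq (M : ℕ) (hM : 2 ≤ M) (b : (ZMod M)ˣ) {E : Type*} [Field E] [Algebra ℚ E]
    (L : IntermediateField E (LaurentSeries E)) (u x : L)
    (hu : (u : LaurentSeries E) = coeffEmb E jq)
    (hx : (x : LaurentSeries E) = coeffEmb E (gq M (b : ZMod M))) :
    IsIntegral (Algebra.adjoin E {u}) x := by
  obtain ⟨P, hP, h⟩ := exists_rat_relation_gq M hM b
  exact IntE.isIntegral_of_rat_relation L u x jq (gq M (b : ZMod M)) hu hx P hP h

end Fermat.Agent.S48.G1.K1.IntRat1
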