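import Mathlib
import Fermat.Agent.Lib.EisLevel

/-!
# S48 / G1 / K.2a: the constant term of the weight-4 level-`M` Eisenstein series

* `P4 w = w (1 + 4w + w²) / (1 - w)⁴` (`= ∑ n³ wⁿ` for `‖w‖ < 1`);
* `tsum_inv_pow_four` : `∑_{n ∈ ℤ} 1/(x+n)⁴ = (2πi)⁴/6 · P4 (e^{2πix})` for EVERY non-integer `x`
  (real `x` included, by continuity from the upper half plane);
* `gConst_four` : the constant term `Lib.EisLevel.gConst M 4 b` (`b 0 = 0`, `b 1 ≠ 0`) is
  `lipConst M 4 * P4 (ζ^{b 1})`, `ζ^{b 1} = ZMod.stdAddChar (b 1)`;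
* integrality away from `M`: for a primitive `M`-th root of unity `ζ` in a field and a subring
  `S ∋ ζ, M⁻¹`: `(1 - ζ^s)⁻¹ ∈ S` and `P4 (ζ^s) ∈ S` for `M ∤ s`.
-/

set_option autoImplicit false

open Complex Filter Topology
open scoped Real

noncomputable section

namespace Fermat.Agent.S48.G1.K1.InvQuart

/-! ### The rational function `P4` -/

/-- `P4 w = w (1 + 4w + w²) / (1 - w)⁴`. -/
def P4 {K : Type*} [Field K] (w : K) : K := w * (1 + 4 * w + w ^ 2) / (1 - w) ^ 4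

theorem P4_inv {K : Type*} [Field K] {w : K} (hw : w ≠ 0) : P4 w⁻¹ = P4 w := by
  unfold P4
  by_cases h1 : w = 1
  · subst h1; simp
  have h1' : (1 : K) - w ≠ 0 := sub_ne_zero.mpr (Ne.symm h1)
  have h2 : (1 : K) - w⁻¹ ≠ 0 := by
    intro h
    apply h1
    have : w⁻¹ = 1 := by linear_combination -h
    rw [inv_eq_one] at this
    exact this
  field_simp
  ring

theorem map_P4 {K L : Type*} [Field K] [Field L] (φ : K →+* L) (w : K) :
    φ (P4 w) = P4 (φ w) := by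
  unfold P4
  simp only [map_div₀, map_mul, map_add, map_pow, map_sub, map_one, map_ofNat]

/-- `∑ n³ wⁿ = P4 w` for `‖w‖ < 1`. -/
theorem hasSum_cube_mul_geometric {w : ℂ} (hw : ‖w‖ < 1) :
    HasSum (fun n : ℕ => (n : ℂ) ^ 3 * w ^ n) (P4 w) := by
  have h3 := hasSum_choose_mul_geometric_of_norm_lt_one 3 hw
  have h2 := hasSum_choose_mul_geometric_of_norm_lt_one 2 hw
  have h1 := hasSum_choose_mul_geometric_of_norm_lt_one 1 hw
  have h0 := hasSum_choose_mul_geometric_of_norm_lt_one 0 hw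
  have h := (((h3.mul_left 6).sub (h2.mul_left 12)).add (h1.mul_left 7)).sub h0
  have hne : (1 : ℂ) - w ≠ 0 := by
    intro h'
    have h'' : w = 1 := by linear_combination -h'
    rw [h''] at hw
    simp at hw
  have hfun : (fun n : ℕ => (n : ℂ) ^ 3 * w ^ n) = fun b : ℕ =>
      6 * ((((b + 3).choose 3 : ℕ) : ℂ) * w ^ b) - 12 * ((((b + 2).choose 2 : ℕ) : ℂ) * w ^ b)
        + 7 * ((((b + 1).choose 1 : ℕ) : ℂ) * w ^ b) - (((b + 0).choose 0 : ℕ) : ℂ) * w ^ b := by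
    funext n
    have hA : (((n + 3).choose 3 : ℕ) : ℂ) * 3 = ((n : ℂ) + 3) * (((n + 2).choose 2 : ℕ) : ℂ) := by
      exact_mod_cast (Nat.add_one_mul_choose_eq (n + 2) 2).symm
    have hB : (((n + 2).choose 2 : ℕ) : ℂ) * 2 = ((n : ℂ) + 2) * (((n + 1).choose 1 : ℕ) : ℂ) := by
      exact_mod_cast (Nat.add_one_mul_choose_eq (n + 1) 1).symm
    have hC : (((n + 1).choose 1 : ℕ) : ℂ) = (n : ℂ) + 1 := by
      simp [Nat.choose_one_right]
    have hD : (((n + 0).choose 0 : ℕ) : ℂ) = 1 := by simp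
    linear_combination (-2 * w ^ n) * hA + ((3 - (n : ℂ)) * w ^ n) * hB
      + ((-(n : ℂ) ^ 2 + n - 1) * w ^ n) * hC + w ^ n * hD
  have hval : P4 w = 6 * (1 / (1 - w) ^ (3 + 1)) - 12 * (1 / (1 - w) ^ (2 + 1))
      + 7 * (1 / (1 - w) ^ (1 + 1)) - 1 / (1 - w) ^ (0 + 1) := by
    unfold P4
    field_simp
    ring
  rw [hfun, hval]
  exact h

/-! ### The closed form of `∑ 1/(x+n)⁴` -/

theorem norm_cexp_lt_one {x : ℂ} (hx : 0 < x.im) : ‖cexp (2 * π * I * x)‖ < 1 := by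
  rw [Complex.norm_exp]
  have h1 : (2 * π * I * x).re = -(2 * π * x.im) := by
    simp [Complex.mul_re, Complex.mul_im]
  rw [h1, Real.exp_lt_one_iff]
  have := Real.pi_pos
  nlinarith

theorem summable_inv_pow {k : ℕ} (hk : 2 ≤ k) (u : ℂ) :
    Summable fun n : ℤ => 1 / (u + n) ^ k := by
  have h := EisensteinSeries.linear_right_summable u 1 (k := (k : ℤ)) (by exact_mod_cast hk)
  refine h.congr fun n => ?_
  simp

theorem tsum_inv_pow_four_of_im_pos {x : ℂ} (hx : 0 < x.im) :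
    ∑' n : ℤ, 1 / (x + n) ^ 4 = (2 * π * I) ^ 4 / 6 * P4 (cexp (2 * π * I * x)) := by
  have h : ∑' n : ℤ, 1 / (x + n) ^ (3 + 1) =
      ((-2 * π * I) ^ (3 + 1) / ((Nat.factorial 3 : ℕ) : ℂ)) *
        ∑' n : ℕ, (n : ℂ) ^ 3 * cexp (2 * π * I * x) ^ n :=
    EisensteinSeries.qExpansion_identity (k := 3) (by norm_num) ⟨x, hx⟩
  rw [(hasSum_cube_mul_geometric (norm_cexp_lt_one hx)).tsum_eq] at h
  have h4 : ∑' n : ℤ, 1 / (x + n) ^ 4 = ∑' n : ℤ, 1 / (x + n) ^ (3 + 1) := rfl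
  rw [h4, h]
  have h6 : ((Nat.factorial 3 : ℕ) : ℂ) = 6 := by
    simp [Nat.factorial]
  rw [h6]
  congr 1
  ring

theorem tsum_inv_pow_four_of_im_neg {x : ℂ} (hx : x.im < 0) :
    ∑' n : ℤ, 1 / (x + n) ^ 4 = (2 * π * I) ^ 4 / 6 * P4 (cexp (2 * π * I * x)) := by
  have h := tsum_inv_pow_four_of_im_pos (x := -x) (by simpa using hx)
  have e : cexp (2 * π * I * -x) = (cexp (2 * π * I * x))⁻¹ := by
    rw [mul_neg, Complex.exp_neg]
  rw [e, P4_inv (Complex.exp_ne_zero _)] at h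
  rw [← h, ← (Equiv.neg ℤ).tsum_eq]
  refine tsum_congr fun n => ?_
  simp only [Equiv.neg_apply, Int.cast_neg]
  congr 1
  ring

/-- Continuity of `u ↦ ∑_{n ∈ ℤ} 1 / (u + n)^k` (`k ≥ 2`) at non-integers. -/
theorem continuousAt_tsum_inv_pow {k : ℕ} (hk : 2 ≤ k) {u : ℂ} (hu : ∀ n : ℤ, u ≠ n) :
    ContinuousAt (fun v : ℂ => ∑' n : ℤ, 1 / (v + n) ^ k) u := by
  have hopen : IsOpen (Set.range (fun n : ℤ => (n : ℂ)))ᶜ := Complex.isOpen_compl_range_intCast
  have hmem : u ∈ (Set.range (fun n : ℤ => (n : ℂ)))ᶜ := by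
    rintro ⟨n, hn⟩
    exact hu n hn.symm
  obtain ⟨δ, hδ, hball⟩ := Metric.isOpen_iff.mp hopen u hmem
  have hlow : ∀ n : ℤ, δ ≤ ‖u + n‖ := by
    intro n
    by_contra hlt
    rw [not_le] at hlt
    have : ((-n : ℤ) : ℂ) ∈ Metric.ball u δ := by
      rw [Metric.mem_ball, dist_comm, dist_eq_norm]
      have : u - ((-n : ℤ) : ℂ) = u + n := by push_cast; ring
      rw [this]; exact hlt
    exact hball this ⟨-n, rfl⟩
  have hcont : ContinuousOn (fun v : ℂ => ∑' n : ℤ, 1 / (v + n) ^ k) (Metric.ball u (δ / 2)) := by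
    refine continuousOn_tsum (u := fun n : ℤ => 2 ^ k * ‖1 / (u + n) ^ k‖) ?_ ?_ ?_
    · intro n
      refine ContinuousOn.div continuousOn_const (by fun_prop) ?_
      intro v hv
      have h1 : ‖v - u‖ < δ / 2 := by
        rw [← dist_eq_norm]; exact hv
      have h2 : ‖u + n‖ ≤ ‖v + n‖ + ‖v - u‖ := by
        have : u + n = (v + n) - (v - u) := by ring
        rw [this]; exact norm_sub_le _ _
      have h3 : 0 < ‖v + n‖ := by
        have := hlow n
        linarith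
      exact pow_ne_zero k (norm_pos_iff.mp h3)
    · exact ((summable_inv_pow hk u).norm).mul_left (2 ^ k)
    · intro n v hv
      have h1 : ‖v - u‖ < δ / 2 := by
        rw [← dist_eq_norm]; exact hv
      have h2 : ‖u + n‖ ≤ ‖v + n‖ + ‖v - u‖ := by
        have : u + n = (v + n) - (v - u) := by ring
        rw [this]; exact norm_sub_le _ _
      have h4 := hlow n
      have h3 : ‖u + n‖ / 2 ≤ ‖v + n‖ := by linarith
      have hpos : 0 < ‖u + n‖ := by linarith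
      rw [norm_div, norm_div, norm_one, norm_pow, norm_pow]
      rw [show (2 : ℝ) ^ k * (1 / ‖u + n‖ ^ k) = 1 / (‖u + n‖ / 2) ^ k by
        rw [div_pow]; field_simp]
      apply one_div_le_one_div_of_le (by positivity)
      exact pow_le_pow_left₀ (by positivity) h3 k
  exact hcont.continuousAt (Metric.ball_mem_nhds u (by positivity))

theorem continuousAt_P4_cexp {u : ℂ} (hu : ∀ n : ℤ, u ≠ n) :
    ContinuousAt (fun v : ℂ => (2 * π * I) ^ 4 / 6 * P4 (cexp (2 * π * I * v))) u := by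
  unfold P4
  have h1 : (1 : ℂ) - cexp (2 * π * I * u) ≠ 0 := by
    intro h
    have h' : cexp (2 * π * I * u) = 1 := by linear_combination -h
    rw [Complex.exp_eq_one_iff] at h'
    obtain ⟨n, hn⟩ := h'
    have h2 : (2 * π * I : ℂ) ≠ 0 := by
      simp [Real.pi_ne_zero]
    have h3 : (2 * π * I) * u = (2 * π * I) * n := by rw [hn]; ring
    exact hu n (mul_left_cancel₀ h2 h3)
  have hex : ContinuousAt (fun v : ℂ => cexp (2 * π * I * v)) u := by fun_prop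
  refine ContinuousAt.mul continuousAt_const (ContinuousAt.div ?_ ?_ (pow_ne_zero 4 h1))
  · exact hex.mul ((continuousAt_const.add (continuousAt_const.mul hex)).add (hex.pow 2))
  · exact (continuousAt_const.sub hex).pow 4

/-- **(Q2)** `∑_{n ∈ ℤ} 1/(x+n)⁴ = (2πi)⁴/6 · P4 (e^{2πix})` for every non-integer `x`
(real `x` included). -/
theorem tsum_inv_pow_four {x : ℂ} (hx : ∀ n : ℤ, x ≠ n) :
    ∑' n : ℤ, 1 / (x + n) ^ 4 = (2 * π * I) ^ 4 / 6 * P4 (cexp (2 * π * I * x)) := by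
  rcases lt_trichotomy x.im 0 with h | h | h
  · exact tsum_inv_pow_four_of_im_neg h
  · have hpath : Tendsto (fun t : ℝ => x + t * I) (𝓝[>] 0) (𝓝 x) := by
      have : Tendsto (fun t : ℝ => x + t * I) (𝓝 0) (𝓝 (x + (0 : ℝ) * I)) := by
        apply Continuous.tendsto; fun_prop
      simp only [ofReal_zero, zero_mul, add_zero] at this
      exact this.mono_left nhdsWithin_le_nhds
    have h1 := (continuousAt_tsum_inv_pow (k := 4) (by norm_num) hx).tendsto.comp hpath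
    have h2 := (continuousAt_P4_cexp hx).tendsto.comp hpath
    refine tendsto_nhds_unique h1 (h2.congr' ?_)
    filter_upwards [self_mem_nhdsWithin] with t ht
    have him : 0 < (x + t * I).im := by
      simp only [add_im, mul_im, ofReal_re, I_im, mul_one, ofReal_im, I_re, mul_zero, add_zero]
      rw [h]; simpa using ht
    exact (tsum_inv_pow_four_of_im_pos him).symm
  · exact tsum_inv_pow_four_of_im_pos h

/-! ### The constant term of `gEis M b 4` -/

open Fermat.Agent.Lib.EisLevel in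
/-- **(Q3)** The constant term of the weight-4 level-`M` Eisenstein series at a class
`b = (0, b₁)`, `b₁ ≠ 0`: `lipConst M 4 * P4 (ζ^{b₁})`. -/
theorem gConst_four (M : ℕ) [NeZero M] (b : Fin 2 → ZMod M) (h0 : b 0 = 0) (h1 : b 1 ≠ 0) :
    gConst M 4 b = lipConst M 4 * P4 (ZMod.stdAddChar (b 1)) := by
  have hM : (M : ℂ) ≠ 0 := Nat.cast_ne_zero.mpr (NeZero.ne M)
  have hMZ : (M : ℤ) ≠ 0 := Int.natCast_ne_zero.mpr (NeZero.ne M)
  obtain ⟨s, hs⟩ : ∃ s : ℕ, s = (b 1).val := ⟨_, rfl⟩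
  have hs0 : 0 < s := by
    rw [hs]; exact (ZMod.val_pos).mpr h1
  have hsM : s < M := by
    rw [hs]; exact ZMod.val_lt (b 1)
  have hsb : ((s : ℕ) : ZMod M) = b 1 := by
    rw [hs, ZMod.natCast_zmod_val]
  unfold gConst
  rw [if_pos h0]
  have hinj : Function.Injective (fun t : ℤ => (s : ℤ) + M * t) := by
    intro t t' h
    have h' : (M : ℤ) * t = M * t' := by
      simp only at h
      linarith
    exact mul_left_cancel₀ hMZ h'
  have hsupp : Function.support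
      (fun n : ℤ => if (n : ZMod M) = b 1 then ((n : ℂ) ^ 4)⁻¹ else 0) ⊆
      Set.range (fun t : ℤ => (s : ℤ) + M * t) := by
    intro n hn
    rw [Function.mem_support] at hn
    have hcond : (n : ZMod M) = b 1 := by
      by_contra hc
      exact hn (if_neg hc)
    have h2 : ((n - s : ℤ) : ZMod M) = 0 := by
      push_cast
      rw [hcond, hsb, sub_self]
    obtain ⟨t, ht⟩ := (ZMod.intCast_zmod_eq_zero_iff_dvd _ _).mp h2
    exact ⟨t, by simp only; linarith⟩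
  rw [← hinj.tsum_eq hsupp]
  have hterm : ∀ t : ℤ,
      (if ((((s : ℤ) + M * t : ℤ)) : ZMod M) = b 1 then
        ((((s : ℤ) + M * t : ℤ) : ℂ) ^ 4)⁻¹ else 0) =
      ((M : ℂ) ^ 4)⁻¹ * (1 / ((s : ℂ) / M + t) ^ 4) := by
    intro t
    have hc : ((((s : ℤ) + M * t : ℤ)) : ZMod M) = b 1 := by
      push_cast
      rw [hsb]
      simp
    rw [if_pos hc]
    push_cast
    have h3 : (s : ℂ) + M * t = M * ((s : ℂ) / M + t) := by
      field_simp
    rw [h3, mul_pow, mul_inv, one_div]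
  rw [tsum_congr hterm, tsum_mul_left]
  have hx : ∀ n : ℤ, (s : ℂ) / M ≠ n := by
    intro n hn
    have h4 : (s : ℂ) = ((n * M : ℤ) : ℂ) := by
      push_cast
      rw [← hn]
      field_simp
    have h5 : (s : ℤ) = n * M := by exact_mod_cast h4
    have h6 : (0 : ℤ) < n := by
      by_contra hneg
      have : n * (M : ℤ) ≤ 0 := mul_nonpos_of_nonpos_of_nonneg (by omega) (by positivity)
      omega
    have h7 : (M : ℤ) ≤ n * M := le_mul_of_one_le_left (by positivity) (by omega)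
    omega
  rw [tsum_inv_pow_four hx]
  have hchar : (ZMod.stdAddChar (b 1) : ℂ) = cexp (2 * π * I * ((s : ℂ) / M)) := by
    rw [ZMod.stdAddChar_apply, ZMod.toCircle_apply, hs]
    congr 1
    ring
  rw [hchar]
  unfold lipConst
  have h6 : (((4 - 1 : ℕ).factorial : ℕ) : ℂ) = 6 := by
    simp [Nat.factorial]
  rw [h6]
  field_simp

/-! ### Integrality away from `M` -/

section Integrality

variable {K : Type*} [Field K]

theorem one_sub_zpow_ne_zero {M : ℕ} {ζ : K} (hζ : IsPrimitiveRoot ζ M) {s : ℤ}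
    (hs : ¬ (M : ℤ) ∣ s) : 1 - ζ ^ s ≠ 0 := by
  intro h
  apply hs
  rw [← hζ.zpow_eq_one_iff_dvd]
  linear_combination -h

/-- Reduction of an integer exponent to a natural one `< M`. -/
theorem exists_zpow_eq_pow {M : ℕ} [NeZero M] {ζ : K} (hζ : IsPrimitiveRoot ζ M) (s : ℤ) :
    ∃ t : ℕ, t < M ∧ ζ ^ s = ζ ^ t ∧ (t = 0 ↔ (M : ℤ) ∣ s) := by
  have hMpos : (0 : ℤ) < (M : ℤ) := Int.natCast_pos.mpr (NeZero.pos M)
  obtain ⟨t, ht⟩ : ∃ t : ℕ, (t : ℤ) = s % (M : ℤ) :=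
    ⟨(s % (M : ℤ)).toNat, Int.toNat_of_nonneg (Int.emod_nonneg s hMpos.ne')⟩
  refine ⟨t, ?_, ?_, ?_⟩
  · have := Int.emod_lt_of_pos s hMpos
    omega
  · have h1 : s = (t : ℤ) + (M : ℤ) * (s / (M : ℤ)) := by
      rw [ht]; exact (Int.emod_add_mul_ediv s _).symm
    have hz0 : ζ ≠ 0 := hζ.ne_zero (NeZero.ne M)
    conv_lhs => rw [h1]
    rw [zpow_add₀ hz0, zpow_mul, zpow_natCast, zpow_natCast, hζ.pow_eq_one, one_zpow, mul_one]
  · constructor
    · intro h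
      rw [h] at ht
      exact Int.dvd_of_emod_eq_zero ht.symm
    · intro h
      have := Int.emod_eq_zero_of_dvd h
      omega

theorem primRoot_zpow_mem {M : ℕ} [NeZero M] {ζ : K} (hζ : IsPrimitiveRoot ζ M) (S : Subring K)
    (hζS : ζ ∈ S) (s : ℤ) : ζ ^ s ∈ S := by
  obtain ⟨t, -, ht, -⟩ := exists_zpow_eq_pow hζ s
  rw [ht]
  exact S.pow_mem hζS t

/-- `1 - ζ^s` divides `M` in `ℤ[ζ]` (`M ∤ s`). -/
theorem exists_mul_eq_natCast {M : ℕ} [NeZero M] {ζ : K} (hζ : IsPrimitiveRoot ζ M)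
    (S : Subring K) (hζS : ζ ∈ S) {s : ℤ} (hs : ¬ (M : ℤ) ∣ s) :
    ∃ u ∈ S, (1 - ζ ^ s) * u = (M : K) := by
  obtain ⟨t, htM, hzs, ht0⟩ := exists_zpow_eq_pow hζ s
  have htpos : 0 < t := by
    rcases Nat.eq_zero_or_pos t with h | h
    · exact absurd (ht0.mp h) hs
    · exact h
  obtain ⟨n, rfl⟩ : ∃ n, M = n + 1 := ⟨M - 1, by have := NeZero.pos M; omega⟩
  have hprod := hζ.prod_one_sub_pow_eq_order
  have hmem : t - 1 ∈ Finset.range n := Finset.mem_range.mpr (by omega)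
  rw [← Finset.mul_prod_erase _ _ hmem] at hprod
  have e : t - 1 + 1 = t := by omega
  rw [e] at hprod
  refine ⟨∏ k ∈ (Finset.range n).erase (t - 1), (1 - ζ ^ (k + 1)), ?_, ?_⟩
  · exact Subring.prod_mem _ (fun k _ => S.sub_mem S.one_mem (S.pow_mem hζS _))
  · rw [hzs, hprod]
    push_cast
    rfl

theorem natCast_ne_zero_of_isPrimitiveRoot {M : ℕ} [NeZero M] {ζ : K} (hζ : IsPrimitiveRoot ζ M) :
    (M : K) ≠ 0 := by
  obtain ⟨n, rfl⟩ : ∃ n, M = n + 1 := ⟨M - 1, by have := NeZero.pos M; omega⟩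
  have hprod := hζ.prod_one_sub_pow_eq_order
  have h1 : ∏ k ∈ Finset.range n, (1 - ζ ^ (k + 1)) ≠ 0 := by
    rw [Finset.prod_ne_zero_iff]
    intro k hk h
    have hk' := Finset.mem_range.mp hk
    have h2 : ζ ^ (k + 1) = 1 := by linear_combination -h
    have h3 := hζ.dvd_of_pow_eq_one _ h2
    have h4 := Nat.le_of_dvd (by omega) h3
    omega
  rw [hprod] at h1
  exact_mod_cast h1

/-- **(Q4)** `(1 - ζ^s)⁻¹ ∈ S` for every subring `S ∋ ζ, M⁻¹` and `M ∤ s`. -/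
theorem inv_one_sub_zpow_mem {M : ℕ} [NeZero M] {ζ : K} (hζ : IsPrimitiveRoot ζ M)
    (S : Subring K) (hζS : ζ ∈ S) (hM : (M : K)⁻¹ ∈ S) {s : ℤ} (hs : ¬ (M : ℤ) ∣ s) :
    (1 - ζ ^ s)⁻¹ ∈ S := by
  obtain ⟨u, hu, hmul⟩ := exists_mul_eq_natCast hζ S hζS hs
  have hM0 := natCast_ne_zero_of_isPrimitiveRoot hζ
  have hne := one_sub_zpow_ne_zero hζ hs
  have hu0 : u ≠ 0 := by
    rintro rfl
    rw [mul_zero] at hmul
    exact hM0 hmul.symm
  have h1 : (1 - ζ ^ s)⁻¹ = u * (M : K)⁻¹ := by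
    rw [← hmul]
    field_simp
  rw [h1]
  exact S.mul_mem hu hM

/-- **(Q4)** `P4 (ζ^s) ∈ S` for every subring `S ∋ ζ, M⁻¹` and `M ∤ s`. -/
theorem P4_zpow_mem {M : ℕ} [NeZero M] {ζ : K} (hζ : IsPrimitiveRoot ζ M)
    (S : Subring K) (hζS : ζ ∈ S) (hM : (M : K)⁻¹ ∈ S) {s : ℤ} (hs : ¬ (M : ℤ) ∣ s) :
    P4 (ζ ^ s) ∈ S := by
  have h1 := inv_one_sub_zpow_mem hζ S hζS hM hs
  have h2 := primRoot_zpow_mem hζ S hζS s
  have h4 : (4 : K) ∈ S := ofNat_mem S 4
  have e : P4 (ζ ^ s) = ζ ^ s * (1 + 4 * ζ ^ s + (ζ ^ s) ^ 2) * ((1 - ζ ^ s)⁻¹) ^ 4 := by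
    unfold P4
    rw [div_eq_mul_inv, inv_pow]
  rw [e]
  exact S.mul_mem (S.mul_mem h2 (S.add_mem (S.add_mem S.one_mem (S.mul_mem h4 h2))
    (S.pow_mem h2 2))) (S.pow_mem h1 4)

end Integrality

end Fermat.Agent.S48.G1.K1.InvQuart
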