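/-
PROGRAM DS (S48), part G1, AREA K, row K.7 (helper74): LEVEL DESCENT, generic part
(no level, no modular object; generic twin of `S18/LevelDescent.k1Modular_of_dvd*`).

* `mem_of_iota_mem` : DESCENT OF MEMBERSHIP along a base change of constants `E → Ω`: a series
  `x ∈ E((q))` whose image in `Ω((q))` lies in the field generated by `Ω` and the image of a
  subfield `LE ⊆ E((q))` already lies in `LE`.
* `mem_of_coeffEmb_mem`, `mem_laurentBaseChange_of_iota_mem`, `adjoin_le_of_coeffEmb_mem` : the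
  forms for `laurentBaseChange` (inclusions of function fields can be checked over `ℚ̄`).
* `laurentBaseChange_mono`.
* `K1ModularOf F₀ A p` : the statement "`K1E` for `laurentBaseChange E F₀` over every sufficiently
  large number field `E`" (unfolded; literally the body of `S18.K1Defs.K1Modular` with the
  function field `F₀` as a parameter).
* `k1ModularOf_of_le`, `k1ModularOf_of_le_of_finrank`, `k1ModularOf_of_le_of_finrank_bar` :
  level descent `F₀' → F₀` for `F₀ ≤ F₀'` with relative degree prime to `p` (degree data over the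
  number fields, resp. over `ℚ̄` only).
-/
import Mathlib
import Fermat.Agent.S18.LevelDescent
import Fermat.Agent.S30.E2.Degree

set_option autoImplicit false

noncomputable section

namespace Fermat.Agent.S48.G1.K1.LevelDescentG

open ModularCurve Fermat.Agent.S30.E2.Degree Fermat.Agent.S18.K1Defs
open scoped IntermediateField

local notation "Qb" => AlgebraicClosure ℚ

/-! ### Descent of membership -/

section Membership

variable {E Ω : Type*} [Field E] [Field Ω] [Algebra E Ω]

/-- Coefficientwise `E`-linear functionals map the `Ω`-algebra generated by the image of a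
subfield `LE ⊆ E((q))` into `LE`. -/
theorem dualMap_mem_of_mem_adjoin (LE : IntermediateField E (LaurentSeries E))
    {t : LaurentSeries Ω}
    (ht : t ∈ Algebra.adjoin Ω (⇑(Abs.iota (E := E) (Ω := Ω)) '' (LE : Set (LaurentSeries E))))
    (φ : Ω →ₗ[E] E) : Abs.dualMap φ t ∈ LE := by
  have h1 := Algebra.adjoin_eq_span (R := Ω)
    (s := ⇑(Abs.iota (E := E) (Ω := Ω)) '' (LE : Set (LaurentSeries E)))
  have h2 : (Submonoid.closure
      (⇑(Abs.iota (E := E) (Ω := Ω)) '' (LE : Set (LaurentSeries E))) : Set (LaurentSeries Ω))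
      = ⇑(Abs.iota (E := E) (Ω := Ω)) '' (LE : Set (LaurentSeries E)) := by
    have h4 : ⇑(Abs.iota (E := E) (Ω := Ω)) '' (LE : Set (LaurentSeries E))
        = ((LE.toSubfield.toSubring.toSubmonoid.map
            (Abs.iota (E := E) (Ω := Ω) : LaurentSeries E →* LaurentSeries Ω) :
              Submonoid (LaurentSeries Ω)) : Set (LaurentSeries Ω)) := rfl
    rw [h4, Submonoid.closure_eq]
  have h3 : t ∈ Subalgebra.toSubmodule (Algebra.adjoin Ω
      (⇑(Abs.iota (E := E) (Ω := Ω)) '' (LE : Set (LaurentSeries E)))) := ht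
  rw [h1, h2] at h3
  clear ht h1 h2
  induction h3 using Submodule.span_induction generalizing φ with
  | mem r hr =>
    obtain ⟨x, hx, rfl⟩ := hr
    have h5 := Abs.dualMap_iota_mul φ x (1 : LaurentSeries Ω)
    rw [mul_one] at h5
    rw [h5, ← map_one (algebraMap Ω (LaurentSeries Ω)), Abs.dualMap_algebraMap]
    exact mul_mem hx (LE.algebraMap_mem _)
  | zero => rw [map_zero]; exact zero_mem _
  | add r r' _ _ hr hr' => rw [map_add]; exact add_mem (hr φ) (hr' φ)
  | smul ω r _ hr =>
    rw [Algebra.smul_def, Abs.dualMap_algebraMap_mul]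
    exact hr _

/-- **Descent of membership.**  If the coefficientwise image of `x ∈ E((q))` in `Ω((q))` lies in
the field generated by `Ω` and the image of `LE`, then `x ∈ LE`. -/
theorem mem_of_iota_mem (LE : IntermediateField E (LaurentSeries E)) (x : LaurentSeries E)
    (hx : Abs.iota (E := E) (Ω := Ω) x ∈ IntermediateField.adjoin Ω
      (⇑(Abs.iota (E := E) (Ω := Ω)) '' (LE : Set (LaurentSeries E)))) : x ∈ LE := by
  obtain ⟨r, hr, s, hs, hxrs⟩ := IntermediateField.mem_adjoin_iff_div.mp hx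
  by_cases hs0 : s = 0
  · rw [hs0, div_zero] at hxrs
    have hx0 : x = 0 := Abs.iota_injective (by rw [hxrs, map_zero])
    rw [hx0]
    exact zero_mem _
  · -- a functional that does not kill `s`
    obtain ⟨φ, hφ⟩ : ∃ φ : Ω →ₗ[E] E, Abs.dualMap φ s ≠ 0 := by
      by_contra hcon
      push Not at hcon
      exact hs0 (Abs.eq_zero_of_dualMap s hcon)
    have h1 : Abs.iota (E := E) (Ω := Ω) x * s = r := by
      rw [hxrs, div_mul_cancel₀ _ hs0]
    have h2 : x * Abs.dualMap φ s = Abs.dualMap φ r := by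
      rw [← Abs.dualMap_iota_mul, h1]
    have h3 : x = Abs.dualMap φ r / Abs.dualMap φ s := by
      rw [eq_div_iff hφ, h2]
    rw [h3]
    exact div_mem (dualMap_mem_of_mem_adjoin LE hr φ) (dualMap_mem_of_mem_adjoin LE hs φ)

end Membership

/-! ### The forms for `laurentBaseChange` -/

section BaseChange

variable (F₀ : IntermediateField ℚ (LaurentSeries ℚ))

theorem laurentBaseChange_mono (E : Type*) [Field E] [Algebra ℚ E]
    {F₀ F₀' : IntermediateField ℚ (LaurentSeries ℚ)} (h : F₀ ≤ F₀') :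
    laurentBaseChange E F₀ ≤ laurentBaseChange E F₀' := by
  rw [laurentBaseChange, IntermediateField.adjoin_le_iff]
  rintro _ ⟨y, hy, rfl⟩
  exact coeffEmb_mem_laurentBaseChange E (h hy)

/-- Descent of membership from `Ω` to `E` for the function fields `laurentBaseChange · F₀`. -/
theorem mem_laurentBaseChange_of_iota_mem (E Ω : Type*) [Field E] [Field Ω] [Algebra ℚ E]
    [Algebra ℚ Ω] [Algebra E Ω] (x : LaurentSeries E)
    (hx : Abs.iota (E := E) (Ω := Ω) x ∈ laurentBaseChange Ω F₀) :
    x ∈ laurentBaseChange E F₀ := by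
  refine mem_of_iota_mem (Ω := Ω) (laurentBaseChange E F₀) x ?_
  have hle : laurentBaseChange Ω F₀ ≤ IntermediateField.adjoin Ω
      (⇑(Abs.iota (E := E) (Ω := Ω)) '' (laurentBaseChange E F₀ : Set (LaurentSeries E))) := by
    rw [laurentBaseChange, IntermediateField.adjoin_le_iff]
    rintro _ ⟨y, hy, rfl⟩
    refine IntermediateField.subset_adjoin Ω _ ⟨coeffEmb E y, ?_, Abs.iota_coeffEmb E Ω y⟩
    exact coeffEmb_mem_laurentBaseChange E hy
  exact hle hx

/-- Descent of membership from `Ω` to `ℚ`: a series with rational coefficients whose base change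
lies in `laurentBaseChange Ω F₀` lies in `F₀`. -/
theorem mem_of_coeffEmb_mem (Ω : Type*) [Field Ω] [Algebra ℚ Ω] (x : LaurentSeries ℚ)
    (hx : coeffEmb Ω x ∈ laurentBaseChange Ω F₀) : x ∈ F₀ :=
  mem_of_iota_mem (E := ℚ) (Ω := Ω) F₀ x hx

/-- A field generated over `ℚ` by series whose base changes to `Ω` lie in
`laurentBaseChange Ω F₀'` is contained in `F₀'`. -/
theorem adjoin_le_of_coeffEmb_mem (Ω : Type*) [Field Ω] [Algebra ℚ Ω]
    (F₀' : IntermediateField ℚ (LaurentSeries ℚ)) (S : Set (LaurentSeries ℚ))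
    (hS : ∀ z ∈ S, coeffEmb Ω z ∈ laurentBaseChange Ω F₀') :
    IntermediateField.adjoin ℚ S ≤ F₀' :=
  IntermediateField.adjoin_le_iff.mpr fun z hz => mem_of_coeffEmb_mem F₀' Ω z (hS z hz)

end BaseChange

/-! ### Level descent for the number-field Kummer statement -/

section Descent

/-- "`K1E` for the function field `laurentBaseChange E F₀` over every sufficiently large number
field `E ⊆ ℚ̄`": the body of `S18.K1Defs.K1Modular` with the field `F₀` as a parameter. -/
def K1ModularOf (F₀ : IntermediateField ℚ (LaurentSeries ℚ)) (A : ValuationSubring Qb)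
    (p : ℕ) : Prop :=
  ∃ S : Finset Qb, ∀ (E : IntermediateField ℚ Qb) [FiniteDimensional ℚ E]
    [IsDiscreteValuationRing (OE A E)],
    (∀ s ∈ S, s ∈ E) → K1E (OE A E) E (laurentBaseChange E F₀) p

theorem k1ModularOf_iff (F₀ : IntermediateField ℚ (LaurentSeries ℚ)) (A : ValuationSubring Qb)
    (p : ℕ) : K1ModularOf F₀ A p ↔
      ∃ S : Finset Qb, ∀ (E : IntermediateField ℚ Qb) [FiniteDimensional ℚ E]
        [IsDiscreteValuationRing (OE A E)],
        (∀ s ∈ S, s ∈ E) → K1E (OE A E) E (laurentBaseChange E F₀) p :=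
  Iff.rfl

/-- `K1ModularOf` at the `Γ₀(N)`-field is `S18.K1Defs.K1Modular`. -/
theorem k1ModularOf_full (N : ℕ) (A : ValuationSubring Qb) (p : ℕ) :
    K1ModularOf (modularFunctionFieldFull N) A p ↔ K1Modular N A p :=
  Iff.rfl

variable {F₀ F₀' : IntermediateField ℚ (LaurentSeries ℚ)}

/-- **Level descent**: `F₀ ≤ F₀'` and the relative degree over every number field prime
to `p`. -/
theorem k1ModularOf_of_le (hle : F₀ ≤ F₀') (A : ValuationSubring Qb) (p : ℕ) (hp1 : p ≠ 1)
    (hdeg : ∀ (E : IntermediateField ℚ Qb) [FiniteDimensional ℚ E],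
      letI := (IntermediateField.inclusion (laurentBaseChange_mono E hle)).toRingHom.toAlgebra
      Nat.Coprime p (Module.finrank (laurentBaseChange E F₀) (laurentBaseChange E F₀')))
    (h : K1ModularOf F₀' A p) : K1ModularOf F₀ A p := by
  obtain ⟨S, hS⟩ := h
  exact ⟨S, fun E _ _ hSE =>
    Fermat.Agent.S18.LevelDescent.k1E_of_le (laurentBaseChange E F₀) (laurentBaseChange E F₀')
      (laurentBaseChange_mono E hle) p (hdeg E) hp1 (hS E hSE)⟩

/-- **Level descent**, degrees given over `E(x)` for an element `x ∈ F₀` (e.g. `x = j`), over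
every number field `E`. -/
theorem k1ModularOf_of_le_of_finrank (hle : F₀ ≤ F₀') (A : ValuationSubring Qb) (p : ℕ)
    (hp1 : p ≠ 1) (x : F₀) (n d : ℕ) (hn0 : n ≠ 0) (hpd : Nat.Coprime p d)
    (hn : ∀ (E : IntermediateField ℚ Qb) [FiniteDimensional ℚ E],
      Module.finrank E⟮Abs.embF F₀ E x⟯ (laurentBaseChange E F₀) = n)
    (hn' : ∀ (E : IntermediateField ℚ Qb) [FiniteDimensional ℚ E],
      Module.finrank E⟮Abs.embF F₀' E ⟨x, hle x.2⟩⟯ (laurentBaseChange E F₀') = n * d)
    (h : K1ModularOf F₀' A p) : K1ModularOf F₀ A p := by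
  obtain ⟨S, hS⟩ := h
  refine ⟨S, fun E _ _ hSE => ?_⟩
  refine Fermat.Agent.S18.LevelDescent.k1E_of_le_of_finrank (laurentBaseChange E F₀)
    (laurentBaseChange E F₀') (laurentBaseChange_mono E hle) p hp1 (Abs.embF F₀ E x) n d hn0
    (hn E) ?_ hpd (hS E hSE)
  have h1 : IntermediateField.inclusion (laurentBaseChange_mono E hle) (Abs.embF F₀ E x)
      = Abs.embF F₀' E ⟨x, hle x.2⟩ := Subtype.ext rfl
  rw [h1]
  exact hn' E

/-- **Level descent**, degrees given over `ℚ̄(x)` only (the degrees over the number fields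
follow by `E2.Degree.Abs`: base change of constants does not change degrees). -/
theorem k1ModularOf_of_le_of_finrank_bar (hle : F₀ ≤ F₀') (A : ValuationSubring Qb) (p : ℕ)
    (hp1 : p ≠ 1) (x : F₀) (n d : ℕ) (hn0 : n ≠ 0) (hpd : Nat.Coprime p d)
    (hfin : Module.Finite Qb⟮Abs.embF F₀ Qb x⟯ (laurentBaseChange Qb F₀))
    (hn : Module.finrank Qb⟮Abs.embF F₀ Qb x⟯ (laurentBaseChange Qb F₀) = n)
    (hfin' : Module.Finite Qb⟮Abs.embF F₀' Qb ⟨x, hle x.2⟩⟯ (laurentBaseChange Qb F₀'))
    (hn' : Module.finrank Qb⟮Abs.embF F₀' Qb ⟨x, hle x.2⟩⟯ (laurentBaseChange Qb F₀') = n * d)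
    (h : K1ModularOf F₀' A p) : K1ModularOf F₀ A p := by
  refine k1ModularOf_of_le_of_finrank hle A p hp1 x n d hn0 hpd (fun E _ => ?_) (fun E _ => ?_) h
  · rw [(Abs.finite_and_finrank_baseChange_down F₀ E Qb x).2, hn]
  · rw [(Abs.finite_and_finrank_baseChange_down F₀' E Qb ⟨x, hle x.2⟩).2, hn']

end Descent

end Fermat.Agent.S48.G1.K1.LevelDescentG
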