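/-
PROGRAM DS (S48), part G1, AREA K — the LOWER-LAYER inputs `h1`, `hprime` of the tower lemma
`K1/GaussTower.gaussTSD_of_tower'` for `K1 = LE M E` (the `Γ₀`-type function field of level `M`
over a number field `E ⊆ ℚ̄`), as NAMED THEOREMS (helper164, G1 DEAL #2a).

* base `u1 = j` (`jE M E`):
  - `gaussTSD_LE_of_jInputs`, `gaussTSD_LE` : `Model.GaussTSD π (jE M E)` (every residue
    characteristic prime to `M`);
  - `prime_pi_LE_of_jInputs`, `prime_pi_LE` : `π` is a prime element of the integral closure of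
    `O[j]` in `LE M E` (residue characteristic `> 3`: Model theorem (a) with `S = {0, 1728}`);
* base `u1 = h_r` (the Hauptmodul `h₂ = HorizTwo.h2E M E _`, `2 ∣ M`, residue characteristic
  odd; resp. `h₃ = HorizThree.h3E M E _`, `3 ∣ M`, residue characteristic `≠ 3`):
  - `gaussTSD_LE_haupt_two(_of_jInputs)`, `gaussTSD_LE_haupt_three(_of_jInputs)`;
  - `prime_pi_LE_haupt_two(_of_jInputs)`, `prime_pi_LE_haupt_three(_of_jInputs)` : `π` is a
    prime element of the integral closure of `O[h_r]` in `LE M E` (Model theorem (a) over the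
    Hauptmodul line, `S = {0, -64}` resp. `{0, -27}`).

The `_of_jInputs` forms are generic in the discrete valuation ring `O` with fraction field `E`
(any `O`-algebra structure on `LE M E` compatible with `E`); the unsuffixed forms are for
`O = OE A E = A ∩ E` with the canonical structure `S18.K1Main.algebraOL`, `A` a valuation ring
of `ℚ̄` over a prime `ℓ ∤ M`, `E ∋ ζ_M`; there the primality statements are written `HPrime O u π`
(`Iff.rfl` to the literal `Prime (algebraMap ..)`, see `hPrime_iff`).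
-/
import Mathlib
import Fermat.Agent.S30.E2.JInputsAll
import Fermat.Agent.S30.Haupt.K1

set_option autoImplicit false
set_option synthInstance.maxHeartbeats 400000
set_option linter.style.haveILetI false
set_option linter.unusedSectionVars false

noncomputable section

open Polynomial IntermediateField ModularCurve

namespace Fermat.Agent.S48.G1.K1.PrimeLE

open Fermat.Agent.S18.K1Defs Fermat.Agent.S18.K1Main Fermat.Agent.S30 Fermat.Agent.S30.Haupt

local notation "Qb" => AlgebraicClosure ℚ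

/-- The `hprime` binder of `GaussTower.gaussTSD_of_tower'` (conclusion (a) of the Model theorem
for the field `K1` and the coordinate `u1`) as a named proposition: `π` is a prime element of the
integral closure of `O[u1]` in `K1`.  (Unfolds by `Iff.rfl`; the arithmetic exits below are stated
with it because elaborating the literal under `letI := algebraOL ..` costs a minute each.) -/
def HPrime (O : Type*) {K1 : Type*} [CommRing O] [Field K1] [Algebra O K1] (u1 : K1) (π : O) :
    Prop :=
  Prime (algebraMap (Algebra.adjoin O {u1}) (integralClosure (Algebra.adjoin O {u1}) K1)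
    (algebraMap O (Algebra.adjoin O {u1}) π))

theorem hPrime_iff {O : Type*} {K1 : Type*} [CommRing O] [Field K1] [Algebra O K1] (u1 : K1)
    (π : O) :
    HPrime O u1 π ↔ Prime (algebraMap (Algebra.adjoin O {u1})
      (integralClosure (Algebra.adjoin O {u1}) K1) (algebraMap O (Algebra.adjoin O {u1}) π)) :=
  Iff.rfl

/-! ### Generic discrete valuation ring -/

section Generic

variable (M : ℕ) [NeZero M] (E : IntermediateField ℚ Qb)
  {O : Type} [CommRing O] [IsDomain O] [IsDiscreteValuationRing O]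
  [Algebra O E] [IsFractionRing O E] [Algebra O (LE M E)] [IsScalarTower O E (LE M E)]

/-- `h1` at the base `j`: the Gauss prime of `E(j)` is trace-self-dual in `LE M E`. -/
theorem gaussTSD_LE_of_jInputs {p : ℕ} (h : JInputs M O E p) (π : O) (hπ : Irreducible π) :
    Model.GaussTSD (E := E) π (jE M E) := by
  haveI := h.fin
  exact gaussTSD_of_gaussUnram π hπ (jE M E) (K1.transcendental_jE M E) (h.gauss π hπ)

/-- `hprime` at the base `j` (`1728` a unit: residue characteristic `> 3`). -/
theorem prime_pi_LE_of_jInputs {p : ℕ} (h : JInputs M O E p) (h1728 : IsUnit (1728 : O))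
    (π : O) (hπ : Irreducible π) :
    Prime (algebraMap (Algebra.adjoin O {jE M E})
      (integralClosure (Algebra.adjoin O {jE M E}) (LE M E))
      (algebraMap O (Algebra.adjoin O {jE M E}) π)) := by
  classical
  haveI := h.fin
  have hS : ∀ c ∈ ({0, 1728} : Finset O), ∀ c' ∈ ({0, 1728} : Finset O), c ≠ c' →
      IsUnit (c - c') := by
    intro c hc c' hc' hne
    simp only [Finset.mem_insert, Finset.mem_singleton] at hc hc'
    rcases hc with rfl | rfl <;> rcases hc' with rfl | rfl
    · exact absurd rfl hne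
    · rw [zero_sub]; exact h1728.neg
    · rw [sub_zero]; exact h1728
    · exact absurd rfl hne
  exact modelA π hπ (jE M E) (K1.transcendental_jE M E) (algClosedIn_laurent (LE M E))
    (h.gauss π hπ) {0, 1728} hS (h.horiz _ (by simp) (by simp))

/-- The Hauptmodul base `h₂`: transcendence, finiteness and the family form of hypothesis (i),
from the `u = j` inputs `fin`, `gauss`. -/
theorem gaussUnram_LE_haupt_two_of_jInputs (h2M : 2 ∣ M) {p : ℕ} (h : JInputs M O E p)
    (h2 : IsUnit (2 : O)) (π : O) (hπ : Irreducible π) :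
    Transcendental E (HorizTwo.h2E M E h2M) ∧
      FiniteDimensional (IntermediateField.adjoin E {HorizTwo.h2E M E h2M}) (LE M E) ∧
      Model.GaussUnram (E := E) π (HorizTwo.h2E M E h2M) := by
  haveI := h.fin
  exact Gauss.gaussUnram_t2 π hπ h2 (jE M E) (K1.transcendental_jE M E) (h.gauss π hπ)
    (HorizTwo.h2E M E h2M) (HorizTwo.jE_mul_h2E M E h2M (jE M E) rfl)

/-- The Hauptmodul base `h₃`: transcendence, finiteness and the family form of hypothesis (i),
from the `u = j` inputs `fin`, `gauss`. -/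
theorem gaussUnram_LE_haupt_three_of_jInputs (h3M : 3 ∣ M) {p : ℕ} (h : JInputs M O E p)
    (h3 : IsUnit (3 : O)) (π : O) (hπ : Irreducible π) :
    Transcendental E (HorizThree.h3E M E h3M) ∧
      FiniteDimensional (IntermediateField.adjoin E {HorizThree.h3E M E h3M}) (LE M E) ∧
      Model.GaussUnram (E := E) π (HorizThree.h3E M E h3M) := by
  haveI := h.fin
  exact Gauss.gaussUnram_t3 π hπ h3 (jE M E) (K1.transcendental_jE M E) (h.gauss π hπ)
    (HorizThree.h3E M E h3M) (HorizThree.jE_mul_h3E M E h3M (jE M E) rfl)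

/-- `h1` at the base `h₂`. -/
theorem gaussTSD_LE_haupt_two_of_jInputs (h2M : 2 ∣ M) {p : ℕ} (h : JInputs M O E p)
    (h2 : IsUnit (2 : O)) (π : O) (hπ : Irreducible π) :
    Model.GaussTSD (E := E) π (HorizTwo.h2E M E h2M) := by
  obtain ⟨hT, hFD, hG⟩ := gaussUnram_LE_haupt_two_of_jInputs M E h2M h h2 π hπ
  haveI := hFD
  exact gaussTSD_of_gaussUnram π hπ _ hT hG

/-- `h1` at the base `h₃`. -/
theorem gaussTSD_LE_haupt_three_of_jInputs (h3M : 3 ∣ M) {p : ℕ} (h : JInputs M O E p)
    (h3 : IsUnit (3 : O)) (π : O) (hπ : Irreducible π) :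
    Model.GaussTSD (E := E) π (HorizThree.h3E M E h3M) := by
  obtain ⟨hT, hFD, hG⟩ := gaussUnram_LE_haupt_three_of_jInputs M E h3M h h3 π hπ
  haveI := hFD
  exact gaussTSD_of_gaussUnram π hπ _ hT hG

/-- `hprime` at the base `h₂` (`2 ∣ M`, `2` a unit: residue characteristic odd): **`π` is a
prime element of the integral closure of `O[h₂]` in `LE M E`.** -/
theorem prime_pi_LE_haupt_two_of_jInputs (h2M : 2 ∣ M) {p : ℕ} (h : JInputs M O E p)
    (h2 : IsUnit (2 : O)) (π : O) (hπ : Irreducible π) :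
    Prime (algebraMap (Algebra.adjoin O {HorizTwo.h2E M E h2M})
      (integralClosure (Algebra.adjoin O {HorizTwo.h2E M E h2M}) (LE M E))
      (algebraMap O (Algebra.adjoin O {HorizTwo.h2E M E h2M}) π)) := by
  classical
  obtain ⟨hT, hFD, hG⟩ := gaussUnram_LE_haupt_two_of_jInputs M E h2M h h2 π hπ
  haveI := hFD
  have h64 : IsUnit (64 : O) := by
    have : (64 : O) = 2 ^ 6 := by norm_num
    rw [this]
    exact h2.pow 6
  have hS : ∀ c ∈ ({0, -64} : Finset O), ∀ c' ∈ ({0, -64} : Finset O), c ≠ c' →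
      IsUnit (c - c') := by
    intro c hc c' hc' hne
    simp only [Finset.mem_insert, Finset.mem_singleton] at hc hc'
    rcases hc with rfl | rfl <;> rcases hc' with rfl | rfl
    · exact absurd rfl hne
    · rw [zero_sub, neg_neg]; exact h64
    · rw [sub_zero]; exact h64.neg
    · exact absurd rfl hne
  have hii : Model.HorizUnram (E := E) ({0, -64} : Finset O) (HorizTwo.h2E M E h2M) :=
    HorizTwo.horizUnram_h2 M E h2M {0, -64}
      ⟨0, by simp, map_zero _⟩ ⟨-64, by simp, by rw [map_neg, map_ofNat]⟩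
  exact modelA π hπ (HorizTwo.h2E M E h2M) hT (algClosedIn_laurent (LE M E)) hG {0, -64} hS hii

/-- `hprime` at the base `h₃` (`3 ∣ M`, `3` a unit: residue characteristic `≠ 3`): **`π` is a
prime element of the integral closure of `O[h₃]` in `LE M E`.** -/
theorem prime_pi_LE_haupt_three_of_jInputs (h3M : 3 ∣ M) {p : ℕ} (h : JInputs M O E p)
    (h3 : IsUnit (3 : O)) (π : O) (hπ : Irreducible π) :
    Prime (algebraMap (Algebra.adjoin O {HorizThree.h3E M E h3M})
      (integralClosure (Algebra.adjoin O {HorizThree.h3E M E h3M}) (LE M E))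
      (algebraMap O (Algebra.adjoin O {HorizThree.h3E M E h3M}) π)) := by
  classical
  obtain ⟨hT, hFD, hG⟩ := gaussUnram_LE_haupt_three_of_jInputs M E h3M h h3 π hπ
  haveI := hFD
  have h27 : IsUnit (27 : O) := by
    have : (27 : O) = 3 ^ 3 := by norm_num
    rw [this]
    exact h3.pow 3
  have hS : ∀ c ∈ ({0, -27} : Finset O), ∀ c' ∈ ({0, -27} : Finset O), c ≠ c' →
      IsUnit (c - c') := by
    intro c hc c' hc' hne
    simp only [Finset.mem_insert, Finset.mem_singleton] at hc hc'
    rcases hc with rfl | rfl <;> rcases hc' with rfl | rfl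
    · exact absurd rfl hne
    · rw [zero_sub, neg_neg]; exact h27
    · rw [sub_zero]; exact h27.neg
    · exact absurd rfl hne
  have hii : Model.HorizUnram (E := E) ({0, -27} : Finset O) (HorizThree.h3E M E h3M) :=
    HorizThree.horizUnram_h3 M E h3M {0, -27}
      ⟨0, by simp, map_zero _⟩ ⟨-27, by simp, by rw [map_neg, map_ofNat]⟩
  exact modelA π hπ (HorizThree.h3E M E h3M) hT (algClosedIn_laurent (LE M E)) hG {0, -27} hS hii

end Generic

/-! ### The arithmetic instance `O = A ∩ E`, canonical algebra structure -/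

section Arithmetic

variable (M : ℕ) [NeZero M] (A : ValuationSubring Qb) (E : IntermediateField ℚ Qb)
  [IsDiscreteValuationRing (OE A E)] {ℓ : ℕ} (hA : A.LiesOverPrime ℓ) (hMℓ : Nat.Coprime M ℓ)
  {z : Qb} (hz : IsPrimitiveRoot z M) (hzE : z ∈ E)

include hA hMℓ hz hzE

/-- The `u = j` inputs at level `M` for the canonical structure, as `JInputs`. -/
theorem jInputs_OE (p : ℕ) :
    letI := algebraOL (OE A E) E (LE M E)
    haveI := isScalarTower_OL (OE A E) E (LE M E)
    JInputs M (OE A E) E p :=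
  E2.JInputsAll.jInputsC_OE M A E hA hMℓ hz hzE p

/-- **`h1` of the tower at the base `j`**, every residue characteristic `ℓ ∤ M`. -/
theorem gaussTSD_LE (π : OE A E) (hπ : Irreducible π) :
    letI := algebraOL (OE A E) E (LE M E)
    Model.GaussTSD (E := E) π (jE M E) := by
  letI := algebraOL (OE A E) E (LE M E)
  haveI := isScalarTower_OL (OE A E) E (LE M E)
  exact gaussTSD_LE_of_jInputs M E (jInputs_OE M A E hA hMℓ hz hzE 0) π hπ

/-- **`hprime` of the tower at the base `j`**, residue characteristic `ℓ > 3`, `ℓ ∤ M`. -/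
theorem prime_pi_LE (hℓ : ℓ.Prime) (h3 : 3 < ℓ) (π : OE A E) (hπ : Irreducible π) :
    letI := algebraOL (OE A E) E (LE M E)
    HPrime (OE A E) (jE M E) π := by
  letI := algebraOL (OE A E) E (LE M E)
  haveI := isScalarTower_OL (OE A E) E (LE M E)
  exact prime_pi_LE_of_jInputs M E (jInputs_OE M A E hA hMℓ hz hzE 0)
    (isUnit_1728_OE A E hℓ hA h3) π hπ

omit hMℓ hz hzE in
/-- `2` is a unit of `A ∩ E` in odd residue characteristic. -/
theorem isUnit_two_OE (hℓ : ℓ.Prime) (hℓ2 : ℓ ≠ 2) : IsUnit (2 : OE A E) := by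
  have hc : Nat.Coprime 2 ℓ := (Nat.coprime_primes Nat.prime_two hℓ).mpr (Ne.symm hℓ2)
  have := isUnit_natCast_OE A E hA 2 hc
  exact_mod_cast this

omit hMℓ hz hzE in
/-- `3` is a unit of `A ∩ E` in residue characteristic `≠ 3`. -/
theorem isUnit_three_OE (hℓ : ℓ.Prime) (hℓ3 : ℓ ≠ 3) : IsUnit (3 : OE A E) := by
  have hc : Nat.Coprime 3 ℓ := (Nat.coprime_primes Nat.prime_three hℓ).mpr (Ne.symm hℓ3)
  have := isUnit_natCast_OE A E hA 3 hc
  exact_mod_cast this

/-- Transcendence and finiteness for the base `h₂` (`2 ∣ M`, `ℓ` odd). -/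
theorem facts_LE_haupt_two (h2M : 2 ∣ M) (hℓ : ℓ.Prime) (hℓ2 : ℓ ≠ 2) :
    Transcendental E (HorizTwo.h2E M E h2M) ∧
      FiniteDimensional (IntermediateField.adjoin E {HorizTwo.h2E M E h2M}) (LE M E) := by
  letI := algebraOL (OE A E) E (LE M E)
  haveI := isScalarTower_OL (OE A E) E (LE M E)
  obtain ⟨π, hπ⟩ := IsDiscreteValuationRing.exists_irreducible (OE A E)
  obtain ⟨hT, hFD, -⟩ := gaussUnram_LE_haupt_two_of_jInputs M E h2M
    (jInputs_OE M A E hA hMℓ hz hzE 0) (isUnit_two_OE A E hA hℓ hℓ2) π hπ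
  exact ⟨hT, hFD⟩

/-- Transcendence and finiteness for the base `h₃` (`3 ∣ M`, `ℓ ≠ 3`). -/
theorem facts_LE_haupt_three (h3M : 3 ∣ M) (hℓ : ℓ.Prime) (hℓ3 : ℓ ≠ 3) :
    Transcendental E (HorizThree.h3E M E h3M) ∧
      FiniteDimensional (IntermediateField.adjoin E {HorizThree.h3E M E h3M}) (LE M E) := by
  letI := algebraOL (OE A E) E (LE M E)
  haveI := isScalarTower_OL (OE A E) E (LE M E)
  obtain ⟨π, hπ⟩ := IsDiscreteValuationRing.exists_irreducible (OE A E)
  obtain ⟨hT, hFD, -⟩ := gaussUnram_LE_haupt_three_of_jInputs M E h3M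
    (jInputs_OE M A E hA hMℓ hz hzE 0) (isUnit_three_OE A E hA hℓ hℓ3) π hπ
  exact ⟨hT, hFD⟩

/-- **`h1` of the tower at the base `h₂`** (`2 ∣ M`, `ℓ` odd, `ℓ ∤ M`). -/
theorem gaussTSD_LE_haupt_two (h2M : 2 ∣ M) (hℓ : ℓ.Prime) (hℓ2 : ℓ ≠ 2) (π : OE A E)
    (hπ : Irreducible π) :
    letI := algebraOL (OE A E) E (LE M E)
    Model.GaussTSD (E := E) π (HorizTwo.h2E M E h2M) := by
  letI := algebraOL (OE A E) E (LE M E)
  haveI := isScalarTower_OL (OE A E) E (LE M E)
  exact gaussTSD_LE_haupt_two_of_jInputs M E h2M (jInputs_OE M A E hA hMℓ hz hzE 0)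
    (isUnit_two_OE A E hA hℓ hℓ2) π hπ

/-- **`h1` of the tower at the base `h₃`** (`3 ∣ M`, `ℓ ≠ 3`, `ℓ ∤ M`). -/
theorem gaussTSD_LE_haupt_three (h3M : 3 ∣ M) (hℓ : ℓ.Prime) (hℓ3 : ℓ ≠ 3) (π : OE A E)
    (hπ : Irreducible π) :
    letI := algebraOL (OE A E) E (LE M E)
    Model.GaussTSD (E := E) π (HorizThree.h3E M E h3M) := by
  letI := algebraOL (OE A E) E (LE M E)
  haveI := isScalarTower_OL (OE A E) E (LE M E)
  exact gaussTSD_LE_haupt_three_of_jInputs M E h3M (jInputs_OE M A E hA hMℓ hz hzE 0)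
    (isUnit_three_OE A E hA hℓ hℓ3) π hπ

/-- **`hprime` over the Hauptmodul line `h₂`** (`2 ∣ M`, `ℓ` odd, `ℓ ∤ M`): `π` is a prime
element of the integral closure of `O_E[h₂]` in `LE M E`. -/
theorem prime_pi_LE_haupt_two (h2M : 2 ∣ M) (hℓ : ℓ.Prime) (hℓ2 : ℓ ≠ 2) (π : OE A E)
    (hπ : Irreducible π) :
    letI := algebraOL (OE A E) E (LE M E)
    HPrime (OE A E) (HorizTwo.h2E M E h2M) π := by
  letI := algebraOL (OE A E) E (LE M E)
  haveI := isScalarTower_OL (OE A E) E (LE M E)
  exact prime_pi_LE_haupt_two_of_jInputs M E h2M (jInputs_OE M A E hA hMℓ hz hzE 0)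
    (isUnit_two_OE A E hA hℓ hℓ2) π hπ

/-- **`hprime` over the Hauptmodul line `h₃`** (`3 ∣ M`, `ℓ ≠ 3`, `ℓ ∤ M`): `π` is a prime
element of the integral closure of `O_E[h₃]` in `LE M E`. -/
theorem prime_pi_LE_haupt_three (h3M : 3 ∣ M) (hℓ : ℓ.Prime) (hℓ3 : ℓ ≠ 3) (π : OE A E)
    (hπ : Irreducible π) :
    letI := algebraOL (OE A E) E (LE M E)
    HPrime (OE A E) (HorizThree.h3E M E h3M) π := by
  letI := algebraOL (OE A E) E (LE M E)
  haveI := isScalarTower_OL (OE A E) E (LE M E)
  exact prime_pi_LE_haupt_three_of_jInputs M E h3M (jInputs_OE M A E hA hMℓ hz hzE 0)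
    (isUnit_three_OE A E hA hℓ hℓ3) π hπ

end Arithmetic

end Fermat.Agent.S48.G1.K1.PrimeLE
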