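/-
PROGRAM DS (S48), part G1, AREA K, row K.1 (TowerDeg), captain's insurance copy (helper210):
THE DEGREE OF `F₁(M)·E` OVER `F₀(M)·E`.

* `finite_and_finrank_of_le` (generic, Mathlib only): `K ≤ L` intermediate fields of `Ω / E` and
  one element `j` seen in both; `L` is a `K`-algebra through the inclusion.  Then `L / K` is
  finite as soon as `K / E(j)` and `L / E(j)` are, and `[K : E(j)] · [L : K] = [L : E(j)]`.
  (No transport of the middle field: `E(j) ⊆ K` acts on `L` through `K`, and is identified with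
  `E(j) ⊆ L` by `IntermediateField.equivMap` + `adjoin_map`.)
* `finite_LE0_LE1`, `finrank_LE0_LE1`, `finrank_le_card_idx` : for `2 ≤ M` and
  `E ⊆ ℚ̄`, with `letI := DiaE.algebraLE M E`:
  `FiniteDimensional (LE0 M E) (LE1 M E)`, `[LE1 : LE0] = |(ℤ/M)ˣ/±1| = Nat.card (DiaE.Idx M)`
  — the two inputs (TD1), (TD2) of `DiaE.fintype_card_idx_eq_finrank` / the tower assembly.
  Inputs: `S30.E2.Degree.finite_and_finrank_LE` (`[F₀(M)E : E(j)] = ψ(M)`) and
  `K1.HorizInst.finite_jE1 / finrank_jE1` (`[F₁(M)E : E(j)] = ψ(M)·|(ℤ/M)ˣ/±1|`).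
-/
import Mathlib
import Fermat.Agent.S48.G1.K1.HorizInst
import Fermat.Agent.S48.G1.K1.DiaE

set_option autoImplicit false
set_option linter.style.haveILetI false
set_option synthInstance.maxHeartbeats 400000

noncomputable section

namespace Fermat.Agent.S48.G1.K1.TowerDegCap

open ModularCurve IntermediateField
open Fermat.Agent.S48.G1.F1 Fermat.Agent.S48.G1.K1.Bricks

/-! ### Generic tower degree -/

section Generic

variable {E Ω : Type*} [Field E] [Field Ω] [Algebra E Ω]

/-- `E(j) ⊆ K ⊆ L ⊆ Ω`: finiteness of `L / K` and the tower law, with `L` a `K`-algebra through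
the inclusion. -/
theorem finite_and_finrank_of_le (K L : IntermediateField E Ω) (h : K ≤ L)
    (jK : K) (jL : L) (hj : (jK : Ω) = (jL : Ω))
    [FiniteDimensional E⟮jK⟯ K] [FiniteDimensional E⟮jL⟯ L] :
    letI := (IntermediateField.inclusion h).toRingHom.toAlgebra
    FiniteDimensional K L ∧
      Module.finrank E⟮jK⟯ K * Module.finrank K L = Module.finrank E⟮jL⟯ L := by
  letI algKL : Algebra K L := (IntermediateField.inclusion h).toRingHom.toAlgebra
  let f : K →ₐ[E] L := IntermediateField.inclusion h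
  let S : IntermediateField E K := E⟮jK⟯
  letI algSL : Algebra S L := ((f : K →+* L).comp (algebraMap S K)).toAlgebra
  haveI tow : IsScalarTower S K L := IsScalarTower.of_algebraMap_eq (fun _ => rfl)
  have hfj : f jK = jL := Subtype.ext hj
  have hmap : S.map f = E⟮jL⟯ := by
    show (IntermediateField.adjoin E {jK}).map f = IntermediateField.adjoin E {jL}
    rw [IntermediateField.adjoin_map, Set.image_singleton, hfj]
  let e₁ : S ≃+* E⟮jL⟯ :=
    (S.equivMap f).toRingEquiv.trans (IntermediateField.equivOfEq hmap).toRingEquiv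
  have he₁ : ∀ x : S, ((e₁ x : E⟮jL⟯) : L) = f (x : K) := fun x => rfl
  have hc : (algebraMap E⟮jL⟯ L).comp e₁.toRingHom
      = (RingEquiv.refl L).toRingHom.comp (algebraMap S L) := by
    ext x
    rfl
  have hc' : RingHom.comp (algebraMap S L) (e₁.symm : E⟮jL⟯ →+* S)
      = RingHom.comp ((RingEquiv.refl L : L ≃+* L) : L →+* L) (algebraMap E⟮jL⟯ L) := by
    ext y
    obtain ⟨x, rfl⟩ := e₁.surjective y
    have := he₁ x
    simp only [RingHom.comp_apply, RingEquiv.coe_toRingHom, RingEquiv.symm_apply_apply]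
    rfl
  haveI finSL : Module.Finite S L :=
    Module.Finite.of_equiv_equiv (A₁ := E⟮jL⟯) (B₁ := L) (A₂ := S) (B₂ := L)
      e₁.symm (RingEquiv.refl L) hc'
  have hrank : Module.finrank S L = Module.finrank E⟮jL⟯ L :=
    Algebra.finrank_eq_of_equiv_equiv e₁ (RingEquiv.refl L) hc
  refine ⟨FiniteDimensional.right S K L, ?_⟩
  rw [← hrank]
  exact Module.finrank_mul_finrank S K L

end Generic

/-! ### The instance `F₀(M)·E ⊆ F₁(M)·E` -/

local notation "Qb" => AlgebraicClosure ℚ

variable (M : ℕ) (hM : 2 ≤ M) (E : IntermediateField ℚ Qb)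

include hM

set_option maxHeartbeats 2000000 in
/-- `F₁(M)·E` is finite over `F₀(M)·E`, and `ψ(M) · [F₁(M)E : F₀(M)E] = ψ(M) · |(ℤ/M)ˣ/±1|`. -/
theorem finite_and_mul :
    letI := DiaE.algebraLE M E
    FiniteDimensional (DiaE.LE0 M E) (DiaE.LE1 M E) ∧
      dedekindPsi M * Module.finrank (DiaE.LE0 M E) (DiaE.LE1 M E) =
        dedekindPsi M * FIn.hCard M := by
  haveI : NeZero M := ⟨by omega⟩
  haveI h0 : FiniteDimensional (IntermediateField.adjoin E {Fermat.Agent.S30.E2.Degree.jE M E})
      (laurentBaseChange E (modularFunctionFieldFull M)) :=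
    (Fermat.Agent.S30.E2.Degree.finite_and_finrank_LE M E).1
  haveI h1 : FiniteDimensional (IntermediateField.adjoin E {jE1 M E}) (L1 M E) :=
    HorizInst.finite_jE1 M hM E
  have hj : ((Fermat.Agent.S30.E2.Degree.jE M E :
        laurentBaseChange E (modularFunctionFieldFull M)) : LaurentSeries E)
      = ((jE1 M E : L1 M E) : LaurentSeries E) :=
    (Fermat.Agent.S30.E2.Degree.coe_jE M E).trans
      (show coeffEmb E jq = ((jE1 M E : L1 M E) : LaurentSeries E) from rfl)
  have key := finite_and_finrank_of_le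
    (laurentBaseChange E (modularFunctionFieldFull M)) (L1 M E) (DiaE.LE0_le_LE1 M E)
    (Fermat.Agent.S30.E2.Degree.jE M E) (jE1 M E) hj
  refine ⟨key.1, ?_⟩
  have h2 := key.2
  rw [Fermat.Agent.S30.E2.Degree.finrank_LE M E, HorizInst.finrank_jE1 M hM E] at h2
  exact h2

/-- `0 < ψ(M)` (it is the degree of a finite field extension). -/
theorem dedekindPsi_pos : 0 < dedekindPsi M := by
  haveI : NeZero M := ⟨by omega⟩
  haveI h0 : FiniteDimensional
      (IntermediateField.adjoin (⊥ : IntermediateField ℚ Qb)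
        {Fermat.Agent.S30.E2.Degree.jE M (⊥ : IntermediateField ℚ Qb)})
      (laurentBaseChange (⊥ : IntermediateField ℚ Qb) (modularFunctionFieldFull M)) :=
    (Fermat.Agent.S30.E2.Degree.finite_and_finrank_LE M (⊥ : IntermediateField ℚ Qb)).1
  rw [← Fermat.Agent.S30.E2.Degree.finrank_LE M (⊥ : IntermediateField ℚ Qb)]
  exact Module.finrank_pos

/-- **(TD1)** `F₁(M)·E` is finite over `F₀(M)·E`. -/
theorem finite_LE0_LE1 :
    letI := DiaE.algebraLE M E
    FiniteDimensional (DiaE.LE0 M E) (DiaE.LE1 M E) :=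
  (finite_and_mul M hM E).1

/-- `[F₁(M)·E : F₀(M)·E] = |(ℤ/M)ˣ/±1|`. -/
theorem finrank_LE0_LE1 :
    letI := DiaE.algebraLE M E
    Module.finrank (DiaE.LE0 M E) (DiaE.LE1 M E) = FIn.hCard M :=
  Nat.eq_of_mul_eq_mul_left (dedekindPsi_pos M hM) (finite_and_mul M hM E).2

/-- **(TD2)** the `hdeg` of `DiaE.fintype_card_idx_eq_finrank`. -/
theorem finrank_le_card_idx :
    letI := DiaE.algebraLE M E
    Module.finrank (DiaE.LE0 M E) (DiaE.LE1 M E) ≤ Nat.card (DiaE.Idx M) :=
  le_of_eq (finrank_LE0_LE1 M hM E)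

end Fermat.Agent.S48.G1.K1.TowerDegCap
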