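/-
PROGRAM DS (S48), part G1, AREA K, row K.1 / TowerDeg, ALT (helper216): THE DEGREE OF
`F₁(M)·E` OVER `F₀(M)·E`, from the degrees over `E(j)`.

* `tower_of_adjoin` (abstract fields `E ⊆ K0 ⊆ L`, no series in sight): if `j0 ∈ K0` maps to
  `j1 ∈ L`, `K0 / E(j0)` and `L / E(j1)` finite, then `L / K0` is finite and
  `[K0 : E(j0)] · [L : K0] = [L : E(j1)]`.
  (`E(j0) ≃ E(j1)` by `IntermediateField.equivMap`, `Algebra.finrank_eq_of_equiv_equiv`, and the
  tower law for `E(j0) ⊆ K0 ⊆ L` with Mathlib's algebra structure of `L` over `E(j0)`.)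
* `finite_and_finrank_of` : the instance `K0 = LE0 M E`, `L = LE1 M E` (vocabulary and algebra
  structure `algebraLE M E` of `K1/DiaE.lean`), `j0 = S30.E2.Degree.jE M E`, for ANY `j1 : LE1 M E`
  with expansion `coeffEmb E jq` (e.g. `Bricks.jE1 M E`, by `rfl`), from the one named input
  `[LE1 M E : E(j1)] = ψ(M) · n` (`HorizInst.finite_jE1` / `finrank_jE1` at `n = FIn.hCard M`):
  `LE1 M E / LE0 M E` is finite of degree `n`.
-/
import Mathlib
import Fermat.Agent.S48.G1.K1.DiaEFam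

set_option autoImplicit false

noncomputable section

namespace Fermat.Agent.S48.G1.K1.TowerDegGen

open ModularCurve IntermediateField
open Fermat.Agent.S30.E2.Degree Fermat.Agent.S30.E2.Degree.Abs
open Fermat.Agent.S48.G1.F1 Fermat.Agent.S48.G1.K1.DiaE

/-- **Tower law over a common rational subfield.**  `E ⊆ K0 ⊆ L` fields, `j0 ∈ K0` with image
`j1 ∈ L`: if `K0 / E(j0)` and `L / E(j1)` are finite, then `L / K0` is finite and
`[K0 : E(j0)] · [L : K0] = [L : E(j1)]`. -/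
theorem tower_of_adjoin {E K0 L : Type*} [Field E] [Field K0] [Field L] [Algebra E K0]
    [Algebra E L] [Algebra K0 L] [IsScalarTower E K0 L] (j0 : K0) (j1 : L)
    (hj : algebraMap K0 L j0 = j1)
    [FiniteDimensional E⟮j0⟯ K0] [FiniteDimensional E⟮j1⟯ L] :
    FiniteDimensional K0 L ∧
      Module.finrank E⟮j0⟯ K0 * Module.finrank K0 L = Module.finrank E⟮j1⟯ L := by
  let ι : K0 →ₐ[E] L := IsScalarTower.toAlgHom E K0 L
  have hmap : (E⟮j0⟯).map ι = E⟮j1⟯ := by
    rw [IntermediateField.adjoin_map, Set.image_singleton]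
    have : ι j0 = j1 := hj
    rw [this]
  let e : E⟮j0⟯ ≃ₐ[E] E⟮j1⟯ :=
    (IntermediateField.equivMap E⟮j0⟯ ι).trans (IntermediateField.equivOfEq hmap)
  have he : ∀ a : E⟮j0⟯, ((e a : E⟮j1⟯) : L) = algebraMap K0 L (a : K0) := fun a => rfl
  have hfr : Module.finrank E⟮j0⟯ L = Module.finrank E⟮j1⟯ L := by
    refine Algebra.finrank_eq_of_equiv_equiv e.toRingEquiv (RingEquiv.refl L) ?_
    ext a
    exact (he a).trans (IsScalarTower.algebraMap_apply E⟮j0⟯ K0 L a).symm
  have hpos : 0 < Module.finrank E⟮j0⟯ L := by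
    rw [hfr]
    exact Module.finrank_pos
  have hf0 : Module.Finite E⟮j0⟯ L := Module.finite_of_finrank_pos hpos
  have hf1 : Module.Finite K0 L := Module.Finite.of_restrictScalars_finite E⟮j0⟯ K0 L
  exact ⟨hf1, (Module.finrank_mul_finrank E⟮j0⟯ K0 L).trans hfr⟩

attribute [local instance] algebraLE

/-- `j ∈ LE0 M E` maps to any `j1 ∈ LE1 M E` with the expansion of `j`. -/
theorem algebraMap_jE (M : ℕ) (E : Type*) [Field E] [Algebra ℚ E] (j1 : LE1 M E)
    (hj1 : (j1 : LaurentSeries E) = coeffEmb E jq) :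
    algebraMap (LE0 M E) (LE1 M E) (jE M E) = j1 :=
  Subtype.ext ((IntermediateField.coe_inclusion (LE0_le_LE1 M E) (jE M E)).trans
    ((coe_jE M E).trans hj1.symm))

/-- **(TD1) + (TD2), from the degree over `E(j)`**: if `[LE1 M E : E(j1)] = ψ(M) · n`, then
`LE1 M E` is finite of degree `n` over `LE0 M E`. -/
theorem finite_and_finrank_of (M : ℕ) [NeZero M] (E : Type*) [Field E] [Algebra ℚ E]
    (j1 : LE1 M E) (hj1 : (j1 : LaurentSeries E) = coeffEmb E jq)
    (hfin : FiniteDimensional E⟮j1⟯ (LE1 M E)) (n : ℕ)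
    (hrank : Module.finrank E⟮j1⟯ (LE1 M E) = dedekindPsi M * n) :
    FiniteDimensional (LE0 M E) (LE1 M E) ∧ Module.finrank (LE0 M E) (LE1 M E) = n := by
  have htower := isScalarTower_LE M E
  have hfin0 : FiniteDimensional E⟮jE M E⟯ (LE0 M E) := finite_LE M E
  obtain ⟨h1, h2⟩ := tower_of_adjoin (E := E) (jE M E) j1 (algebraMap_jE M E j1 hj1)
  refine ⟨h1, ?_⟩
  have hψ : 0 < dedekindPsi M := by
    have hpos : 0 < Module.finrank E⟮jE M E⟯ (LE0 M E) := Module.finrank_pos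
    rwa [finrank_LE M E] at hpos
  rw [finrank_LE M E, hrank] at h2
  exact Nat.eq_of_mul_eq_mul_left hψ h2

theorem finite_of (M : ℕ) [NeZero M] (E : Type*) [Field E] [Algebra ℚ E]
    (j1 : LE1 M E) (hj1 : (j1 : LaurentSeries E) = coeffEmb E jq)
    (hfin : FiniteDimensional E⟮j1⟯ (LE1 M E)) (n : ℕ)
    (hrank : Module.finrank E⟮j1⟯ (LE1 M E) = dedekindPsi M * n) :
    FiniteDimensional (LE0 M E) (LE1 M E) :=
  (finite_and_finrank_of M E j1 hj1 hfin n hrank).1

theorem finrank_of (M : ℕ) [NeZero M] (E : Type*) [Field E] [Algebra ℚ E]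
    (j1 : LE1 M E) (hj1 : (j1 : LaurentSeries E) = coeffEmb E jq)
    (hfin : FiniteDimensional E⟮j1⟯ (LE1 M E)) (n : ℕ)
    (hrank : Module.finrank E⟮j1⟯ (LE1 M E) = dedekindPsi M * n) :
    Module.finrank (LE0 M E) (LE1 M E) = n :=
  (finite_and_finrank_of M E j1 hj1 hfin n hrank).2

/-- **`hcard`** of the tower lemmas from the degree over `E(j)` at
`n = |(ℤ/M)ˣ/±1|` (no diamond input needed for this direction). -/
theorem fintype_card_idx_eq_finrank_of (M : ℕ) [NeZero M] (E : Type*) [Field E] [Algebra ℚ E]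
    [Fintype (Idx M)] (j1 : LE1 M E) (hj1 : (j1 : LaurentSeries E) = coeffEmb E jq)
    (hfin : FiniteDimensional E⟮j1⟯ (LE1 M E))
    (hrank : Module.finrank E⟮j1⟯ (LE1 M E) = dedekindPsi M * Nat.card (Idx M)) :
    Fintype.card (Idx M) = Module.finrank (LE0 M E) (LE1 M E) := by
  rw [finrank_of M E j1 hj1 hfin _ hrank, Nat.card_eq_fintype_card]

end Fermat.Agent.S48.G1.K1.TowerDegGen
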