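import Mathlib
import Fermat.Agent.S30.E2.Degree
import Fermat.Agent.S48.G1.K1.DiaE
import Fermat.Agent.S48.G1.K1.HorizInst

/-!
# PROGRAM DS (S48) / G1, area K: the relative degree `[F₁(M)·E : F₀(M)·E]`

* `finite_and_finrank_of_algHom` (generic, Mathlib only): for an `E`-algebra embedding
  `φ : K → L` of fields with `φ jK = jL`, `K` finite over `E(jK)` and `L` finite over `E(jL)`:
  `L` is finite over `K` (via `φ`) and `[K : E(jK)] · [L : K] = [L : E(jL)]`.
* `finite_LE0_LE1`, `finrank_LE0_LE1`, `finrank_LE0_LE1_le` : for `2 ≤ M` and a subfield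
  `E ⊆ ℚ̄`, in the vocabulary of `K1/DiaE.lean` (`LE0 M E`, `LE1 M E`, algebra `algebraLE M E`
  = the inclusion): `LE1 M E` is finite over `LE0 M E`, of degree `|(ℤ/M)ˣ/±1|`.
  (Inputs: `S30.E2.Degree.finite_and_finrank_LE` (`= ψ(M)`) and `HorizInst.finrank_jE1`
  (`= ψ(M) · |(ℤ/M)ˣ/±1|`).)
-/

set_option autoImplicit false
set_option linter.style.haveILetI false

open IntermediateField

noncomputable section

namespace Fermat.Agent.S48.G1.K1.TowerLaw

/-! ### Generic tower law along an embedding -/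

section Generic

variable {E K L : Type*} [Field E] [Field K] [Field L] [Algebra E K] [Algebra E L]

/-- **Tower law along an embedding.**  `φ : K →ₐ[E] L`, `φ jK = jL`, `K / E(jK)` and
`L / E(jL)` finite.  Then `L` is finite over `K` (through `φ`) and
`[K : E(jK)] · [L : K] = [L : E(jL)]`. -/
theorem finite_and_finrank_of_algHom (φ : K →ₐ[E] L) (jK : K) (jL : L) (hj : φ jK = jL)
    [Module.Finite E⟮jK⟯ K] [Module.Finite E⟮jL⟯ L] :
    letI := φ.toRingHom.toAlgebra
    Module.Finite K L ∧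
      Module.finrank E⟮jK⟯ K * Module.finrank K L = Module.finrank E⟮jL⟯ L := by
  letI : Algebra K L := φ.toRingHom.toAlgebra
  haveI : IsScalarTower E K L := IsScalarTower.of_algebraMap_eq (fun e => (φ.commutes e).symm)
  letI : Algebra E⟮jK⟯ L := ((algebraMap K L).comp (algebraMap E⟮jK⟯ K)).toAlgebra
  haveI : IsScalarTower E⟮jK⟯ K L := IsScalarTower.of_algebraMap_eq (fun _ => rfl)
  have hmap : (E⟮jK⟯).map φ = E⟮jL⟯ := by
    rw [IntermediateField.adjoin_map, Set.image_singleton, hj]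
  let e₁ : E⟮jK⟯ ≃ₐ[E] E⟮jL⟯ :=
    ((E⟮jK⟯).equivMap φ).trans (IntermediateField.equivOfEq hmap)
  have he : (algebraMap E⟮jL⟯ L).comp e₁.toRingEquiv.toRingHom =
      (RingEquiv.refl L).toRingHom.comp (algebraMap E⟮jK⟯ L) := by
    ext x
    rfl
  have he' : (algebraMap E⟮jK⟯ L).comp e₁.symm.toRingEquiv.toRingHom =
      (RingEquiv.refl L).toRingHom.comp (algebraMap E⟮jL⟯ L) := by
    ext x
    have h1 : (algebraMap E⟮jL⟯ L) (e₁ (e₁.symm x)) = (algebraMap E⟮jK⟯ L) (e₁.symm x) :=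
      DFunLike.congr_fun he (e₁.symm x)
    rw [e₁.apply_symm_apply] at h1
    exact h1.symm
  haveI : Module.Finite E⟮jK⟯ L :=
    Module.Finite.of_equiv_equiv e₁.symm.toRingEquiv (RingEquiv.refl L) he'
  have h1 : Module.finrank E⟮jK⟯ L = Module.finrank E⟮jL⟯ L :=
    Algebra.finrank_eq_of_equiv_equiv e₁.toRingEquiv (RingEquiv.refl L) he
  haveI : Module.Finite K L := Module.Finite.of_restrictScalars_finite E⟮jK⟯ K L
  refine ⟨inferInstance, ?_⟩
  rw [← h1]
  exact Module.finrank_mul_finrank E⟮jK⟯ K L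

end Generic

/-! ### The instance `LE0 M E ⊆ LE1 M E` -/

section Instance

open ModularCurve
open Fermat.Agent.S48.G1.F1 Fermat.Agent.S48.G1.K1.DiaE

local notation "Qb" => AlgebraicClosure ℚ

variable (M : ℕ) [NeZero M] (hM : 2 ≤ M) (E : IntermediateField ℚ Qb)

/-- The inclusion maps `j ∈ LE0 M E` to `j ∈ LE1 M E`. -/
theorem inclusion_jE :
    IntermediateField.inclusion (LE0_le_LE1 M E) (Fermat.Agent.S30.E2.Degree.jE M E) =
      Bricks.jE1 M E := by
  apply Subtype.ext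
  rw [IntermediateField.coe_inclusion]
  exact (Fermat.Agent.S30.E2.Degree.coe_jE M E).trans
    (show coeffEmb E jq = ((Bricks.jE1 M E : Bricks.L1 M E) : LaurentSeries E) from rfl)

include hM

/-- **`LE1 M E` is finite over `LE0 M E`, and `ψ(M) · [LE1 : LE0] = ψ(M) · |(ℤ/M)ˣ/±1|`.** -/
theorem finite_and_mul_finrank :
    letI := algebraLE M E
    Module.Finite (LE0 M E) (LE1 M E) ∧
      dedekindPsi M * Module.finrank (LE0 M E) (LE1 M E) = dedekindPsi M * Bricks.FIn.hCard M := by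
  haveI h0 : Module.Finite E⟮Fermat.Agent.S30.E2.Degree.jE M E⟯ (LE0 M E) :=
    Fermat.Agent.S30.E2.Degree.finite_LE M E
  haveI h1 : Module.Finite E⟮Bricks.jE1 M E⟯ (LE1 M E) := HorizInst.finite_jE1 M hM E
  have key := finite_and_finrank_of_algHom (IntermediateField.inclusion (LE0_le_LE1 M E))
    (Fermat.Agent.S30.E2.Degree.jE M E) (Bricks.jE1 M E) (inclusion_jE M E)
  refine ⟨key.1, ?_⟩
  have h2 := key.2
  rw [Fermat.Agent.S30.E2.Degree.finrank_LE M E, HorizInst.finrank_jE1 M hM E] at h2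
  exact h2

/-- **(TD1)** `LE1 M E` is finite over `LE0 M E`. -/
theorem finite_LE0_LE1 :
    letI := algebraLE M E
    FiniteDimensional (LE0 M E) (LE1 M E) :=
  (finite_and_mul_finrank M hM E).1

/-- `[LE1 M E : LE0 M E] = |(ℤ/M)ˣ/±1|`. -/
theorem finrank_LE0_LE1 :
    letI := algebraLE M E
    Module.finrank (LE0 M E) (LE1 M E) = Nat.card (Idx M) := by
  have h := (finite_and_mul_finrank M hM E).2
  have hpsi : 0 < dedekindPsi M := by
    have hfr := Fermat.Agent.S30.E2.Degree.finrank_LE M E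
    haveI : Module.Finite E⟮Fermat.Agent.S30.E2.Degree.jE M E⟯ (LE0 M E) :=
      Fermat.Agent.S30.E2.Degree.finite_LE M E
    rw [← hfr]
    exact Module.finrank_pos
  exact Nat.eq_of_mul_eq_mul_left hpsi h

/-- **(TD2)** `[LE1 M E : LE0 M E] ≤ |(ℤ/M)ˣ/±1|` (the `hdeg` of `DiaE.finrank_eq_card_idx` /
`DiaE.fintype_card_idx_eq_finrank`). -/
theorem finrank_LE0_LE1_le :
    letI := algebraLE M E
    Module.finrank (LE0 M E) (LE1 M E) ≤ Nat.card (Idx M) :=
  (finrank_LE0_LE1 M hM E).le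

end Instance

end Fermat.Agent.S48.G1.K1.TowerLaw
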