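/-
PROGRAM DS (S48), part G1, AREA K (K1 side) — the TOWER LEMMA for trace-self-duality (helper187).

`Model.LocalDisc.TSDField A K L p` ("the integral closure of `A` in `L` is trace-self-dual at `p`",
the E1-internal form of hypotheses (i)/(ii) of the Model theorem) is TRANSITIVE in towers:

    K ⊆ K₁ ⊆ L,   A ⊆ K with fraction field K,   C = integral closure of A in K₁.
    TSDField A K K₁ p   and   TSDField C K₁ L p   imply   TSDField A K L p.

Use for G1: `K = E(j)`, `A = O[j]`, `K₁ = F₀(M)·E` (lower layer: landed `E2.G` + `tsdField_of_unramAt`),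
`L = F₁(M)·E` (upper layer: `UnramTSD.tsdField_of_family` over `C`, where `π` is prime by the Model
theorem (a) for `K₁`, with a family whose trace discriminant is a `π`-unit — e.g. the powers of
one generator `g_b`, whose diamond conjugates have pairwise distinct reductions).
-/
import Mathlib
import Fermat.Agent.S30.Model.LocalDisc
import Fermat.Agent.S30.Model.UnramTSD

set_option autoImplicit false

namespace Fermat.Agent.S48.G1.K1.TowerTSD

open Fermat.Agent.S30.Model

/-- **Tower lemma for trace-self-duality.** -/
theorem tsdField_tower {A C K K₁ L : Type*} [CommRing A] [CommRing C] [Field K] [Field K₁] [Field L]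
    [Algebra A K] [Algebra K K₁] [Algebra A K₁] [IsScalarTower A K K₁]
    [Algebra K₁ L] [Algebra K L] [IsScalarTower K K₁ L] [Algebra A L] [IsScalarTower A K₁ L]
    [Algebra A C] [Algebra C K₁] [IsScalarTower A C K₁] [Algebra C L] [IsScalarTower C K₁ L]
    [IsScalarTower A C L]
    [FiniteDimensional K K₁] [FiniteDimensional K₁ L]
    [IsIntegralClosure C A K₁] (p : A)
    (hlow : LocalDisc.TSDField A K K₁ p)
    (hup : LocalDisc.TSDField C K₁ L (algebraMap A C p)) :
    LocalDisc.TSDField A K L p := by
  intro x hx hxy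
  have hCint : Algebra.IsIntegral A C := IsIntegralClosure.isIntegral_algebra A K₁
  -- the upper layer applied to `x`
  have hxC : IsIntegral C x := hx.tower_top
  have key : ∀ y : L, IsIntegral C y →
      ∃ w : C, Algebra.trace K₁ L (x * y) = algebraMap C K₁ (algebraMap A C p * w) := by
    intro y hy
    have hyA : IsIntegral A y := isIntegral_trans y hy
    have ht : IsIntegral A (Algebra.trace K₁ L (x * y)) := Algebra.isIntegral_trace (hx.mul hyA)
    -- the lower layer applied to `t = Tr_{L/K₁}(x y)`
    obtain ⟨z₁, hz₁, hz₁eq⟩ := hlow (Algebra.trace K₁ L (x * y)) ht (by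
      intro y₁ hy₁
      have hy₁L : IsIntegral A (algebraMap K₁ L y₁) := hy₁.algebraMap
      obtain ⟨w, hw⟩ := hxy (y * algebraMap K₁ L y₁) (hyA.mul hy₁L)
      refine ⟨w, ?_⟩
      have e1 : Algebra.trace K₁ L (x * y) * y₁
          = Algebra.trace K₁ L (x * (y * algebraMap K₁ L y₁)) := by
        have h1 := (Algebra.trace K₁ L).map_smul y₁ (x * y)
        rw [smul_eq_mul, Algebra.smul_def] at h1
        rw [mul_comm _ y₁, ← h1]
        congr 1
        ring
      rw [e1, Algebra.trace_trace (R := K) (S := K₁) (T := L)]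
      exact hw)
    obtain ⟨c, hc⟩ := IsIntegralClosure.isIntegral_iff (A := C) |>.mp hz₁
    refine ⟨c, ?_⟩
    rw [hz₁eq, map_mul, ← IsScalarTower.algebraMap_apply A C K₁, hc]
  obtain ⟨z, hz, hzeq⟩ := hup x hxC key
  refine ⟨z, isIntegral_trans z hz, ?_⟩
  rw [hzeq, ← IsScalarTower.algebraMap_apply A C L]

/-- **Tower + family.**  Lower layer trace-self-dual at `p`; `p` prime in the integral closure
`C` of `A` in `K₁`; and a family of `[L : K₁]` elements of `L`, integral over `C`, whose trace
discriminant over `K₁` is an element of `C` not divisible by `p`.  Then `L / K` is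
trace-self-dual at `p`. -/
theorem tsdField_of_tower_family {A C K K₁ L : Type*} [CommRing A] [CommRing C] [IsDomain C]
    [IsIntegrallyClosed C] [Field K] [Field K₁] [Field L]
    [Algebra A K] [Algebra K K₁] [Algebra A K₁] [IsScalarTower A K K₁]
    [Algebra K₁ L] [Algebra K L] [IsScalarTower K K₁ L] [Algebra A L] [IsScalarTower A K₁ L]
    [Algebra A C] [Algebra C K₁] [IsFractionRing C K₁] [IsScalarTower A C K₁] [Algebra C L]
    [IsScalarTower C K₁ L] [IsScalarTower A C L]
    [FiniteDimensional K K₁] [FiniteDimensional K₁ L]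
    [IsIntegralClosure C A K₁] (p : A)
    (hlow : LocalDisc.TSDField A K K₁ p) (hp : Prime (algebraMap A C p))
    (b : Fin (Module.finrank K₁ L) → L) (hb : ∀ i, IsIntegral C (b i)) (d : C)
    (hd : algebraMap C K₁ d = (Algebra.traceMatrix K₁ b).det) (hpd : ¬ algebraMap A C p ∣ d) :
    LocalDisc.TSDField A K L p :=
  tsdField_tower p hlow (UnramTSD.tsdField_of_family hp b hb d hd hpd)

end Fermat.Agent.S48.G1.K1.TowerTSD
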